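import Fermat.Agent.Lib.CFT.Global.Density

/-!
# P4 / Layer C (C1c): the dictionary between places and primes

For a number field `K` and a prime `q`, the places `w : Place q K` (maximal ideals of `ℚ_q ⊗ K`)
correspond bijectively to the primes `v` of `𝓞 K` above `q`, and the normalized valuation of `K_w`
restricts on `K` to the `v`-adic valuation.
-/

set_option autoImplicit false

open scoped TensorProduct NumberField

open IsDedekindDomain

namespace Fermat.Agent.CFT.Global

open Fermat.Agent.CFT.Local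

noncomputable section

variable {q : ℕ} [Fact q.Prime] {K : Type} [Field K] [NumberField K]

/-- The embedding `𝓞 K → O_w`. -/
def Place.embInt (w : Place q K) : 𝓞 K →+* Ow w :=
  ((Kv.emb w).comp (algebraMap (𝓞 K) K)).codRestrict (Ow w).toSubring (fun x => by
      have h1 : IsIntegral ℤ (Kv.emb w (x : K)) := map_isIntegral_int (Kv.emb w) x.2
      exact IsIntegral.tower_top (R := ℤ) (A := ℤ_[q]) h1)

@[simp] lemma Place.coe_embInt (w : Place q K) (x : 𝓞 K) :
    ((Place.embInt w x : Ow w) : Kv w) = Kv.emb w (x : K) := rfl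

lemma Place.algebraMap_embInt (w : Place q K) (x : 𝓞 K) :
    algebraMap (Ow w) (Kv w) (Place.embInt w x) = Kv.emb w (x : K) := rfl

/-- `q` is not a unit in `O_w`. -/
lemma Place.natCast_mem_maximalIdeal (w : Place q K) :
    ((q : ℕ) : Ow w) ∈ IsLocalRing.maximalIdeal (Ow w) := by
  rw [IsLocalRing.mem_maximalIdeal, mem_nonunits_iff]
  intro hu
  obtain ⟨u, hu⟩ := hu
  -- then `q⁻¹` is integral over `ℤ_q`
  have h1 : IsIntegral ℤ_[q] (((u⁻¹ : (Ow w)ˣ) : Ow w) : Kv w) := ((u⁻¹ : (Ow w)ˣ) : Ow w).2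
  have h2 : (((u⁻¹ : (Ow w)ˣ) : Ow w) : Kv w) = algebraMap ℚ_[q] (Kv w) ((q : ℚ_[q])⁻¹) := by
    have h3 : ((u : Ow w) : Kv w) * (((u⁻¹ : (Ow w)ˣ) : Ow w) : Kv w) = 1 := by
      rw [← Subalgebra.coe_mul, Units.mul_inv]; rfl
    rw [hu] at h3
    have h4 : (((q : ℕ) : Ow w) : Kv w) = algebraMap ℚ_[q] (Kv w) (q : ℚ_[q]) := by
      simp
    rw [h4] at h3
    rw [map_inv₀]
    exact eq_inv_of_mul_eq_one_right h3
  rw [h2, isIntegral_algebraMap_iff (algebraMap ℚ_[q] (Kv w)).injective,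
    IsIntegrallyClosed.isIntegral_iff] at h1
  obtain ⟨y, hy⟩ := h1
  have h5 : ‖(q : ℚ_[q])⁻¹‖ ≤ 1 := by
    rw [← hy]
    exact y.2
  rw [norm_inv, Padic.norm_p] at h5
  have h6 : (1 : ℝ) < q := by exact_mod_cast (Fact.out : q.Prime).one_lt
  rw [inv_inv] at h5
  linarith

/-- The prime of `𝓞 K` below the place `w`. -/
def Place.toPrime (w : Place q K) : HeightOneSpectrum (𝓞 K) where
  asIdeal := (IsLocalRing.maximalIdeal (Ow w)).comap (Place.embInt w)
  isPrime := Ideal.comap_isPrime _ _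
  ne_bot := by
    intro h
    have h1 : ((q : ℕ) : 𝓞 K) ∈ (IsLocalRing.maximalIdeal (Ow w)).comap (Place.embInt w) := by
      rw [Ideal.mem_comap, map_natCast]
      exact Place.natCast_mem_maximalIdeal w
    rw [h, Ideal.mem_bot] at h1
    exact (Fact.out : q.Prime).ne_zero (by exact_mod_cast h1)

lemma Place.mem_toPrime_iff (w : Place q K) (a : 𝓞 K) :
    a ∈ (Place.toPrime w).asIdeal ↔ Place.embInt w a ∈ IsLocalRing.maximalIdeal (Ow w) := Iff.rfl

lemma Place.natCast_mem_toPrime (w : Place q K) : ((q : ℕ) : 𝓞 K) ∈ (Place.toPrime w).asIdeal := by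
  rw [Place.mem_toPrime_iff, map_natCast]
  exact Place.natCast_mem_maximalIdeal w

/-! ## The valuation of `K_w` restricted to `K` -/

/-- `Kˣ → K_wˣ`. -/
def Kv.unitsEmb (w : Place q K) : Kˣ →* (Kv w)ˣ := Units.map (Kv.emb w : K →* Kv w)

/-- The valuation of `K_w` restricted to `Kˣ`. -/
def Place.ordK (w : Place q K) (x : Kˣ) : ℤ := Local.ordZ (Ow w) (Kv w) (Kv.unitsEmb w x)

lemma Place.ordK_mul (w : Place q K) (x y : Kˣ) :
    Place.ordK w (x * y) = Place.ordK w x + Place.ordK w y := by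
  unfold Place.ordK
  rw [map_mul, Local.ordZ_mul]

lemma Place.ordK_one (w : Place q K) : Place.ordK w 1 = 0 := by
  unfold Place.ordK
  rw [map_one, Local.ordZ_one]

lemma Place.ordK_inv (w : Place q K) (x : Kˣ) : Place.ordK w x⁻¹ = - Place.ordK w x := by
  unfold Place.ordK
  rw [map_inv, Local.ordZ_inv]

lemma Place.ordK_zpow (w : Place q K) (x : Kˣ) (n : ℤ) :
    Place.ordK w (x ^ n) = n * Place.ordK w x := by
  unfold Place.ordK
  rw [map_zpow, Local.ordZ_zpow]

/-- integers have nonnegative valuation -/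
lemma Place.ordK_nonneg_of_integer (w : Place q K) (x : Kˣ) (a : 𝓞 K) (ha : (x : K) = a) :
    0 ≤ Place.ordK w x := by
  unfold Place.ordK
  rw [Local.ordZ_nonneg_iff]
  exact ⟨Place.embInt w a, by rw [Place.algebraMap_embInt, ← ha]; rfl⟩

/-- integers outside the prime have valuation zero -/
lemma Place.ordK_eq_zero_of_notMem (w : Place q K) (x : Kˣ) (a : 𝓞 K) (ha : (x : K) = a)
    (hmem : a ∉ (Place.toPrime w).asIdeal) : Place.ordK w x = 0 := by
  unfold Place.ordK
  rw [Local.ordZ_eq_zero_iff]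
  rw [Place.mem_toPrime_iff, IsLocalRing.mem_maximalIdeal, mem_nonunits_iff, not_not] at hmem
  obtain ⟨u, hu⟩ := hmem
  refine ⟨u, ?_⟩
  ext
  change algebraMap (Ow w) (Kv w) (u : Ow w) = Kv.emb w (x : K)
  rw [hu, Place.algebraMap_embInt, ha]

/-- elements which are integral at the prime below `w` have nonnegative valuation -/
lemma Place.ordK_nonneg_of_valuation_le_one (w : Place q K) (x : Kˣ)
    (hx : (Place.toPrime w).valuation K (x : K) ≤ 1) : 0 ≤ Place.ordK w x := by
  obtain ⟨n, d, hnd⟩ := HeightOneSpectrum.exists_primeCompl_mul_eq_of_integer (Place.toPrime w)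
    (x : K) hx
  have hd0 : algebraMap (𝓞 K) K (d : 𝓞 K) ≠ 0 := by
    intro h
    have h1 : (d : 𝓞 K) = 0 := (FaithfulSMul.algebraMap_injective (𝓞 K) K) (by rw [h, map_zero])
    exact d.2 (h1 ▸ (Place.toPrime w).asIdeal.zero_mem)
  have hn0 : algebraMap (𝓞 K) K n ≠ 0 := by
    rw [← hnd]
    exact mul_ne_zero x.ne_zero hd0
  have h1 : x * Units.mk0 _ hd0 = Units.mk0 _ hn0 := by
    ext
    exact hnd
  have h2 := congrArg (Place.ordK w) h1
  rw [Place.ordK_mul, Place.ordK_eq_zero_of_notMem w (Units.mk0 _ hd0) d rfl d.2, add_zero] at h2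
  rw [h2]
  exact Place.ordK_nonneg_of_integer w _ n rfl

/-- units at the prime below `w` have valuation zero -/
lemma Place.ordK_eq_zero_of_valuation_eq_one (w : Place q K) (x : Kˣ)
    (hx : (Place.toPrime w).valuation K (x : K) = 1) : Place.ordK w x = 0 := by
  have h1 := Place.ordK_nonneg_of_valuation_le_one w x hx.le
  have h2 := Place.ordK_nonneg_of_valuation_le_one w x⁻¹ (by
    rw [Units.val_inv_eq_inv_val, map_inv₀, hx, inv_one])
  rw [Place.ordK_inv] at h2
  omega

/-! ## Density in `K_w` -/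

/-- The valuation of `K_w` (Mathlib form). -/
abbrev Vw (w : Place q K) : Valuation (Kv w) (WithZero (Multiplicative ℤ)) :=
  (IsDiscreteValuationRing.maximalIdeal (Ow w)).valuation (Kv w)

lemma Vw_le_one_of_mem (w : Place q K) {z : Kv w} (hz : z ∈ Ow w) : Vw w z ≤ 1 :=
  HeightOneSpectrum.valuation_le_one _ (⟨z, hz⟩ : Ow w)

lemma Vw_natCast_le (w : Place q K) : Vw w ((q : ℕ) : Kv w) ≤ WithZero.exp (-1 : ℤ) := by
  have h1 : ((q : ℕ) : Kv w) = algebraMap (Ow w) (Kv w) ((q : ℕ) : Ow w) := by simp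
  rw [h1, HeightOneSpectrum.valuation_of_algebraMap]
  have h2 := (HeightOneSpectrum.intValuation_le_pow_iff_mem
    (IsDiscreteValuationRing.maximalIdeal (Ow w)) ((q : ℕ) : Ow w) 1).2 (by
      rw [pow_one]
      exact Place.natCast_mem_maximalIdeal w)
  simpa using h2

/-- `K` is dense in `K_w`. -/
lemma Kv.exists_emb_add_smul (w : Place q K) (y : Kv w) (n : ℕ) :
    ∃ t : K, ∃ z ∈ Ow w, y = Kv.emb w t + ((q : ℕ) : Kv w) ^ n * z := by
  obtain ⟨x, rfl⟩ := Kv.proj_surjective w y
  obtain ⟨t, z, hz, rfl⟩ := SL.exists_incl_add_smul q K x n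
  refine ⟨t, Kv.proj w z, SL.mem_integers_iff_forall.1 hz w, ?_⟩
  rw [map_add, map_smul, Algebra.smul_def, map_pow, map_natCast]
  rfl

lemma Kv.exists_emb_sub_lt (w : Place q K) (y : Kv w) (n : ℕ) :
    ∃ t : K, Vw w (y - Kv.emb w t) ≤ WithZero.exp (-(n : ℤ)) := by
  obtain ⟨t, z, hz, rfl⟩ := Kv.exists_emb_add_smul w y n
  refine ⟨t, ?_⟩
  rw [add_sub_cancel_left, map_mul, map_pow]
  calc Vw w ((q : ℕ) : Kv w) ^ n * Vw w z ≤ (WithZero.exp (-1 : ℤ)) ^ n * 1 :=
        mul_le_mul' (pow_le_pow_left' (Vw_natCast_le w) n) (Vw_le_one_of_mem w hz)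
    _ = WithZero.exp (-(n : ℤ)) := by
        rw [mul_one, ← WithZero.exp_nsmul]
        simp

/-- every valuation of `K_w` is attained on `K` -/
lemma Place.exists_ordK_eq (w : Place q K) (y : (Kv w)ˣ) :
    ∃ t : Kˣ, Place.ordK w t = Local.ordZ (Ow w) (Kv w) y := by
  set m := Local.ordZ (Ow w) (Kv w) y with hm
  have hy : Vw w (y : Kv w) = WithZero.exp (-m) := Local.valuation_eq_exp_neg_ordZ y
  obtain ⟨t, ht⟩ := Kv.exists_emb_sub_lt w (y : Kv w) (m.toNat + 1)
  have hlt : Vw w ((y : Kv w) - Kv.emb w t) < Vw w (y : Kv w) := by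
    rw [hy]
    refine lt_of_le_of_lt ht ?_
    rw [WithZero.exp_lt_exp]
    have := Int.self_le_toNat m
    push_cast
    omega
  have h1 : Vw w (Kv.emb w t) = WithZero.exp (-m) := by
    have h2 : Kv.emb w t = (y : Kv w) - ((y : Kv w) - Kv.emb w t) := by ring
    rw [h2, Valuation.map_sub_eq_of_lt_left _ hlt, hy]
  have ht0 : t ≠ 0 := by
    rintro rfl
    rw [map_zero, map_zero] at h1
    exact WithZero.exp_ne_zero h1.symm
  refine ⟨Units.mk0 t ht0, ?_⟩
  unfold Place.ordK
  rw [Local.ordZ_eq_iff]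
  exact h1

/-! ## The valuation at `w` is the valuation at the prime below `w` -/

/-- The additive `v`-adic valuation on `Kˣ`. -/
def primeOrd (v : HeightOneSpectrum (𝓞 K)) (x : Kˣ) : ℤ :=
  - Multiplicative.toAdd (v.valuationOfNeZero x)

lemma valuation_eq_exp_neg_primeOrd (v : HeightOneSpectrum (𝓞 K)) (x : Kˣ) :
    v.valuation K (x : K) = WithZero.exp (-(primeOrd v x)) := by
  rw [← HeightOneSpectrum.valuationOfNeZero_eq, primeOrd, neg_neg]
  rfl

lemma primeOrd_eq_iff (v : HeightOneSpectrum (𝓞 K)) (x : Kˣ) (n : ℤ) :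
    primeOrd v x = n ↔ v.valuation K (x : K) = WithZero.exp (-n) := by
  rw [valuation_eq_exp_neg_primeOrd]
  constructor
  · rintro rfl; rfl
  · intro h
    have := WithZero.exp_injective h
    omega

lemma primeOrd_mul (v : HeightOneSpectrum (𝓞 K)) (x y : Kˣ) :
    primeOrd v (x * y) = primeOrd v x + primeOrd v y := by
  unfold primeOrd
  rw [map_mul, toAdd_mul]
  ring

lemma primeOrd_zpow (v : HeightOneSpectrum (𝓞 K)) (x : Kˣ) (n : ℤ) :
    primeOrd v (x ^ n) = n * primeOrd v x := by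
  unfold primeOrd
  rw [map_zpow, toAdd_zpow]
  simp

/-- **The dictionary for valuations**: the normalized valuation of `K_w` restricted to `K` is the
valuation of the prime of `𝓞 K` below `w`. -/
theorem Place.ordK_eq (w : Place q K) (x : Kˣ) :
    Place.ordK w x = primeOrd (Place.toPrime w) x := by
  set v := Place.toPrime w with hv
  obtain ⟨π, hπ⟩ := HeightOneSpectrum.valuation_exists_uniformizer K v
  have hπ0 : π ≠ 0 := by
    rintro rfl
    rw [map_zero] at hπ
    exact WithZero.exp_ne_zero hπ.symm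
  set πu : Kˣ := Units.mk0 π hπ0 with hπu
  have hπ1 : primeOrd v πu = 1 := by
    rw [primeOrd_eq_iff]
    exact hπ
  have he0 : 0 ≤ Place.ordK w πu :=
    Place.ordK_nonneg_of_valuation_le_one w πu (by
      change v.valuation K π ≤ 1
      rw [hπ, ← WithZero.exp_zero, WithZero.exp_le_exp]
      omega)
  -- `ordK = e * primeOrd`
  have key : ∀ y : Kˣ, Place.ordK w y = primeOrd v y * Place.ordK w πu := by
    intro y
    have h1 : primeOrd v (y * πu ^ (-(primeOrd v y))) = 0 := by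
      rw [primeOrd_mul, primeOrd_zpow, hπ1]
      ring
    have h2 : Place.ordK w (y * πu ^ (-(primeOrd v y))) = 0 :=
      Place.ordK_eq_zero_of_valuation_eq_one w _ (by
        rw [← hv, valuation_eq_exp_neg_primeOrd, h1, neg_zero, WithZero.exp_zero])
    rw [Place.ordK_mul, Place.ordK_zpow] at h2
    linarith
  -- normalization by density
  obtain ⟨y, hy⟩ := Local.ordZ_surjective (Ow w) (Kv w) 1
  obtain ⟨t, ht⟩ := Place.exists_ordK_eq w y
  rw [hy, key t] at ht
  have he1 : Place.ordK w πu = 1 := by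
    rcases Int.eq_one_or_neg_one_of_mul_eq_one' ht with h | h
    · exact h.2
    · omega
  rw [key x, he1, mul_one]

/-! ## Injectivity -/

/-- Weak approximation inside one `q`: an element of `K` which is close to `0` at `w` and close
to `1` at `w'`. -/
lemma Place.exists_approx_idempotent {w w' : Place q K} (h : w ≠ w') :
    ∃ t : Kˣ, 1 ≤ Place.ordK w t ∧ Place.ordK w' t = 0 := by
  classical
  set x : SL q K := (SL.equivPi q K).symm (fun u => if u = w' then 1 else 0) with hx
  have hxw : Kv.proj w x = 0 := by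
    rw [← SL.equivPi_apply, hx, AlgEquiv.apply_symm_apply, if_neg h]
  have hxw' : Kv.proj w' x = 1 := by
    rw [← SL.equivPi_apply, hx, AlgEquiv.apply_symm_apply, if_pos rfl]
  obtain ⟨t, z, hz, hxt⟩ := SL.exists_incl_add_smul q K x 1
  rw [pow_one] at hxt
  have hz1 := SL.mem_integers_iff_forall.1 hz
  have e1 : ∀ u : Place q K, Kv.proj u x = Kv.emb u t + ((q : ℕ) : Kv u) * Kv.proj u z := by
    intro u
    rw [hxt, map_add, map_smul, Algebra.smul_def, map_natCast]
    rfl
  have hsmall : ∀ u : Place q K, Vw u (((q : ℕ) : Kv u) * Kv.proj u z) ≤ WithZero.exp (-1 : ℤ) := by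
    intro u
    rw [map_mul]
    calc Vw u ((q : ℕ) : Kv u) * Vw u (Kv.proj u z) ≤ WithZero.exp (-1 : ℤ) * 1 :=
          mul_le_mul' (Vw_natCast_le u) (Vw_le_one_of_mem u (hz1 u))
      _ = WithZero.exp (-1 : ℤ) := mul_one _
  have hlt : WithZero.exp (-1 : ℤ) < (1 : WithZero (Multiplicative ℤ)) := by
    rw [← WithZero.exp_zero, WithZero.exp_lt_exp]
    omega
  -- at `w'`
  have h2 : Vw w' (Kv.emb w' t) = 1 := by
    have h3 : Kv.emb w' t = 1 - ((q : ℕ) : Kv w') * Kv.proj w' z := by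
      rw [← hxw', e1 w']; ring
    rw [h3, Valuation.map_sub_eq_of_lt_left _ (by rw [map_one]; exact lt_of_le_of_lt (hsmall w') hlt),
      map_one]
  have ht0 : t ≠ 0 := by
    rintro rfl
    rw [map_zero, map_zero] at h2
    exact zero_ne_one h2
  -- at `w`
  have h4 : Vw w (Kv.emb w t) ≤ WithZero.exp (-1 : ℤ) := by
    have h5 : Kv.emb w t = -(((q : ℕ) : Kv w) * Kv.proj w z) := by
      have := e1 w
      rw [hxw] at this
      exact eq_neg_of_add_eq_zero_left this.symm
    rw [h5, Valuation.map_neg]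
    exact hsmall w
  refine ⟨Units.mk0 t ht0, ?_, ?_⟩
  · have h6 := Local.valuation_eq_exp_neg_ordZ (A := Ow w) (K := Kv w) (Kv.unitsEmb w (Units.mk0 t ht0))
    change Vw w (Kv.emb w t) = _ at h6
    rw [h6, WithZero.exp_le_exp] at h4
    unfold Place.ordK
    omega
  · unfold Place.ordK
    rw [Local.ordZ_eq_iff, neg_zero, WithZero.exp_zero]
    exact h2

theorem Place.toPrime_injective : Function.Injective (Place.toPrime : Place q K → _) := by
  intro w w' h
  by_contra hne
  obtain ⟨t, h1, h2⟩ := Place.exists_approx_idempotent hne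
  rw [Place.ordK_eq, h] at h1
  rw [Place.ordK_eq] at h2
  omega

/-! ## Surjectivity -/

/-- In a commutative ring, the inverse `y` of `x` is a polynomial in `x` if `y` is integral. -/
lemma exists_eq_sum_smul_pow_of_mul_eq_one {R A : Type*} [CommRing R] [CommRing A] [Algebra R A]
    {x y : A} (hxy : x * y = 1) (hy : IsIntegral R y) :
    ∃ (n : ℕ) (c : ℕ → R), y = ∑ i ∈ Finset.range n, c i • x ^ i := by
  obtain ⟨P, hP, hPy⟩ := hy
  set n := P.natDegree with hn
  rcases Nat.eq_zero_or_pos n with h0 | hpos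
  · -- then `P = 1` and the ring is trivial
    have h1 : P = 1 := Polynomial.eq_one_of_monic_natDegree_zero hP h0
    rw [h1, Polynomial.eval₂_one] at hPy
    refine ⟨0, fun _ => 0, ?_⟩
    rw [Finset.sum_range_zero, ← mul_one y, hPy, mul_zero]
  · refine ⟨n, fun i => - P.coeff (n - 1 - i), ?_⟩
    have h2 : Polynomial.eval₂ (algebraMap R A) y P
        = y ^ n + ∑ i ∈ Finset.range n, algebraMap R A (P.coeff i) * y ^ i := by
      conv_lhs => rw [hP.as_sum]
      simp [Polynomial.eval₂_add, Polynomial.eval₂_finsetSum, ← hn]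
    rw [h2] at hPy
    have h3 : x ^ (n - 1) * (y ^ n + ∑ i ∈ Finset.range n, algebraMap R A (P.coeff i) * y ^ i) = 0 := by
      rw [hPy, mul_zero]
    have h4 : x ^ (n - 1) * y ^ n = y := by
      obtain ⟨m, hm⟩ : ∃ m, n = m + 1 := ⟨n - 1, by omega⟩
      rw [hm, Nat.add_sub_cancel, pow_succ, ← mul_assoc, ← mul_pow, hxy, one_pow, one_mul]
    have h5 : ∀ i ∈ Finset.range n, x ^ (n - 1) * (algebraMap R A (P.coeff i) * y ^ i)
        = P.coeff i • x ^ (n - 1 - i) := by
      intro i hi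
      have hi' : i ≤ n - 1 := by
        have := Finset.mem_range.1 hi
        omega
      have h6 : x ^ (n - 1) = x ^ (n - 1 - i) * x ^ i := by
        rw [← pow_add]; congr 1; omega
      rw [h6, Algebra.smul_def]
      calc x ^ (n - 1 - i) * x ^ i * (algebraMap R A (P.coeff i) * y ^ i)
          = algebraMap R A (P.coeff i) * x ^ (n - 1 - i) * (x * y) ^ i := by rw [mul_pow]; ring
        _ = algebraMap R A (P.coeff i) * x ^ (n - 1 - i) := by rw [hxy, one_pow, mul_one]
    rw [mul_add, h4, Finset.mul_sum, Finset.sum_congr rfl h5] at h3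
    have h7 : y = - ∑ i ∈ Finset.range n, P.coeff i • x ^ (n - 1 - i) := eq_neg_of_add_eq_zero_left h3
    rw [h7, ← Finset.sum_neg_distrib]
    rw [← Finset.sum_range_reflect]
    refine Finset.sum_congr rfl fun i hi => ?_
    have hi' := Finset.mem_range.1 hi
    rw [neg_smul]
    congr 3
    omega

variable (q K) in
/-- The `ℤ_q`-span of the image of `𝓞 K` in `ℚ_q ⊗ K`. -/
def SL.intSpan : Submodule ℤ_[q] (SL q K) :=
  Submodule.span ℤ_[q] (Set.range fun c : 𝓞 K => SL.incl q K (c : K))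

variable (q K) in
/-- The basis of `ℚ_q ⊗ K` coming from an integral basis of `K`. -/
def SL.basis : Module.Basis (Module.Free.ChooseBasisIndex ℤ (𝓞 K)) ℚ_[q] (SL q K) :=
  Algebra.TensorProduct.basis ℚ_[q] (NumberField.integralBasis K)

lemma SL.basis_repr_incl (c : 𝓞 K) (i : Module.Free.ChooseBasisIndex ℤ (𝓞 K)) :
    (SL.basis q K).repr (SL.incl q K (c : K)) i
      = (((NumberField.RingOfIntegers.basis K).repr c i : ℤ) : ℚ_[q]) := by
  rw [SL.incl_apply, SL.basis, Algebra.TensorProduct.basis_repr_tmul, one_smul,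
    Finsupp.mapRange_apply, NumberField.integralBasis_repr_apply]
  simp

lemma SL.norm_basis_repr_le_one_of_mem_intSpan {x : SL q K} (hx : x ∈ SL.intSpan q K)
    (i : Module.Free.ChooseBasisIndex ℤ (𝓞 K)) : ‖(SL.basis q K).repr x i‖ ≤ 1 := by
  unfold SL.intSpan at hx
  induction hx using Submodule.span_induction with
  | mem x hx =>
    obtain ⟨c, rfl⟩ := hx
    rw [SL.basis_repr_incl]
    exact Padic.norm_int_le_one _
  | zero => simp
  | add x y _ _ hx hy =>
    rw [map_add, Finsupp.add_apply]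
    exact le_trans (Padic.nonarchimedean _ _) (max_le hx hy)
  | smul a x _ hx =>
    have h1 : a • x = (a : ℚ_[q]) • x := (algebraMap_smul ℚ_[q] a x).symm
    rw [h1, map_smul, Finsupp.smul_apply, smul_eq_mul, norm_mul]
    calc ‖(a : ℚ_[q])‖ * ‖(SL.basis q K).repr x i‖ ≤ 1 * 1 :=
          mul_le_mul (PadicInt.norm_le_one a) hx (norm_nonneg _) zero_le_one
      _ = 1 := mul_one 1

/-- If `s ∈ 𝓞 K` becomes divisible by `q` in the `ℤ_q`-span of `𝓞 K`, it is divisible by `q`. -/
lemma SL.exists_eq_mul_of_incl_eq_smul (s : 𝓞 K) (ρ : SL q K) (hρ : ρ ∈ SL.intSpan q K)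
    (h : SL.incl q K (s : K) = (q : ℚ_[q]) • ρ) : ∃ s' : 𝓞 K, s = (q : 𝓞 K) * s' := by
  have hdvd : ∀ i, (q : ℤ) ∣ (NumberField.RingOfIntegers.basis K).repr s i := by
    intro i
    have h1 := congrArg (fun x => (SL.basis q K).repr x i) h
    simp only [map_smul, Finsupp.smul_apply, smul_eq_mul] at h1
    rw [SL.basis_repr_incl] at h1
    have h2 : ‖(((NumberField.RingOfIntegers.basis K).repr s i : ℤ) : ℚ_[q])‖ < 1 := by
      rw [h1, norm_mul, Padic.norm_p]
      have h3 := SL.norm_basis_repr_le_one_of_mem_intSpan hρ i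
      have hq : (1 : ℝ) < q := by exact_mod_cast (Fact.out : q.Prime).one_lt
      calc (q : ℝ)⁻¹ * ‖(SL.basis q K).repr ρ i‖ ≤ (q : ℝ)⁻¹ * 1 :=
            mul_le_mul_of_nonneg_left h3 (by positivity)
        _ < 1 := by rw [mul_one]; exact inv_lt_one_of_one_lt₀ hq
    exact Padic.norm_intCast_lt_one_iff.1 h2
  choose m hm using hdvd
  refine ⟨∑ i, m i • NumberField.RingOfIntegers.basis K i, ?_⟩
  conv_lhs => rw [← (NumberField.RingOfIntegers.basis K).sum_repr s]
  rw [Finset.mul_sum]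
  refine Finset.sum_congr rfl fun i _ => ?_
  rw [hm i, mul_smul, zsmul_eq_mul, zsmul_eq_mul]
  push_cast
  ring

lemma SL.ordAt_unitsIncl (w : Place q K) (x : Kˣ) :
    SL.ordAt w (SL.unitsIncl q K x) = Multiplicative.ofAdd (Place.ordK w x) := rfl

/-- **Surjectivity of the dictionary**: every prime of `𝓞 K` above `q` comes from a place. -/
theorem Place.exists_toPrime_eq (v : HeightOneSpectrum (𝓞 K))
    (hv : ((q : ℕ) : 𝓞 K) ∈ v.asIdeal) : ∃ w : Place q K, Place.toPrime w = v := by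
  classical
  by_contra hne
  push Not at hne
  have : Fintype (Place q K) := Fintype.ofFinite _
  obtain ⟨w₀⟩ : Nonempty (Place q K) := inferInstance
  -- prime avoidance
  have h1 : ¬ ((v.asIdeal : Set (𝓞 K)) ⊆
      ⋃ w ∈ ((Finset.univ : Finset (Place q K)) : Set (Place q K)),
        ((Place.toPrime w).asIdeal : Set (𝓞 K))) := by
    rw [Ideal.subset_union_prime w₀ w₀ (fun w _ _ _ => (Place.toPrime w).isPrime)]
    rintro ⟨w, -, hw⟩
    exact hne w (HeightOneSpectrum.ext (v.isMaximal.eq_of_le (Place.toPrime w).isPrime.ne_top hw)).symm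
  rw [Set.not_subset] at h1
  obtain ⟨a, hav, ha⟩ := h1
  have ha' : ∀ w : Place q K, a ∉ (Place.toPrime w).asIdeal := by
    intro w hw
    exact ha (Set.mem_biUnion (Finset.mem_coe.2 (Finset.mem_univ w)) hw)
  have ha0 : (a : K) ≠ 0 := by
    intro h
    have : a = 0 := by exact_mod_cast h
    exact ha' w₀ (this ▸ Ideal.zero_mem _)
  -- `a` is a local unit
  set au : Kˣ := Units.mk0 (a : K) ha0 with hau
  have hunit : SL.unitsIncl q K au ∈ SL.unitGroup q K := by
    rw [SL.mem_unitGroup_iff_forall_ordAt]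
    intro w
    rw [SL.ordAt_unitsIncl, Place.ordK_eq_zero_of_notMem w au a rfl (ha' w)]
    rfl
  rw [SL.mem_unitGroup_iff] at hunit
  set x : SL q K := SL.incl q K (a : K) with hx
  set y : SL q K := (((SL.unitsIncl q K au)⁻¹ : (SL q K)ˣ) : SL q K) with hy
  have hxy : x * y = 1 := (SL.unitsIncl q K au).mul_inv
  obtain ⟨n, c, hc⟩ := exists_eq_sum_smul_pow_of_mul_eq_one (R := ℤ_[q]) hxy hunit.2
  have hone : (1 : SL q K) = ∑ i ∈ Finset.range n, c i • SL.incl q K ((a ^ (i + 1) : 𝓞 K) : K) := by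
    rw [← hxy, hc, Finset.mul_sum]
    refine Finset.sum_congr rfl fun i _ => ?_
    rw [mul_smul_comm, ← pow_succ']
    push_cast
    rw [map_pow]
  -- reduce the coefficients modulo `q`
  have hdec : ∀ i, ∃ d : ℤ_[q], c i = ((PadicInt.appr (c i) 1 : ℕ) : ℤ_[q]) + (q : ℤ_[q]) * d := by
    intro i
    have h2 := PadicInt.appr_spec 1 (c i)
    rw [pow_one, Ideal.mem_span_singleton] at h2
    obtain ⟨d, hd⟩ := h2
    exact ⟨d, by rw [← hd]; ring_nf⟩
  choose d hd using hdec
  set cc : 𝓞 K := ∑ i ∈ Finset.range n, ((PadicInt.appr (c i) 1 : ℕ) : 𝓞 K) * a ^ (i + 1) with hcc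
  have hccv : cc ∈ v.asIdeal :=
    Ideal.sum_mem _ fun i _ => Ideal.mul_mem_left _ _ (Ideal.pow_mem_of_mem _ hav _ (Nat.succ_pos i))
  set ρ : SL q K := ∑ i ∈ Finset.range n, d i • SL.incl q K ((a ^ (i + 1) : 𝓞 K) : K) with hρ
  have hρmem : ρ ∈ SL.intSpan q K :=
    Submodule.sum_mem _ fun i _ => Submodule.smul_mem _ _ (Submodule.subset_span ⟨a ^ (i + 1), rfl⟩)
  have hkey : SL.incl q K ((1 - cc : 𝓞 K) : K) = (q : ℚ_[q]) • ρ := by
    have h3 : SL.incl q K ((1 - cc : 𝓞 K) : K) = 1 - SL.incl q K (cc : K) := by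
      push_cast
      rw [map_sub, map_one]
    have h4 : SL.incl q K (cc : K)
        = ∑ i ∈ Finset.range n, ((PadicInt.appr (c i) 1 : ℕ) : ℤ_[q]) •
            SL.incl q K ((a ^ (i + 1) : 𝓞 K) : K) := by
      rw [hcc]
      push_cast
      rw [map_sum]
      refine Finset.sum_congr rfl fun i _ => ?_
      rw [map_mul, map_natCast, Nat.cast_smul_eq_nsmul, nsmul_eq_mul]
    rw [h3, h4, hone, ← Finset.sum_sub_distrib, hρ, Finset.smul_sum]
    refine Finset.sum_congr rfl fun i _ => ?_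
    rw [← sub_smul]
    have h5 : c i - ((PadicInt.appr (c i) 1 : ℕ) : ℤ_[q]) = (q : ℤ_[q]) * d i := by
      have := hd i
      linear_combination this
    rw [h5, mul_smul]
    exact (algebraMap_smul ℚ_[q] (q : ℤ_[q]) (d i • SL.incl q K ((a ^ (i + 1) : 𝓞 K) : K)))
  obtain ⟨s', hs'⟩ := SL.exists_eq_mul_of_incl_eq_smul (1 - cc) ρ hρmem hkey
  have h6 : (1 : 𝓞 K) ∈ v.asIdeal := by
    have : (1 : 𝓞 K) = cc + (q : 𝓞 K) * s' := by rw [← hs']; ring
    rw [this]
    exact Ideal.add_mem _ hccv (Ideal.mul_mem_right _ _ hv)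
  exact v.isPrime.ne_top ((Ideal.eq_top_iff_one _).2 h6)

variable (q K) in
/-- The primes of `𝓞 K` above `q`. -/
def primesAbove : Set (HeightOneSpectrum (𝓞 K)) := {v | ((q : ℕ) : 𝓞 K) ∈ v.asIdeal}

variable (q K) in
/-- **The dictionary**: places above `q` (maximal ideals of `ℚ_q ⊗ K`) correspond to the primes of
`𝓞 K` above `q`. -/
def placeEquiv : Place q K ≃ primesAbove q K :=
  Equiv.ofBijective (fun w => ⟨Place.toPrime w, Place.natCast_mem_toPrime w⟩)
    ⟨fun w w' h => Place.toPrime_injective (congrArg Subtype.val h),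
      fun v => by
        obtain ⟨w, hw⟩ := Place.exists_toPrime_eq v.1 v.2
        exact ⟨w, Subtype.ext hw⟩⟩

@[simp] lemma placeEquiv_apply (w : Place q K) : (placeEquiv q K w : HeightOneSpectrum (𝓞 K))
    = Place.toPrime w := rfl

end

end Fermat.Agent.CFT.Global
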