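import Fermat.Agent.Lib.CFT.Global.UnramifiedCriterion
import Fermat.Agent.Lib.CFT.Global.Dictionary

/-!
# P4 / Layer C (C8-UNR, C1g): `UnramifiedAt q F` in classical terms

For a number field `F` and a prime `q`:

* `unramifiedAt_iff_isRadical_ringOfIntegers` : `UnramifiedAt q F` (semi-local notion: `q` generates
  a radical ideal of the integral closure of `ℤ_q` in `ℚ_q ⊗ F`) iff `q 𝓞_F` is a radical ideal;
* `unramifiedAt_iff_forall_ramificationIdx` : iff every prime of `𝓞 F` above `q` has ramification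
  index one;
* `unramifiedAt_iff_forall_inertia_eq_bot` : for `F / ℚ` Galois, iff every inertia group
  `Ideal.inertia Gal(F/ℚ) P`, `P ∣ q`, is trivial.
-/

set_option autoImplicit false

open scoped TensorProduct
open NumberField IsDedekindDomain UniqueFactorizationMonoid

namespace Fermat.Agent.CFT.Global

section ClassicalRam

variable {q : ℕ} [hq : Fact q.Prime] {F : Type} [Field F] [NumberField F]

variable (q) in
lemma isMaximal_span_natCast_int : (Ideal.span {((q : ℕ) : ℤ)}).IsMaximal :=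
  ((Ideal.span_singleton_prime (by exact_mod_cast hq.out.ne_zero)).2
    (Nat.prime_iff_prime_int.1 hq.out)).isMaximal (by
      rw [Ne, Ideal.span_singleton_eq_bot]
      exact_mod_cast hq.out.ne_zero)

omit hq [NumberField F] in
variable (q F) in
lemma map_span_natCast_int :
    (Ideal.span {((q : ℕ) : ℤ)}).map (algebraMap ℤ (𝓞 F)) = Ideal.span {((q : ℕ) : 𝓞 F)} := by
  rw [Ideal.map_span, Set.image_singleton, map_natCast]

variable (q F) in
lemma span_natCast_ringOfIntegers_ne_bot : Ideal.span {((q : ℕ) : 𝓞 F)} ≠ ⊥ := by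
  rw [Ne, Ideal.span_singleton_eq_bot]
  exact Nat.cast_ne_zero.2 hq.out.ne_zero

omit [NumberField F] in
/-- A prime ideal of `𝓞 F` containing `q` lies over `(q)`. -/
lemma liesOver_span_natCast_of_mem {P : Ideal (𝓞 F)} [hP : P.IsPrime]
    (hqP : ((q : ℕ) : 𝓞 F) ∈ P) : P.LiesOver (Ideal.span {((q : ℕ) : ℤ)}) := by
  constructor
  have hmax := isMaximal_span_natCast_int q
  refine hmax.eq_of_le (Ideal.comap_ne_top _ hP.ne_top) ?_
  rw [Ideal.span_le, Set.singleton_subset_iff]
  change algebraMap ℤ (𝓞 F) ((q : ℕ) : ℤ) ∈ P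
  rw [map_natCast]
  exact hqP

/-- Ideal-radical and monoid-radical agree for ideals of a Dedekind domain. -/
lemma ideal_isRadical_iff_monoid_isRadical {R : Type*} [CommRing R] [IsDedekindDomain R]
    (I : Ideal R) : I.IsRadical ↔ IsRadical I := by
  constructor
  · intro h n J hJ
    rw [Ideal.dvd_iff_le] at hJ ⊢
    intro x hx
    exact h ⟨n, hJ (Ideal.pow_mem_pow hx n)⟩
  · intro h x hx
    obtain ⟨n, hn⟩ := hx
    have h1 : I ∣ (Ideal.span {x}) ^ n := by
      rw [Ideal.dvd_iff_le, Ideal.span_singleton_pow, Ideal.span_le, Set.singleton_subset_iff]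
      exact hn
    have h2 := h n _ h1
    rw [Ideal.dvd_iff_le] at h2
    exact h2 (Ideal.subset_span rfl)

/-- `q 𝓞_F` is radical iff all primes above `q` have ramification index one. -/
theorem isRadical_span_natCast_iff_forall_ramificationIdx :
    (Ideal.span {((q : ℕ) : 𝓞 F)}).IsRadical ↔
      ∀ (P : Ideal (𝓞 F)) [P.IsPrime], ((q : ℕ) : 𝓞 F) ∈ P → P.ramificationIdx ℤ = 1 := by
  classical
  have hI0 := span_natCast_ringOfIntegers_ne_bot q F
  have hmap0 : (Ideal.span {((q : ℕ) : ℤ)}).map (algebraMap ℤ (𝓞 F)) ≠ ⊥ := by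
    rw [map_span_natCast_int]; exact hI0
  rw [ideal_isRadical_iff_monoid_isRadical, isRadical_iff_squarefree_of_ne_zero hI0,
    squarefree_iff_nodup_normalizedFactors hI0, Multiset.nodup_iff_count_le_one]
  constructor
  · intro h P hP hqP
    have := liesOver_span_natCast_of_mem hqP
    have h1 := Ideal.IsDedekindDomain.ramificationIdx_eq_normalizedFactors_count
      (Ideal.span {((q : ℕ) : ℤ)}) P hmap0
    rw [map_span_natCast_int] at h1
    have h2 : 0 < P.ramificationIdx ℤ := Ideal.ramificationIdx_pos P ℤ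
    have h3 := h P
    omega
  · intro h a
    by_cases ha : a ∈ normalizedFactors (Ideal.span {((q : ℕ) : 𝓞 F)})
    · have hprime := prime_of_normalized_factor a ha
      have hP : a.IsPrime := Ideal.isPrime_of_prime hprime
      have hdvd := dvd_of_mem_normalizedFactors ha
      rw [Ideal.dvd_iff_le] at hdvd
      have hqa : ((q : ℕ) : 𝓞 F) ∈ a := hdvd (Ideal.subset_span rfl)
      have := liesOver_span_natCast_of_mem hqa
      have h1 := Ideal.IsDedekindDomain.ramificationIdx_eq_normalizedFactors_count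
        (Ideal.span {((q : ℕ) : ℤ)}) a hmap0
      rw [map_span_natCast_int] at h1
      rw [← h1, h a hqa]
    · rw [Multiset.count_eq_zero_of_notMem ha]
      exact Nat.zero_le 1

end ClassicalRam

section ClassicalGalois

variable {q : ℕ} [hq : Fact q.Prime] {F : Type} [Field F] [NumberField F] [IsGalois ℚ F]

/-- For a prime `P` of `𝓞 F` above `q` (`F / ℚ` Galois), the inertia group has order `e(P | q)`. -/
theorem card_inertia_eq_ramificationIdx {P : Ideal (𝓞 F)} [P.IsPrime]
    (hqP : ((q : ℕ) : 𝓞 F) ∈ P) :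
    Nat.card (Ideal.inertia Gal(F/ℚ) P) = P.ramificationIdx ℤ := by
  have := liesOver_span_natCast_of_mem hqP
  have := (isMaximal_span_natCast_int q).isPrime
  rw [Ideal.card_inertia_eq_ramificationIdxIn (G := Gal(F/ℚ)) (Ideal.span {((q : ℕ) : ℤ)}) P,
    Ideal.ramificationIdxIn_eq_ramificationIdx (Ideal.span {((q : ℕ) : ℤ)}) P Gal(F/ℚ)]

/-- `q 𝓞_F` is radical iff all inertia groups above `q` are trivial (`F / ℚ` Galois). -/
theorem isRadical_span_natCast_iff_forall_inertia_eq_bot :
    (Ideal.span {((q : ℕ) : 𝓞 F)}).IsRadical ↔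
      ∀ (P : Ideal (𝓞 F)) [P.IsPrime], ((q : ℕ) : 𝓞 F) ∈ P → Ideal.inertia Gal(F/ℚ) P = ⊥ := by
  rw [isRadical_span_natCast_iff_forall_ramificationIdx]
  refine forall_congr' fun P => forall_congr' fun hP => forall_congr' fun hqP => ?_
  rw [← card_inertia_eq_ramificationIdx hqP, Subgroup.card_eq_one]

end ClassicalGalois

noncomputable section

section Classical

variable {q : ℕ} [Fact q.Prime] {F : Type} [Field F] [NumberField F]

instance finite_ringOfIntegers_quotient_span :
    Finite (𝓞 F ⧸ Ideal.span {((q : ℕ) : 𝓞 F)}) :=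
  Ideal.finiteQuotientOfFreeOfNeBot _ (span_natCast_ringOfIntegers_ne_bot q F)

/-- If `q 𝓞_F` is radical, then `F` is unramified at `q` (semi-local notion). -/
theorem unramifiedAt_of_isRadical_ringOfIntegers
    (h : (Ideal.span {((q : ℕ) : 𝓞 F)}).IsRadical) : UnramifiedAt q F := by
  have hq : q.Prime := Fact.out
  set T : Set (SL q F) := Set.range (fun x : 𝓞 F => SL.incl q F (x : F)) with hT
  have hfrob : IsFrobSubalgebra q (Algebra.adjoin ℤ_[q] T) := by
    apply isFrobSubalgebra_adjoin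
    · rintro _ ⟨x, rfl⟩
      exact SL.incl_mem_integers_of_isIntegral q x.2
    · rintro _ ⟨x, rfl⟩
      obtain ⟨y, z, hyz⟩ := exists_pow_add_of_isRadical hq h x
      refine ⟨SL.incl q F (y : F), Algebra.subset_adjoin ⟨y, rfl⟩, SL.incl q F (z : F),
        Algebra.subset_adjoin ⟨z, rfl⟩, ?_⟩
      have h1 : (x : F) = (y : F) ^ q + (q : F) * (z : F) := by
        have := congrArg (fun t : 𝓞 F => (t : F)) hyz
        simpa using this
      change SL.incl q F (x : F) = _
      rw [h1, map_add, map_pow, map_mul, map_natCast]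
  refine hfrob.unramifiedAt (forall_exists_pow_mul_mem _ Set.univ (by simp) fun g _ => ?_)
  rw [← mem_invSubalgebra_iff]
  have halg : IsAlgebraic ℤ g :=
    (IsFractionRing.isAlgebraic_iff ℤ ℚ F).2 (Algebra.IsAlgebraic.isAlgebraic g)
  obtain ⟨n, hn0, hn⟩ := halg.exists_integral_multiple
  have h1 : SL.incl q F (n • g) ∈ invSubalgebra (Algebra.adjoin ℤ_[q] T) :=
    ⟨0, by simpa using Algebra.subset_adjoin (s := T) ⟨⟨n • g, hn⟩, rfl⟩⟩
  have hnq : (n : ℚ_[q]) ≠ 0 := Int.cast_ne_zero.2 hn0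
  have h2 : SL.incl q F g = algebraMap ℚ_[q] (SL q F) (n : ℚ_[q])⁻¹ * SL.incl q F (n • g) := by
    rw [zsmul_eq_mul, map_mul, map_intCast, ← mul_assoc]
    have : algebraMap ℚ_[q] (SL q F) (n : ℚ_[q])⁻¹ * (n : SL q F) = 1 := by
      rw [← map_intCast (algebraMap ℚ_[q] (SL q F)) n, ← map_mul, inv_mul_cancel₀ hnq, map_one]
    rw [this, one_mul]
  rw [h2]
  exact mul_mem (Subalgebra.algebraMap_mem _ _) h1

/-- An element `y` of `F` which is locally integral at `q` has nonnegative valuation at all primes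
above `q`. -/
lemma valuation_le_one_of_incl_mem_integers (y : Fˣ) (hy : SL.incl q F (y : F) ∈ SL.integers q F)
    (v : HeightOneSpectrum (𝓞 F)) (hv : ((q : ℕ) : 𝓞 F) ∈ v.asIdeal) :
    v.valuation F (y : F) ≤ 1 := by
  obtain ⟨w, rfl⟩ := Place.exists_toPrime_eq v hv
  rw [valuation_eq_exp_neg_primeOrd, ← Place.ordK_eq]
  have h1 : 0 ≤ Place.ordK w y := by
    unfold Place.ordK
    rw [← mem_Ow_iff_ordZ_nonneg]
    exact (SL.mem_integers_iff_forall.1 hy) w
  rw [← WithZero.exp_zero, WithZero.exp_le_exp]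
  omega

/-- If `F` is unramified at `q` (semi-local notion) then `q 𝓞_F` is radical. -/
theorem isRadical_ringOfIntegers_of_unramifiedAt (h : UnramifiedAt q F) :
    (Ideal.span {((q : ℕ) : 𝓞 F)}).IsRadical := by
  have h' : (Ideal.span {((q : ℕ) : ↥(SL.integers q F))}).IsRadical := by
    unfold UnramifiedAt at h
    rwa [map_natCast] at h
  have hq0 : ((q : ℕ) : F) ≠ 0 := Nat.cast_ne_zero.2 (Fact.out : q.Prime).ne_zero
  intro x hx
  obtain ⟨k, hk⟩ := hx
  rw [Ideal.mem_span_singleton] at hk ⊢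
  obtain ⟨d, hd⟩ := hk
  rcases eq_or_ne x 0 with rfl | hx0
  · exact dvd_zero _
  have hxO : SL.incl q F (x : F) ∈ SL.integers q F := SL.incl_mem_integers_of_isIntegral q x.2
  have hdO : SL.incl q F (d : F) ∈ SL.integers q F := SL.incl_mem_integers_of_isIntegral q d.2
  have h1 : (⟨SL.incl q F (x : F), hxO⟩ : ↥(SL.integers q F)) ∈
      Ideal.span {((q : ℕ) : ↥(SL.integers q F))} := by
    apply h'
    refine ⟨k, ?_⟩
    rw [Ideal.mem_span_singleton]
    refine ⟨⟨SL.incl q F (d : F), hdO⟩, Subtype.ext ?_⟩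
    have h2 : ((x : F)) ^ k = (q : F) * (d : F) := by
      have := congrArg (fun t : 𝓞 F => (t : F)) hd
      simpa using this
    change (SL.incl q F (x : F)) ^ k = ((q : ℕ) : SL q F) * SL.incl q F (d : F)
    rw [← map_pow, h2, map_mul, map_natCast]
  rw [Ideal.mem_span_singleton] at h1
  obtain ⟨t, ht⟩ := h1
  have ht' : SL.incl q F (x : F) = (q : SL q F) * (t : SL q F) := by
    have := congrArg Subtype.val ht
    simpa using this
  have hxF0 : (x : F) ≠ 0 := fun h0 => hx0 (RingOfIntegers.ext h0)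
  set y : Fˣ := Units.mk0 ((x : F) / (q : F)) (div_ne_zero hxF0 hq0) with hy
  have hyt : SL.incl q F (y : F) = t := by
    have h2 : (q : SL q F) * SL.incl q F (y : F) = (q : SL q F) * (t : SL q F) := by
      rw [← ht', ← map_natCast (SL.incl q F) q, ← map_mul, hy, Units.val_mk0,
        mul_div_cancel₀ _ hq0]
    exact (isUnit_natCast_SL (q := q) (K := F)).mul_left_cancel h2
  have hval : ∀ v : HeightOneSpectrum (𝓞 F), v.valuation F (y : F) ≤ 1 := by
    intro v
    by_cases hv : ((q : ℕ) : 𝓞 F) ∈ v.asIdeal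
    · exact valuation_le_one_of_incl_mem_integers y (hyt ▸ t.2) v hv
    · have hvq : v.valuation F (algebraMap (𝓞 F) F ((q : ℕ) : 𝓞 F)) = 1 :=
        (HeightOneSpectrum.valuation_eq_one_iff_notMem v).2 hv
      have hvx : v.valuation F (algebraMap (𝓞 F) F x) ≤ 1 := HeightOneSpectrum.valuation_le_one v x
      rw [hy, Units.val_mk0, map_div₀]
      have hvq' : v.valuation F ((q : ℕ) : F) = 1 := by simpa using hvq
      rw [hvq', div_one]
      exact hvx
  obtain ⟨z, hz⟩ := HeightOneSpectrum.mem_integers_of_valuation_le_one F (y : F) hval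
  refine ⟨z, RingOfIntegers.ext ?_⟩
  have h3 : (x : F) = (q : F) * (y : F) := by
    rw [hy, Units.val_mk0, mul_div_cancel₀ _ hq0]
  rw [h3, ← hz]
  simp

/-- **`UnramifiedAt q F` iff `q 𝓞_F` is a radical ideal.** -/
theorem unramifiedAt_iff_isRadical_ringOfIntegers :
    UnramifiedAt q F ↔ (Ideal.span {((q : ℕ) : 𝓞 F)}).IsRadical :=
  ⟨isRadical_ringOfIntegers_of_unramifiedAt, unramifiedAt_of_isRadical_ringOfIntegers⟩

/-- **`UnramifiedAt q F` iff all primes of `𝓞 F` above `q` have ramification index one.** -/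
theorem unramifiedAt_iff_forall_ramificationIdx :
    UnramifiedAt q F ↔
      ∀ (P : Ideal (𝓞 F)) [P.IsPrime], ((q : ℕ) : 𝓞 F) ∈ P → P.ramificationIdx ℤ = 1 := by
  rw [unramifiedAt_iff_isRadical_ringOfIntegers, isRadical_span_natCast_iff_forall_ramificationIdx]

/-- **For `F / ℚ` Galois, `UnramifiedAt q F` iff all inertia groups above `q` are trivial.** -/
theorem unramifiedAt_iff_forall_inertia_eq_bot [IsGalois ℚ F] :
    UnramifiedAt q F ↔
      ∀ (P : Ideal (𝓞 F)) [P.IsPrime], ((q : ℕ) : 𝓞 F) ∈ P → Ideal.inertia Gal(F/ℚ) P = ⊥ := by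
  rw [unramifiedAt_iff_isRadical_ringOfIntegers, isRadical_span_natCast_iff_forall_inertia_eq_bot]

end Classical

end

end Fermat.Agent.CFT.Global
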