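import Fermat.Agent.Lib.CFT.Global.UnramifiedClassical

/-!
# P4 / Layer C (C-FINRAM): every number field is unramified outside a finite set of primes

* `exists_unramifiedOutside L : ∃ S : Finset Nat.Primes, UnramifiedOutside S L`;
* `exists_unramifiedOutside_superset L S₀ : ∃ S, S₀ ⊆ S ∧ UnramifiedOutside S L`.

The set `S` is the set of prime factors of the absolute norm of the different of `L / ℚ`
(`ramificationIdx_eq_one_of_not_dvd_absNorm_different`, from Mathlib's
`not_dvd_differentIdeal_iff`), combined with `unramifiedAt_iff_forall_ramificationIdx`.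
-/

set_option autoImplicit false
set_option linter.style.haveILetI false

open NumberField

namespace Fermat.Agent.CFT.Global

section FinRam

variable (L : Type) [Field L] [NumberField L]

/-- A prime of `𝓞 L` containing a rational prime `q` which does not divide the absolute norm of
the different is unramified over `ℤ`. -/
lemma ramificationIdx_eq_one_of_not_dvd_absNorm_different {q : ℕ} (hq : q.Prime)
    (hqn : ¬ q ∣ Ideal.absNorm (differentIdeal ℤ (𝓞 L))) (P : Ideal (𝓞 L)) [P.IsPrime]
    (hqP : ((q : ℕ) : 𝓞 L) ∈ P) : P.ramificationIdx ℤ = 1 := by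
  have hnd : ¬ P ∣ differentIdeal ℤ (𝓞 L) := by
    intro hdvd
    have hle : differentIdeal ℤ (𝓞 L) ≤ P := Ideal.le_of_dvd hdvd
    have hn : ((Ideal.absNorm (differentIdeal ℤ (𝓞 L)) : ℕ) : 𝓞 L) ∈ P := by
      have := Ideal.absNorm_mem (differentIdeal ℤ (𝓞 L))
      exact hle (by exact_mod_cast this)
    have hcop : Nat.Coprime q (Ideal.absNorm (differentIdeal ℤ (𝓞 L))) :=
      (Nat.Prime.coprime_iff_not_dvd hq).2 hqn
    obtain ⟨a, b, hab⟩ := (Nat.isCoprime_iff_coprime.2 hcop)
    have h1 : (1 : 𝓞 L) ∈ P := by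
      have h2 : (1 : 𝓞 L) = (a : 𝓞 L) * ((q : ℕ) : 𝓞 L) +
          (b : 𝓞 L) * ((Ideal.absNorm (differentIdeal ℤ (𝓞 L)) : ℕ) : 𝓞 L) := by
        have := congrArg (Int.cast (R := 𝓞 L)) hab
        push_cast at this
        rw [← this]
      rw [h2]
      exact P.add_mem (P.mul_mem_left _ hqP) (P.mul_mem_left _ hn)
    exact (Ideal.IsPrime.ne_top inferInstance) ((Ideal.eq_top_iff_one P).2 h1)
  haveI : Algebra.IsUnramifiedAt ℤ P := not_dvd_differentIdeal_iff.1 hnd
  exact Ideal.ramificationIdx_eq_one_of_isUnramifiedAt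

/-- A prime factor of `n` as an element of `Nat.Primes`. -/
def primeFactorToPrimes {n : ℕ} (p : ↥n.primeFactors) : Nat.Primes :=
  ⟨p.1, Nat.prime_of_mem_primeFactors p.2⟩

/-- The prime factors of a natural number, as a finite set of `Nat.Primes`. -/
noncomputable def primeFactorsPrimes (n : ℕ) : Finset Nat.Primes :=
  open Classical in n.primeFactors.attach.image primeFactorToPrimes

lemma mem_primeFactorsPrimes {n : ℕ} (hn : n ≠ 0) (q : Nat.Primes) :
    q ∈ primeFactorsPrimes n ↔ (q : ℕ) ∣ n := by
  classical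
  unfold primeFactorsPrimes
  rw [Finset.mem_image]
  constructor
  · rintro ⟨p, -, rfl⟩
    exact Nat.dvd_of_mem_primeFactors p.2
  · intro h
    exact ⟨⟨(q : ℕ), Nat.mem_primeFactors.2 ⟨q.2, h, hn⟩⟩, Finset.mem_attach _ _, rfl⟩

/-- **C-FINRAM.**  Every number field is unramified outside a finite set of rational primes. -/
theorem exists_unramifiedOutside : ∃ S : Finset Nat.Primes, UnramifiedOutside S L := by
  have hn0 : Ideal.absNorm (differentIdeal ℤ (𝓞 L)) ≠ 0 := by
    rw [Ne, Ideal.absNorm_eq_zero_iff]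
    exact differentIdeal_ne_bot
  refine ⟨primeFactorsPrimes (Ideal.absNorm (differentIdeal ℤ (𝓞 L))), ?_⟩
  intro q hq
  haveI : Fact (q : ℕ).Prime := ⟨q.2⟩
  rw [mem_primeFactorsPrimes hn0] at hq
  rw [unramifiedAt_iff_forall_ramificationIdx]
  intro P hP hqP
  exact ramificationIdx_eq_one_of_not_dvd_absNorm_different L q.2 hq P hqP

omit [NumberField L] in
lemma UnramifiedOutside.mono' [CharZero L] {S S' : Finset Nat.Primes} (h : S ⊆ S')
    (hS : UnramifiedOutside S L) : UnramifiedOutside S' L :=
  fun r hr => hS r (fun hrS => hr (h hrS))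

/-- Every number field is unramified outside a finite set of rational primes containing a given
finite set. -/
theorem exists_unramifiedOutside_superset (S₀ : Finset Nat.Primes) :
    ∃ S : Finset Nat.Primes, S₀ ⊆ S ∧ UnramifiedOutside S L := by
  classical
  obtain ⟨S, hS⟩ := exists_unramifiedOutside L
  exact ⟨S₀ ∪ S, Finset.subset_union_left, UnramifiedOutside.mono' L Finset.subset_union_right hS⟩

end FinRam

end Fermat.Agent.CFT.Global
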