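import Mathlib

/-!
# P4 / Layer C (global class field theory): basic definitions

No topology.  For a field `K` of characteristic zero (in practice a number field) and a prime `q`:

* `SL q K = ℚ_[q] ⊗[ℚ] K` : the semi-local algebra (product of the completions of `K` above `q`);
  `SL.map q f` for a ring hom `f : K →+* L`; `SL.incl q K : K →+* SL q K`.
* `SL.integers q K` : the integral closure of `ℤ_[q]` (product of the local rings of integers);
  `SL.unitGroup q K` : its units, as a subgroup of `(SL q K)ˣ`.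
* `FinIdele K` : the finite ideles, i.e. the restricted product of the `(SL q K)ˣ` with respect to
  the `SL.unitGroup q K`, over all primes `q`.
* `FinIdele.princ K : Kˣ →* FinIdele K` (for `K` algebraic over `ℚ`).
* `unitsOutside S K` : ideles which are `1` at `q ∈ S` and local units at `q ∉ S`.
* `CS S K = FinIdele K ⧸ (Kˣ · unitsOutside S K)` : the `S`-idele class group (without archimedean
  components).  It is canonically `(∏_{q ∈ S} (SL q K)ˣ × I^S_K) / Kˣ` where `I^S_K` is the group of
  fractional ideals prime to `S`.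
* `JS S K = ∏_{q ∈ S} (SL q K)ˣ`, `JS.toCS`, and the `S`-units `SUnits S K ≤ Kˣ`.
* Everything is functorial in ring homomorphisms `K →+* L`, hence carries an action of any group
  acting on `K` by field automorphisms (`MulSemiringAction G K`).
-/

set_option autoImplicit false

open scoped TensorProduct

namespace Fermat.Agent.CFT.Global

noncomputable section

/-- `q : Nat.Primes` is prime. -/
instance factPrimeCoe (q : Nat.Primes) : Fact (q : ℕ).Prime := ⟨q.2⟩

/-! ## The semi-local algebra -/

section SemiLocal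

variable (q : ℕ) [Fact q.Prime] (K : Type) [Field K] [CharZero K]

/-- The semi-local algebra `ℚ_q ⊗ K`. -/
abbrev SL : Type := ℚ_[q] ⊗[ℚ] K

variable {K} {L M : Type} [Field L] [CharZero L] [Field M] [CharZero M]

/-- Functoriality of the semi-local algebra. -/
def SL.map (f : K →+* L) : SL q K →ₐ[ℚ_[q]] SL q L :=
  Algebra.TensorProduct.map (AlgHom.id ℚ_[q] ℚ_[q]) f.toRatAlgHom

@[simp] lemma SL.map_tmul (f : K →+* L) (a : ℚ_[q]) (x : K) :
    SL.map q f (a ⊗ₜ x) = a ⊗ₜ f x := rfl

lemma SL.map_id : SL.map q (RingHom.id K) = AlgHom.id ℚ_[q] (SL q K) := by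
  ext x
  simp [SL.map]

lemma SL.map_id_apply (x : SL q K) : SL.map q (RingHom.id K) x = x := by
  rw [SL.map_id]; rfl

lemma SL.map_comp (g : L →+* M) (f : K →+* L) :
    SL.map q (g.comp f) = (SL.map q g).comp (SL.map q f) := by
  ext x
  simp [SL.map]

lemma SL.map_comp_apply (g : L →+* M) (f : K →+* L) (x : SL q K) :
    SL.map q (g.comp f) x = SL.map q g (SL.map q f x) := by
  rw [SL.map_comp]; rfl

variable (K) in
/-- The canonical map `K → ℚ_q ⊗ K`. -/
def SL.incl : K →+* SL q K :=
  (Algebra.TensorProduct.includeRight : K →ₐ[ℚ] ℚ_[q] ⊗[ℚ] K).toRingHom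

lemma SL.incl_apply (x : K) : SL.incl q K x = (1 : ℚ_[q]) ⊗ₜ[ℚ] x := rfl

lemma SL.map_incl (f : K →+* L) (x : K) : SL.map q f (SL.incl q K x) = SL.incl q L (f x) := rfl

variable (K) in
/-- The maximal order of the semi-local algebra: the integral closure of `ℤ_q`. -/
def SL.integers : Subalgebra ℤ_[q] (SL q K) := integralClosure ℤ_[q] (SL q K)

lemma SL.mem_integers_iff {x : SL q K} : x ∈ SL.integers q K ↔ IsIntegral ℤ_[q] x := Iff.rfl

lemma SL.map_mem_integers (f : K →+* L) {x : SL q K} (hx : x ∈ SL.integers q K) :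
    SL.map q f x ∈ SL.integers q L := by
  rw [SL.mem_integers_iff] at hx ⊢
  exact hx.map ((SL.map q f).restrictScalars ℤ_[q])

variable (K) in
/-- The local units at `q`: the units of the maximal order. -/
def SL.unitGroup : Subgroup (SL q K)ˣ := (SL.integers q K).toSubmonoid.units

lemma SL.mem_unitGroup_iff {u : (SL q K)ˣ} :
    u ∈ SL.unitGroup q K ↔ (u : SL q K) ∈ SL.integers q K ∧ ((u⁻¹ : (SL q K)ˣ) : SL q K) ∈
      SL.integers q K :=
  Submonoid.mem_units_iff _ _

/-- Functoriality on units. -/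
def SL.unitsMap (f : K →+* L) : (SL q K)ˣ →* (SL q L)ˣ := Units.map (SL.map q f : SL q K →* SL q L)

@[simp] lemma SL.coe_unitsMap (f : K →+* L) (u : (SL q K)ˣ) :
    ((SL.unitsMap q f u : (SL q L)ˣ) : SL q L) = SL.map q f u := rfl

lemma SL.unitsMap_id (u : (SL q K)ˣ) : SL.unitsMap q (RingHom.id K) u = u :=
  Units.ext (SL.map_id_apply q _)

lemma SL.unitsMap_comp (g : L →+* M) (f : K →+* L) (u : (SL q K)ˣ) :
    SL.unitsMap q (g.comp f) u = SL.unitsMap q g (SL.unitsMap q f u) :=
  Units.ext (SL.map_comp_apply q g f _)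

lemma SL.unitsMap_mem_unitGroup (f : K →+* L) {u : (SL q K)ˣ} (hu : u ∈ SL.unitGroup q K) :
    SL.unitsMap q f u ∈ SL.unitGroup q L := by
  rw [SL.mem_unitGroup_iff] at hu ⊢
  refine ⟨SL.map_mem_integers q f hu.1, ?_⟩
  rw [← map_inv]
  exact SL.map_mem_integers q f hu.2

variable (K) in
/-- `Kˣ → (ℚ_q ⊗ K)ˣ`. -/
def SL.unitsIncl : Kˣ →* (SL q K)ˣ := Units.map (SL.incl q K : K →* SL q K)

lemma SL.unitsMap_unitsIncl (f : K →+* L) (x : Kˣ) :
    SL.unitsMap q f (SL.unitsIncl q K x) = SL.unitsIncl q L (Units.map (f : K →* L) x) :=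
  Units.ext rfl

end SemiLocal

/-! ## Global elements are local integers almost everywhere -/

section Integrality

variable {K : Type} [Field K] [CharZero K]

/-- An element of `K` integral over `ℤ` gives an element of the maximal order at every `q`. -/
lemma SL.incl_mem_integers_of_isIntegral (q : ℕ) [Fact q.Prime] {x : K} (hx : IsIntegral ℤ x) :
    SL.incl q K x ∈ SL.integers q K := by
  rw [SL.mem_integers_iff]
  have h1 : IsIntegral ℤ (SL.incl q K x) := map_isIntegral_int (SL.incl q K) hx
  exact IsIntegral.tower_top (R := ℤ) (A := ℤ_[q]) h1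

/-- If `n • x` is integral over `ℤ` and `q ∤ n` then `x` is in the maximal order at `q`. -/
lemma SL.incl_mem_integers_of_isIntegral_smul (q : ℕ) [Fact q.Prime] {x : K} {n : ℤ}
    (hn : ¬ (q : ℤ) ∣ n) (hx : IsIntegral ℤ (n • x)) :
    SL.incl q K x ∈ SL.integers q K := by
  have h1 := SL.incl_mem_integers_of_isIntegral q hx
  have hu : IsUnit (n : ℤ_[q]) := by
    rw [PadicInt.isUnit_iff]
    by_contra h
    have h2 : ‖(n : ℤ_[q])‖ < 1 := lt_of_le_of_ne (PadicInt.norm_le_one _) h
    rw [PadicInt.norm_int_lt_one_iff_dvd] at h2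
    exact hn h2
  obtain ⟨u, hu⟩ := hu
  have h2 : SL.incl q K x = (↑(u⁻¹) : ℤ_[q]) • SL.incl q K (n • x) := by
    rw [zsmul_eq_mul, map_mul, map_intCast, Algebra.smul_def, ← mul_assoc]
    have h3 : (algebraMap ℤ_[q] (SL q K)) (↑(u⁻¹) : ℤ_[q]) * ((n : ℤ) : SL q K) = 1 := by
      rw [← map_intCast (algebraMap ℤ_[q] (SL q K)) n, ← map_mul, ← hu, Units.inv_mul, map_one]
    rw [h3, one_mul]
  rw [h2]
  exact Subalgebra.smul_mem _ h1 _

end Integrality

/-! ## Finite ideles -/

section FinIdele

variable (K : Type) [Field K] [CharZero K]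

/-- The finite ideles as a subgroup of the full product. -/
def finIdeleSubgroup : Subgroup (∀ q : Nat.Primes, (SL (q : ℕ) K)ˣ) where
  carrier := {x | {q : Nat.Primes | x q ∉ SL.unitGroup (q : ℕ) K}.Finite}
  one_mem' := by simp [one_mem]
  mul_mem' := fun {x y} hx hy => (hx.union hy).subset (fun q hq => by
    by_contra h
    simp only [Set.mem_union, Set.mem_ofPred_eq, not_or, not_not] at h
    exact hq (mul_mem h.1 h.2))
  inv_mem' := fun {x} hx => hx.subset (fun q hq h => hq (by simpa using inv_mem h))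

/-- The group of finite ideles of `K`: the restricted product over all primes `q` of the
`(ℚ_q ⊗ K)ˣ` with respect to the local units. -/
def FinIdele : Type := ↥(finIdeleSubgroup K)

instance : CommGroup (FinIdele K) := inferInstanceAs (CommGroup ↥(finIdeleSubgroup K))

variable {K}

/-- The component at `q`. -/
def FinIdele.comp (q : Nat.Primes) : FinIdele K →* (SL (q : ℕ) K)ˣ :=
  (Pi.evalMonoidHom _ q).comp (finIdeleSubgroup K).subtype

@[ext] lemma FinIdele.ext {x y : FinIdele K} (h : ∀ q, FinIdele.comp q x = FinIdele.comp q y) :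
    x = y :=
  Subtype.ext (funext h)

lemma FinIdele.finite_notMem_unitGroup (x : FinIdele K) :
    {q : Nat.Primes | FinIdele.comp q x ∉ SL.unitGroup (q : ℕ) K}.Finite := x.2

/-- Constructor. -/
def FinIdele.mk (x : ∀ q : Nat.Primes, (SL (q : ℕ) K)ˣ)
    (hx : {q : Nat.Primes | x q ∉ SL.unitGroup (q : ℕ) K}.Finite) : FinIdele K := ⟨x, hx⟩

@[simp] lemma FinIdele.comp_mk (x : ∀ q : Nat.Primes, (SL (q : ℕ) K)ˣ)
    (hx : {q : Nat.Primes | x q ∉ SL.unitGroup (q : ℕ) K}.Finite) (q : Nat.Primes) :
    FinIdele.comp q (FinIdele.mk x hx) = x q := rfl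

variable {L M : Type} [Field L] [CharZero L] [Field M] [CharZero M]

/-- Functoriality of the finite ideles. -/
def FinIdele.map (f : K →+* L) : FinIdele K →* FinIdele L where
  toFun x := FinIdele.mk (fun q => SL.unitsMap (q : ℕ) f (FinIdele.comp q x))
    (x.finite_notMem_unitGroup.subset fun q hq h => hq (SL.unitsMap_mem_unitGroup _ f h))
  map_one' := by ext q; simp
  map_mul' x y := by ext q; simp

@[simp] lemma FinIdele.comp_map (f : K →+* L) (x : FinIdele K) (q : Nat.Primes) :
    FinIdele.comp q (FinIdele.map f x) = SL.unitsMap (q : ℕ) f (FinIdele.comp q x) := rfl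

lemma FinIdele.map_id (x : FinIdele K) : FinIdele.map (RingHom.id K) x = x := by
  ext q; simp [SL.unitsMap_id]

lemma FinIdele.map_comp (g : L →+* M) (f : K →+* L) (x : FinIdele K) :
    FinIdele.map (g.comp f) x = FinIdele.map g (FinIdele.map f x) := by
  ext q; simp [SL.unitsMap_comp]

/-- The idele with given component at `q` and `1` elsewhere. -/
def FinIdele.single (q : Nat.Primes) : (SL (q : ℕ) K)ˣ →* FinIdele K where
  toFun u := FinIdele.mk (Pi.mulSingle q u) (by
    refine (Set.finite_singleton q).subset fun r hr => ?_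
    by_contra h
    rw [Set.mem_singleton_iff] at h
    exact hr (by rw [Pi.mulSingle_eq_of_ne h]; exact one_mem _))
  map_one' := by
    apply Subtype.ext
    exact Pi.mulSingle_one q
  map_mul' u v := by
    apply Subtype.ext
    exact Pi.mulSingle_mul (f := fun q : Nat.Primes => (SL (q : ℕ) K)ˣ) q u v

lemma FinIdele.comp_single (q r : Nat.Primes) (u : (SL (q : ℕ) K)ˣ) :
    FinIdele.comp r (FinIdele.single q u) =
      Pi.mulSingle (M := fun q : Nat.Primes => (SL (q : ℕ) K)ˣ) q u r := rfl

lemma FinIdele.comp_single_same (q : Nat.Primes) (u : (SL (q : ℕ) K)ˣ) :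
    FinIdele.comp q (FinIdele.single q u) = u := by
  rw [FinIdele.comp_single, Pi.mulSingle_eq_same]

lemma FinIdele.comp_single_of_ne {q r : Nat.Primes} (h : r ≠ q) (u : (SL (q : ℕ) K)ˣ) :
    FinIdele.comp r (FinIdele.single q u) = 1 := by
  rw [FinIdele.comp_single, Pi.mulSingle_eq_of_ne h]

variable (K) in
/-- The principal ideles. -/
def FinIdele.princ [Algebra.IsAlgebraic ℚ K] : Kˣ →* FinIdele K where
  toFun x := FinIdele.mk (fun q => SL.unitsIncl (q : ℕ) K x) (by
    have halg : ∀ y : K, IsAlgebraic ℤ y := fun y =>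
      (IsFractionRing.isAlgebraic_iff ℤ ℚ K).2 (Algebra.IsAlgebraic.isAlgebraic y)
    obtain ⟨n, hn0, hn⟩ := (halg (x : K)).exists_integral_multiple
    obtain ⟨m, hm0, hm⟩ := (halg ((x⁻¹ : Kˣ) : K)).exists_integral_multiple
    have hfin : {q : Nat.Primes | ((q : ℕ) : ℤ) ∣ n * m}.Finite := by
      have hnm : n * m ≠ 0 := mul_ne_zero hn0 hm0
      refine ((Finset.finite_toSet (n * m).natAbs.primeFactors).preimage
        (Nat.Primes.coe_nat_injective.injOn)).subset fun q hq => ?_
      have hq' : ((q : ℕ) : ℤ) ∣ n * m := hq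
      simp only [Set.mem_preimage, Finset.mem_coe, Nat.mem_primeFactors]
      exact ⟨q.2, Int.natCast_dvd.1 hq', Int.natAbs_ne_zero.2 hnm⟩
    refine hfin.subset fun q hq => ?_
    by_contra h
    apply hq
    have h : ¬ ((q : ℕ) : ℤ) ∣ n * m := h
    have h1 : ¬ ((q : ℕ) : ℤ) ∣ n := fun h' => h (Dvd.dvd.mul_right h' m)
    have h2 : ¬ ((q : ℕ) : ℤ) ∣ m := fun h' => h (Dvd.dvd.mul_left h' n)
    rw [SL.mem_unitGroup_iff]
    exact ⟨SL.incl_mem_integers_of_isIntegral_smul (q : ℕ) h1 hn,
      SL.incl_mem_integers_of_isIntegral_smul (q : ℕ) h2 hm⟩)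
  map_one' := by ext q; simp
  map_mul' x y := by ext q; simp

end FinIdele

/-! ## The `S`-idele class group -/

section ClassGroup

variable (S : Finset Nat.Primes) (K : Type) [Field K] [CharZero K]

/-- Ideles which are `1` at the primes of `S` and local units outside `S`. -/
def unitsOutside : Subgroup (FinIdele K) where
  carrier := {x | (∀ q ∈ S, FinIdele.comp q x = 1) ∧
    ∀ q ∉ S, FinIdele.comp q x ∈ SL.unitGroup (q : ℕ) K}
  one_mem' := ⟨fun q _ => map_one _, fun q _ => by rw [map_one]; exact one_mem _⟩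
  mul_mem' := fun {x y} hx hy => ⟨fun q hq => by rw [map_mul, hx.1 q hq, hy.1 q hq, one_mul],
    fun q hq => by rw [map_mul]; exact mul_mem (hx.2 q hq) (hy.2 q hq)⟩
  inv_mem' := fun {x} hx => ⟨fun q hq => by rw [map_inv, hx.1 q hq, inv_one],
    fun q hq => by rw [map_inv]; exact inv_mem (hx.2 q hq)⟩

variable {S K} in
lemma mem_unitsOutside_iff {x : FinIdele K} : x ∈ unitsOutside S K ↔
    (∀ q ∈ S, FinIdele.comp q x = 1) ∧ ∀ q ∉ S, FinIdele.comp q x ∈ SL.unitGroup (q : ℕ) K :=
  Iff.rfl

variable {K} {L M : Type} [Field L] [CharZero L] [Field M] [CharZero M]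

lemma map_mem_unitsOutside (f : K →+* L) {x : FinIdele K} (hx : x ∈ unitsOutside S K) :
    FinIdele.map f x ∈ unitsOutside S L :=
  ⟨fun q hq => by rw [FinIdele.comp_map, hx.1 q hq, map_one],
    fun q hq => by rw [FinIdele.comp_map]; exact SL.unitsMap_mem_unitGroup _ f (hx.2 q hq)⟩

variable [Algebra.IsAlgebraic ℚ K] [Algebra.IsAlgebraic ℚ L] [Algebra.IsAlgebraic ℚ M]

lemma FinIdele.map_princ (f : K →+* L) (a : Kˣ) :
    FinIdele.map f (FinIdele.princ K a) = FinIdele.princ L (Units.map (f : K →* L) a) := by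
  ext q
  exact congrArg Units.val (SL.unitsMap_unitsIncl (q : ℕ) f a)

variable (K) in
/-- The subgroup `Kˣ · U^S` of the finite ideles. -/
def CS.relations : Subgroup (FinIdele K) := (FinIdele.princ K).range ⊔ unitsOutside S K

lemma map_mem_relations (f : K →+* L) {x : FinIdele K} (hx : x ∈ CS.relations S K) :
    FinIdele.map f x ∈ CS.relations S L := by
  unfold CS.relations at hx ⊢
  rw [Subgroup.mem_sup] at hx ⊢
  obtain ⟨_, ⟨a, rfl⟩, u, hu, rfl⟩ := hx
  exact ⟨_, ⟨Units.map (f : K →* L) a, rfl⟩, _, map_mem_unitsOutside S f hu, by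
    rw [map_mul, FinIdele.map_princ]⟩

variable (K) in
/-- The `S`-idele class group `C_S(K) = J_K^fin / (Kˣ · U^S)`. -/
def CS : Type := FinIdele K ⧸ CS.relations S K

instance : CommGroup (CS S K) := inferInstanceAs (CommGroup (FinIdele K ⧸ CS.relations S K))

variable (K) in
/-- The projection from the finite ideles. -/
def CS.mk : FinIdele K →* CS S K := QuotientGroup.mk' (CS.relations S K)

lemma CS.mk_surjective : Function.Surjective (CS.mk S K) := QuotientGroup.mk'_surjective _

lemma CS.mk_eq_one_iff {x : FinIdele K} : CS.mk S K x = 1 ↔ x ∈ CS.relations S K :=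
  QuotientGroup.eq_one_iff x

lemma CS.mk_eq_one_iff' {x : FinIdele K} : CS.mk S K x = 1 ↔
    ∃ a : Kˣ, ∃ u ∈ unitsOutside S K, x = FinIdele.princ K a * u := by
  rw [CS.mk_eq_one_iff, CS.relations, Subgroup.mem_sup]
  constructor
  · rintro ⟨_, ⟨a, rfl⟩, u, hu, rfl⟩
    exact ⟨a, u, hu, rfl⟩
  · rintro ⟨a, u, hu, rfl⟩
    exact ⟨_, ⟨a, rfl⟩, u, hu, rfl⟩

lemma CS.mk_eq_mk_iff {x y : FinIdele K} : CS.mk S K x = CS.mk S K y ↔
    ∃ a : Kˣ, ∃ u ∈ unitsOutside S K, x = y * FinIdele.princ K a * u := by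
  rw [← mul_inv_eq_one, ← map_inv, ← map_mul, CS.mk_eq_one_iff']
  constructor
  · rintro ⟨a, u, hu, h⟩
    exact ⟨a, u, hu, by rw [mul_assoc, ← h, mul_comm x, mul_inv_cancel_left]⟩
  · rintro ⟨a, u, hu, h⟩
    exact ⟨a, u, hu, by rw [h, mul_assoc y, mul_comm y, mul_inv_cancel_right]⟩

/-- Functoriality of the `S`-idele class group. -/
def CS.map (f : K →+* L) : CS S K →* CS S L :=
  QuotientGroup.map _ _ (FinIdele.map f) (fun _ hx => map_mem_relations S f hx)

@[simp] lemma CS.map_mk (f : K →+* L) (x : FinIdele K) :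
    CS.map S f (CS.mk S K x) = CS.mk S L (FinIdele.map f x) := rfl

lemma CS.map_id (x : CS S K) : CS.map S (RingHom.id K) x = x := by
  obtain ⟨x, rfl⟩ := CS.mk_surjective S x
  rw [CS.map_mk, FinIdele.map_id]

lemma CS.map_comp (g : L →+* M) (f : K →+* L) (x : CS S K) :
    CS.map S (g.comp f) x = CS.map S g (CS.map S f x) := by
  obtain ⟨x, rfl⟩ := CS.mk_surjective S x
  simp only [CS.map_mk, FinIdele.map_comp]

end ClassGroup

/-! ## The `S`-ideles and the `S`-units -/

section SIdeles

variable (S : Finset Nat.Primes) (K : Type) [Field K] [CharZero K]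

/-- The `S`-ideles `∏_{q ∈ S} (ℚ_q ⊗ K)ˣ` (no archimedean components). -/
def JS : Type := ∀ q : S, (SL ((q : Nat.Primes) : ℕ) K)ˣ

instance : CommGroup (JS S K) :=
  inferInstanceAs (CommGroup (∀ q : S, (SL ((q : Nat.Primes) : ℕ) K)ˣ))

variable {S K}

/-- The component at `q ∈ S`. -/
def JS.comp (q : S) : JS S K →* (SL ((q : Nat.Primes) : ℕ) K)ˣ :=
  Pi.evalMonoidHom (fun q : S => (SL ((q : Nat.Primes) : ℕ) K)ˣ) q

@[ext] lemma JS.ext {x y : JS S K} (h : ∀ q, JS.comp q x = JS.comp q y) : x = y := funext h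

variable {L M : Type} [Field L] [CharZero L] [Field M] [CharZero M]

/-- Functoriality of the `S`-ideles. -/
def JS.map (f : K →+* L) : JS S K →* JS S L where
  toFun x q := SL.unitsMap ((q : Nat.Primes) : ℕ) f (x q)
  map_one' := by funext q; exact map_one _
  map_mul' x y := by funext q; exact map_mul _ _ _

@[simp] lemma JS.comp_map (f : K →+* L) (x : JS S K) (q : S) :
    JS.comp q (JS.map f x) = SL.unitsMap ((q : Nat.Primes) : ℕ) f (JS.comp q x) := rfl

lemma JS.map_id (x : JS S K) : JS.map (RingHom.id K) x = x := by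
  ext q; simp [SL.unitsMap_id]

lemma JS.map_comp (g : L →+* M) (f : K →+* L) (x : JS S K) :
    JS.map (g.comp f) x = JS.map g (JS.map f x) := by
  ext q; simp [SL.unitsMap_comp]

variable (S K) in
/-- The `S`-ideles as finite ideles (components `1` outside `S`). -/
def JS.toFinIdele : JS S K →* FinIdele K where
  toFun x := FinIdele.mk (fun q => if h : q ∈ S then x ⟨q, h⟩ else 1) (by
    refine (Finset.finite_toSet S).subset fun q hq => ?_
    by_contra h
    exact hq (by rw [dif_neg (by simpa using h)]; exact one_mem _))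
  map_one' := by
    ext q
    rw [FinIdele.comp_mk]
    split_ifs <;> rfl
  map_mul' x y := by
    ext q
    rw [map_mul, FinIdele.comp_mk, FinIdele.comp_mk, FinIdele.comp_mk]
    split_ifs
    · rfl
    · rw [one_mul]

lemma JS.comp_toFinIdele_of_mem (x : JS S K) {q : Nat.Primes} (h : q ∈ S) :
    FinIdele.comp q (JS.toFinIdele S K x) = JS.comp ⟨q, h⟩ x := by
  change (if h : q ∈ S then x ⟨q, h⟩ else (1 : (SL (q : ℕ) K)ˣ)) = _
  rw [dif_pos h]
  rfl

lemma JS.comp_toFinIdele_of_notMem (x : JS S K) {q : Nat.Primes} (h : q ∉ S) :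
    FinIdele.comp q (JS.toFinIdele S K x) = 1 := by
  change (if h : q ∈ S then x ⟨q, h⟩ else (1 : (SL (q : ℕ) K)ˣ)) = _
  rw [dif_neg h]

lemma JS.toFinIdele_injective : Function.Injective (JS.toFinIdele S K) := by
  intro x y h
  ext q
  rw [← JS.comp_toFinIdele_of_mem x q.2, ← JS.comp_toFinIdele_of_mem y q.2, h]

lemma JS.map_toFinIdele (f : K →+* L) (x : JS S K) :
    FinIdele.map f (JS.toFinIdele S K x) = JS.toFinIdele S L (JS.map f x) := by
  ext q
  by_cases h : q ∈ S
  · rw [FinIdele.comp_map, JS.comp_toFinIdele_of_mem _ h, JS.comp_toFinIdele_of_mem _ h,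
      JS.comp_map]
  · rw [FinIdele.comp_map, JS.comp_toFinIdele_of_notMem _ h, JS.comp_toFinIdele_of_notMem _ h,
      map_one]

variable (S K) in
/-- The diagonal embedding `Kˣ → J_{K,S}`. -/
def JS.diag : Kˣ →* JS S K where
  toFun x q := SL.unitsIncl ((q : Nat.Primes) : ℕ) K x
  map_one' := by funext q; exact map_one _
  map_mul' x y := by funext q; exact map_mul _ _ _

@[simp] lemma JS.comp_diag (x : Kˣ) (q : S) :
    JS.comp q (JS.diag S K x) = SL.unitsIncl ((q : Nat.Primes) : ℕ) K x := rfl

variable (S K) in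
/-- The `S`-units of `K`: elements which are local units at all `q ∉ S`. -/
def SUnits : Subgroup Kˣ where
  carrier := {x | ∀ q : Nat.Primes, q ∉ S → SL.unitsIncl (q : ℕ) K x ∈ SL.unitGroup (q : ℕ) K}
  one_mem' := fun q _ => by rw [map_one]; exact one_mem _
  mul_mem' := fun {x y} hx hy q hq => by rw [map_mul]; exact mul_mem (hx q hq) (hy q hq)
  inv_mem' := fun {x} hx q hq => by rw [map_inv]; exact inv_mem (hx q hq)

lemma mem_SUnits_iff {x : Kˣ} : x ∈ SUnits S K ↔
    ∀ q : Nat.Primes, q ∉ S → SL.unitsIncl (q : ℕ) K x ∈ SL.unitGroup (q : ℕ) K := Iff.rfl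

variable [Algebra.IsAlgebraic ℚ K] [Algebra.IsAlgebraic ℚ L]

variable (S K) in
/-- `J_{K,S} → C_S(K)`. -/
def JS.toCS : JS S K →* CS S K := (CS.mk S K).comp (JS.toFinIdele S K)

lemma JS.map_toCS (f : K →+* L) (x : JS S K) :
    CS.map S f (JS.toCS S K x) = JS.toCS S L (JS.map f x) := by
  simp only [JS.toCS, MonoidHom.comp_apply, CS.map_mk, JS.map_toFinIdele]

end SIdeles

/-! ## Group actions -/

section Action

variable (S : Finset Nat.Primes) {K : Type} [Field K] [CharZero K]
variable (G : Type) [Group G] [MulSemiringAction G K]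

omit [CharZero K] in
lemma toRingHom_one : MulSemiringAction.toRingHom G K 1 = RingHom.id K := by
  ext x; simp

omit [CharZero K] in
lemma toRingHom_mul (g h : G) : MulSemiringAction.toRingHom G K (g * h)
    = (MulSemiringAction.toRingHom G K g).comp (MulSemiringAction.toRingHom G K h) := by
  ext x; simp [mul_smul]

/-- The action on the semi-local algebra (on the right factor). -/
instance (q : ℕ) [Fact q.Prime] : MulSemiringAction G (SL q K) where
  smul g x := SL.map q (MulSemiringAction.toRingHom G K g) x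
  one_smul x := by
    change SL.map q (MulSemiringAction.toRingHom G K 1) x = x
    rw [toRingHom_one, SL.map_id_apply]
  mul_smul g h x := by
    change SL.map q (MulSemiringAction.toRingHom G K (g * h)) x = SL.map q _ (SL.map q _ x)
    rw [toRingHom_mul, SL.map_comp_apply]
  smul_zero g := map_zero _
  smul_add g x y := map_add _ x y
  smul_one g := map_one _
  smul_mul g x y := map_mul _ x y

lemma SL.smul_def (q : ℕ) [Fact q.Prime] (g : G) (x : SL q K) :
    g • x = SL.map q (MulSemiringAction.toRingHom G K g) x := rfl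

@[simp] lemma SL.smul_tmul (q : ℕ) [Fact q.Prime] (g : G) (a : ℚ_[q]) (x : K) :
    g • (a ⊗ₜ[ℚ] x : SL q K) = a ⊗ₜ[ℚ] (g • x) := rfl

lemma SL.smul_incl (q : ℕ) [Fact q.Prime] (g : G) (x : K) :
    g • SL.incl q K x = SL.incl q K (g • x) := rfl

lemma SL.smul_algebraMap (q : ℕ) [Fact q.Prime] (g : G) (a : ℚ_[q]) :
    g • (algebraMap ℚ_[q] (SL q K) a) = algebraMap ℚ_[q] (SL q K) a :=
  (SL.map q (MulSemiringAction.toRingHom G K g)).commutes a

instance (q : ℕ) [Fact q.Prime] : SMulCommClass G ℚ_[q] (SL q K) where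
  smul_comm g a x := by
    rw [SL.smul_def, SL.smul_def, map_smul]

lemma SL.smul_mem_integers (q : ℕ) [Fact q.Prime] (g : G) {x : SL q K}
    (hx : x ∈ SL.integers q K) : g • x ∈ SL.integers q K :=
  SL.map_mem_integers q _ hx

instance : MulDistribMulAction G (FinIdele K) where
  smul g x := FinIdele.map (MulSemiringAction.toRingHom G K g) x
  one_smul x := by
    change FinIdele.map (MulSemiringAction.toRingHom G K 1) x = x
    rw [toRingHom_one, FinIdele.map_id]
  mul_smul g h x := by
    change FinIdele.map (MulSemiringAction.toRingHom G K (g * h)) x = FinIdele.map _ (FinIdele.map _ x)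
    rw [toRingHom_mul, FinIdele.map_comp]
  smul_mul g x y := map_mul _ x y
  smul_one g := map_one _

lemma FinIdele.smul_def (g : G) (x : FinIdele K) :
    g • x = FinIdele.map (MulSemiringAction.toRingHom G K g) x := rfl

instance : MulDistribMulAction G (JS S K) where
  smul g x := JS.map (MulSemiringAction.toRingHom G K g) x
  one_smul x := by
    change JS.map (MulSemiringAction.toRingHom G K 1) x = x
    rw [toRingHom_one, JS.map_id]
  mul_smul g h x := by
    change JS.map (MulSemiringAction.toRingHom G K (g * h)) x = JS.map _ (JS.map _ x)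
    rw [toRingHom_mul, JS.map_comp]
  smul_mul g x y := map_mul _ x y
  smul_one g := map_one _

lemma JS.smul_def (g : G) (x : JS S K) :
    g • x = JS.map (MulSemiringAction.toRingHom G K g) x := rfl

variable [Algebra.IsAlgebraic ℚ K]

instance : MulDistribMulAction G (CS S K) where
  smul g x := CS.map S (MulSemiringAction.toRingHom G K g) x
  one_smul x := by
    change CS.map S (MulSemiringAction.toRingHom G K 1) x = x
    rw [toRingHom_one, CS.map_id]
  mul_smul g h x := by
    change CS.map S (MulSemiringAction.toRingHom G K (g * h)) x = CS.map S _ (CS.map S _ x)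
    rw [toRingHom_mul, CS.map_comp]
  smul_mul g x y := map_mul _ x y
  smul_one g := map_one _

lemma CS.smul_def (g : G) (x : CS S K) :
    g • x = CS.map S (MulSemiringAction.toRingHom G K g) x := rfl

lemma CS.smul_mk (g : G) (x : FinIdele K) : g • CS.mk S K x = CS.mk S K (g • x) := rfl

lemma JS.smul_toCS (g : G) (x : JS S K) : g • JS.toCS S K x = JS.toCS S K (g • x) :=
  JS.map_toCS _ x

lemma FinIdele.smul_princ (g : G) (a : Kˣ) :
    g • FinIdele.princ K a
      = FinIdele.princ K (Units.map (MulSemiringAction.toRingHom G K g : K →* K) a) := by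
  rw [FinIdele.smul_def, FinIdele.map_princ]

/-- Equivariance of the functoriality maps. -/
lemma CS.map_smul {L : Type} [Field L] [CharZero L] [Algebra.IsAlgebraic ℚ L]
    [MulSemiringAction G L] (f : K →+* L) (hf : ∀ (g : G) (x : K), f (g • x) = g • f x) (g : G)
    (x : CS S K) : CS.map S f (g • x) = g • CS.map S f x := by
  have h : f.comp (MulSemiringAction.toRingHom G K g)
      = (MulSemiringAction.toRingHom G L g).comp f := by
    ext y
    exact hf g y
  rw [CS.smul_def, CS.smul_def, ← CS.map_comp, ← CS.map_comp, h]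

end Action

end

end Fermat.Agent.CFT.Global
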