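/-
P4 / Layer C1e (part 1): Galois invariants of the semi-local algebras, of the finite ideles and of
the unit ideles.

For a finite group `G` acting on a number field `L` with `IsGaloisGroup G K L`:
* `SL.map q (algebraMap K L)` is injective and its image is exactly the `G`-invariants;
* the same for units, for the maximal orders, for `FinIdele` and for `unitsOutside S`.
-/
import Fermat.Agent.Lib.CFT.Global.Defs

set_option autoImplicit false
set_option linter.style.haveILetI false

open scoped TensorProduct

namespace Fermat.Agent.CFT.Global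

noncomputable section

section Injective

variable (q : ℕ) [Fact q.Prime] {K L : Type} [Field K] [CharZero K] [Field L] [CharZero L]

/-- `ℚ_q ⊗ K → ℚ_q ⊗ L` is injective. -/
theorem SL.map_injective (f : K →+* L) : Function.Injective (SL.map q f) := by
  have h : Function.Injective (f.toRatAlgHom.toLinearMap) := f.injective
  have := Module.Flat.lTensor_preserves_injective_linearMap (M := ℚ_[q]) _ h
  intro x y hxy
  apply this
  exact hxy

theorem SL.unitsMap_injective (f : K →+* L) : Function.Injective (SL.unitsMap q f) :=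
  Units.map_injective (SL.map_injective q f)

/-- integrality can be tested after a field extension -/
theorem SL.mem_integers_of_map_mem (f : K →+* L) {x : SL q K}
    (hx : SL.map q f x ∈ SL.integers q L) : x ∈ SL.integers q K := by
  rw [SL.mem_integers_iff] at hx ⊢
  exact (isIntegral_algHom_iff ((SL.map q f).restrictScalars ℤ_[q]) (SL.map_injective q f)).1 hx

theorem SL.map_mem_integers_iff (f : K →+* L) {x : SL q K} :
    SL.map q f x ∈ SL.integers q L ↔ x ∈ SL.integers q K :=
  ⟨SL.mem_integers_of_map_mem q f, SL.map_mem_integers q f⟩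

theorem SL.unitsMap_mem_unitGroup_iff (f : K →+* L) {u : (SL q K)ˣ} :
    SL.unitsMap q f u ∈ SL.unitGroup q L ↔ u ∈ SL.unitGroup q K := by
  rw [SL.mem_unitGroup_iff, SL.mem_unitGroup_iff, ← map_inv, SL.coe_unitsMap, SL.coe_unitsMap,
    SL.map_mem_integers_iff, SL.map_mem_integers_iff]

end Injective

section UnitsAction

variable (q : ℕ) [Fact q.Prime] {K : Type} [Field K] [CharZero K]
  {G : Type} [Group G] [MulSemiringAction G K]

/-- the action on the units of the semi-local algebra -/
instance SL.unitsMulDistribMulAction : MulDistribMulAction G (SL q K)ˣ :=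
  Units.mulDistribMulActionRight

@[simp] lemma SL.coe_smul_units (g : G) (u : (SL q K)ˣ) :
    ((g • u : (SL q K)ˣ) : SL q K) = g • (u : SL q K) := rfl

lemma SL.smul_units_def (g : G) (u : (SL q K)ˣ) :
    g • u = SL.unitsMap q (MulSemiringAction.toRingHom G K g) u := Units.ext rfl

lemma SL.smul_unitsIncl (g : G) (x : Kˣ) :
    g • SL.unitsIncl q K x
      = SL.unitsIncl q K (Units.map (MulSemiringAction.toRingHom G K g : K →* K) x) :=
  Units.ext rfl

lemma SL.smul_mem_unitGroup (g : G) {u : (SL q K)ˣ} (hu : u ∈ SL.unitGroup q K) :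
    g • u ∈ SL.unitGroup q K := by
  rw [SL.smul_units_def]
  exact SL.unitsMap_mem_unitGroup q _ hu

variable {q} in
lemma FinIdele.comp_smul (r : Nat.Primes) (g : G) (x : FinIdele K) :
    FinIdele.comp r (g • x) = g • FinIdele.comp r x := Units.ext rfl

end UnitsAction

section Invariants

variable (q : ℕ) [Fact q.Prime] {K L : Type} [Field K] [CharZero K] [Field L] [CharZero L]
  [Algebra K L] {G : Type} [Group G] [Finite G] [MulSemiringAction G L] [IsGaloisGroup G K L]

omit [Finite G] in
/-- elements coming from `K` are `G`-invariant -/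
theorem SL.smul_map_algebraMap (g : G) (y : SL q K) :
    g • SL.map q (algebraMap K L) y = SL.map q (algebraMap K L) y := by
  rw [SL.smul_def, ← SL.map_comp_apply]
  congr 2
  ext x
  have := IsGaloisGroup.commutes (G := G) (A := K) (B := L)
  simp

/-- the trace `∑_g g • x` of the semi-local algebra comes from `ℚ_q ⊗ K` -/
theorem SL.exists_map_eq_sum_smul (x : SL q L) :
    ∃ y : SL q K, SL.map q (algebraMap K L) y = ∑ᶠ g : G, g • x := by
  classical
  letI := Fintype.ofFinite G
  simp only [finsum_eq_sum_of_fintype]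
  induction x using TensorProduct.induction_on with
  | zero => exact ⟨0, by simp⟩
  | tmul a l =>
    have hinv : ∀ h : G, h • (∑ g : G, g • l) = ∑ g : G, g • l := by
      intro h
      rw [Finset.smul_sum]
      exact Fintype.sum_equiv (Equiv.mulLeft h) _ _ (fun g => by simp [mul_smul])
    obtain ⟨k, hk⟩ := (IsGaloisGroup.isInvariant (G := G) (A := K) (B := L)).isInvariant _ hinv
    refine ⟨a ⊗ₜ k, ?_⟩
    rw [SL.map_tmul, hk, TensorProduct.tmul_sum]
    rfl
  | add x y hx hy =>
    obtain ⟨x', hx'⟩ := hx
    obtain ⟨y', hy'⟩ := hy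
    refine ⟨x' + y', ?_⟩
    rw [map_add, hx', hy', ← Finset.sum_add_distrib]
    simp only [smul_add]

/-- **Galois descent for the semi-local algebra**: `(ℚ_q ⊗ L)^G = ℚ_q ⊗ K`. -/
theorem SL.exists_map_eq_of_forall_smul_eq (x : SL q L) (hx : ∀ g : G, g • x = x) :
    ∃ y : SL q K, SL.map q (algebraMap K L) y = x := by
  classical
  letI := Fintype.ofFinite G
  obtain ⟨y, hy⟩ := SL.exists_map_eq_sum_smul q (K := K) (G := G) x
  rw [finsum_eq_sum_of_fintype] at hy
  have h1 : ∑ g : G, g • x = (Fintype.card G : ℚ_[q]) • x := by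
    rw [Finset.sum_congr rfl (fun g _ => hx g), Finset.sum_const, Finset.card_univ,
      Nat.cast_smul_eq_nsmul]
  have hne : (Fintype.card G : ℚ_[q]) ≠ 0 := Nat.cast_ne_zero.2 Fintype.card_ne_zero
  refine ⟨(Fintype.card G : ℚ_[q])⁻¹ • y, ?_⟩
  rw [map_smul, hy, h1, smul_smul, inv_mul_cancel₀ hne, one_smul]

/-- Galois descent for the units of the semi-local algebra. -/
theorem SL.exists_unitsMap_eq_of_forall_smul_eq (u : (SL q L)ˣ) (hu : ∀ g : G, g • u = u) :
    ∃ v : (SL q K)ˣ, SL.unitsMap q (algebraMap K L) v = u := by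
  have h1 : ∀ g : G, g • (u : SL q L) = u := fun g => congrArg Units.val (hu g)
  have h2 : ∀ g : G, g • ((u⁻¹ : (SL q L)ˣ) : SL q L) = (u⁻¹ : (SL q L)ˣ) := fun g => by
    have := congrArg (fun w : (SL q L)ˣ => ((w⁻¹ : (SL q L)ˣ) : SL q L)) (hu g)
    simpa using this
  obtain ⟨y, hy⟩ := SL.exists_map_eq_of_forall_smul_eq q (K := K) _ h1
  obtain ⟨z, hz⟩ := SL.exists_map_eq_of_forall_smul_eq q (K := K) _ h2
  have hyz : y * z = 1 := by
    apply SL.map_injective q (algebraMap K L)
    rw [map_mul, hy, hz, map_one, Units.mul_inv]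
  exact ⟨⟨y, z, hyz, by rw [mul_comm]; exact hyz⟩, Units.ext hy⟩

end Invariants

section IdeleInvariants

variable (S : Finset Nat.Primes) {K L : Type} [Field K] [CharZero K] [Field L] [CharZero L]
  [Algebra K L] {G : Type} [Group G] [Finite G] [MulSemiringAction G L] [IsGaloisGroup G K L]

omit [Algebra K L] in
theorem FinIdele.map_injective (f : K →+* L) : Function.Injective (FinIdele.map f) := by
  intro x y hxy
  ext q
  have := congrArg (FinIdele.comp q) hxy
  rw [FinIdele.comp_map, FinIdele.comp_map] at this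
  exact congrArg Units.val (SL.unitsMap_injective (q : ℕ) f this)

omit [Finite G] in
theorem FinIdele.smul_map_algebraMap (g : G) (y : FinIdele K) :
    g • FinIdele.map (algebraMap K L) y = FinIdele.map (algebraMap K L) y := by
  ext q
  rw [FinIdele.comp_smul, FinIdele.comp_map]
  exact SL.smul_map_algebraMap (q : ℕ) g _

/-- **Galois descent for finite ideles**: `(J_L)^G = J_K`. -/
theorem FinIdele.exists_map_eq_of_forall_smul_eq (x : FinIdele L) (hx : ∀ g : G, g • x = x) :
    ∃ y : FinIdele K, FinIdele.map (algebraMap K L) y = x := by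
  have h : ∀ q : Nat.Primes, ∃ v : (SL (q : ℕ) K)ˣ,
      SL.unitsMap (q : ℕ) (algebraMap K L) v = FinIdele.comp q x := by
    intro q
    apply SL.exists_unitsMap_eq_of_forall_smul_eq (q : ℕ) (K := K) (G := G)
    intro g
    rw [← FinIdele.comp_smul, hx g]
  choose v hv using h
  refine ⟨FinIdele.mk v ?_, ?_⟩
  · refine x.finite_notMem_unitGroup.subset fun q hq h => hq ?_
    rw [← hv q] at h
    exact (SL.unitsMap_mem_unitGroup_iff (q : ℕ) _).1 h
  · ext q
    rw [FinIdele.comp_map, FinIdele.comp_mk, hv q]

omit [Algebra K L] in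
theorem FinIdele.map_mem_unitsOutside_iff (f : K →+* L) {y : FinIdele K} :
    FinIdele.map f y ∈ unitsOutside S L ↔ y ∈ unitsOutside S K := by
  refine ⟨fun h => ⟨fun q hq => ?_, fun q hq => ?_⟩, map_mem_unitsOutside S f⟩
  · have := h.1 q hq
    rw [FinIdele.comp_map] at this
    apply SL.unitsMap_injective (q : ℕ) f
    rw [this, map_one]
  · have := h.2 q hq
    rw [FinIdele.comp_map] at this
    exact (SL.unitsMap_mem_unitGroup_iff (q : ℕ) f).1 this

end IdeleInvariants

end

end Fermat.Agent.CFT.Global
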