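import Fermat.Agent.Lib.CFT.Global.Defs

/-!
# P4 / Layer C: the structure of the semi-local algebra `SL q K = ℚ_q ⊗ K`

For a number field `K` the algebra `SL q K` is finite étale over `ℚ_q`: reduced and Artinian, hence
the product of its residue fields `Kv w`, `w : Place q K = MaximalSpectrum (SL q K)`.  Each `Kv w`
is a finite extension of `ℚ_q` (a local field in the sense of layer B) containing `K`.
-/

set_option autoImplicit false

open scoped TensorProduct

namespace Fermat.Agent.CFT.Global

noncomputable section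

section Structure

variable (q : ℕ) [Fact q.Prime] (K : Type) [Field K] [NumberField K]

instance : IsArtinianRing (SL q K) := IsArtinianRing.of_finite ℚ_[q] (SL q K)

instance : Algebra.FormallyUnramified ℚ_[q] (SL q K) :=
  have : Algebra.FormallyUnramified ℚ K := Algebra.FormallyUnramified.of_isSeparable ℚ K
  inferInstance

instance : IsReduced (SL q K) := Algebra.FormallyUnramified.isReduced_of_field ℚ_[q] (SL q K)

instance : Nontrivial (SL q K) := by
  have h : Module.finrank ℚ_[q] (SL q K) = Module.finrank ℚ K := by simp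
  have h2 : 0 < Module.finrank ℚ_[q] (SL q K) := h ▸ Module.finrank_pos
  exact Module.nontrivial_of_finrank_pos (R := ℚ_[q]) h2

/-- The places of `K` above `q`: the maximal ideals of `ℚ_q ⊗ K`. -/
abbrev Place : Type := MaximalSpectrum (SL q K)

instance : Finite (Place q K) := inferInstance

variable {q K}

/-- The completion of `K` at the place `w`: the residue field of `ℚ_q ⊗ K` at `w`. -/
abbrev Kv (w : Place q K) : Type := SL q K ⧸ w.asIdeal

instance (w : Place q K) : Field (Kv w) := Ideal.Quotient.field w.asIdeal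

instance (w : Place q K) : Module.Finite ℚ_[q] (Kv w) :=
  Module.Finite.of_surjective (Ideal.Quotient.mkₐ ℚ_[q] w.asIdeal).toLinearMap
    (Ideal.Quotient.mkₐ_surjective ℚ_[q] w.asIdeal)

/-- The projection `ℚ_q ⊗ K → K_w`. -/
def Kv.proj (w : Place q K) : SL q K →ₐ[ℚ_[q]] Kv w := Ideal.Quotient.mkₐ ℚ_[q] w.asIdeal

lemma Kv.proj_surjective (w : Place q K) : Function.Surjective (Kv.proj w) :=
  Ideal.Quotient.mkₐ_surjective ℚ_[q] w.asIdeal

/-- The embedding `K → K_w`. -/
def Kv.emb (w : Place q K) : K →+* Kv w := (Kv.proj w : SL q K →+* Kv w).comp (SL.incl q K)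

variable (q K) in
/-- `ℚ_q ⊗ K` is the product of the completions. -/
def SL.equivPi : SL q K ≃ₐ[ℚ_[q]] ∀ w : Place q K, Kv w :=
  (IsArtinianRing.equivPi (SL q K)).restrictScalars ℚ_[q]

@[simp] lemma SL.equivPi_apply (x : SL q K) (w : Place q K) :
    SL.equivPi q K x w = Kv.proj w x := rfl

end Structure

/-! ## Ramification -/

section Ramification

variable (q : ℕ) [Fact q.Prime] (K : Type) [Field K] [CharZero K]

/-- `K / ℚ` is unramified at `q`: `q` generates a radical ideal in the maximal order of `ℚ_q ⊗ K`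
(i.e. `q` is a uniformizer in every completion `K_w`, `w ∣ q`). -/
def UnramifiedAt : Prop :=
  (Ideal.span {algebraMap ℤ_[q] (SL.integers q K) (q : ℤ_[q])}).IsRadical

end Ramification

/-- `K / ℚ` is unramified outside the finite set of primes `S`. -/
def UnramifiedOutside (S : Finset Nat.Primes) (K : Type) [Field K] [CharZero K] : Prop :=
  ∀ r : Nat.Primes, r ∉ S → UnramifiedAt (r : ℕ) K

/-! ## The action of a group on the places -/

section PlaceAction

variable {q : ℕ} [Fact q.Prime] {K : Type} [Field K] [NumberField K]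
variable {G : Type} [Group G] [MulSemiringAction G K]

instance : MulAction G (Place q K) where
  smul g w := ⟨w.asIdeal.comap (MulSemiringAction.toRingEquiv G (SL q K) g⁻¹), inferInstance⟩
  one_smul w := by
    apply MaximalSpectrum.ext
    ext x
    change (1 : G)⁻¹ • x ∈ w.asIdeal ↔ _
    rw [inv_one, one_smul]
  mul_smul g h w := by
    apply MaximalSpectrum.ext
    ext x
    change (g * h)⁻¹ • x ∈ w.asIdeal ↔ h⁻¹ • g⁻¹ • x ∈ w.asIdeal
    rw [mul_inv_rev, mul_smul]

lemma Place.mem_smul_iff (g : G) (w : Place q K) (x : SL q K) :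
    x ∈ (g • w).asIdeal ↔ g⁻¹ • x ∈ w.asIdeal := Iff.rfl

lemma Place.smul_mem_smul_iff (g : G) (w : Place q K) (x : SL q K) :
    g • x ∈ (g • w).asIdeal ↔ x ∈ w.asIdeal := by
  rw [Place.mem_smul_iff, inv_smul_smul]

/-- The decomposition group of the place `w`. -/
def decompGroup (G : Type) [Group G] [MulSemiringAction G K] (w : Place q K) : Subgroup G :=
  MulAction.stabilizer G w

lemma mem_decompGroup_iff (g : G) (w : Place q K) : g ∈ decompGroup G w ↔ g • w = w := Iff.rfl

/-- An element `g` induces an isomorphism `K_w ≃ K_{g w}` over `ℚ_q`. -/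
def Kv.congr (g : G) (w : Place q K) : Kv w ≃ₐ[ℚ_[q]] Kv (g • w) :=
  Ideal.quotientEquivAlg w.asIdeal (g • w).asIdeal
    (MulSemiringAction.toAlgEquiv ℚ_[q] (SL q K) g) (by
      ext x
      rw [Place.mem_smul_iff]
      change _ ↔ x ∈ Ideal.map (((MulSemiringAction.toAlgEquiv ℚ_[q] (SL q K) g : SL q K ≃+* SL q K))
        : SL q K →+* SL q K) w.asIdeal
      rw [Ideal.map_comap_of_equiv, Ideal.mem_comap]
      rfl)

end PlaceAction

end

end Fermat.Agent.CFT.Global
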