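/-
P4 / Layer C1e (part 2): places of an extension `L / K` of number fields above a place of `K`;
for a Galois extension the Galois group permutes the places above `v` transitively.
-/
import Fermat.Agent.Lib.CFT.Global.Places
import Fermat.Agent.Lib.CFT.Global.Invariants

set_option autoImplicit false

open scoped TensorProduct Pointwise

namespace Fermat.Agent.CFT.Global

noncomputable section

section Under

variable {q : ℕ} [Fact q.Prime] {K L : Type} [Field K] [NumberField K] [Field L] [NumberField L]

/-- The place of `K` below the place `w` of `L` (along `f : K →+* L`). -/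
def Place.under (f : K →+* L) (w : Place q L) : Place q K :=
  ⟨w.asIdeal.comap (SL.map q f), by
    haveI : (w.asIdeal.comap (SL.map q f)).IsPrime := Ideal.comap_isPrime _ _
    exact IsArtinianRing.isMaximal_of_isPrime _⟩

lemma Place.mem_under_iff (f : K →+* L) (w : Place q L) (x : SL q K) :
    x ∈ (Place.under f w).asIdeal ↔ SL.map q f x ∈ w.asIdeal := Iff.rfl

/-- The embedding of completions `K_v → L_w` for `v` the place below `w`. -/
def Kv.map (f : K →+* L) (w : Place q L) : Kv (Place.under f w) →ₐ[ℚ_[q]] Kv w :=
  Ideal.quotientMapₐ w.asIdeal (SL.map q f) (le_refl _)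

@[simp] lemma Kv.map_proj (f : K →+* L) (w : Place q L) (x : SL q K) :
    Kv.map f w (Kv.proj (Place.under f w) x) = Kv.proj w (SL.map q f x) := rfl

lemma Kv.map_emb (f : K →+* L) (w : Place q L) (x : K) :
    Kv.map f w (Kv.emb (Place.under f w) x) = Kv.emb w (f x) := rfl

lemma Kv.map_injective (f : K →+* L) (w : Place q L) : Function.Injective (Kv.map f w) :=
  (Kv.map f w).toRingHom.injective

/-- **Lying over**: every place of `K` has a place of `L` above it. -/
theorem Place.under_surjective (f : K →+* L) :
    Function.Surjective (Place.under (q := q) f) := by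
  intro v
  letI : Algebra (SL q K) (SL q L) := (SL.map q f).toRingHom.toAlgebra
  haveI : IsScalarTower ℚ_[q] (SL q K) (SL q L) := IsScalarTower.of_algebraMap_eq fun a => by
    change algebraMap ℚ_[q] (SL q L) a = SL.map q f (algebraMap ℚ_[q] (SL q K) a)
    rw [AlgHom.commutes]
  haveI : Algebra.IsIntegral (SL q K) (SL q L) :=
    ⟨fun x => (Algebra.IsIntegral.isIntegral (R := ℚ_[q]) x).tower_top⟩
  have hker : RingHom.ker (algebraMap (SL q K) (SL q L)) ≤ v.asIdeal := by
    intro x hx
    have : SL.map q f x = 0 := hx
    rw [← map_zero (SL.map q f)] at this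
    rw [SL.map_injective q f this]
    exact zero_mem _
  obtain ⟨Q, hQ, hQv⟩ := Ideal.exists_ideal_over_maximal_of_isIntegral v.asIdeal hker
  exact ⟨⟨Q, hQ⟩, MaximalSpectrum.ext hQv⟩

end Under

/-! ## The primitive idempotents of the semi-local algebra -/

section Idem

variable {q : ℕ} [Fact q.Prime] {K : Type} [Field K] [NumberField K]

open Classical in
/-- The primitive idempotent of `ℚ_q ⊗ K` at the place `w`. -/
def Place.idem (w : Place q K) : SL q K :=
  (SL.equivPi q K).symm (Pi.single (M := fun w : Place q K => Kv w) w (1 : Kv w))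

open Classical in
lemma Place.proj_idem (w w' : Place q K) :
    Kv.proj w' (Place.idem w) = if w' = w then 1 else 0 := by
  rw [← SL.equivPi_apply, Place.idem, AlgEquiv.apply_symm_apply]
  split_ifs with h
  · subst h
    exact Pi.single_eq_same (M := fun w : Place q K => Kv w) _ _
  · exact Pi.single_eq_of_ne (M := fun w : Place q K => Kv w) h _

lemma Place.proj_idem_self (w : Place q K) : Kv.proj w (Place.idem w) = 1 := by
  classical
  rw [Place.proj_idem, if_pos rfl]

lemma Place.proj_idem_of_ne {w w' : Place q K} (h : w' ≠ w) :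
    Kv.proj w' (Place.idem w) = 0 := by
  classical
  rw [Place.proj_idem, if_neg h]

lemma Place.idem_mem_of_ne {w w' : Place q K} (h : w' ≠ w) : Place.idem w ∈ w'.asIdeal :=
  Ideal.Quotient.eq_zero_iff_mem.1 (Place.proj_idem_of_ne h)

/-- two elements of the semi-local algebra with the same projections are equal -/
lemma SL.ext_proj {x y : SL q K} (h : ∀ w : Place q K, Kv.proj w x = Kv.proj w y) : x = y := by
  apply (SL.equivPi q K).injective
  funext w
  exact h w

lemma Place.idem_isIdempotentElem (w : Place q K) : IsIdempotentElem (Place.idem w) := by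
  classical
  apply SL.ext_proj
  intro w'
  rw [map_mul, Place.proj_idem]
  split_ifs <;> simp

lemma Place.idem_mul_idem_of_ne {w w' : Place q K} (h : w ≠ w') :
    Place.idem w * Place.idem w' = 0 := by
  classical
  apply SL.ext_proj
  intro w''
  rw [map_mul, Place.proj_idem, Place.proj_idem, map_zero]
  split_ifs with h1 h2
  · exact absurd (h1.symm.trans h2) h
  · simp
  · simp
  · simp

lemma Place.sum_idem [Fintype (Place q K)] : ∑ w : Place q K, Place.idem w = 1 := by
  classical
  apply SL.ext_proj
  intro w'
  rw [map_sum, map_one, Finset.sum_eq_single w']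
  · exact Place.proj_idem_self w'
  · intro w _ hw
    exact Place.proj_idem_of_ne hw.symm
  · intro h
    exact absurd (Finset.mem_univ _) h

lemma Place.one_sub_idem_mem (w : Place q K) : 1 - Place.idem w ∈ w.asIdeal := by
  apply Ideal.Quotient.eq_zero_iff_mem.1
  change Kv.proj w (1 - Place.idem w) = 0
  rw [map_sub, map_one, Place.proj_idem_self, sub_self]

lemma Place.mem_asIdeal_iff_idem_mul (w : Place q K) (x : SL q K) :
    x ∈ w.asIdeal ↔ Place.idem w * x = 0 := by
  classical
  constructor
  · intro hx
    apply SL.ext_proj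
    intro w'
    rw [map_mul, map_zero, Place.proj_idem]
    split_ifs with h
    · subst h
      rw [one_mul]
      exact Ideal.Quotient.eq_zero_iff_mem.2 hx
    · rw [zero_mul]
  · intro hx
    have := congrArg (Kv.proj w) hx
    rw [map_mul, Place.proj_idem_self, one_mul, map_zero] at this
    exact Ideal.Quotient.eq_zero_iff_mem.1 this

lemma Place.asIdeal_eq_span (w : Place q K) : w.asIdeal = Ideal.span {1 - Place.idem w} := by
  apply le_antisymm
  · intro x hx
    rw [Ideal.mem_span_singleton']
    refine ⟨x, ?_⟩
    rw [mul_sub, mul_one, mul_comm, (Place.mem_asIdeal_iff_idem_mul w x).1 hx, sub_zero]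
  · rw [Ideal.span_singleton_le_iff_mem]
    exact Place.one_sub_idem_mem w

/-- idempotents are integral -/
lemma Place.idem_mem_integers (w : Place q K) : Place.idem w ∈ SL.integers q K := by
  rw [SL.mem_integers_iff]
  refine ⟨Polynomial.X ^ 2 - Polynomial.X, ?_, ?_⟩
  · exact Polynomial.monic_X_pow_sub (by
      rw [Polynomial.degree_X]; norm_num)
  · have := (Place.idem_isIdempotentElem w).eq
    simp [pow_two, this]

end Idem

section IdemAction

variable {q : ℕ} [Fact q.Prime] {K : Type} [Field K] [NumberField K]
  {G : Type} [Group G] [MulSemiringAction G K]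

lemma Kv.proj_smul_eq_zero_iff (g : G) (w : Place q K) (x : SL q K) :
    Kv.proj w (g • x) = 0 ↔ Kv.proj (g⁻¹ • w) x = 0 := by
  change Ideal.Quotient.mk _ _ = 0 ↔ Ideal.Quotient.mk _ _ = 0
  rw [Ideal.Quotient.eq_zero_iff_mem, Ideal.Quotient.eq_zero_iff_mem, Place.mem_smul_iff, inv_inv]

lemma Place.smul_idem (g : G) (w : Place q K) : g • Place.idem w = Place.idem (g • w) := by
  classical
  apply SL.ext_proj
  intro w'
  by_cases h : w' = g • w
  · subst h
    rw [Place.proj_idem_self]
    have h1 : Kv.proj (g • w) (g • (1 - Place.idem w)) = 0 := by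
      rw [Kv.proj_smul_eq_zero_iff, inv_smul_smul]
      exact Ideal.Quotient.eq_zero_iff_mem.2 (Place.one_sub_idem_mem w)
    rw [smul_sub, smul_one, map_sub, map_one, sub_eq_zero] at h1
    exact h1.symm
  · rw [Place.proj_idem_of_ne h, Kv.proj_smul_eq_zero_iff]
    apply Place.proj_idem_of_ne
    intro h'
    apply h
    rw [← h', smul_inv_smul]

end IdemAction

section Galois

variable {q : ℕ} [Fact q.Prime] {K L : Type} [Field K] [NumberField K] [Field L] [NumberField L]
  [Algebra K L] {G : Type} [Group G] [MulSemiringAction G L]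

lemma Place.under_smul [IsGaloisGroup G K L] (g : G) (w : Place q L) :
    Place.under (algebraMap K L) (g • w) = Place.under (algebraMap K L) w := by
  apply MaximalSpectrum.ext
  ext x
  rw [Place.mem_under_iff, Place.mem_under_iff, Place.mem_smul_iff, SL.smul_map_algebraMap]

variable [Finite G] [IsGaloisGroup G K L]

/-- **Transitivity**: the Galois group permutes the places above a given place transitively. -/
theorem Place.exists_smul_eq_of_under_eq {w w' : Place q L}
    (h : Place.under (algebraMap K L) w = Place.under (algebraMap K L) w') :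
    ∃ g : G, g • w = w' := by
  letI : Algebra (SL q K) (SL q L) := (SL.map q (algebraMap K L)).toRingHom.toAlgebra
  haveI : SMulCommClass G (SL q K) (SL q L) := ⟨fun g a b => by
    change g • (SL.map q (algebraMap K L) a * b) = SL.map q (algebraMap K L) a * g • b
    rw [smul_mul', SL.smul_map_algebraMap]⟩
  haveI : Algebra.IsInvariant (SL q K) (SL q L) G :=
    ⟨fun b hb => SL.exists_map_eq_of_forall_smul_eq q b hb⟩
  haveI := w.isMaximal.isPrime
  haveI := w'.isMaximal.isPrime
  have h' : w.asIdeal.under (SL q K) = w'.asIdeal.under (SL q K) :=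
    congrArg MaximalSpectrum.asIdeal h
  obtain ⟨g, hg⟩ := Algebra.IsInvariant.exists_smul_of_under_eq (SL q K) (SL q L) G
    w.asIdeal w'.asIdeal h'
  refine ⟨g, MaximalSpectrum.ext ?_⟩
  rw [hg]
  ext x
  rw [Place.mem_smul_iff, Ideal.mem_pointwise_smul_iff_inv_smul_mem]

end Galois

end

end Fermat.Agent.CFT.Global
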