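/-
P4 / Layer C5-d (AR4): Frobenius elements and roots of unity.

Let `L / ℚ` be a finite Galois extension with group `G` (`IsGaloisGroup G ℚ L`), unramified at the
prime `q`, and `w` a place of `L` above `q`.

* `Frob.exists_isArithFrobAt_zpowers` : (classical form) for a prime `P` of `𝓞 L` above `q` with
  trivial inertia group, the decomposition group is generated by a Frobenius element;
* `Frob.toPrime_smul`, `Frob.decompGroup_eq_stabilizer` : the dictionary `Place q L → primes of 𝓞 L`
  is `G`-equivariant, hence `decompGroup G w` is the stabilizer of the prime `Place.toPrime w`;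
* `exists_smul_eq_pow_of_mem_decompGroup_inf` (AR4): for `N ≤ G` and `f = |D_w| / |D_w ∩ N|`, every
  `g ∈ D_w ∩ N` acts on the roots of unity of order prime to `q` by `ζ ↦ ζ ^ (q ^ (f * j))`.
-/
import Fermat.Agent.Lib.CFT.Global.UnramifiedClassical
import Fermat.Agent.Lib.CFT.Global.PlacesOver

set_option autoImplicit false
set_option linter.style.haveILetI false
set_option linter.unusedSectionVars false

open NumberField IsDedekindDomain
open scoped Pointwise TensorProduct

namespace Fermat.Agent.CFT.Global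

noncomputable section

namespace Frob

section Abstract

variable {R S : Type*} [CommRing R] [CommRing S] [Algebra R S] {G : Type*} [Group G]
  [MulSemiringAction G S] [SMulCommClass G R S] {Q : Ideal S} {σ : G}

/-- iterating a Frobenius element -/
lemma mk_pow_smul (h : IsArithFrobAt R σ Q) (i : ℕ) (x : S) :
    Ideal.Quotient.mk Q (σ ^ i • x) =
      (Ideal.Quotient.mk Q x) ^ (Nat.card (R ⧸ Q.under R) ^ i) := by
  induction i generalizing x with
  | zero => simp
  | succ i ih =>
    rw [pow_succ', mul_smul]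
    have h1 : Ideal.Quotient.mk Q (σ • (σ ^ i • x)) =
        (Ideal.Quotient.mk Q (σ ^ i • x)) ^ Nat.card (R ⧸ Q.under R) :=
      AlgHom.IsArithFrobAt.mk_apply h (σ ^ i • x)
    rw [h1, ih, ← pow_mul, pow_succ]

/-- the action of the powers of a Frobenius element on roots of unity of order prime to `Q` -/
lemma pow_smul_of_pow_eq_one [IsDomain S] (h : IsArithFrobAt R σ Q) {ζ : S} {m : ℕ}
    (hζ : ζ ^ m = 1) (hm : (m : S) ∉ Q) (i : ℕ) :
    σ ^ i • ζ = ζ ^ (Nat.card (R ⧸ Q.under R) ^ i) := by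
  induction i with
  | zero => simp
  | succ i ih =>
    rw [pow_succ', mul_smul, ih]
    have h1 : (ζ ^ (Nat.card (R ⧸ Q.under R) ^ i)) ^ m = 1 := by
      rw [← pow_mul, mul_comm, pow_mul, hζ, one_pow]
    have h2 := AlgHom.IsArithFrobAt.apply_of_pow_eq_one h h1 hm
    have h3 : σ • (ζ ^ (Nat.card (R ⧸ Q.under R) ^ i)) =
        (ζ ^ (Nat.card (R ⧸ Q.under R) ^ i)) ^ Nat.card (R ⧸ Q.under R) := h2
    rw [h3, ← pow_mul, pow_succ]

end Abstract

/-- in a finite field whose elements all satisfy `x ^ m = x`, there are at most `m` elements -/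
lemma natCard_le_of_forall_pow_eq {k : Type*} [Field k] [Finite k] {m : ℕ} (hm : 1 < m)
    (h : ∀ x : k, x ^ m = x) : Nat.card k ≤ m := by
  classical
  haveI : Fintype k := Fintype.ofFinite k
  have hne : (Polynomial.X ^ m - Polynomial.X : Polynomial k) ≠ 0 :=
    FiniteField.X_pow_card_sub_X_ne_zero k hm
  have hsub : (Finset.univ : Finset k).val ⊆
      (Polynomial.X ^ m - Polynomial.X : Polynomial k).roots := by
    intro x _
    rw [Polynomial.mem_roots hne, Polynomial.IsRoot.def]
    simp [h x]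
  have := Polynomial.card_le_degree_of_subset_roots hsub
  rw [FiniteField.X_pow_card_sub_X_natDegree_eq k hm, Finset.card_univ,
    ← Nat.card_eq_fintype_card] at this
  exact this

section NumberField

variable {L : Type} [Field L] [NumberField L] {G : Type} [Group G] [Finite G]
  [MulSemiringAction G L] [IsGaloisGroup G ℚ L]

/-- `G` is a Galois group for `𝓞 L / ℤ` -/
lemma isGaloisGroup_int : IsGaloisGroup G ℤ (𝓞 L) := IsGaloisGroup.of_isFractionRing G ℤ (𝓞 L) ℚ L

variable (q : ℕ) [hq : Fact q.Prime]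

lemma natCard_int_quotient_under {P : Ideal (𝓞 L)} [P.IsPrime] (hqP : ((q : ℕ) : 𝓞 L) ∈ P) :
    Nat.card (ℤ ⧸ P.under ℤ) = q := by
  have := liesOver_span_natCast_of_mem hqP
  rw [← Ideal.over_def P (Ideal.span {((q : ℕ) : ℤ)}),
    Nat.card_congr (Int.quotientSpanNatEquivZMod q).toEquiv, Nat.card_zmod]

/-- **Unramified primes: the decomposition group is generated by a Frobenius element.** -/
theorem exists_isArithFrobAt_zpowers {P : Ideal (𝓞 L)} [P.IsPrime]
    (hqP : ((q : ℕ) : 𝓞 L) ∈ P) (hin : Ideal.inertia G P = ⊥) :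
    ∃ φ : G, (haveI := isGaloisGroup_int (L := L) (G := G); IsArithFrobAt ℤ φ P) ∧
      MulAction.stabilizer G P = Subgroup.zpowers φ := by
  haveI := isGaloisGroup_int (L := L) (G := G)
  haveI := liesOver_span_natCast_of_mem hqP
  haveI := (isMaximal_span_natCast_int q).isPrime
  have hP0 : P ≠ ⊥ := by
    rintro rfl
    rw [Ideal.mem_bot] at hqP
    exact hq.out.ne_zero (by exact_mod_cast hqP)
  haveI : Finite (𝓞 L ⧸ P) := Ideal.finiteQuotientOfFreeOfNeBot P hP0
  obtain ⟨φ, hφ⟩ := IsArithFrobAt.exists_of_isInvariant ℤ G P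
  refine ⟨φ, hφ, ?_⟩
  have hle : Subgroup.zpowers φ ≤ MulAction.stabilizer G P := by
    rw [Subgroup.zpowers_le]
    exact hφ.mem_stabilizer
  have hcard : Nat.card (MulAction.stabilizer G P) = P.inertiaDeg ℤ := by
    rw [Ideal.card_stabilizer_eq_card_inertia_mul_finrank (Ideal.span {((q : ℕ) : ℤ)}) P, hin,
      Subgroup.card_bot, one_mul]
  have hc := natCard_int_quotient_under q hqP
  have hord : P.inertiaDeg ℤ ≤ orderOf φ := by
    have hd : 0 < orderOf φ := orderOf_pos φ
    have hm : 1 < q ^ orderOf φ := Nat.one_lt_pow hd.ne' hq.out.one_lt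
    haveI hPmax : P.IsMaximal := Ideal.IsPrime.isMaximal inferInstance hP0
    haveI := isMaximal_span_natCast_int q
    letI : Field (𝓞 L ⧸ P) := Ideal.Quotient.field P
    have hall : ∀ x : 𝓞 L ⧸ P, x ^ (q ^ orderOf φ) = x := by
      intro x
      obtain ⟨b, rfl⟩ := Ideal.Quotient.mk_surjective x
      have h := mk_pow_smul hφ (orderOf φ) b
      rw [pow_orderOf_eq_one, one_smul, hc] at h
      exact h.symm
    have hcard' := natCard_le_of_forall_pow_eq hm hall
    have habs : Nat.card (𝓞 L ⧸ P) = q ^ P.inertiaDeg ℤ := by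
      have h1 := Ideal.absNorm_eq_pow_inertiaDeg' P hq.out
      rw [Ideal.inertiaDeg'_eq_inertiaDeg, Ideal.absNorm_apply, Submodule.cardQuot_apply] at h1
      exact h1
    rw [habs] at hcard'
    exact (Nat.pow_le_pow_iff_right hq.out.one_lt).1 hcard'
  refine (Subgroup.eq_of_le_of_card_ge hle ?_).symm
  rw [Nat.card_zpowers, hcard]
  exact hord

end NumberField

section Dict

variable {q : ℕ} [hq : Fact q.Prime] {L : Type} [Field L] [NumberField L] {G : Type} [Group G]
  [MulSemiringAction G L]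

lemma congr_emb (g : G) (w : Place q L) (x : L) :
    Kv.congr g w (Kv.emb w x) = Kv.emb (g • w) (g • x) := by
  have h : g • SL.incl q L x = SL.incl q L (g • x) := rfl
  change Kv.congr g w (Ideal.Quotient.mk _ (SL.incl q L x)) = Ideal.Quotient.mk _ (SL.incl q L (g • x))
  rw [← h]
  rfl

/-- the isomorphism of the rings of integers induced by `Kv.congr` -/
def owCongr (g : G) (w : Place q L) : Ow w ≃+* Ow (g • w) where
  toFun x := ⟨Kv.congr g w x, IsIntegral.map ((Kv.congr g w).toAlgHom.restrictScalars ℤ_[q]) x.2⟩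
  invFun y := ⟨(Kv.congr g w).symm y,
    IsIntegral.map ((Kv.congr g w).symm.toAlgHom.restrictScalars ℤ_[q]) y.2⟩
  left_inv x := Subtype.ext ((Kv.congr g w).symm_apply_apply x)
  right_inv y := Subtype.ext ((Kv.congr g w).apply_symm_apply y)
  map_mul' _ _ := Subtype.ext (map_mul (Kv.congr g w) _ _)
  map_add' _ _ := Subtype.ext (map_add (Kv.congr g w) _ _)

lemma owCongr_embInt (g : G) (w : Place q L) (a : 𝓞 L) :
    owCongr g w (Place.embInt w a) = Place.embInt (g • w) (g • a) := by
  apply Subtype.ext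
  change Kv.congr g w (Kv.emb w (a : L)) = Kv.emb (g • w) ((g • a : 𝓞 L) : L)
  rw [congr_emb]
  rfl

/-- **equivariance of the dictionary** -/
theorem smul_mem_toPrime_smul_iff (g : G) (w : Place q L) (a : 𝓞 L) :
    g • a ∈ (Place.toPrime (g • w)).asIdeal ↔ a ∈ (Place.toPrime w).asIdeal := by
  rw [Place.mem_toPrime_iff, Place.mem_toPrime_iff, ← owCongr_embInt,
    IsLocalRing.mem_maximalIdeal, IsLocalRing.mem_maximalIdeal, mem_nonunits_iff, mem_nonunits_iff,
    MulEquiv.isUnit_map]

theorem toPrime_smul (g : G) (w : Place q L) :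
    (Place.toPrime (g • w)).asIdeal = g • (Place.toPrime w).asIdeal := by
  ext a
  rw [Ideal.mem_pointwise_smul_iff_inv_smul_mem, ← smul_mem_toPrime_smul_iff g w (g⁻¹ • a),
    smul_inv_smul]

theorem decompGroup_eq_stabilizer (w : Place q L) :
    decompGroup G w = MulAction.stabilizer G (Place.toPrime w).asIdeal := by
  ext g
  rw [mem_decompGroup_iff, MulAction.mem_stabilizer_iff, ← toPrime_smul]
  constructor
  · intro h
    rw [h]
  · intro h
    exact Place.toPrime_injective (HeightOneSpectrum.ext h)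

end Dict

section Main

variable {q : ℕ} [hq : Fact q.Prime] {L : Type} [Field L] [NumberField L] {G : Type} [Group G]
  [Finite G] [MulSemiringAction G L] [IsGaloisGroup G ℚ L]

/-- For a prime `P` of `𝓞 L` above `q`, the inertia group has order `e(P | q)`. -/
theorem card_inertia_eq_ramificationIdx' {P : Ideal (𝓞 L)} [P.IsPrime]
    (hqP : ((q : ℕ) : 𝓞 L) ∈ P) :
    Nat.card (Ideal.inertia G P) = P.ramificationIdx ℤ := by
  haveI := isGaloisGroup_int (L := L) (G := G)
  have := liesOver_span_natCast_of_mem hqP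
  have := (isMaximal_span_natCast_int q).isPrime
  rw [Ideal.card_inertia_eq_ramificationIdxIn (G := G) (Ideal.span {((q : ℕ) : ℤ)}) P,
    Ideal.ramificationIdxIn_eq_ramificationIdx (Ideal.span {((q : ℕ) : ℤ)}) P G]

theorem inertia_eq_bot_of_unramifiedAt (hunr : UnramifiedAt q L) {P : Ideal (𝓞 L)} [P.IsPrime]
    (hqP : ((q : ℕ) : 𝓞 L) ∈ P) : Ideal.inertia G P = ⊥ := by
  rw [← Subgroup.card_eq_one, card_inertia_eq_ramificationIdx' hqP]
  exact (unramifiedAt_iff_forall_ramificationIdx.1 hunr) P hqP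

/-- a natural number prime to `q` is not in a prime above `q` -/
lemma natCast_notMem_of_coprime {P : Ideal (𝓞 L)} [hP : P.IsPrime] (hqP : ((q : ℕ) : 𝓞 L) ∈ P)
    {m : ℕ} (hm : m.Coprime q) : ((m : ℕ) : 𝓞 L) ∉ P := by
  intro hmP
  obtain ⟨a, b, hab⟩ := (Nat.isCoprime_iff_coprime.2 hm)
  have h1 : ((a * (m : ℤ) + b * (q : ℤ) : ℤ) : 𝓞 L) ∈ P := by
    push_cast
    exact Ideal.add_mem _ (Ideal.mul_mem_left _ _ hmP) (Ideal.mul_mem_left _ _ hqP)
  rw [hab, Int.cast_one] at h1
  exact hP.ne_top ((Ideal.eq_top_iff_one _).2 h1)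

end Main

end Frob

section AR4

open Frob

variable {q : ℕ} [hq : Fact q.Prime] {L : Type} [Field L] [NumberField L] {G : Type} [Group G]
  [Finite G] [MulSemiringAction G L] [IsGaloisGroup G ℚ L]

/-- **Frobenius on roots of unity** (AR4): let `L / ℚ` be Galois with group `G`, unramified at `q`,
`w` a place of `L` above `q`, `N ≤ G` and `f = |D_w| / |D_w ∩ N|` (the residue degree of the fixed
field of `N` at `w`).  Every `g ∈ D_w ∩ N` acts on the roots of unity of order prime to `q` as a
power of `ζ ↦ ζ ^ (q ^ f)`. -/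
theorem exists_smul_eq_pow_of_mem_decompGroup_inf (hunr : UnramifiedAt q L) (w : Place q L)
    (N : Subgroup G) {ζ : L} {m : ℕ} (hζ : ζ ^ m = 1) (hm : m.Coprime q) {g : G}
    (hg : g ∈ decompGroup G w ⊓ N) :
    ∃ j : ℕ, g • ζ =
      ζ ^ (q ^ (Nat.card (decompGroup G w) / Nat.card ↥(decompGroup G w ⊓ N) * j)) := by
  classical
  haveI := isGaloisGroup_int (L := L) (G := G)
  set P : Ideal (𝓞 L) := (Place.toPrime w).asIdeal with hP
  have hqP : ((q : ℕ) : 𝓞 L) ∈ P := Place.natCast_mem_toPrime w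
  obtain ⟨φ, hφ, hD⟩ := exists_isArithFrobAt_zpowers (G := G) q hqP
    (inertia_eq_bot_of_unramifiedAt hunr hqP)
  rw [← decompGroup_eq_stabilizer] at hD
  -- `g` is a power of `φ`
  have hgD : g ∈ Subgroup.zpowers φ := by rw [← hD]; exact hg.1
  rw [← (isOfFinOrder_of_finite φ).mem_powers_iff_mem_zpowers, Submonoid.mem_powers_iff] at hgD
  obtain ⟨i, rfl⟩ := hgD
  -- the exponent is divisible by `f`
  set h := Nat.card ↥(decompGroup G w ⊓ N) with hh
  have hpos : 0 < h := Nat.card_pos
  have hdvd : h ∣ Nat.card (decompGroup G w) := Subgroup.card_dvd_of_le inf_le_left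
  have h1 : (φ ^ i) ^ h = 1 := by
    have := pow_card_eq_one' (G := ↥(decompGroup G w ⊓ N)) (x := ⟨φ ^ i, hg⟩)
    exact congrArg Subtype.val this
  have h2 : orderOf φ ∣ i * h := by
    rw [← pow_mul] at h1
    exact orderOf_dvd_of_pow_eq_one h1
  have h3 : orderOf φ = Nat.card (decompGroup G w) := by rw [hD, Nat.card_zpowers]
  obtain ⟨f, hf⟩ := hdvd
  have h4 : Nat.card (decompGroup G w) / h = f := by
    rw [hf, Nat.mul_div_cancel_left _ hpos]
  have h5 : f ∣ i := by
    rw [h3, hf, mul_comm h f] at h2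
    exact (Nat.mul_dvd_mul_iff_right hpos).1 h2
  obtain ⟨j, rfl⟩ := h5
  refine ⟨j, ?_⟩
  rw [h4]
  -- the action of the powers of Frobenius on roots of unity
  have hint : IsIntegral ℤ ζ := by
    have hm0 : m ≠ 0 := by
      rintro rfl
      rw [Nat.coprime_zero_left] at hm
      exact hq.out.one_lt.ne' hm
    exact IsIntegral.of_pow (Nat.pos_of_ne_zero hm0) (by rw [hζ]; exact isIntegral_one)
  set ζ' : 𝓞 L := ⟨ζ, hint⟩ with hζ'
  have hζ'm : ζ' ^ m = 1 := by
    apply RingOfIntegers.ext
    change ζ ^ m = 1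
    exact hζ
  have h6 := pow_smul_of_pow_eq_one hφ hζ'm (natCast_notMem_of_coprime hqP hm) (f * j)
  rw [natCard_int_quotient_under q hqP] at h6
  have h7 := congrArg (fun x : 𝓞 L => (x : L)) h6
  exact h7

/-- **Frobenius on `p`-power roots of unity** (AR4, in the form used for the reciprocity
character). -/
theorem exists_smul_eq_pow_of_pow_prime_pow_eq_one {p : ℕ} [hp : Fact p.Prime] (hqp : q ≠ p)
    (hunr : UnramifiedAt q L) (w : Place q L) (N : Subgroup G) {ζ : L} {k : ℕ}
    (hζ : ζ ^ (p ^ k) = 1) {g : G} (hg : g ∈ decompGroup G w ⊓ N) :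
    ∃ j : ℕ, g • ζ =
      ζ ^ (q ^ (Nat.card (decompGroup G w) / Nat.card ↥(decompGroup G w ⊓ N) * j)) :=
  exists_smul_eq_pow_of_mem_decompGroup_inf hunr w N hζ
    (Nat.Coprime.pow_left k ((Nat.coprime_primes hp.out hq.out).2 (Ne.symm hqp))) hg

end AR4

end

end Fermat.Agent.CFT.Global
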