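import Fermat.Agent.Lib.CFT.Global.KummerUnramified

/-!
# P4 / Layer C (C7): limit statements — `S`-units are `p`-divisible and `Cl_S(p)` capitulates
in the tower of finite Galois extensions of `ℚ` unramified outside `S` (`p ∈ S`)

* `exists_SUnit_root_kummerSplit` : an `S`-unit `x` of `K` is the `n`-th power of an `S`-unit in
  `kummerSplit K n {x} Ω` (all prime factors of `n` in `S`), which is unramified outside `S`.
* `CS.map_mk_mem_range_toCS` : the capitulation step (ideal-theoretically: `𝔞 ^ n = (a)` and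
  `a = b ^ n` imply `𝔞 = (b)`).
* `exists_kummerSplit_capitulation` : finitely many classes of `C_S(K)` whose `n`-th powers come from
  `S`-ideles come from `S`-ideles in some `kummerSplit K n A Ω` unramified outside `S`.
* `exists_kummerSplit_capitulation_pPart` : if `Cl_S(K) = coker (J_S → C_S)` is finite, its whole
  `p`-primary part capitulates in one such field.
-/

set_option autoImplicit false

open scoped TensorProduct
open Polynomial

namespace Fermat.Agent.CFT.Global

noncomputable section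

section SUnitRoot

variable {K : Type} [Field K] [NumberField K] {Ω : Type} [Field Ω] [Algebra ℚ Ω] [IsAlgClosed Ω]
variable {L : Type} [Field L] [NumberField L]

/-- An `n`-th root of an `S`-unit is an `S`-unit. -/
theorem mem_SUnits_of_pow_mem {S : Finset Nat.Primes} {n : ℕ} (hn : n ≠ 0) {y : Lˣ}
    (hy : y ^ n ∈ SUnits S L) : y ∈ SUnits S L := by
  intro r hr
  apply SL.mem_unitGroup_of_pow_mem (Nat.pos_of_ne_zero hn)
  rw [← map_pow]
  exact hy r hr

/-- The image of an `S`-unit is an `S`-unit. -/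
theorem map_mem_SUnits {S : Finset Nat.Primes} (f : K →+* L) {x : Kˣ} (hx : x ∈ SUnits S K) :
    Units.map (f : K →* L) x ∈ SUnits S L := by
  intro r hr
  rw [← SL.unitsMap_unitsIncl]
  exact SL.unitsMap_mem_unitGroup _ f (hx r hr)

/-- **`S`-units become `n`-th powers of `S`-units** in a finite Galois extension of `ℚ` unramified
outside `S`, if all prime factors of `n` lie in `S`. -/
theorem exists_SUnit_root_kummerSplit (S : Finset Nat.Primes) {n : ℕ} (hn0 : n ≠ 0)
    (hn : ∀ r : Nat.Primes, r ∉ S → ¬ (r : ℕ) ∣ n) (hK : UnramifiedOutside S K) (ψ : K →+* Ω)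
    {x : Kˣ} (hx : x ∈ SUnits S K) :
    UnramifiedOutside S (kummerSplit K n {(x : K)} Ω) ∧
    ∃ y ∈ SUnits S (kummerSplit K n {(x : K)} Ω),
      y ^ n = Units.map (toKummerSplit (A := {(x : K)}) hn0 ψ : K →* _) x := by
  constructor
  · apply kummerSplit_unramifiedOutside S hn hK
    intro a ha r hr
    rw [Finset.mem_singleton] at ha
    subst ha
    exact ⟨1, SL.unitsIncl (r : ℕ) K x, hx r hr, by simp [SL.unitsIncl]⟩
  · obtain ⟨b, hb⟩ := exists_unit_kummerSplit_pow_eq (A := {(x : K)}) hn0 ψ (a := x)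
      (Finset.mem_singleton_self _)
    refine ⟨b, mem_SUnits_of_pow_mem hn0 ?_, hb⟩
    rw [hb]
    exact map_mem_SUnits _ hx

/-- Roots of unity are `S`-units. -/
theorem mem_SUnits_of_pow_eq_one {S : Finset Nat.Primes} {n : ℕ} (hn : n ≠ 0) {y : Lˣ}
    (hy : y ^ n = 1) : y ∈ SUnits S L :=
  mem_SUnits_of_pow_mem hn (hy ▸ one_mem _)

end SUnitRoot

section Capitulation

variable {K : Type} [Field K] [NumberField K] {L : Type} [Field L] [NumberField L]
variable (S : Finset Nat.Primes)

/-- An idele whose components outside `S` are local units is, in `C_S`, an `S`-idele. -/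
theorem CS.mk_mem_range_toCS_of_forall_mem_unitGroup {X : FinIdele L}
    (hX : ∀ r : Nat.Primes, r ∉ S → FinIdele.comp r X ∈ SL.unitGroup (r : ℕ) L) :
    CS.mk S L X ∈ (JS.toCS S L).range := by
  let j : JS S L := fun r => FinIdele.comp (r : Nat.Primes) X
  refine ⟨j, ?_⟩
  change CS.mk S L (JS.toFinIdele S L j) = CS.mk S L X
  rw [CS.mk_eq_mk_iff]
  refine ⟨1, (JS.toFinIdele S L j) * X⁻¹, ?_, ?_⟩
  · constructor
    · intro r hr
      rw [map_mul, map_inv, JS.comp_toFinIdele_of_mem j hr]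
      exact mul_inv_cancel _
    · intro r hr
      rw [map_mul, map_inv, JS.comp_toFinIdele_of_notMem j hr, one_mul]
      exact inv_mem (hX r hr)
  · rw [map_one, mul_one, mul_comm, mul_assoc, inv_mul_cancel, mul_one]

/-- **Capitulation step.**  Let `X` be an idele of `K` with `X ^ n = j · a · u` (`j` an `S`-idele,
`a ∈ Kˣ`, `u` a unit idele outside `S`).  If `a` becomes an `n`-th power `b ^ n` in `L`, then the
class of `X` in `C_S(L)` comes from an `S`-idele. -/
theorem CS.map_mk_mem_range_toCS (f : K →+* L) {n : ℕ} (hn : n ≠ 0) {X : FinIdele K} {j : JS S K}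
    {a : Kˣ} {u : FinIdele K} (hu : u ∈ unitsOutside S K)
    (hX : X ^ n = JS.toFinIdele S K j * FinIdele.princ K a * u) {b : Lˣ}
    (hb : b ^ n = Units.map (f : K →* L) a) :
    CS.map S f (CS.mk S K X) ∈ (JS.toCS S L).range := by
  set X' : FinIdele L := FinIdele.map f X * (FinIdele.princ L b)⁻¹ with hX'
  have h1 : CS.map S f (CS.mk S K X) = CS.mk S L X' := by
    rw [CS.map_mk, CS.mk_eq_mk_iff]
    exact ⟨b, 1, one_mem _, by rw [hX', mul_one, inv_mul_cancel_right]⟩
  rw [h1]
  have key : X' ^ n = JS.toFinIdele S L (JS.map f j) * FinIdele.map f u := by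
    rw [hX', mul_pow, inv_pow, ← map_pow, ← map_pow, hX, hb, map_mul (FinIdele.map f),
      map_mul (FinIdele.map f), FinIdele.map_princ, JS.map_toFinIdele]
    rw [mul_assoc, mul_assoc, mul_comm (FinIdele.map f u), ← mul_assoc (FinIdele.princ L _),
      mul_inv_cancel, one_mul]
  apply CS.mk_mem_range_toCS_of_forall_mem_unitGroup
  intro r hr
  apply SL.mem_unitGroup_of_pow_mem (Nat.pos_of_ne_zero hn)
  rw [← map_pow, key, map_mul, JS.comp_toFinIdele_of_notMem _ hr, one_mul]
  exact (map_mem_unitsOutside S f hu).2 r hr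

end Capitulation

section Capitulation₂

variable {K : Type} [Field K] [NumberField K] (S : Finset Nat.Primes)

/-- A class of `C_S(K)` whose `n`-th power comes from an `S`-idele is represented by an idele `X`
with `X ^ n = j · a · u`. -/
theorem CS.exists_idele_pow_eq {c : CS S K} {n : ℕ} (hc : c ^ n ∈ (JS.toCS S K).range) :
    ∃ (X : FinIdele K) (j : JS S K) (a : Kˣ) (u : FinIdele K), c = CS.mk S K X ∧
      u ∈ unitsOutside S K ∧ X ^ n = JS.toFinIdele S K j * FinIdele.princ K a * u := by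
  obtain ⟨X, rfl⟩ := CS.mk_surjective S c
  obtain ⟨j, hj⟩ := hc
  rw [← map_pow] at hj
  change CS.mk S K (JS.toFinIdele S K j) = _ at hj
  obtain ⟨a, u, hu, h⟩ := (CS.mk_eq_mk_iff S).1 hj.symm
  exact ⟨X, j, a, u, rfl, hu, h⟩

/-- The local shape of `a` when `X ^ n = j · a · u`. -/
theorem exists_local_pow_mul_unit {n : ℕ} {X : FinIdele K} {j : JS S K} {a : Kˣ} {u : FinIdele K}
    (hu : u ∈ unitsOutside S K) (hX : X ^ n = JS.toFinIdele S K j * FinIdele.princ K a * u)
    (r : Nat.Primes) (hr : r ∉ S) :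
    ∃ t : (SL (r : ℕ) K)ˣ, ∃ v ∈ SL.unitGroup (r : ℕ) K,
      SL.incl (r : ℕ) K a = (t : SL (r : ℕ) K) ^ n * (v : SL (r : ℕ) K) := by
  refine ⟨FinIdele.comp r X, (FinIdele.comp r u)⁻¹, inv_mem (hu.2 r hr), ?_⟩
  have h1 := congrArg (FinIdele.comp r) hX
  rw [map_pow, map_mul, map_mul, JS.comp_toFinIdele_of_notMem _ hr, one_mul] at h1
  have h2 : SL.unitsIncl (r : ℕ) K a = FinIdele.comp r X ^ n * (FinIdele.comp r u)⁻¹ := by
    rw [h1]
    change _ = SL.unitsIncl (r : ℕ) K a * _ * _
    rw [mul_inv_cancel_right]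
  have h3 := congrArg Units.val h2
  simpa [SL.unitsIncl] using h3

variable {Ω : Type} [Field Ω] [Algebra ℚ Ω] [IsAlgClosed Ω]

/-- **Capitulation of finitely many classes.**  Finitely many classes of `C_S(K)` whose `n`-th powers
come from `S`-ideles (all prime factors of `n` in `S`) come themselves from `S`-ideles in a finite
Galois extension of `ℚ` unramified outside `S`. -/
theorem exists_kummerSplit_capitulation {n : ℕ} (hn0 : n ≠ 0)
    (hn : ∀ r : Nat.Primes, r ∉ S → ¬ (r : ℕ) ∣ n) (hK : UnramifiedOutside S K) (ψ : K →+* Ω)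
    (F : Finset (CS S K)) (hF : ∀ c ∈ F, c ^ n ∈ (JS.toCS S K).range) :
    ∃ A : Finset K, UnramifiedOutside S (kummerSplit K n A Ω) ∧
      ∀ c ∈ F, CS.map S (toKummerSplit (A := A) hn0 ψ) c ∈
        (JS.toCS S (kummerSplit K n A Ω)).range := by
  classical
  choose X j a u h1 h2 h3 using fun c : F => CS.exists_idele_pow_eq S (hF c.1 c.2)
  refine ⟨Finset.univ.image (fun c : F => ((a c : Kˣ) : K)), ?_, ?_⟩
  · apply kummerSplit_unramifiedOutside S hn hK
    intro x hx r hr
    obtain ⟨c, -, rfl⟩ := Finset.mem_image.1 hx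
    exact exists_local_pow_mul_unit S (h2 c) (h3 c) r hr
  · intro c hc
    have hmem : ((a ⟨c, hc⟩ : Kˣ) : K) ∈ Finset.univ.image (fun c : F => ((a c : Kˣ) : K)) :=
      Finset.mem_image.2 ⟨⟨c, hc⟩, Finset.mem_univ _, rfl⟩
    obtain ⟨b, hb⟩ := exists_unit_kummerSplit_pow_eq hn0 ψ hmem
    have := CS.map_mk_mem_range_toCS S (toKummerSplit hn0 ψ) hn0 (h2 ⟨c, hc⟩) (h3 ⟨c, hc⟩) hb
    rwa [← h1 ⟨c, hc⟩] at this

end Capitulation₂

section Capitulation₃

variable {K : Type} [Field K] [NumberField K] (S : Finset Nat.Primes)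
variable {Ω : Type} [Field Ω] [Algebra ℚ Ω] [IsAlgClosed Ω]

lemma not_dvd_prime_pow_of_mem {p : ℕ} (hp : p.Prime) (hpS : (⟨p, hp⟩ : Nat.Primes) ∈ S) (k : ℕ)
    (r : Nat.Primes) (hr : r ∉ S) : ¬ (r : ℕ) ∣ p ^ k := by
  intro h
  have h1 : (r : ℕ) ∣ p := r.2.dvd_of_dvd_pow h
  have h2 : (r : ℕ) = p := (Nat.prime_dvd_prime_iff_eq r.2 hp).1 h1
  apply hr
  have : r = ⟨p, hp⟩ := Subtype.ext h2
  rw [this]
  exact hpS

/-- The image of a class coming from an `S`-idele comes from an `S`-idele. -/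
lemma CS.map_mem_range_toCS {L : Type} [Field L] [NumberField L] (f : K →+* L) {c : CS S K}
    (hc : c ∈ (JS.toCS S K).range) : CS.map S f c ∈ (JS.toCS S L).range := by
  obtain ⟨j, rfl⟩ := hc
  exact ⟨JS.map f j, (JS.map_toCS f j).symm⟩

/-- **Capitulation of the `p`-part of `Cl_S(K)`** (`p ∈ S`, `Cl_S(K) = coker(J_S → C_S)` finite):
there is a finite Galois extension of `ℚ`, unramified outside `S`, in which every class of `C_S(K)`
whose image in `Cl_S(K)` has `p`-power order comes from an `S`-idele. -/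
theorem exists_kummerSplit_capitulation_pPart {p : ℕ} (hp : p.Prime)
    (hpS : (⟨p, hp⟩ : Nat.Primes) ∈ S) (hK : UnramifiedOutside S K) (ψ : K →+* Ω)
    [Finite (CS S K ⧸ (JS.toCS S K).range)] :
    ∃ (k : ℕ) (A : Finset K), UnramifiedOutside S (kummerSplit K (p ^ k) A Ω) ∧
      ∀ c : CS S K, (∃ m : ℕ, c ^ p ^ m ∈ (JS.toCS S K).range) →
        CS.map S (toKummerSplit (A := A) (pow_ne_zero k hp.ne_zero) ψ) c ∈
          (JS.toCS S (kummerSplit K (p ^ k) A Ω)).range := by
  classical
  set R := (JS.toCS S K).range with hR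
  set k := (Nat.card (CS S K ⧸ R)).factorization p with hk
  have hkey : ∀ c : CS S K, (∃ m : ℕ, c ^ p ^ m ∈ R) → c ^ p ^ k ∈ R := by
    rintro c ⟨m, hm⟩
    have h1 : (QuotientGroup.mk c : CS S K ⧸ R) ^ p ^ m = 1 := by
      rw [← QuotientGroup.mk_pow, QuotientGroup.eq_one_iff]
      exact hm
    obtain ⟨i, -, hi⟩ := (Nat.dvd_prime_pow hp).1 (orderOf_dvd_of_pow_eq_one h1)
    have h2 : p ^ i ∣ Nat.card (CS S K ⧸ R) := hi ▸ orderOf_dvd_natCard _
    have h3 : i ≤ k := (hp.pow_dvd_iff_le_factorization Nat.card_pos.ne').1 h2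
    have h4 : (QuotientGroup.mk c : CS S K ⧸ R) ^ p ^ k = 1 := by
      apply orderOf_dvd_iff_pow_eq_one.1
      rw [hi]
      exact pow_dvd_pow p h3
    rw [← QuotientGroup.mk_pow, QuotientGroup.eq_one_iff] at h4
    exact h4
  have : Fintype (CS S K ⧸ R) := Fintype.ofFinite _
  set F : Finset (CS S K) :=
    (Finset.univ.filter (fun x : CS S K ⧸ R => x ^ p ^ k = 1)).image Quotient.out with hF
  have hFpow : ∀ c ∈ F, c ^ p ^ k ∈ R := by
    intro c hc
    obtain ⟨x, hx, rfl⟩ := Finset.mem_image.1 hc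
    rw [Finset.mem_filter] at hx
    have := hx.2
    rw [← QuotientGroup.out_eq' x, ← QuotientGroup.mk_pow, QuotientGroup.eq_one_iff] at this
    exact this
  obtain ⟨A, hA1, hA2⟩ := exists_kummerSplit_capitulation S (Ω := Ω) (pow_ne_zero k hp.ne_zero)
    (not_dvd_prime_pow_of_mem S hp hpS k) hK ψ F hFpow
  refine ⟨k, A, hA1, fun c hc => ?_⟩
  have hck := hkey c hc
  set x : CS S K ⧸ R := QuotientGroup.mk c with hx
  have hxF : Quotient.out x ∈ F := by
    apply Finset.mem_image.2
    refine ⟨x, ?_, rfl⟩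
    rw [Finset.mem_filter]
    refine ⟨Finset.mem_univ _, ?_⟩
    rw [hx, ← QuotientGroup.mk_pow, QuotientGroup.eq_one_iff]
    exact hck
  have hdiff : (Quotient.out x)⁻¹ * c ∈ R := by
    rw [← QuotientGroup.eq, QuotientGroup.out_eq']
  have hc' : c = Quotient.out x * ((Quotient.out x)⁻¹ * c) := by
    rw [mul_inv_cancel_left]
  rw [hc', map_mul]
  exact mul_mem (hA2 _ hxF) (CS.map_mem_range_toCS S _ hdiff)

end Capitulation₃

/-! ## Packaged versions: finite Galois intermediate fields of `Ω / ℚ` -/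

section Levels

variable {K : Type} [Field K] [NumberField K] (S : Finset Nat.Primes)
variable {Ω : Type} [Field Ω] [Algebra ℚ Ω] [IsAlgClosed Ω]

omit [IsAlgClosed Ω] in
/-- A finite Galois intermediate field of `Ω / ℚ` is a number field. -/
instance numberField_finiteGaloisIntermediateField (F : FiniteGaloisIntermediateField ℚ Ω) :
    NumberField F.toIntermediateField :=
  letI : Algebra ℚ F.toIntermediateField := F.toIntermediateField.algebra'
  have : FiniteDimensional ℚ F.toIntermediateField := F.finiteDimensional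
  NumberField.of_module_finite ℚ _

/-- **`E_pdiv`.**  An `S`-unit of `K` becomes an `n`-th power of an `S`-unit in a finite Galois
extension of `ℚ` inside `Ω`, unramified outside `S` and containing (the image of) `K`, if all prime
factors of `n` lie in `S`. -/
theorem exists_level_SUnit_root {n : ℕ} (hn0 : n ≠ 0) (hn : ∀ r : Nat.Primes, r ∉ S → ¬ (r : ℕ) ∣ n)
    (hK : UnramifiedOutside S K) (ψ : K →+* Ω) {x : Kˣ} (hx : x ∈ SUnits S K) :
    ∃ (F : FiniteGaloisIntermediateField ℚ Ω) (ψ' : K →+* F.toIntermediateField),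
      (∀ k : K, ((ψ' k : F.toIntermediateField) : Ω) = ψ k) ∧
      UnramifiedOutside S F.toIntermediateField ∧
      ∃ y ∈ SUnits S F.toIntermediateField, y ^ n = Units.map (ψ' : K →* _) x :=
  ⟨kummerLevel K n {(x : K)} Ω, toKummerSplit hn0 ψ, fun _ => rfl,
    (exists_SUnit_root_kummerSplit S hn0 hn hK ψ hx).1,
    (exists_SUnit_root_kummerSplit S hn0 hn hK ψ hx).2⟩

/-- **`cl_capitulation`.**  If `Cl_S(K) = coker (J_S → C_S)` is finite and `p ∈ S`, there is a finite
Galois extension of `ℚ` inside `Ω`, unramified outside `S` and containing (the image of) `K`, in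
which every class of `C_S(K)` of `p`-power order in `Cl_S(K)` comes from an `S`-idele. -/
theorem exists_level_capitulation_pPart {p : ℕ} (hp : p.Prime) (hpS : (⟨p, hp⟩ : Nat.Primes) ∈ S)
    (hK : UnramifiedOutside S K) (ψ : K →+* Ω) [Finite (CS S K ⧸ (JS.toCS S K).range)] :
    ∃ (F : FiniteGaloisIntermediateField ℚ Ω) (ψ' : K →+* F.toIntermediateField),
      (∀ k : K, ((ψ' k : F.toIntermediateField) : Ω) = ψ k) ∧
      UnramifiedOutside S F.toIntermediateField ∧
      ∀ c : CS S K, (∃ m : ℕ, c ^ p ^ m ∈ (JS.toCS S K).range) →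
        CS.map S ψ' c ∈ (JS.toCS S F.toIntermediateField).range := by
  obtain ⟨k, A, h1, h2⟩ := exists_kummerSplit_capitulation_pPart S (Ω := Ω) hp hpS hK ψ
  exact ⟨kummerLevel K (p ^ k) A Ω, toKummerSplit (pow_ne_zero k hp.ne_zero) ψ, fun _ => rfl, h1, h2⟩

end Levels

end

end Fermat.Agent.CFT.Global
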