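/-
P4 / Layer C1e (part 3): the completions `L_w / K_v` of a Galois extension `L / K` of number fields
are Galois with group the decomposition group of `w`.
-/
import Fermat.Agent.Lib.CFT.Global.PlacesOver

set_option autoImplicit false
set_option linter.style.haveILetI false

open scoped TensorProduct

namespace Fermat.Agent.CFT.Global

noncomputable section

section Action

variable {q : ℕ} [Fact q.Prime] {L : Type} [Field L] [NumberField L]
  {G : Type} [Group G] [MulSemiringAction G L]

lemma decompGroup_smul_mem (w : Place q L) (g : decompGroup G w) {x : SL q L}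
    (hx : x ∈ w.asIdeal) : (g : G) • x ∈ w.asIdeal := by
  have h := (Place.smul_mem_smul_iff (g : G) w x).2 hx
  rwa [(mem_decompGroup_iff (g : G) w).1 g.2] at h

/-- the ring endomorphism of `L_w` induced by an element of the decomposition group -/
def Kv.decompHom (w : Place q L) (g : decompGroup G w) : Kv w →+* Kv w :=
  Ideal.quotientMap w.asIdeal (MulSemiringAction.toRingHom G (SL q L) (g : G))
    (fun _ hx => decompGroup_smul_mem w g hx)

lemma Kv.decompHom_proj (w : Place q L) (g : decompGroup G w) (x : SL q L) :
    Kv.decompHom w g (Kv.proj w x) = Kv.proj w ((g : G) • x) := rfl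

/-- The action of the decomposition group on the completion `L_w`. -/
instance Kv.decompAction (w : Place q L) : MulSemiringAction (decompGroup G w) (Kv w) where
  smul g x := Kv.decompHom w g x
  one_smul x := by
    obtain ⟨x, rfl⟩ := Kv.proj_surjective w x
    change Kv.decompHom w 1 (Kv.proj w x) = _
    rw [Kv.decompHom_proj, Subgroup.coe_one, one_smul]
  mul_smul g h x := by
    obtain ⟨x, rfl⟩ := Kv.proj_surjective w x
    change Kv.decompHom w (g * h) (Kv.proj w x) = Kv.decompHom w g (Kv.decompHom w h (Kv.proj w x))
    rw [Kv.decompHom_proj, Kv.decompHom_proj, Kv.decompHom_proj, Subgroup.coe_mul, mul_smul]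
  smul_zero g := map_zero _
  smul_add g := map_add _
  smul_one g := map_one _
  smul_mul g := map_mul _

lemma Kv.smul_proj (w : Place q L) (g : decompGroup G w) (x : SL q L) :
    g • Kv.proj w x = Kv.proj w ((g : G) • x) := rfl

lemma Kv.smul_emb (w : Place q L) (g : decompGroup G w) (x : L) :
    g • Kv.emb w x = Kv.emb w ((g : G) • x) := rfl

instance Kv.decompSMulComm (w : Place q L) : SMulCommClass (decompGroup G w) ℚ_[q] (Kv w) where
  smul_comm g a x := by
    obtain ⟨x, rfl⟩ := Kv.proj_surjective w x
    rw [← map_smul, Kv.smul_proj, Kv.smul_proj, smul_comm, map_smul]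

instance Kv.decompFaithful [FaithfulSMul G L] (w : Place q L) :
    FaithfulSMul (decompGroup G w) (Kv w) where
  eq_of_smul_eq_smul {g h} hgh := by
    apply Subtype.ext
    apply eq_of_smul_eq_smul (α := L)
    intro x
    apply (Kv.emb w).injective
    rw [← Kv.smul_emb, ← Kv.smul_emb]
    exact hgh _

end Action

section Galois

variable {q : ℕ} [Fact q.Prime] {K L : Type} [Field K] [NumberField K] [Field L] [NumberField L]
  [Algebra K L] {G : Type} [Group G] [MulSemiringAction G L]

/-- `L_w` as an algebra over `K_v`, `v` the place below `w`. -/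
instance Kv.algebraUnder (w : Place q L) : Algebra (Kv (Place.under (algebraMap K L) w)) (Kv w) :=
  (Kv.map (algebraMap K L) w).toRingHom.toAlgebra

lemma Kv.algebraMap_under (w : Place q L) (x : Kv (Place.under (algebraMap K L) w)) :
    algebraMap (Kv (Place.under (algebraMap K L) w)) (Kv w) x = Kv.map (algebraMap K L) w x := rfl

instance Kv.isScalarTower_under (w : Place q L) :
    IsScalarTower ℚ_[q] (Kv (Place.under (algebraMap K L) w)) (Kv w) :=
  IsScalarTower.of_algebraMap_eq fun a => by
    rw [Kv.algebraMap_under, AlgHom.commutes]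

instance Kv.finiteDimensional_under (w : Place q L) :
    FiniteDimensional (Kv (Place.under (algebraMap K L) w)) (Kv w) :=
  Module.Finite.of_restrictScalars_finite ℚ_[q] _ _

variable [IsGaloisGroup G K L]

lemma Kv.smul_map (w : Place q L) (g : decompGroup G w)
    (y : Kv (Place.under (algebraMap K L) w)) :
    g • Kv.map (algebraMap K L) w y = Kv.map (algebraMap K L) w y := by
  obtain ⟨y, rfl⟩ := Kv.proj_surjective _ y
  rw [Kv.map_proj, Kv.smul_proj, SL.smul_map_algebraMap]

instance Kv.decompSMulComm_under (w : Place q L) :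
    SMulCommClass (decompGroup G w) (Kv (Place.under (algebraMap K L) w)) (Kv w) where
  smul_comm g a x := by
    rw [Algebra.smul_def, Algebra.smul_def, smul_mul', Kv.algebraMap_under, Kv.smul_map]

variable [Finite G]

/-- a `G_w`-invariant element of `L_w` comes from `K_v` -/
theorem Kv.exists_map_eq_of_forall_smul_eq (w : Place q L) (x : Kv w)
    (hx : ∀ g : decompGroup G w, g • x = x) :
    ∃ y : Kv (Place.under (algebraMap K L) w), Kv.map (algebraMap K L) w y = x := by
  classical
  letI := Fintype.ofFinite G
  obtain ⟨x', rfl⟩ := Kv.proj_surjective w x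
  set z : SL q L := Place.idem w * x' with hz
  obtain ⟨y, hy⟩ := SL.exists_map_eq_sum_smul q (K := K) (G := G) z
  rw [finsum_eq_sum_of_fintype] at hy
  -- the projection of the trace
  have hterm : ∀ g : G, Kv.proj w (g • z) =
      if g ∈ decompGroup G w then Kv.proj w x' else 0 := by
    intro g
    split_ifs with hg
    · have h1 := hx ⟨g, hg⟩
      rw [Kv.smul_proj] at h1
      have h2 : Kv.proj w (g • z) = (⟨g, hg⟩ : decompGroup G w) • Kv.proj w z := rfl
      rw [h2, hz, map_mul, Place.proj_idem_self, one_mul]
      exact hx ⟨g, hg⟩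
    · rw [Kv.proj_smul_eq_zero_iff, hz, map_mul, Place.proj_idem_of_ne, zero_mul]
      intro h
      apply hg
      rw [mem_decompGroup_iff]
      conv_lhs => rw [← h, smul_inv_smul]
  have hsum : Kv.proj w (∑ g : G, g • z) = (Nat.card (decompGroup G w) : ℚ_[q]) • Kv.proj w x' := by
    rw [map_sum, Finset.sum_congr rfl (fun g _ => hterm g), Finset.sum_ite, Finset.sum_const_zero,
      add_zero, Finset.sum_const, Nat.cast_smul_eq_nsmul]
    congr 1
    rw [Nat.card_eq_fintype_card, Fintype.card_subtype]
  have hne : (Nat.card (decompGroup G w) : ℚ_[q]) ≠ 0 :=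
    Nat.cast_ne_zero.2 Nat.card_pos.ne'
  refine ⟨(Nat.card (decompGroup G w) : ℚ_[q])⁻¹ • Kv.proj _ y, ?_⟩
  rw [map_smul, Kv.map_proj, hy, hsum, smul_smul, inv_mul_cancel₀ hne, one_smul]

/-- **The completion `L_w / K_v` is Galois with group the decomposition group.** -/
instance Kv.isGaloisGroup (w : Place q L) :
    IsGaloisGroup (decompGroup G w) (Kv (Place.under (algebraMap K L) w)) (Kv w) where
  faithful := by
    haveI := IsGaloisGroup.faithful (G := G) (A := K) (B := L)
    infer_instance
  commutes := inferInstance
  isInvariant := ⟨fun x hx => Kv.exists_map_eq_of_forall_smul_eq w x hx⟩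

end Galois

end

end Fermat.Agent.CFT.Global
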