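import Fermat.Agent.Lib.CFT.Global.Places
import Fermat.Agent.Lib.CFT.Local.OrdExt
import Fermat.Agent.Lib.CFT.Local.Basic

/-!
# P4 / Layer C (C1a): the local rings of integers `Ow w` and the valuations `ordW w`

For a place `w : Place q K` the completion `Kv w` is a finite extension of `ℚ_q`; its ring of
integers `Ow w` (integral closure of `ℤ_q`) is a complete discrete valuation ring with finite residue
field (`IsLocalInt`, layer B).  The maximal order `SL.integers q K` of the semi-local algebra is the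
product of the `Ow w`, and `(SL q K)ˣ / SL.unitGroup q K ≃ ∏_w ℤ` via the valuations.
-/

set_option autoImplicit false

open scoped TensorProduct

namespace Fermat.Agent.CFT.Global

open Fermat.Agent.CFT.Local

noncomputable section

variable {q : ℕ} [Fact q.Prime] {K : Type} [Field K] [NumberField K]

/-- The ring of integers of the completion `K_w`. -/
abbrev Ow (w : Place q K) : Subalgebra ℤ_[q] (Kv w) := integralClosure ℤ_[q] (Kv w)

instance (w : Place q K) : IsLocalInt (Ow w) :=
  IsLocalInt.of_isIntegralClosure ℤ_[q] ℚ_[q] (Kv w) (Ow w)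

instance (w : Place q K) : IsFractionRing (Ow w) (Kv w) :=
  integralClosure.isFractionRing_of_finite_extension ℚ_[q] (Kv w)

/-- The normalized valuation of `K_w`. -/
def ordW (w : Place q K) : (Kv w)ˣ →* Multiplicative ℤ := Local.ord (Ow w) (Kv w)

/-- The normalized valuation at `w` on the units of the semi-local algebra. -/
def SL.ordAt (w : Place q K) : (SL q K)ˣ →* Multiplicative ℤ :=
  (ordW w).comp (Units.map (Kv.proj w : SL q K →* Kv w))

/-- A tuple in a finite product of algebras is integral if all its components are. -/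
lemma isIntegral_pi {A ι : Type*} [CommRing A] [Fintype ι] {R : ι → Type*} [∀ i, CommRing (R i)]
    [∀ i, Algebra A (R i)] (x : ∀ i, R i) (h : ∀ i, IsIntegral A (x i)) : IsIntegral A x := by
  classical
  choose P hPm hP using h
  refine ⟨∏ i, P i, Polynomial.monic_prod_of_monic _ _ (fun i _ => hPm i), ?_⟩
  funext j
  have h1 : Polynomial.eval₂ (algebraMap A (∀ i, R i)) x (∏ i, P i) j
      = Polynomial.eval₂ (algebraMap A (R j)) (x j) (∏ i, P i) :=
    Polynomial.hom_eval₂ (∏ i, P i) (algebraMap A (∀ i, R i)) (Pi.evalRingHom R j) x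
  rw [h1, Polynomial.eval₂_finsetProd]
  exact Finset.prod_eq_zero (Finset.mem_univ j) (hP j)

/-- The maximal order of the semi-local algebra is the product of the local rings of integers. -/
theorem SL.mem_integers_iff_forall {x : SL q K} :
    x ∈ SL.integers q K ↔ ∀ w : Place q K, Kv.proj w x ∈ Ow w := by
  constructor
  · intro hx w
    exact IsIntegral.map ((Kv.proj w).restrictScalars ℤ_[q]) hx
  · intro h
    have : Fintype (Place q K) := Fintype.ofFinite _
    have h1 : IsIntegral ℤ_[q] (SL.equivPi q K x) := isIntegral_pi _ h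
    have h2 := IsIntegral.map (((SL.equivPi q K).symm.toAlgHom).restrictScalars ℤ_[q]) h1
    have h3 : (((SL.equivPi q K).symm.toAlgHom).restrictScalars ℤ_[q]) (SL.equivPi q K x) = x :=
      (SL.equivPi q K).symm_apply_apply x
    rwa [h3] at h2

lemma mem_Ow_iff_ordZ_nonneg (w : Place q K) (x : (Kv w)ˣ) :
    (x : Kv w) ∈ Ow w ↔ 0 ≤ Local.ordZ (Ow w) (Kv w) x := by
  rw [Local.ordZ_nonneg_iff]
  constructor
  · intro h
    exact ⟨⟨x, h⟩, rfl⟩
  · rintro ⟨a, ha⟩
    rw [← ha]
    exact a.2

lemma ordW_eq_one_iff (w : Place q K) (x : (Kv w)ˣ) :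
    ordW w x = 1 ↔ (x : Kv w) ∈ Ow w ∧ ((x⁻¹ : (Kv w)ˣ) : Kv w) ∈ Ow w := by
  rw [mem_Ow_iff_ordZ_nonneg, mem_Ow_iff_ordZ_nonneg, Local.ordZ_inv]
  have h : ordW w x = 1 ↔ Local.ordZ (Ow w) (Kv w) x = 0 := by
    unfold ordW Local.ordZ
    constructor
    · intro h
      rw [h]
      rfl
    · intro h
      exact Multiplicative.toAdd.injective h
  rw [h]
  omega

/-- The local units are the elements of valuation `0` at all places. -/
theorem SL.mem_unitGroup_iff_forall_ordAt {u : (SL q K)ˣ} :
    u ∈ SL.unitGroup q K ↔ ∀ w : Place q K, SL.ordAt w u = 1 := by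
  rw [SL.mem_unitGroup_iff, SL.mem_integers_iff_forall, SL.mem_integers_iff_forall, ← forall_and]
  refine forall_congr' fun w => ?_
  unfold SL.ordAt
  rw [MonoidHom.comp_apply, ordW_eq_one_iff]
  rfl

/-- All the valuations above `q`. -/
def SL.ordAll : (SL q K)ˣ →* (Place q K → Multiplicative ℤ) :=
  MonoidHom.mk' (fun u w => SL.ordAt w u) (fun u v => by funext w; exact map_mul _ u v)

@[simp] lemma SL.ordAll_apply (u : (SL q K)ˣ) (w : Place q K) : SL.ordAll u w = SL.ordAt w u := rfl

theorem SL.ker_ordAll : (SL.ordAll : (SL q K)ˣ →* _).ker = SL.unitGroup q K := by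
  ext u
  rw [MonoidHom.mem_ker, SL.mem_unitGroup_iff_forall_ordAt]
  exact funext_iff

theorem SL.ordAll_surjective : Function.Surjective (SL.ordAll : (SL q K)ˣ →* _) := by
  intro n
  have h : ∀ w : Place q K, ∃ x : (Kv w)ˣ, ordW w x = n w := fun w =>
    Local.ord_surjective (Ow w) (Kv w) (n w)
  choose x hx using h
  let y : (∀ w : Place q K, Kv w)ˣ :=
    ⟨fun w => x w, fun w => ((x w)⁻¹ : (Kv w)ˣ), by funext w; simp, by funext w; simp⟩
  refine ⟨Units.map ((SL.equivPi q K).symm : _ →* SL q K) y, ?_⟩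
  funext w
  rw [SL.ordAll_apply]
  unfold SL.ordAt
  rw [MonoidHom.comp_apply, ← hx w]
  congr 1
  ext
  change Kv.proj w ((SL.equivPi q K).symm (fun w => (x w : Kv w))) = x w
  rw [← SL.equivPi_apply, AlgEquiv.apply_symm_apply]

end

end Fermat.Agent.CFT.Global
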