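/-
P4 / Layer C1f: the units of the semi-local algebra `(ℚ_q ⊗ L)ˣ = ∏_{w ∣ q} L_wˣ` as a module
induced from the decomposition groups (input of Shapiro's lemma).  No base field is needed: `G` is
any group acting on the number field `L`.

Element level (`section Units`, `section Action`):
* `SL.unitsProj w : (SL q L)ˣ →* (Kv w)ˣ` (`ψ_w`), `SL.unitsSingle w : (Kv w)ˣ →* (SL q L)ˣ` (`ι_w`),
  `SL.unitsEquivPi`, `SL.units_ext_unitsProj`, `SL.finprod_unitsSingle_unitsProj`,
  `SL.unitsSingle_mem_unitGroup_iff`;
* equivariance under the decomposition group: `SL.unitsProj_smul`, `SL.unitsSingle_smul`;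
  transport `SL.unitsProj_smul_smul`; orthogonality `SL.unitsProj_smul_unitsSingle_of_notMem`;
  block sums `SL.unitsProj_finprod_smul_unitsSingle`, `SL.finprod_smul_unitsSingle_of_transitive`,
  `SL.finprod_orbits_smul_unitsSingle`.
Representation level (`section RepUnits`):
* `SL.map_unitsProjRep_bijective` : `Hⁿ(G, (ℚ_q ⊗ L)ˣ) ≃ Hⁿ(G_w, L_wˣ)` for transitive `G`;
* `SL.isZero_groupCohomology_units` : `(∀ w, Hⁿ(G_w, L_wˣ) = 0) → Hⁿ(G, (ℚ_q ⊗ L)ˣ) = 0`.
Local units (`section UnitGroup`, `section RepUnitGroup`): `Kv.unitGroup w`, `Kv.ordW_smul`,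
actions on `Kv.unitGroup w` and `SL.unitGroup q L`, `SL.unitGroupProj`, `SL.unitGroupSingle`,
`SL.map_unitGroupProjRep_bijective`, `SL.isZero_groupCohomology_unitGroup`, and the element forms
`SL.isMulCoboundary₁_unitGroup`, `SL.isMulCoboundary₁_units` in degree one.
Base field `ℚ`: `Place.exists_smul_eq_of_rat` (transitivity).
-/
import Fermat.Agent.Lib.CFT.Global.LocalGalois
import Fermat.Agent.Lib.CFT.Global.LocalInt
import Fermat.Agent.Lib.CFT.Local.NormIndex
import Fermat.Agent.Lib.CFT.Coh.MulRep

set_option autoImplicit false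
set_option linter.style.haveILetI false
set_option linter.unusedSectionVars false

open scoped TensorProduct

namespace Fermat.Agent.CFT.Global

noncomputable section

section Units

variable {q : ℕ} [Fact q.Prime] {L : Type} [Field L] [NumberField L]

/-- `ψ_w`: the projection of the units of the semi-local algebra to the units of `L_w` -/
def SL.unitsProj (w : Place q L) : (SL q L)ˣ →* (Kv w)ˣ :=
  Units.map (Kv.proj w : SL q L →* Kv w)

@[simp] lemma SL.coe_unitsProj (w : Place q L) (u : (SL q L)ˣ) :
    ((SL.unitsProj w u : (Kv w)ˣ) : Kv w) = Kv.proj w (u : SL q L) := rfl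

lemma SL.ordAt_eq_ordW_unitsProj (w : Place q L) (u : (SL q L)ˣ) :
    SL.ordAt w u = ordW w (SL.unitsProj w u) := rfl

/-- `(ℚ_q ⊗ L)ˣ = ∏_w L_wˣ` -/
def SL.unitsEquivPi : (SL q L)ˣ ≃* ∀ w : Place q L, (Kv w)ˣ :=
  (Units.mapEquiv (SL.equivPi q L).toMulEquiv).trans MulEquiv.piUnits

lemma SL.unitsEquivPi_apply (u : (SL q L)ˣ) (w : Place q L) :
    SL.unitsEquivPi u w = SL.unitsProj w u := Units.ext rfl

/-- two units of the semi-local algebra with the same projections are equal -/
lemma SL.units_ext_unitsProj {u v : (SL q L)ˣ} (h : ∀ w : Place q L, SL.unitsProj w u = SL.unitsProj w v) :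
    u = v :=
  SL.unitsEquivPi.injective (funext fun w => by
    rw [SL.unitsEquivPi_apply, SL.unitsEquivPi_apply, h w])

open Classical in
/-- `ι_w`: the unit with component `y` at `w` and `1` at the other places -/
def SL.unitsSingle (w : Place q L) : (Kv w)ˣ →* (SL q L)ˣ :=
  ((SL.unitsEquivPi (q := q) (L := L)).symm.toMonoidHom).comp
    (MonoidHom.mulSingle (fun w : Place q L => (Kv w)ˣ) w)

open Classical in
lemma SL.unitsSingle_apply (w : Place q L) (y : (Kv w)ˣ) :
    SL.unitsSingle w y = SL.unitsEquivPi.symm (Pi.mulSingle w y) := rfl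

lemma SL.unitsProj_unitsSingle_self (w : Place q L) (y : (Kv w)ˣ) :
    SL.unitsProj w (SL.unitsSingle w y) = y := by
  classical
  rw [← SL.unitsEquivPi_apply]
  rw [SL.unitsSingle_apply, MulEquiv.apply_symm_apply, Pi.mulSingle_eq_same]

lemma SL.unitsProj_unitsSingle_of_ne {w w' : Place q L} (h : w' ≠ w) (y : (Kv w)ˣ) :
    SL.unitsProj w' (SL.unitsSingle w y) = 1 := by
  classical
  rw [← SL.unitsEquivPi_apply]
  rw [SL.unitsSingle_apply, MulEquiv.apply_symm_apply, Pi.mulSingle_eq_of_ne h]

lemma SL.unitsSingle_injective (w : Place q L) : Function.Injective (SL.unitsSingle w) :=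
  Function.LeftInverse.injective (g := SL.unitsProj w) (SL.unitsProj_unitsSingle_self w)

lemma SL.unitsProj_surjective (w : Place q L) : Function.Surjective (SL.unitsProj w) :=
  Function.RightInverse.surjective (SL.unitsProj_unitsSingle_self w)

/-- every unit is the product of its components -/
lemma SL.finprod_unitsSingle_unitsProj (u : (SL q L)ˣ) :
    ∏ᶠ w : Place q L, SL.unitsSingle w (SL.unitsProj w u) = u := by
  classical
  letI := Fintype.ofFinite (Place q L)
  rw [finprod_eq_prod_of_fintype]
  apply SL.units_ext_unitsProj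
  intro w'
  rw [map_prod, Finset.prod_eq_single w']
  · exact SL.unitsProj_unitsSingle_self w' _
  · intro w _ hw
    exact SL.unitsProj_unitsSingle_of_ne hw.symm _
  · intro h
    exact absurd (Finset.mem_univ _) h

lemma SL.ordAt_unitsSingle_self (w : Place q L) (y : (Kv w)ˣ) :
    SL.ordAt w (SL.unitsSingle w y) = ordW w y := by
  rw [SL.ordAt_eq_ordW_unitsProj, SL.unitsProj_unitsSingle_self]

lemma SL.ordAt_unitsSingle_of_ne {w w' : Place q L} (h : w' ≠ w) (y : (Kv w)ˣ) :
    SL.ordAt w' (SL.unitsSingle w y) = 1 := by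
  rw [SL.ordAt_eq_ordW_unitsProj, SL.unitsProj_unitsSingle_of_ne h, map_one]

/-- `ι_w y` is a local unit iff `y` is a unit of `L_w` -/
theorem SL.unitsSingle_mem_unitGroup_iff (w : Place q L) (y : (Kv w)ˣ) :
    SL.unitsSingle w y ∈ SL.unitGroup q L ↔ ordW w y = 1 := by
  rw [SL.mem_unitGroup_iff_forall_ordAt]
  constructor
  · intro h
    rw [← SL.ordAt_unitsSingle_self]
    exact h w
  · intro h w'
    by_cases hw : w' = w
    · subst hw
      rw [SL.ordAt_unitsSingle_self, h]
    · exact SL.ordAt_unitsSingle_of_ne hw y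

/-- `u` is a local unit iff all its components are -/
theorem SL.mem_unitGroup_iff_forall_unitsProj (u : (SL q L)ˣ) :
    u ∈ SL.unitGroup q L ↔ ∀ w : Place q L, ordW w (SL.unitsProj w u) = 1 :=
  SL.mem_unitGroup_iff_forall_ordAt

end Units

section Action

variable {q : ℕ} [Fact q.Prime] {L : Type} [Field L] [NumberField L]
  {G : Type} [Group G] [MulSemiringAction G L]

/-- the action of the decomposition group on the units of `L_w` -/
instance (priority := high) Kv.unitsDecompAction (w : Place q L) :
    MulDistribMulAction (decompGroup G w) (Kv w)ˣ :=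
  Units.mulDistribMulActionRight

instance (priority := high) Kv.unitsDecompMulAction (w : Place q L) :
    MulAction (decompGroup G w) (Kv w)ˣ := (Kv.unitsDecompAction w).toMulAction

instance (priority := high) Kv.unitsDecompSMul (w : Place q L) :
    SMul (decompGroup G w) (Kv w)ˣ := (Kv.unitsDecompMulAction w).toSMul

@[simp] lemma Kv.coe_smul_units (w : Place q L) (h : decompGroup G w) (y : (Kv w)ˣ) :
    ((h • y : (Kv w)ˣ) : Kv w) = h • (y : Kv w) := rfl

/-- the decomposition groups have finite index -/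
instance decompGroup_finiteIndex (w : Place q L) : (decompGroup G w).FiniteIndex := by
  haveI : Finite (MulAction.orbit G w) := Subtype.finite
  haveI : Finite (G ⧸ decompGroup G w) :=
    Finite.of_equiv _ (MulAction.orbitEquivQuotientStabilizer G w)
  exact Subgroup.finiteIndex_of_finite_quotient

/-- `ψ_w` is equivariant under the decomposition group -/
lemma SL.unitsProj_smul (w : Place q L) (h : decompGroup G w) (u : (SL q L)ˣ) :
    SL.unitsProj w ((h : G) • u) = h • SL.unitsProj w u :=
  Units.ext (Kv.smul_proj w h (u : SL q L)).symm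

/-- transport of the component at `w` to the component at `g • w` -/
lemma SL.unitsProj_smul_smul (g : G) (w : Place q L) (u : (SL q L)ˣ) :
    SL.unitsProj (g • w) (g • u) =
      Units.map ((Kv.congr g w : Kv w ≃ₐ[ℚ_[q]] Kv (g • w)) : Kv w →* Kv (g • w))
        (SL.unitsProj w u) :=
  Units.ext rfl

lemma SL.unitsProj_eq_one_iff (w : Place q L) (u : (SL q L)ˣ) :
    SL.unitsProj w u = 1 ↔ Kv.proj w ((u : SL q L) - 1) = 0 := by
  rw [Units.ext_iff, SL.coe_unitsProj, map_sub, map_one, sub_eq_zero]
  rfl

lemma SL.unitsProj_smul_eq_one_iff (g : G) (w : Place q L) (u : (SL q L)ˣ) :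
    SL.unitsProj w (g • u) = 1 ↔ SL.unitsProj (g⁻¹ • w) u = 1 := by
  rw [SL.unitsProj_eq_one_iff, SL.unitsProj_eq_one_iff, ← Kv.proj_smul_eq_zero_iff, smul_sub,
    smul_one]
  rfl

/-- orthogonality: `g • ι_w y` has trivial component outside `g • w` -/
lemma SL.unitsProj_smul_unitsSingle_of_ne (g : G) {w w' : Place q L} (h : w' ≠ g • w)
    (y : (Kv w)ˣ) : SL.unitsProj w' (g • SL.unitsSingle w y) = 1 := by
  rw [SL.unitsProj_smul_eq_one_iff]
  apply SL.unitsProj_unitsSingle_of_ne
  intro h'
  apply h
  rw [← h', smul_inv_smul]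

/-- `ψ_w (g • ι_w y) = 1` for `g` outside the decomposition group -/
lemma SL.unitsProj_smul_unitsSingle_of_notMem (w : Place q L) {g : G} (hg : g ∉ decompGroup G w)
    (y : (Kv w)ˣ) : SL.unitsProj w (g • SL.unitsSingle w y) = 1 :=
  SL.unitsProj_smul_unitsSingle_of_ne g (fun h => hg h.symm) y

/-- `ι_w` is equivariant under the decomposition group -/
lemma SL.unitsSingle_smul (w : Place q L) (h : decompGroup G w) (y : (Kv w)ˣ) :
    SL.unitsSingle w (h • y) = (h : G) • SL.unitsSingle w y := by
  apply SL.units_ext_unitsProj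
  intro w'
  by_cases hw : w' = w
  · subst hw
    rw [SL.unitsProj_smul, SL.unitsProj_unitsSingle_self, SL.unitsProj_unitsSingle_self]
  · rw [SL.unitsProj_unitsSingle_of_ne hw, SL.unitsProj_smul_unitsSingle_of_ne]
    rw [(mem_decompGroup_iff (h : G) w).1 h.2]
    exact hw

/-- the component at `g • w` of `g • ι_w (ψ_w (g⁻¹ • m))` is that of `m` -/
lemma SL.unitsProj_smul_unitsSingle_unitsProj (g : G) {w w' : Place q L} (hw : g • w = w')
    (m : (SL q L)ˣ) :
    SL.unitsProj w' (g • SL.unitsSingle w (SL.unitsProj w (g⁻¹ • m))) = SL.unitsProj w' m := by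
  subst hw
  rw [SL.unitsProj_smul_smul, SL.unitsProj_unitsSingle_self, ← SL.unitsProj_smul_smul,
    smul_inv_smul]

open Classical in
/-- the block sum: `∏_{t ∈ G/G_w} t • ι_w (ψ_w (t⁻¹ • m))` is the projection of `m` to the block of
the orbit of `w` -/
theorem SL.unitsProj_finprod_smul_unitsSingle (w w' : Place q L) (m : (SL q L)ˣ) :
    SL.unitsProj w' (∏ᶠ t : G ⧸ decompGroup G w,
      (t.out : G) • SL.unitsSingle w (SL.unitsProj w ((t.out : G)⁻¹ • m))) =
      if w' ∈ MulAction.orbit G w then SL.unitsProj w' m else 1 := by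
  letI := Fintype.ofFinite (G ⧸ decompGroup G w)
  rw [finprod_eq_prod_of_fintype, map_prod]
  split_ifs with hw
  · obtain ⟨g, hg⟩ := hw
    have hg' : g • w = w' := hg
    subst hg'
    rw [Finset.prod_eq_single ((g : G) : G ⧸ decompGroup G w)]
    · obtain ⟨h, hh⟩ := QuotientGroup.mk_out_eq_mul (decompGroup G w) g
      apply SL.unitsProj_smul_unitsSingle_unitsProj
      rw [hh, mul_smul, (mem_decompGroup_iff (h : G) w).1 h.2]
    · intro t _ ht
      apply SL.unitsProj_smul_unitsSingle_of_ne
      intro h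
      apply ht
      rw [← QuotientGroup.out_eq' t]
      apply QuotientGroup.eq.2
      rw [mem_decompGroup_iff, mul_smul, h, inv_smul_smul]
    · intro h
      exact absurd (Finset.mem_univ _) h
  · refine Finset.prod_eq_one (fun t _ => ?_)
    apply SL.unitsProj_smul_unitsSingle_of_ne
    rintro rfl
    exact hw ⟨_, rfl⟩

/-- if `G` permutes the places above `q` transitively, `m = ∏_{t ∈ G/G_w} t • ι_w (ψ_w (t⁻¹ • m))` -/
theorem SL.finprod_smul_unitsSingle_of_transitive (w : Place q L)
    (htr : ∀ w' : Place q L, ∃ g : G, g • w = w') (m : (SL q L)ˣ) :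
    ∏ᶠ t : G ⧸ decompGroup G w,
      (t.out : G) • SL.unitsSingle w (SL.unitsProj w ((t.out : G)⁻¹ • m)) = m := by
  classical
  apply SL.units_ext_unitsProj
  intro w'
  rw [SL.unitsProj_finprod_smul_unitsSingle, if_pos]
  obtain ⟨g, hg⟩ := htr w'
  exact ⟨g, hg⟩

lemma mem_orbit_out_iff (o : MulAction.orbitRel.Quotient G (Place q L)) (w' : Place q L) :
    w' ∈ MulAction.orbit G o.out ↔ Quotient.mk'' w' = o := by
  rw [← MulAction.orbitRel.Quotient.orbit_eq_orbit_out o Quotient.out_eq',
    MulAction.orbitRel.Quotient.mem_orbit]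

/-- every unit is the product of its blocks: the product over the orbits `o` of `G` on the places
(with representative `o.out`) of the block sums -/
theorem SL.finprod_orbits_smul_unitsSingle (m : (SL q L)ˣ) :
    ∏ᶠ o : MulAction.orbitRel.Quotient G (Place q L), ∏ᶠ t : G ⧸ decompGroup G o.out,
      (t.out : G) • SL.unitsSingle o.out (SL.unitsProj o.out ((t.out : G)⁻¹ • m)) = m := by
  classical
  letI := Fintype.ofFinite (MulAction.orbitRel.Quotient G (Place q L))
  apply SL.units_ext_unitsProj
  intro w'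
  rw [finprod_eq_prod_of_fintype, map_prod]
  simp only [SL.unitsProj_finprod_smul_unitsSingle]
  rw [Finset.prod_eq_single (Quotient.mk'' w')]
  · rw [if_pos]
    exact (mem_orbit_out_iff _ _).2 rfl
  · intro o _ ho
    rw [if_neg]
    intro h
    exact ho ((mem_orbit_out_iff _ _).1 h).symm
  · intro h
    exact absurd (Finset.mem_univ _) h

end Action

/-! ## Representation level: Shapiro for the semi-local units -/

section RepUnits

open CategoryTheory groupCohomology Fermat.Agent.CFT.Coh

variable {q : ℕ} [Fact q.Prime] {L : Type} [Field L] [NumberField L]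
  {G : Type} [Group G] [MulSemiringAction G L]

/-- `ψ_w` as a morphism of representations of the decomposition group -/
def SL.unitsProjRep (w : Place q L) :
    Rep.res (decompGroup G w).subtype (Rep.ofMulDistribMulAction G (SL q L)ˣ) ⟶
      Rep.ofMulDistribMulAction (decompGroup G w) (Kv w)ˣ :=
  mulRepHom (decompGroup G w).subtype (SL.unitsProj w) (SL.unitsProj_smul w)

/-- `ι_w` as a morphism of representations of the decomposition group -/
def SL.unitsSingleRep (w : Place q L) :
    Rep.ofMulDistribMulAction (decompGroup G w) (Kv w)ˣ ⟶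
      Rep.res (decompGroup G w).subtype (Rep.ofMulDistribMulAction G (SL q L)ˣ) :=
  mulRepHomBack (decompGroup G w).subtype (SL.unitsSingle w) (SL.unitsSingle_smul w)

/-- **Shapiro's lemma for the semi-local units**: if `G` permutes the places of `L` above `q`
transitively, then `Hⁿ(G, (ℚ_q ⊗ L)ˣ) ≃ Hⁿ(G_w, L_wˣ)` via restriction and projection. -/
theorem SL.map_unitsProjRep_bijective (w : Place q L)
    (htr : ∀ w' : Place q L, ∃ g : G, g • w = w') (n : ℕ) :
    Function.Bijective (groupCohomology.map (decompGroup G w).subtype (SL.unitsProjRep w) n) :=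
  map_bijective_of_mul_decomposition (decompGroup G w) (SL.unitsProj w) (SL.unitsSingle w)
    (SL.unitsProj_smul w) (SL.unitsSingle_smul w) (SL.unitsProj_unitsSingle_self w)
    (fun _ hg y => SL.unitsProj_smul_unitsSingle_of_notMem w hg y)
    (SL.finprod_smul_unitsSingle_of_transitive w htr) n

/-- If `Hⁿ(G_w, L_wˣ) = 0` for all places `w` above `q`, then `Hⁿ(G, (ℚ_q ⊗ L)ˣ) = 0`. -/
theorem SL.isZero_groupCohomology_units (n : ℕ)
    (h : ∀ w : Place q L,
      Limits.IsZero (groupCohomology (Rep.ofMulDistribMulAction (decompGroup G w) (Kv w)ˣ) n)) :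
    Limits.IsZero (groupCohomology (Rep.ofMulDistribMulAction G (SL q L)ˣ) n) :=
  isZero_groupCohomology_of_mul_decomposition_family
    (I := MulAction.orbitRel.Quotient G (Place q L))
    (fun o => decompGroup G o.out) (fun o => (Kv o.out)ˣ)
    (fun o => SL.unitsProj o.out) (fun o => SL.unitsSingle o.out)
    (fun o => SL.unitsProj_smul o.out) (fun o => SL.unitsSingle_smul o.out)
    SL.finprod_orbits_smul_unitsSingle n (fun o => h o.out)

end RepUnits

/-! ## The local units -/

section UnitGroup

variable {q : ℕ} [Fact q.Prime] {L : Type} [Field L] [NumberField L]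
  {G : Type} [Group G] [MulSemiringAction G L]

/-- the units of the ring of integers of `L_w`, as a subgroup of `L_wˣ` -/
abbrev Kv.unitGroup (w : Place q L) : Subgroup (Kv w)ˣ := Local.unitGroup (Ow w) (Kv w)

lemma Kv.mem_unitGroup_iff (w : Place q L) (y : (Kv w)ˣ) :
    y ∈ Kv.unitGroup w ↔ ordW w y = 1 := by
  rw [Local.mem_unitGroup_iff]
  unfold ordW Local.ordZ
  constructor
  · intro h
    exact Multiplicative.toAdd.injective h
  · intro h
    rw [h]
    rfl

/-- `ι_w y` is a local unit iff `y` is a unit of `L_w` -/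
theorem SL.unitsSingle_mem_unitGroup_iff' (w : Place q L) (y : (Kv w)ˣ) :
    SL.unitsSingle w y ∈ SL.unitGroup q L ↔ y ∈ Kv.unitGroup w := by
  rw [SL.unitsSingle_mem_unitGroup_iff, Kv.mem_unitGroup_iff]

/-- `u` is a local unit iff all its components are -/
theorem SL.mem_unitGroup_iff_forall_unitsProj_mem (u : (SL q L)ˣ) :
    u ∈ SL.unitGroup q L ↔ ∀ w : Place q L, SL.unitsProj w u ∈ Kv.unitGroup w := by
  rw [SL.mem_unitGroup_iff_forall_unitsProj]
  exact forall_congr' fun w => (Kv.mem_unitGroup_iff w _).symm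

/-- the decomposition group preserves the normalized valuation of `L_w` -/
theorem Kv.ordW_smul (w : Place q L) (h : decompGroup G w) (y : (Kv w)ˣ) :
    ordW w (h • y) = ordW w y := by
  have h1 := Local.ordZ_map_algEquiv (A := ℤ_[q]) (K := ℚ_[q]) (B := Ow w) (L := Kv w)
    (MulSemiringAction.toAlgEquiv ℚ_[q] (Kv w) h) y
  have h2 : Units.map ((MulSemiringAction.toAlgEquiv ℚ_[q] (Kv w) h : Kv w ≃ₐ[ℚ_[q]] Kv w) :
      Kv w →* Kv w) y = h • y := Units.ext rfl
  rw [h2] at h1
  exact Multiplicative.toAdd.injective h1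

lemma Kv.smul_mem_unitGroup (w : Place q L) (h : decompGroup G w) {y : (Kv w)ˣ}
    (hy : y ∈ Kv.unitGroup w) : h • y ∈ Kv.unitGroup w := by
  rw [Kv.mem_unitGroup_iff] at hy ⊢
  rw [Kv.ordW_smul, hy]

/-- the action of the decomposition group on the units of the ring of integers of `L_w` -/
instance Kv.unitGroupSMul (w : Place q L) : SMul (decompGroup G w) (Kv.unitGroup w) :=
  ⟨fun h y => ⟨h • (y : (Kv w)ˣ), Kv.smul_mem_unitGroup w h y.2⟩⟩

@[simp] lemma Kv.coe_smul_unitGroup (w : Place q L) (h : decompGroup G w) (y : Kv.unitGroup w) :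
    ((h • y : Kv.unitGroup w) : (Kv w)ˣ) = h • (y : (Kv w)ˣ) := rfl

instance Kv.unitGroupDecompAction (w : Place q L) :
    MulDistribMulAction (decompGroup G w) (Kv.unitGroup w) :=
  Function.Injective.mulDistribMulAction (Kv.unitGroup w).subtype Subtype.coe_injective
    (fun _ _ => rfl)

/-- the action of `G` on the local units of the semi-local algebra -/
instance SL.unitGroupSMul : SMul G (SL.unitGroup q L) :=
  ⟨fun g u => ⟨g • (u : (SL q L)ˣ), SL.smul_mem_unitGroup q g u.2⟩⟩

@[simp] lemma SL.coe_smul_unitGroup (g : G) (u : SL.unitGroup q L) :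
    ((g • u : SL.unitGroup q L) : (SL q L)ˣ) = g • (u : (SL q L)ˣ) := rfl

instance SL.unitGroupAction : MulDistribMulAction G (SL.unitGroup q L) :=
  Function.Injective.mulDistribMulAction (SL.unitGroup q L).subtype Subtype.coe_injective
    (fun _ _ => rfl)

/-- `ψ_w` on the local units -/
def SL.unitGroupProj (w : Place q L) : SL.unitGroup q L →* Kv.unitGroup w :=
  ((SL.unitsProj w).comp (SL.unitGroup q L).subtype).codRestrict (Kv.unitGroup w)
    (fun u => (SL.mem_unitGroup_iff_forall_unitsProj_mem (u : (SL q L)ˣ)).1 u.2 w)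

@[simp] lemma SL.coe_unitGroupProj (w : Place q L) (u : SL.unitGroup q L) :
    ((SL.unitGroupProj w u : Kv.unitGroup w) : (Kv w)ˣ) = SL.unitsProj w (u : (SL q L)ˣ) := rfl

/-- `ι_w` on the local units -/
def SL.unitGroupSingle (w : Place q L) : Kv.unitGroup w →* SL.unitGroup q L :=
  ((SL.unitsSingle w).comp (Kv.unitGroup w).subtype).codRestrict (SL.unitGroup q L)
    (fun y => (SL.unitsSingle_mem_unitGroup_iff' w (y : (Kv w)ˣ)).2 y.2)

@[simp] lemma SL.coe_unitGroupSingle (w : Place q L) (y : Kv.unitGroup w) :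
    ((SL.unitGroupSingle w y : SL.unitGroup q L) : (SL q L)ˣ) =
      SL.unitsSingle w (y : (Kv w)ˣ) := rfl

lemma SL.unitGroupProj_smul (w : Place q L) (h : decompGroup G w) (u : SL.unitGroup q L) :
    SL.unitGroupProj w ((h : G) • u) = h • SL.unitGroupProj w u :=
  Subtype.ext (SL.unitsProj_smul w h (u : (SL q L)ˣ))

lemma SL.unitGroupSingle_smul (w : Place q L) (h : decompGroup G w) (y : Kv.unitGroup w) :
    SL.unitGroupSingle w (h • y) = (h : G) • SL.unitGroupSingle w y :=
  Subtype.ext (SL.unitsSingle_smul w h (y : (Kv w)ˣ))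

lemma SL.unitGroupProj_unitGroupSingle_self (w : Place q L) (y : Kv.unitGroup w) :
    SL.unitGroupProj w (SL.unitGroupSingle w y) = y :=
  Subtype.ext (SL.unitsProj_unitsSingle_self w (y : (Kv w)ˣ))

lemma SL.unitGroupProj_smul_unitGroupSingle_of_notMem (w : Place q L) {g : G}
    (hg : g ∉ decompGroup G w) (y : Kv.unitGroup w) :
    SL.unitGroupProj w (g • SL.unitGroupSingle w y) = 1 :=
  Subtype.ext (SL.unitsProj_smul_unitsSingle_of_notMem w hg (y : (Kv w)ˣ))

lemma coe_finprod_subgroup {α M : Type} [Finite α] [CommGroup M] (S : Subgroup M) (f : α → S) :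
    ((∏ᶠ i, f i : S) : M) = ∏ᶠ i, (f i : M) := by
  classical
  letI := Fintype.ofFinite α
  rw [finprod_eq_prod_of_fintype, finprod_eq_prod_of_fintype]
  exact map_prod S.subtype f Finset.univ

theorem SL.finprod_smul_unitGroupSingle_of_transitive (w : Place q L)
    (htr : ∀ w' : Place q L, ∃ g : G, g • w = w') (m : SL.unitGroup q L) :
    ∏ᶠ t : G ⧸ decompGroup G w,
      (t.out : G) • SL.unitGroupSingle w (SL.unitGroupProj w ((t.out : G)⁻¹ • m)) = m := by
  apply Subtype.ext
  rw [coe_finprod_subgroup]
  exact SL.finprod_smul_unitsSingle_of_transitive w htr (m : (SL q L)ˣ)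

theorem SL.finprod_orbits_smul_unitGroupSingle (m : SL.unitGroup q L) :
    ∏ᶠ o : MulAction.orbitRel.Quotient G (Place q L), ∏ᶠ t : G ⧸ decompGroup G o.out,
      (t.out : G) • SL.unitGroupSingle o.out (SL.unitGroupProj o.out ((t.out : G)⁻¹ • m)) = m := by
  apply Subtype.ext
  rw [coe_finprod_subgroup]
  simp only [coe_finprod_subgroup]
  exact SL.finprod_orbits_smul_unitsSingle (m : (SL q L)ˣ)

end UnitGroup

section RepUnitGroup

open CategoryTheory groupCohomology Fermat.Agent.CFT.Coh

variable {q : ℕ} [Fact q.Prime] {L : Type} [Field L] [NumberField L]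
  {G : Type} [Group G] [MulSemiringAction G L]

/-- `ψ_w` on local units as a morphism of representations of the decomposition group -/
def SL.unitGroupProjRep (w : Place q L) :
    Rep.res (decompGroup G w).subtype (Rep.ofMulDistribMulAction G (SL.unitGroup q L)) ⟶
      Rep.ofMulDistribMulAction (decompGroup G w) (Kv.unitGroup w) :=
  mulRepHom (decompGroup G w).subtype (SL.unitGroupProj w) (SL.unitGroupProj_smul w)

/-- **Shapiro's lemma for the local units of the semi-local algebra**: if `G` permutes the places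
of `L` above `q` transitively, then `Hⁿ(G, U_q) ≃ Hⁿ(G_w, O_wˣ)`. -/
theorem SL.map_unitGroupProjRep_bijective (w : Place q L)
    (htr : ∀ w' : Place q L, ∃ g : G, g • w = w') (n : ℕ) :
    Function.Bijective
      (groupCohomology.map (decompGroup G w).subtype (SL.unitGroupProjRep w) n) :=
  map_bijective_of_mul_decomposition (decompGroup G w) (SL.unitGroupProj w)
    (SL.unitGroupSingle w) (SL.unitGroupProj_smul w) (SL.unitGroupSingle_smul w)
    (SL.unitGroupProj_unitGroupSingle_self w)
    (fun _ hg y => SL.unitGroupProj_smul_unitGroupSingle_of_notMem w hg y)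
    (SL.finprod_smul_unitGroupSingle_of_transitive w htr) n

/-- If `Hⁿ(G_w, O_wˣ) = 0` for all places `w` above `q`, then `Hⁿ(G, U_q) = 0` for the local
units `U_q` of `ℚ_q ⊗ L`. -/
theorem SL.isZero_groupCohomology_unitGroup (n : ℕ)
    (h : ∀ w : Place q L, Limits.IsZero
      (groupCohomology (Rep.ofMulDistribMulAction (decompGroup G w) (Kv.unitGroup w)) n)) :
    Limits.IsZero (groupCohomology (Rep.ofMulDistribMulAction G (SL.unitGroup q L)) n) :=
  isZero_groupCohomology_of_mul_decomposition_family
    (I := MulAction.orbitRel.Quotient G (Place q L))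
    (fun o => decompGroup G o.out) (fun o => Kv.unitGroup o.out)
    (fun o => SL.unitGroupProj o.out) (fun o => SL.unitGroupSingle o.out)
    (fun o => SL.unitGroupProj_smul o.out) (fun o => SL.unitGroupSingle_smul o.out)
    SL.finprod_orbits_smul_unitGroupSingle n (fun o => h o.out)

/-- element form of `SL.isZero_groupCohomology_unitGroup` in degree one -/
theorem SL.isMulCoboundary₁_unitGroup
    (h : ∀ (w : Place q L) (f : decompGroup G w → Kv.unitGroup w),
      IsMulCocycle₁ f → IsMulCoboundary₁ f)
    (f : G → SL.unitGroup q L) (hf : IsMulCocycle₁ f) : IsMulCoboundary₁ f :=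
  isZero_H1_iff_forall_isMulCoboundary₁.1
    (SL.isZero_groupCohomology_unitGroup 1
      (fun w => isZero_H1_iff_forall_isMulCoboundary₁.2 (h w))) f hf

/-- element form of `SL.isZero_groupCohomology_units` in degree one -/
theorem SL.isMulCoboundary₁_units
    (h : ∀ (w : Place q L) (f : decompGroup G w → (Kv w)ˣ),
      IsMulCocycle₁ f → IsMulCoboundary₁ f)
    (f : G → (SL q L)ˣ) (hf : IsMulCocycle₁ f) : IsMulCoboundary₁ f :=
  isZero_H1_iff_forall_isMulCoboundary₁.1
    (SL.isZero_groupCohomology_units 1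
      (fun w => isZero_H1_iff_forall_isMulCoboundary₁.2 (h w))) f hf

end RepUnitGroup

/-! ## Base field `ℚ`: the Galois group permutes all the places above `q` transitively -/

section OverQ

variable {q : ℕ} [Fact q.Prime]

instance Place.subsingleton_rat : Subsingleton (Place q ℚ) := by
  have hF : IsField (SL q ℚ) :=
    (Algebra.TensorProduct.rid ℚ ℚ_[q] ℚ_[q]).toMulEquiv.isField (Field.toIsField ℚ_[q])
  refine ⟨fun v v' => MaximalSpectrum.ext ?_⟩
  letI := hF.toField
  rw [(Ideal.eq_bot_or_top v.asIdeal).resolve_right v.isMaximal.ne_top,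
    (Ideal.eq_bot_or_top v'.asIdeal).resolve_right v'.isMaximal.ne_top]

variable {L : Type} [Field L] [NumberField L] {G : Type} [Group G] [Finite G]
  [MulSemiringAction G L] [IsGaloisGroup G ℚ L]

/-- over `ℚ`, the Galois group permutes the places above `q` transitively -/
theorem Place.exists_smul_eq_of_rat (w w' : Place q L) : ∃ g : G, g • w = w' :=
  Place.exists_smul_eq_of_under_eq (K := ℚ) (Subsingleton.elim _ _)

end OverQ

end

end Fermat.Agent.CFT.Global
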