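/-
P4 / Layer C1f (complements): the normalized valuations are compatible with isomorphisms of
completions (`ordW_map_algEquiv`), hence `ord_{g w} (g • u) = ord_w u` (`SL.ordAt_smul_smul`,
`SL.ordAll_smul`); Hilbert 90 for the units of the semi-local algebra (`SL.isZero_H1_units`,
`SL.isMulCoboundary₁_of_isMulCocycle₁`).
-/
import Fermat.Agent.Lib.CFT.Global.Induced
import Fermat.Agent.Lib.CFT.Local.UnitsRep

set_option autoImplicit false
set_option linter.style.haveILetI false
set_option linter.unusedSectionVars false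

open scoped TensorProduct

namespace Fermat.Agent.CFT.Global

noncomputable section

section OrdIso

variable {q : ℕ} [Fact q.Prime] {K K' : Type} [Field K] [NumberField K] [Field K'] [NumberField K']

/-- an isomorphism of completions over `ℚ_q` preserves the normalized valuations -/
theorem ordW_map_algEquiv (w : Place q K) (w' : Place q K') (e : Kv w ≃ₐ[ℚ_[q]] Kv w')
    (y : (Kv w)ˣ) : ordW w' (Units.map ((e : Kv w ≃ₐ[ℚ_[q]] Kv w') : Kv w →* Kv w') y) = ordW w y := by
  -- the induced isomorphism of the rings of integers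
  let τ : Ow w ≃ₐ[ℤ_[q]] Ow w' := (e.restrictScalars ℤ_[q]).mapIntegralClosure
  have hτ : ∀ b : Ow w, e (algebraMap (Ow w) (Kv w) b) = algebraMap (Ow w') (Kv w') (τ b) :=
    fun b => rfl
  obtain ⟨ϖ, π, hϖ, hπ⟩ := Local.exists_uniformizer (Ow w) (Kv w)
  obtain ⟨m, u, rfl⟩ := Local.exists_eq_zpow_mul hϖ π hπ y
  have h1 : Irreducible (τ ϖ) := (MulEquiv.irreducible_iff (τ : Ow w ≃* Ow w')).2 hϖ
  have h2 : ((Units.map ((e : Kv w ≃ₐ[ℚ_[q]] Kv w') : Kv w →* Kv w') π : (Kv w')ˣ) : Kv w') =
      algebraMap (Ow w') (Kv w') (τ ϖ) := by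
    rw [← hτ, ← hπ]
    rfl
  have h3 : Units.map ((e : Kv w ≃ₐ[ℚ_[q]] Kv w') : Kv w →* Kv w')
      (Units.map (algebraMap (Ow w) (Kv w) : Ow w →* Kv w) u) =
      Units.map (algebraMap (Ow w') (Kv w') : Ow w' →* Kv w')
        (Units.map ((τ : Ow w ≃* Ow w') : Ow w →* Ow w') u) :=
    Units.ext (hτ (u : Ow w))
  apply Multiplicative.toAdd.injective
  change Local.ordZ (Ow w') (Kv w') _ = Local.ordZ (Ow w) (Kv w) _
  rw [map_mul, map_zpow, Local.ordZ_mul, Local.ordZ_zpow, Local.ordZ_irreducible h1 _ h2, h3,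
    Local.ordZ_algebraMap_unit, Local.ordZ_zpow_mul hϖ π hπ]
  ring

end OrdIso

section OrdAction

variable {q : ℕ} [Fact q.Prime] {L : Type} [Field L] [NumberField L]
  {G : Type} [Group G] [MulSemiringAction G L]

/-- `ord_{g w} (g • u) = ord_w u` -/
theorem SL.ordAt_smul_smul (g : G) (w : Place q L) (u : (SL q L)ˣ) :
    SL.ordAt (g • w) (g • u) = SL.ordAt w u := by
  rw [SL.ordAt_eq_ordW_unitsProj, SL.unitsProj_smul_smul, ordW_map_algEquiv,
    ← SL.ordAt_eq_ordW_unitsProj]

/-- the family of valuations is equivariant for the permutation action on the places -/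
theorem SL.ordAll_smul (g : G) (u : (SL q L)ˣ) (w : Place q L) :
    SL.ordAll (g • u) w = SL.ordAll u (g⁻¹ • w) := by
  rw [SL.ordAll_apply, SL.ordAll_apply]
  conv_lhs => rw [← smul_inv_smul g w]
  exact SL.ordAt_smul_smul g (g⁻¹ • w) u

end OrdAction

section H90

open CategoryTheory groupCohomology Fermat.Agent.CFT.Coh

variable {q : ℕ} [Fact q.Prime] {L : Type} [Field L] [NumberField L]
  {G : Type} [Group G] [Finite G] [MulSemiringAction G L] [FaithfulSMul G L]

/-- **Hilbert 90 for the semi-local units**: `H¹(G, (ℚ_q ⊗ L)ˣ) = 0`. -/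
theorem SL.isZero_H1_units :
    Limits.IsZero (groupCohomology (Rep.ofMulDistribMulAction G (SL q L)ˣ) 1) :=
  SL.isZero_groupCohomology_units 1
    (fun w => Local.isZero_H1_unitsRep q (Kv w) (decompGroup G w))

/-- Hilbert 90 for the semi-local units, element form -/
theorem SL.isMulCoboundary₁_of_isMulCocycle₁ (f : G → (SL q L)ˣ) (hf : IsMulCocycle₁ f) :
    IsMulCoboundary₁ f :=
  isZero_H1_iff_forall_isMulCoboundary₁.1 SL.isZero_H1_units f hf

end H90

end

end Fermat.Agent.CFT.Global
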