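/-
P4 / Layer C-0: Galois descent for the `S`-idele class group.  For a finite Galois extension `L / K`
of number fields with group `G` and a nonempty finite set `S` of rational primes:

* `CS.map_algebraMap_injective` : `C_S(K) → C_S(L)` is injective;
* `CS.exists_map_eq_of_forall_smul_eq` : if `L / ℚ` is unramified outside `S`, every `G`-invariant
  class of `C_S(L)` comes from `C_S(K)`  (Hilbert 90 for `Lˣ` and `H¹(G, U^S_L) = 0`).
-/
import Fermat.Agent.Lib.CFT.Global.SemiLocalH90
import Fermat.Agent.Lib.CFT.Global.FirstIneq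

set_option autoImplicit false
set_option linter.style.haveILetI false
set_option linter.unusedSectionVars false

open scoped TensorProduct

namespace Fermat.Agent.CFT.Global

open Fermat.Agent.CFT.Local groupCohomology

noncomputable section

/-! ## Unramified primes: `q` is a uniformizer at every place -/

section Unramified

variable {q : ℕ} [Fact q.Prime] {K : Type} [Field K] [NumberField K]

/-- the prime `q` as a unit of `K_w` -/
def Kv.primeUnit (w : Place q K) : (Kv w)ˣ :=
  Units.mk0 (algebraMap ℚ_[q] (Kv w) (q : ℚ_[q])) (by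
    rw [Ne, FaithfulSMul.algebraMap_eq_zero_iff]
    exact Nat.cast_ne_zero.2 (Fact.out : q.Prime).ne_zero)

@[simp] lemma Kv.coe_primeUnit (w : Place q K) :
    ((Kv.primeUnit w : (Kv w)ˣ) : Kv w) = algebraMap ℚ_[q] (Kv w) (q : ℚ_[q]) := rfl

/-- the element of the semi-local algebra with component `y` at `w` and `0` elsewhere -/
def SL.single (w : Place q K) (y : Kv w) : SL q K := by
  classical
  exact (SL.equivPi q K).symm (Pi.single w y)

lemma SL.proj_single_self (w : Place q K) (y : Kv w) : Kv.proj w (SL.single w y) = y := by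
  classical
  rw [← SL.equivPi_apply, SL.single, AlgEquiv.apply_symm_apply, Pi.single_eq_same]

lemma SL.proj_single_of_ne {w w' : Place q K} (h : w' ≠ w) (y : Kv w) :
    Kv.proj w' (SL.single w y) = 0 := by
  classical
  rw [← SL.equivPi_apply, SL.single, AlgEquiv.apply_symm_apply, Pi.single_eq_of_ne h]

lemma SL.single_mem_integers (w : Place q K) {y : Kv w} (hy : y ∈ Ow w) :
    SL.single w y ∈ SL.integers q K := by
  rw [SL.mem_integers_iff_forall]
  intro w'
  by_cases h : w' = w
  · subst h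
    rw [SL.proj_single_self]
    exact hy
  · rw [SL.proj_single_of_ne h]
    exact zero_mem _

lemma ordZ_primeUnit_pos (w : Place q K) : 0 < Local.ordZ (Ow w) (Kv w) (Kv.primeUnit w) := by
  have h0 : 0 ≤ Local.ordZ (Ow w) (Kv w) (Kv.primeUnit w) := by
    rw [← mem_Ow_iff_ordZ_nonneg, Kv.coe_primeUnit]
    have : algebraMap ℚ_[q] (Kv w) (q : ℚ_[q]) = algebraMap ℤ_[q] (Kv w) (q : ℤ_[q]) := by
      rw [IsScalarTower.algebraMap_apply ℤ_[q] ℚ_[q] (Kv w)]
      simp
    rw [this]
    exact Subalgebra.algebraMap_mem _ _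
  refine lt_of_le_of_ne h0 fun h => ?_
  -- otherwise `1 / q` would be integral over `ℤ_q`
  have h1 : ((Kv.primeUnit w)⁻¹ : (Kv w)ˣ).1 ∈ Ow w := by
    rw [mem_Ow_iff_ordZ_nonneg, Local.ordZ_inv, ← h, neg_zero]
  have h2 : ((Kv.primeUnit w)⁻¹ : (Kv w)ˣ).1 = algebraMap ℚ_[q] (Kv w) ((q : ℚ_[q])⁻¹) := by
    rw [map_inv₀]
    rfl
  rw [h2] at h1
  have h3 : IsIntegral ℤ_[q] ((q : ℚ_[q])⁻¹) :=
    (isIntegral_algebraMap_iff (FaithfulSMul.algebraMap_injective ℚ_[q] (Kv w))).1 h1
  obtain ⟨y, hy⟩ := IsIntegrallyClosed.isIntegral_iff.1 h3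
  have h4 : ‖(q : ℚ_[q])⁻¹‖ ≤ 1 := by
    rw [← hy]
    exact PadicInt.norm_le_one y
  rw [norm_inv, Padic.norm_p, inv_inv] at h4
  have hq1 : (1 : ℝ) < q := by exact_mod_cast (Fact.out : q.Prime).one_lt
  linarith

/-- **If `K / ℚ` is unramified at `q` then `q` is a uniformizer of every completion `K_w`.** -/
theorem UnramifiedAt.ordZ_primeUnit (h : UnramifiedAt q K) (w : Place q K) :
    Local.ordZ (Ow w) (Kv w) (Kv.primeUnit w) = 1 := by
  set n := Local.ordZ (Ow w) (Kv w) (Kv.primeUnit w) with hn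
  have hpos := ordZ_primeUnit_pos w
  by_contra hne
  have hn2 : 2 ≤ n := by omega
  obtain ⟨π, hπ⟩ := Local.ordZ_surjective (Ow w) (Kv w) 1
  -- the three auxiliary units
  set u₁ : (Kv w)ˣ := π ^ (n - 1) with hu₁
  have ho₁ : Local.ordZ (Ow w) (Kv w) u₁ = n - 1 := by
    rw [hu₁, Local.ordZ_zpow, hπ, mul_one]
  set u₂ : (Kv w)ˣ := u₁ * u₁ * (Kv.primeUnit w)⁻¹ with hu₂
  have ho₂ : Local.ordZ (Ow w) (Kv w) u₂ = n - 2 := by
    rw [hu₂, Local.ordZ_mul, Local.ordZ_mul, Local.ordZ_inv, ho₁, ← hn]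
    ring
  set u₃ : (Kv w)ˣ := u₁ * (Kv.primeUnit w)⁻¹ with hu₃
  have ho₃ : Local.ordZ (Ow w) (Kv w) u₃ = -1 := by
    rw [hu₃, Local.ordZ_mul, Local.ordZ_inv, ho₁, ← hn]
    ring
  have hm₁ : (u₁ : Kv w) ∈ Ow w := by rw [mem_Ow_iff_ordZ_nonneg, ho₁]; omega
  have hm₂ : (u₂ : Kv w) ∈ Ow w := by rw [mem_Ow_iff_ordZ_nonneg, ho₂]; omega
  have hm₃ : (u₃ : Kv w) ∉ Ow w := by rw [mem_Ow_iff_ordZ_nonneg, ho₃]; omega
  -- the elements of the maximal order
  let X : SL.integers q K := ⟨SL.single w u₁, SL.single_mem_integers w hm₁⟩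
  let Z : SL.integers q K := ⟨SL.single w u₂, SL.single_mem_integers w hm₂⟩
  have hq : ∀ w' : Place q K, Kv.proj w' ((algebraMap ℤ_[q] (SL.integers q K) (q : ℤ_[q]) :
      SL.integers q K) : SL q K) = algebraMap ℚ_[q] (Kv w') (q : ℚ_[q]) := by
    intro w'
    have h1 : ((algebraMap ℤ_[q] (SL.integers q K) (q : ℤ_[q]) : SL.integers q K) : SL q K)
        = algebraMap ℚ_[q] (SL q K) (q : ℚ_[q]) := by
      rw [map_natCast, map_natCast]
      rfl
    rw [h1]
    exact (Kv.proj w').commutes _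
  have hX2 : X ^ 2 = algebraMap ℤ_[q] (SL.integers q K) (q : ℤ_[q]) * Z := by
    apply Subtype.ext
    apply SL.ext_proj
    intro w'
    rw [Subalgebra.coe_mul, map_mul, hq, Subalgebra.coe_pow, map_pow]
    by_cases hw : w' = w
    · subst hw
      change Kv.proj w' (SL.single w' (u₁ : Kv w')) ^ 2 = _ * Kv.proj w' (SL.single w' (u₂ : Kv w'))
      rw [SL.proj_single_self, SL.proj_single_self, hu₂]
      have : (Kv.primeUnit w' : Kv w') = algebraMap ℚ_[q] (Kv w') (q : ℚ_[q]) := rfl
      rw [← this]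
      push_cast
      have hne0 : (Kv.primeUnit w' : Kv w') ≠ 0 := Units.ne_zero _
      field_simp
    · change Kv.proj w' (SL.single w (u₁ : Kv w)) ^ 2 = _ * Kv.proj w' (SL.single w (u₂ : Kv w))
      rw [SL.proj_single_of_ne hw, SL.proj_single_of_ne hw]
      simp
  have hXmem : X ∈ Ideal.span {algebraMap ℤ_[q] (SL.integers q K) (q : ℤ_[q])} := by
    apply h
    refine ⟨2, ?_⟩
    rw [hX2]
    exact Ideal.mul_mem_right _ _ (Ideal.subset_span rfl)
  obtain ⟨Z', hZ'⟩ := Ideal.mem_span_singleton'.1 hXmem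
  apply hm₃
  have h5 := congrArg (fun t : SL.integers q K => Kv.proj w (t : SL q K)) hZ'
  simp only [Subalgebra.coe_mul, map_mul, hq] at h5
  change _ = Kv.proj w (SL.single w (u₁ : Kv w)) at h5
  rw [SL.proj_single_self] at h5
  have h6 : (u₃ : Kv w) = Kv.proj w (Z' : SL q K) := by
    rw [hu₃, Units.val_mul, ← h5]
    have : (Kv.primeUnit w : Kv w) = algebraMap ℚ_[q] (Kv w) (q : ℚ_[q]) := rfl
    rw [← this, mul_assoc, Units.mul_inv, mul_one]
  rw [h6]
  exact (SL.mem_integers_iff_forall.1 Z'.2) w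

theorem UnramifiedAt.ordW_primeUnit (h : UnramifiedAt q K) (w : Place q K) :
    ordW w (Kv.primeUnit w) = Multiplicative.ofAdd 1 := by
  have := h.ordZ_primeUnit w
  unfold Local.ordZ at this
  unfold ordW
  exact Multiplicative.toAdd.injective this

end Unramified

/-! ## Vanishing of `H¹` of the local units at unramified primes -/

section LocalH1

variable {q : ℕ} [Fact q.Prime] {L : Type} [Field L] [NumberField L]
  {G : Type} [Group G] [Finite G] [MulSemiringAction G L] [FaithfulSMul G L]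

omit [Finite G] [FaithfulSMul G L] in
lemma Kv.smul_primeUnit (w : Place q L) (h : decompGroup G w) :
    h • Kv.primeUnit w = Kv.primeUnit w := by
  apply Units.ext
  change h • algebraMap ℚ_[q] (Kv w) (q : ℚ_[q]) = _
  rw [smul_algebraMap]
  rfl

/-- `H¹(G_w, O_wˣ) = 0` at an unramified prime (element form) -/
theorem Kv.isMulCoboundary₁_unitGroup (hq : UnramifiedAt q L) (w : Place q L)
    (f : decompGroup G w → Kv.unitGroup w) (hf : IsMulCocycle₁ f) : IsMulCoboundary₁ f := by
  have hf' : IsMulCocycle₁ (fun g => (f g : (Kv w)ˣ)) :=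
    fun g h => congrArg Subtype.val (hf g h)
  obtain ⟨b, hb⟩ := Local.isMulCoboundary₁_of_isMulCocycle₁ q (Kv w) (decompGroup G w) _ hf'
  set n := Local.ordZ (Ow w) (Kv w) b with hn
  set b' : (Kv w)ˣ := b * (Kv.primeUnit w) ^ (-n) with hb'def
  have hb' : b' ∈ Kv.unitGroup w := by
    rw [Local.mem_unitGroup_iff, hb'def, Local.ordZ_mul, Local.ordZ_zpow, hq.ordZ_primeUnit, ← hn]
    ring
  refine ⟨⟨b', hb'⟩, fun g => Subtype.ext ?_⟩
  have hbg : g • b / b = (f g : (Kv w)ˣ) := hb g
  change g • b' / b' = f g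
  rw [← hbg, hb'def, smul_mul', smul_zpow', Kv.smul_primeUnit]
  rw [mul_div_mul_right_eq_div]

/-- `H¹(G, U_q) = 0` for the semi-local units at an unramified prime (element form) -/
theorem SL.isMulCoboundary₁_unitGroup_of_unramified (hq : UnramifiedAt q L)
    (f : G → SL.unitGroup q L) (hf : IsMulCocycle₁ f) : IsMulCoboundary₁ f :=
  SL.isMulCoboundary₁_unitGroup (fun w f hf => Kv.isMulCoboundary₁_unitGroup hq w f hf) f hf

end LocalH1

/-! ## Hilbert 90 for a finite group of field automorphisms -/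

section H90

variable {L : Type} [Field L] {G : Type} [Group G] [Finite G] [MulSemiringAction G L]

/-- **Hilbert 90** (Noether's form) for `G` acting on `L` with fixed field `K`. -/
theorem fieldUnits_isMulCoboundary₁ (K : Type) [Field K] [Algebra K L] [IsGaloisGroup G K L]
    (f : G → Lˣ) (hf : IsMulCocycle₁ f) : IsMulCoboundary₁ f := by
  haveI : FiniteDimensional K L := IsGaloisGroup.finiteDimensional G K L
  set e := IsGaloisGroup.mulEquivAlgEquiv G K L with he
  have hsmul : ∀ (σ : L ≃ₐ[K] L) (y : Lˣ), σ • y = (e.symm σ) • y := by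
    intro σ y
    ext
    change σ (y : L) = (e.symm σ) • (y : L)
    have h1 : e (e.symm σ) (y : L) = (e.symm σ) • (y : L) := rfl
    rw [← h1, MulEquiv.apply_symm_apply]
  have hf' : IsMulCocycle₁ (fun σ : L ≃ₐ[K] L => f (e.symm σ)) := by
    intro σ τ
    change f (e.symm (σ * τ)) = σ • f (e.symm τ) * f (e.symm σ)
    rw [map_mul, hf, hsmul]
  obtain ⟨β, hβ⟩ := isMulCoboundary₁_of_isMulCocycle₁_of_aut_to_units _ hf'
  refine ⟨β, fun g => ?_⟩
  have := hβ (e g)
  simp only [MulEquiv.symm_apply_apply] at this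
  rw [← this, hsmul, MulEquiv.symm_apply_apply]

end H90

/-! ## Descent for the `S`-idele class group -/

lemma div_div_div_comm_aux {M : Type*} [CommGroup M] (A B C X B' C' : M) :
    A / (B' * C') / (X / (B * C)) = (A / X) / ((B' / B) * (C' / C)) := by
  simp only [div_eq_mul_inv, mul_inv_rev, inv_inv, mul_assoc, mul_comm, mul_left_comm]

section Global

variable {K L : Type} [Field K] [NumberField K] [Field L] [NumberField L] [Algebra K L]
  {G : Type} [Group G] [Finite G] [MulSemiringAction G L]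
  (S : Finset Nat.Primes)

omit [Finite G] in
lemma FinIdele.smul_princ' (g : G) (a : Lˣ) :
    g • FinIdele.princ L a = FinIdele.princ L (g • a) := by
  rw [FinIdele.smul_princ, smul_fieldUnits_eq]

omit [Finite G] in
lemma smul_mem_unitsOutside (g : G) {u : FinIdele L} (hu : u ∈ unitsOutside S L) :
    g • u ∈ unitsOutside S L :=
  map_mem_unitsOutside S _ hu

variable {S}

/-- a principal idele which is trivial at the primes of a nonempty `S` is trivial -/
lemma eq_one_of_princ_mem_unitsOutside (hS : S.Nonempty) {a : Lˣ}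
    (ha : FinIdele.princ L a ∈ unitsOutside S L) : a = 1 := by
  obtain ⟨q, hq⟩ := hS
  have h1 : SL.unitsIncl (q : ℕ) L a = 1 := ha.1 q hq
  exact SL.unitsIncl_injective L (q : ℕ) (h1.trans (map_one _).symm)

/-- uniqueness of the decomposition in `Lˣ · U^S` -/
lemma princ_mul_eq_princ_mul (hS : S.Nonempty) {a a' : Lˣ} {u u' : FinIdele L}
    (hu : u ∈ unitsOutside S L) (hu' : u' ∈ unitsOutside S L)
    (h : FinIdele.princ L a * u = FinIdele.princ L a' * u') : a = a' ∧ u = u' := by
  have h1 : FinIdele.princ L (a'⁻¹ * a) = u' * u⁻¹ := by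
    rw [map_mul, map_inv, eq_mul_inv_iff_mul_eq, mul_assoc, h, inv_mul_cancel_left]
  have h2 : a'⁻¹ * a = 1 :=
    eq_one_of_princ_mem_unitsOutside hS (h1 ▸ mul_mem hu' (inv_mem hu))
  have h3 : a = a' := by
    rw [inv_mul_eq_one] at h2
    exact h2.symm
  subst h3
  exact ⟨rfl, mul_left_cancel h⟩

variable [IsGaloisGroup G K L]

omit [NumberField K] [NumberField L] in
/-- invariant units come from the base field -/
lemma exists_unitsMap_algebraMap_eq (a : Lˣ) (ha : ∀ g : G, g • a = a) :
    ∃ a₀ : Kˣ, Units.map (algebraMap K L : K →* L) a₀ = a := by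
  have h1 : ∀ g : G, g • (a : L) = a := fun g => congrArg Units.val (ha g)
  obtain ⟨y, hy⟩ := (IsGaloisGroup.isInvariant (G := G) (A := K) (B := L)).isInvariant (a : L) h1
  have hy0 : y ≠ 0 := by
    rintro rfl
    rw [map_zero] at hy
    exact (Units.ne_zero a) hy.symm
  exact ⟨Units.mk0 y hy0, Units.ext hy⟩

/-- **`C_S(K) → C_S(L)` is injective** for nonempty `S`. -/
theorem CS.map_algebraMap_injective (G : Type) [Group G] [Finite G] [MulSemiringAction G L]
    [IsGaloisGroup G K L] (hS : S.Nonempty) :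
    Function.Injective (CS.map S (algebraMap K L)) := by
  rw [injective_iff_map_eq_one]
  intro c hc
  obtain ⟨x, rfl⟩ := CS.mk_surjective S c
  rw [CS.map_mk, CS.mk_eq_one_iff'] at hc
  obtain ⟨a, u, hu, h⟩ := hc
  have hinv : ∀ g : G, g • a = a ∧ g • u = u := by
    intro g
    have h1 : g • FinIdele.map (algebraMap K L) x = FinIdele.map (algebraMap K L) x :=
      FinIdele.smul_map_algebraMap g x
    rw [h, smul_mul', FinIdele.smul_princ'] at h1
    exact princ_mul_eq_princ_mul hS (smul_mem_unitsOutside S g hu) hu h1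
  obtain ⟨a₀, ha₀⟩ := exists_unitsMap_algebraMap_eq (K := K) a (fun g => (hinv g).1)
  obtain ⟨u₀, hu₀⟩ := FinIdele.exists_map_eq_of_forall_smul_eq (K := K) u (fun g => (hinv g).2)
  have hu₀S : u₀ ∈ unitsOutside S K := by
    rw [← FinIdele.map_mem_unitsOutside_iff S (algebraMap K L), hu₀]
    exact hu
  rw [CS.mk_eq_one_iff']
  refine ⟨a₀, u₀, hu₀S, FinIdele.map_injective (algebraMap K L) ?_⟩
  rw [h, map_mul, FinIdele.map_princ, ha₀, hu₀]

/-- **Galois descent for `C_S`**: if `L / ℚ` is unramified outside the nonempty set `S`, every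
`G`-invariant class of `C_S(L)` comes from `C_S(K)`. -/
theorem CS.exists_map_eq_of_forall_smul_eq (hS : S.Nonempty) (hunr : UnramifiedOutside S L)
    (c : CS S L) (hc : ∀ g : G, g • c = c) : ∃ c₀ : CS S K, CS.map S (algebraMap K L) c₀ = c := by
  classical
  haveI : FaithfulSMul G L := IsGaloisGroup.faithful K
  obtain ⟨x, rfl⟩ := CS.mk_surjective S c
  -- the cocycles `a_g`, `u_g`
  have hdec : ∀ g : G, ∃ a : Lˣ, ∃ u ∈ unitsOutside S L, g • x / x = FinIdele.princ L a * u := by
    intro g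
    rw [← CS.mk_eq_one_iff', map_div, ← CS.smul_mk, hc g, div_self']
  choose a u hu hau using hdec
  have hcoc : ∀ g h : G, a (g * h) = g • a h * a g ∧ u (g * h) = g • u h * u g := by
    intro g h
    have h1 : (g * h) • x / x = g • (h • x / x) * (g • x / x) := by
      rw [smul_div', mul_smul, div_mul_div_cancel]
    rw [hau, hau, hau, smul_mul', FinIdele.smul_princ', mul_mul_mul_comm, ← map_mul] at h1
    exact princ_mul_eq_princ_mul hS (hu _) (mul_mem (smul_mem_unitsOutside S g (hu h)) (hu g)) h1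
  -- Hilbert 90 for the field part
  obtain ⟨b, hb⟩ := fieldUnits_isMulCoboundary₁ K a (fun g h => (hcoc g h).1)
  -- vanishing of `H¹` of the local units outside `S`
  have hloc : ∀ r : Nat.Primes, ∃ v : (SL (r : ℕ) L)ˣ, (v ∈ SL.unitGroup (r : ℕ) L) ∧
      (r ∈ S → v = 1) ∧ ∀ g : G, g • v / v = FinIdele.comp r (u g) := by
    intro r
    by_cases hr : r ∈ S
    · refine ⟨1, one_mem _, fun _ => rfl, fun g => ?_⟩
      rw [(hu g).1 r hr, smul_one, div_one]
    · let f : G → SL.unitGroup (r : ℕ) L := fun g => ⟨FinIdele.comp r (u g), (hu g).2 r hr⟩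
      have hf : IsMulCocycle₁ f := by
        intro g h
        apply Subtype.ext
        change FinIdele.comp r (u (g * h)) = g • FinIdele.comp r (u h) * FinIdele.comp r (u g)
        rw [(hcoc g h).2, map_mul, FinIdele.comp_smul]
      obtain ⟨v, hv⟩ := SL.isMulCoboundary₁_unitGroup_of_unramified (hunr r hr) f hf
      exact ⟨v, v.2, fun h => absurd h hr, fun g => congrArg Subtype.val (hv g)⟩
  choose v hvU hvS hv using hloc
  let V : FinIdele L := FinIdele.mk v (by
    convert Set.finite_empty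
    ext r
    simp only [Set.mem_ofPred_eq, Set.mem_empty_iff_false, iff_false, not_not]
    exact hvU r)
  have hVcomp : ∀ r, FinIdele.comp r V = v r := fun r => rfl
  have hVg : ∀ g : G, g • V / V = u g := by
    intro g
    ext r
    rw [map_div, FinIdele.comp_smul, hVcomp, hv]
  -- the invariant idele
  set y : FinIdele L := x / (FinIdele.princ L b * V) with hy
  have hyinv : ∀ g : G, g • y = y := by
    intro g
    have h1 : g • y / y = 1 := by
      rw [hy, smul_div', smul_mul', FinIdele.smul_princ']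
      have h2 : g • x / (FinIdele.princ L (g • b) * g • V) / (x / (FinIdele.princ L b * V)) =
          (g • x / x) / (FinIdele.princ L (g • b / b) * (g • V / V)) := by
        rw [map_div]
        exact div_div_div_comm_aux _ _ _ _ _ _
      rw [h2, hVg, hb, hau, div_self']
    exact div_eq_one.1 h1
  obtain ⟨y₀, hy₀⟩ := FinIdele.exists_map_eq_of_forall_smul_eq (K := K) y hyinv
  refine ⟨CS.mk S K y₀, ?_⟩
  rw [CS.map_mk, hy₀, hy, map_div, map_mul]
  have h1 : CS.mk S L (FinIdele.princ L b) = 1 := by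
    rw [CS.mk_eq_one_iff']
    exact ⟨b, 1, one_mem _, by rw [mul_one]⟩
  have h2 : CS.mk S L V = 1 := by
    rw [CS.mk_eq_one_iff']
    refine ⟨1, V, ?_, by rw [map_one, one_mul]⟩
    rw [mem_unitsOutside_iff]
    refine ⟨fun r hr => ?_, fun r _ => hvU r⟩
    exact hvS r hr
  rw [h1, h2, mul_one, div_one]

end Global

end

end Fermat.Agent.CFT.Global
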