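import Fermat.Agent.Lib.CFT.Global.IdeleIdeal

/-!
# P4 / Layer C (C1d): the idele class group and the ideal class group

* `JS.toCS_eq_one_iff` : the kernel of `J_{K,S} → C_S(K)` consists of the `S`-units;
* `JS.diag_injective` (for `S ≠ ∅`);
* `CS.emptyEquivClassGroup : CS ∅ K ≃* ClassGroup (𝓞 K)`, hence `Finite (CS ∅ K)`;
* `finite_CS_quotient_range` : `Cl_S(K) = C_S(K) / im J_{K,S}` is finite.
-/

set_option autoImplicit false
set_option linter.unusedSectionVars false
set_option linter.style.haveILetI false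

open scoped TensorProduct NumberField nonZeroDivisors

open IsDedekindDomain

namespace Fermat.Agent.CFT.Global

open Fermat.Agent.CFT.Local

noncomputable section

variable (S : Finset Nat.Primes) (K : Type) [Field K] [NumberField K]

/-! ## The kernel of `J_{K,S} → C_S(K)` -/

variable {S K} in
/-- the kernel of `J_{K,S} → C_S(K)` consists of the `S`-units -/
theorem JS.toCS_eq_one_iff (x : JS S K) :
    JS.toCS S K x = 1 ↔ ∃ a ∈ SUnits S K, JS.diag S K a = x := by
  show CS.mk S K (JS.toFinIdele S K x) = 1 ↔ _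
  rw [CS.mk_eq_one_iff']
  constructor
  · rintro ⟨a, u, hu, h⟩
    rw [mem_unitsOutside_iff] at hu
    refine ⟨a, fun q hq => ?_, ?_⟩
    · have h1 := congrArg (FinIdele.comp q) h
      rw [JS.comp_toFinIdele_of_notMem x hq, map_mul] at h1
      have h2 : FinIdele.comp q (FinIdele.princ K a) = SL.unitsIncl (q : ℕ) K a := rfl
      rw [h2] at h1
      have h3 : SL.unitsIncl (q : ℕ) K a = (FinIdele.comp q u)⁻¹ := eq_inv_of_mul_eq_one_left h1.symm
      rw [h3]
      exact inv_mem (hu.2 q hq)
    · ext q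
      have h1 := congrArg (FinIdele.comp (q : Nat.Primes)) h
      rw [JS.comp_toFinIdele_of_mem x q.2, map_mul, hu.1 _ q.2, mul_one] at h1
      rw [JS.comp_diag]
      exact congrArg Units.val h1.symm
  · rintro ⟨a, ha, rfl⟩
    refine ⟨a, JS.toFinIdele S K (JS.diag S K a) * (FinIdele.princ K a)⁻¹, ?_, by
      rw [mul_comm (JS.toFinIdele S K _), mul_inv_cancel_left]⟩
    rw [mem_unitsOutside_iff]
    constructor
    · intro q hq
      rw [map_mul, map_inv, JS.comp_toFinIdele_of_mem _ hq]
      exact mul_inv_cancel _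
    · intro q hq
      rw [map_mul, map_inv, JS.comp_toFinIdele_of_notMem _ hq, one_mul]
      exact inv_mem (ha q hq)

theorem SL.unitsIncl_injective (q : ℕ) [Fact q.Prime] :
    Function.Injective (SL.unitsIncl q K) := by
  intro a b h
  apply Units.ext
  exact (SL.incl q K).injective (congrArg Units.val h)

variable {S} in
theorem JS.diag_injective (hS : S.Nonempty) : Function.Injective (JS.diag S K) := by
  obtain ⟨q, hq⟩ := hS
  intro a b h
  have h1 := congrArg (JS.comp (⟨q, hq⟩ : S)) h
  rw [JS.comp_diag, JS.comp_diag] at h1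
  exact SL.unitsIncl_injective K _ h1

/-! ## The ideal class group -/

/-- the map from the idele class group (no `S`) to the ideal class group in its fractional ideal
form -/
def CS.toFracClass :
    CS ∅ K →* (FractionalIdeal (𝓞 K)⁰ K)ˣ ⧸ (toPrincipalIdeal (𝓞 K) K).range :=
  QuotientGroup.map _ _ (FinIdele.toFracIdeal (K := K)) (by
    intro x hx
    rw [CS.relations, Subgroup.mem_sup] at hx
    obtain ⟨_, ⟨a, rfl⟩, u, hu, rfl⟩ := hx
    rw [Subgroup.mem_comap, map_mul, FinIdele.toFracIdeal_princ,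
      (FinIdele.toFracIdeal_eq_one_iff u).mpr hu, mul_one]
    exact ⟨a, rfl⟩)

lemma CS.toFracClass_mk (x : FinIdele K) :
    CS.toFracClass K (CS.mk ∅ K x) = QuotientGroup.mk (FinIdele.toFracIdeal x) := rfl

theorem CS.toFracClass_injective : Function.Injective (CS.toFracClass K) := by
  rw [injective_iff_map_eq_one]
  intro c hc
  obtain ⟨x, rfl⟩ := CS.mk_surjective ∅ c
  rw [CS.toFracClass_mk, QuotientGroup.eq_one_iff] at hc
  obtain ⟨a, ha⟩ := hc
  rw [CS.mk_eq_one_iff']
  refine ⟨a, (FinIdele.princ K a)⁻¹ * x, ?_, by rw [mul_inv_cancel_left]⟩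
  rw [← FinIdele.toFracIdeal_eq_one_iff, map_mul, map_inv, FinIdele.toFracIdeal_princ, ha,
    inv_mul_cancel]

theorem CS.toFracClass_surjective : Function.Surjective (CS.toFracClass K) := by
  intro c
  obtain ⟨I, rfl⟩ := QuotientGroup.mk_surjective c
  obtain ⟨x, rfl⟩ := FinIdele.toFracIdeal_surjective I
  exact ⟨CS.mk ∅ K x, rfl⟩

/-- the idele class group with `S = ∅` is the ideal class group -/
def CS.emptyEquivClassGroup : CS ∅ K ≃* ClassGroup (𝓞 K) :=
  (MulEquiv.ofBijective (CS.toFracClass K)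
    ⟨CS.toFracClass_injective K, CS.toFracClass_surjective K⟩).trans (ClassGroup.equiv K).symm

instance CS.finite_empty : Finite (CS ∅ K) :=
  Finite.of_equiv _ (CS.emptyEquivClassGroup K).symm.toEquiv

/-! ## Finiteness of `Cl_S` -/

open Classical in
/-- the `S`-part of an idele -/
def FinIdele.partS (x : FinIdele K) : JS S K := fun q => FinIdele.comp (q : Nat.Primes) x

/-- a unit idele is an `S`-idele times an element of `unitsOutside S K` -/
theorem unitsOutside_empty_le :
    ∀ u ∈ unitsOutside ∅ K, ∃ y : JS S K, ∃ u' ∈ unitsOutside S K,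
      u = JS.toFinIdele S K y * u' := by
  intro u hu
  refine ⟨FinIdele.partS S K u, (JS.toFinIdele S K (FinIdele.partS S K u))⁻¹ * u, ?_, by
    rw [mul_inv_cancel_left]⟩
  rw [mem_unitsOutside_iff]
  constructor
  · intro q hq
    rw [map_mul, map_inv, JS.comp_toFinIdele_of_mem _ hq]
    exact inv_mul_cancel _
  · intro q hq
    rw [map_mul, map_inv, JS.comp_toFinIdele_of_notMem _ hq, inv_one, one_mul]
    exact hu.2 q (Finset.notMem_empty q)

/-- the canonical surjection `C_∅(K) → C_S(K) / im J_{K,S}` -/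
def CS.emptyToQuotient : CS ∅ K →* CS S K ⧸ (JS.toCS S K).range :=
  QuotientGroup.lift _ ((QuotientGroup.mk' (JS.toCS S K).range).comp (CS.mk S K)) (by
    intro x hx
    rw [CS.relations, Subgroup.mem_sup] at hx
    obtain ⟨_, ⟨a, rfl⟩, u, hu, rfl⟩ := hx
    obtain ⟨y, u', hu', rfl⟩ := unitsOutside_empty_le S K u hu
    rw [MonoidHom.mem_ker, MonoidHom.comp_apply, map_mul, map_mul]
    have h1 : CS.mk S K (FinIdele.princ K a) = 1 := by
      rw [CS.mk_eq_one_iff']
      exact ⟨a, 1, one_mem _, by rw [mul_one]⟩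
    have h2 : CS.mk S K u' = 1 := by
      rw [CS.mk_eq_one_iff']
      exact ⟨1, u', hu', by rw [map_one, one_mul]⟩
    rw [h1, map_mul (CS.mk S K), h2, map_one, one_mul, mul_one]
    show QuotientGroup.mk' (JS.toCS S K).range (JS.toCS S K y) = 1
    rw [QuotientGroup.mk'_apply, QuotientGroup.eq_one_iff]
    exact ⟨y, rfl⟩)

theorem CS.emptyToQuotient_surjective : Function.Surjective (CS.emptyToQuotient S K) := by
  intro c
  obtain ⟨c', rfl⟩ := QuotientGroup.mk_surjective c
  obtain ⟨x, rfl⟩ := CS.mk_surjective S c'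
  exact ⟨CS.mk ∅ K x, rfl⟩

/-- **Finiteness of the `S`-class group** `Cl_S(K) = C_S(K) / im J_{K,S}`. -/
instance finite_CS_quotient_range : Finite (CS S K ⧸ (JS.toCS S K).range) :=
  Finite.of_surjective _ (CS.emptyToQuotient_surjective S K)

end

end Fermat.Agent.CFT.Global
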