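/-
P4 / Layer C2 (tools): Herbrand quotients of multiplicative abelian groups with an automorphism of
finite order, on top of layer A5 (`Coh.Herbrand.Pair`).

`mulPair σ n hσ : Pair (Additive M)` for `σ : Monoid.End M` with `σ ^ n = 1`;
multiplicativity on exact sequences, invariance under stable subgroups of finite index, under
isomorphisms, finite groups, and "trace one" (induced) modules, all stated multiplicatively.
-/
import Fermat.Agent.Lib.CFT.Coh.HerbrandPrime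

set_option autoImplicit false

namespace Fermat.Agent.CFT.Coh.Herbrand

open Finset

variable {M N R : Type*} [CommGroup M] [CommGroup N] [CommGroup R]

/-- the additive endomorphism attached to a multiplicative one -/
def addEnd (σ : Monoid.End M) : AddMonoid.End (Additive M) := MonoidHom.toAdditive σ

@[simp] lemma addEnd_apply (σ : Monoid.End M) (x : Additive M) :
    addEnd σ x = Additive.ofMul (σ x.toMul) := rfl

lemma addEnd_pow (σ : Monoid.End M) (i : ℕ) : addEnd σ ^ i = addEnd (σ ^ i) := by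
  induction i with
  | zero => rfl
  | succ i ih =>
    rw [pow_succ, pow_succ, ih]
    rfl

lemma addEnd_pow_eq_one {σ : Monoid.End M} {n : ℕ} (hσ : σ ^ n = 1) : addEnd σ ^ n = 1 := by
  rw [addEnd_pow, hσ]
  rfl

/-- The Herbrand pair `(σ - 1, 1 + σ + ⋯ + σ ^ (n - 1))` of a multiplicative endomorphism. -/
def mulPair (σ : Monoid.End M) (n : ℕ) (hσ : σ ^ n = 1) : Pair (Additive M) :=
  Pair.ofCyclic (addEnd σ) n (addEnd_pow_eq_one hσ)

section Basic

variable (σ : Monoid.End M) (n : ℕ) (hσ : σ ^ n = 1)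

lemma mulPair_f_apply (x : Additive M) :
    (mulPair σ n hσ).f x = Additive.ofMul (σ x.toMul / x.toMul) := rfl

lemma mulPair_g_apply (x : Additive M) :
    (mulPair σ n hσ).g x = Additive.ofMul (∏ i ∈ range n, (σ ^ i) x.toMul) := by
  rw [mulPair, Pair.ofCyclic_g_apply]
  simp only [addEnd_pow]
  rfl

lemma mem_ker_mulPair_f (x : Additive M) : x ∈ (mulPair σ n hσ).f.ker ↔ σ x.toMul = x.toMul := by
  rw [mulPair, Pair.mem_ker_ofCyclic_f]
  rfl

/-- finite groups have Herbrand quotient `1` -/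
theorem mulPair_of_finite [Finite M] : (mulPair σ n hσ).Defined ∧ (mulPair σ n hσ).q = 1 :=
  haveI : Finite (Additive M) := inferInstanceAs (Finite M)
  ⟨Pair.defined_of_finite _, Pair.q_of_finite _⟩

end Basic

section Exact

variable (σ : Monoid.End M) (τ : Monoid.End N) (ρ : Monoid.End R) (n : ℕ)
  (hσ : σ ^ n = 1) (hτ : τ ^ n = 1) (hρ : ρ ^ n = 1)

/-- an equivariant homomorphism as a morphism of pairs -/
def mulPairHom (φ : M →* N) (h : ∀ x, φ (σ x) = τ (φ x)) :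
    (mulPair σ n hσ).Hom (mulPair τ n hτ) :=
  Pair.ofCyclicHom _ _ n _ _ (MonoidHom.toAdditive φ) (fun x => congrArg Additive.ofMul (h x.toMul))

variable (i : M →* N) (π : N →* R) (hi : ∀ x, i (σ x) = τ (i x)) (hπ : ∀ x, π (τ x) = ρ (π x))
  (hinj : Function.Injective i) (hsurj : Function.Surjective π)
  (hex : ∀ y, π y = 1 ↔ ∃ x, i x = y)

include hi hπ hinj hsurj hex in
/-- **Multiplicativity of the Herbrand quotient** for an exact sequence `1 → M → N → R → 1` of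
groups with compatible automorphisms of order dividing `n`. -/
theorem mulPair_exact (hM : (mulPair σ n hσ).Defined) (hR : (mulPair ρ n hρ).Defined) :
    (mulPair τ n hτ).Defined ∧ (mulPair τ n hτ).q = (mulPair σ n hσ).q * (mulPair ρ n hρ).q := by
  have hex' : ∀ y, (mulPairHom τ ρ n hτ hρ π hπ).φ y = 0 ↔
      ∃ x, (mulPairHom σ τ n hσ hτ i hi).φ x = y := by
    intro y
    change Additive.ofMul (π y.toMul) = 0 ↔ ∃ x : Additive M, Additive.ofMul (i x.toMul) = y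
    rw [ofMul_eq_zero, hex]
    constructor
    · rintro ⟨x, hx⟩
      exact ⟨Additive.ofMul x, congrArg Additive.ofMul hx⟩
    · rintro ⟨x, hx⟩
      exact ⟨x.toMul, congrArg Additive.toMul hx⟩
  exact ⟨Pair.defined_mid _ _ _ (mulPairHom σ τ n hσ hτ i hi) (mulPairHom τ ρ n hτ hρ π hπ)
      hinj hsurj hex' hM hR,
    Pair.q_mul_of_exact _ _ _ (mulPairHom σ τ n hσ hτ i hi) (mulPairHom τ ρ n hτ hρ π hπ)
      hinj hsurj hex' hM hR⟩

include hi hπ hinj hsurj hex in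
theorem mulPair_exact_left (hN : (mulPair τ n hτ).Defined) (hR : (mulPair ρ n hρ).Defined) :
    (mulPair σ n hσ).Defined := by
  have hex' : ∀ y, (mulPairHom τ ρ n hτ hρ π hπ).φ y = 0 ↔
      ∃ x, (mulPairHom σ τ n hσ hτ i hi).φ x = y := by
    intro y
    change Additive.ofMul (π y.toMul) = 0 ↔ ∃ x : Additive M, Additive.ofMul (i x.toMul) = y
    rw [ofMul_eq_zero, hex]
    constructor
    · rintro ⟨x, hx⟩
      exact ⟨Additive.ofMul x, congrArg Additive.ofMul hx⟩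
    · rintro ⟨x, hx⟩
      exact ⟨x.toMul, congrArg Additive.toMul hx⟩
  exact Pair.defined_left _ _ _ (mulPairHom σ τ n hσ hτ i hi) (mulPairHom τ ρ n hτ hρ π hπ)
      hinj hsurj hex' hN hR

include hi hπ hinj hsurj hex in
theorem mulPair_exact_right (hM : (mulPair σ n hσ).Defined) (hN : (mulPair τ n hτ).Defined) :
    (mulPair ρ n hρ).Defined := by
  have hex' : ∀ y, (mulPairHom τ ρ n hτ hρ π hπ).φ y = 0 ↔
      ∃ x, (mulPairHom σ τ n hσ hτ i hi).φ x = y := by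
    intro y
    change Additive.ofMul (π y.toMul) = 0 ↔ ∃ x : Additive M, Additive.ofMul (i x.toMul) = y
    rw [ofMul_eq_zero, hex]
    constructor
    · rintro ⟨x, hx⟩
      exact ⟨Additive.ofMul x, congrArg Additive.ofMul hx⟩
    · rintro ⟨x, hx⟩
      exact ⟨x.toMul, congrArg Additive.toMul hx⟩
  exact Pair.defined_right _ _ _ (mulPairHom σ τ n hσ hτ i hi) (mulPairHom τ ρ n hτ hρ π hπ)
      hinj hsurj hex' hM hN

end Exact

section Equiv

variable (σ : Monoid.End M) (τ : Monoid.End N) (n : ℕ) (hσ : σ ^ n = 1) (hτ : τ ^ n = 1)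

/-- invariance under equivariant isomorphisms -/
theorem mulPair_equiv (e : M ≃* N) (h : ∀ x, e (σ x) = τ (e x)) :
    ((mulPair σ n hσ).Defined ↔ (mulPair τ n hτ).Defined) ∧
      (mulPair σ n hσ).q = (mulPair τ n hτ).q := by
  have hf : ∀ x, (MulEquiv.toAdditive e) ((mulPair σ n hσ).f x) =
      (mulPair τ n hτ).f ((MulEquiv.toAdditive e) x) :=
    (mulPairHom σ τ n hσ hτ e.toMonoidHom h).comm_f
  have hg : ∀ x, (MulEquiv.toAdditive e) ((mulPair σ n hσ).g x) =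
      (mulPair τ n hτ).g ((MulEquiv.toAdditive e) x) :=
    (mulPairHom σ τ n hσ hτ e.toMonoidHom h).comm_g
  refine ⟨⟨Pair.defined_of_equiv _ _ (MulEquiv.toAdditive e) hf hg, fun hd => ?_⟩,
    Pair.q_eq_of_equiv _ _ (MulEquiv.toAdditive e) hf hg⟩
  rw [Pair.Defined, Pair.h0_eq_of_equiv _ _ (MulEquiv.toAdditive e) hf hg,
    Pair.h1_eq_of_equiv _ _ (MulEquiv.toAdditive e) hf hg]
  exact hd

end Equiv

section Subgroup

variable (σ : Monoid.End M) (n : ℕ) (hσ : σ ^ n = 1) (H : Subgroup M) (hH : ∀ x ∈ H, σ x ∈ H)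

/-- the restriction of an endomorphism to a stable subgroup -/
def subEnd : Monoid.End H := (MonoidHom.comp σ H.subtype).codRestrict H (fun x => hH x x.2)

@[simp] lemma coe_subEnd (x : H) : ((subEnd σ H hH x : H) : M) = σ x := rfl

lemma coe_subEnd_pow (i : ℕ) (x : H) : (((subEnd σ H hH ^ i) x : H) : M) = (σ ^ i) x := by
  induction i generalizing x with
  | zero => rfl
  | succ i ih =>
    rw [pow_succ, pow_succ]
    change (((subEnd σ H hH ^ i) (subEnd σ H hH x) : H) : M) = (σ ^ i) (σ x)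
    rw [ih]
    rfl

include hσ in
lemma subEnd_pow_eq_one : subEnd σ H hH ^ n = 1 := by
  ext x
  rw [coe_subEnd_pow, hσ]
  rfl

/-- the induced endomorphism of the quotient by a stable subgroup -/
def quotEnd : Monoid.End (M ⧸ H) := QuotientGroup.map H H σ (fun x hx => hH x hx)

@[simp] lemma quotEnd_mk (x : M) : quotEnd σ H hH (x : M ⧸ H) = ((σ x : M) : M ⧸ H) := rfl

lemma quotEnd_pow_mk (i : ℕ) (x : M) :
    (quotEnd σ H hH ^ i) (x : M ⧸ H) = (((σ ^ i) x : M) : M ⧸ H) := by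
  induction i generalizing x with
  | zero => rfl
  | succ i ih =>
    rw [pow_succ, pow_succ]
    change (quotEnd σ H hH ^ i) (quotEnd σ H hH (x : M ⧸ H)) = _
    rw [quotEnd_mk, ih]
    rfl

include hσ in
lemma quotEnd_pow_eq_one : quotEnd σ H hH ^ n = 1 := by
  ext x
  induction x using QuotientGroup.induction_on with
  | H x =>
    rw [quotEnd_pow_mk, hσ]
    rfl

/-- `h(M) = h(H) h(M / H)` -/
theorem mulPair_sub_quot (h1 : (mulPair (subEnd σ H hH) n (subEnd_pow_eq_one σ n hσ H hH)).Defined)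
    (h2 : (mulPair (quotEnd σ H hH) n (quotEnd_pow_eq_one σ n hσ H hH)).Defined) :
    (mulPair σ n hσ).Defined ∧ (mulPair σ n hσ).q =
      (mulPair (subEnd σ H hH) n (subEnd_pow_eq_one σ n hσ H hH)).q *
        (mulPair (quotEnd σ H hH) n (quotEnd_pow_eq_one σ n hσ H hH)).q :=
  mulPair_exact _ _ _ n _ hσ _ H.subtype (QuotientGroup.mk' H) (fun _ => rfl) (fun _ => rfl)
    Subtype.val_injective (QuotientGroup.mk'_surjective H)
    (fun y => by
      rw [QuotientGroup.mk'_apply, QuotientGroup.eq_one_iff]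
      exact ⟨fun hy => ⟨⟨y, hy⟩, rfl⟩, fun ⟨x, hx⟩ => hx ▸ x.2⟩) h1 h2

/-- **Invariance under a stable subgroup of finite index.** -/
theorem mulPair_subgroup_of_index_ne_zero (hidx : H.index ≠ 0) :
    ((mulPair (subEnd σ H hH) n (subEnd_pow_eq_one σ n hσ H hH)).Defined ↔
        (mulPair σ n hσ).Defined) ∧
      ((mulPair σ n hσ).Defined → (mulPair (subEnd σ H hH) n (subEnd_pow_eq_one σ n hσ H hH)).q =
        (mulPair σ n hσ).q) := by
  haveI : H.FiniteIndex := ⟨hidx⟩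
  haveI : Finite (M ⧸ H) := Subgroup.finite_quotient_of_finiteIndex
  obtain ⟨hQd, hQq⟩ := mulPair_of_finite (quotEnd σ H hH) n (quotEnd_pow_eq_one σ n hσ H hH)
  have hsub : (mulPair σ n hσ).Defined →
      (mulPair (subEnd σ H hH) n (subEnd_pow_eq_one σ n hσ H hH)).Defined := fun hd =>
    mulPair_exact_left _ _ _ n _ hσ _ H.subtype (QuotientGroup.mk' H) (fun _ => rfl) (fun _ => rfl)
      Subtype.val_injective (QuotientGroup.mk'_surjective H)
      (fun y => by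
        rw [QuotientGroup.mk'_apply, QuotientGroup.eq_one_iff]
        exact ⟨fun hy => ⟨⟨y, hy⟩, rfl⟩, fun ⟨x, hx⟩ => hx ▸ x.2⟩) hd hQd
  refine ⟨⟨fun h => (mulPair_sub_quot σ n hσ H hH h hQd).1, hsub⟩, fun hd => ?_⟩
  rw [(mulPair_sub_quot σ n hσ H hH (hsub hd) hQd).2, hQq, mul_one]

end Subgroup

section TraceOne

variable (σ : Monoid.End M) (n : ℕ) (hσ : σ ^ n = 1)

/-- induced modules have trivial Herbrand quotient, multiplicative version -/
theorem mulPair_of_traceOne (π : Monoid.End M)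
    (hπ : ∀ x, ∏ i ∈ range n, (σ ^ i) (π ((σ ^ (n - i)) x)) = x) :
    (mulPair σ n hσ).Defined ∧ (mulPair σ n hσ).q = 1 := by
  have hπ' : ∀ x : Additive M,
      ∑ i ∈ range n, (addEnd σ ^ i) (addEnd π ((addEnd σ ^ (n - i)) x)) = x := by
    intro x
    simp only [addEnd_pow]
    exact congrArg Additive.ofMul (hπ x.toMul)
  exact ⟨Pair.defined_of_trace_one _ n _ (addEnd π) hπ', Pair.q_of_trace_one _ n _ (addEnd π) hπ'⟩

end TraceOne

section SubgroupExact

variable (σ : Monoid.End M) (n : ℕ) (hσ : σ ^ n = 1) (A B C : Subgroup M)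
  (hA : ∀ x ∈ A, σ x ∈ A) (hB : ∀ x ∈ B, σ x ∈ B) (hC : ∀ x ∈ C, σ x ∈ C)
  (φ : M →* M) (hφσ : ∀ x ∈ B, φ (σ x) = σ (φ x))
  (hAB : A ≤ B) (hφC : ∀ b ∈ B, φ b ∈ C) (hsurj : ∀ c ∈ C, ∃ b ∈ B, φ b = c)
  (hker : ∀ b ∈ B, φ b = 1 ↔ b ∈ A)

include hφσ hAB hφC hsurj hker in
/-- multiplicativity of the Herbrand quotient for stable subgroups `A ≤ B` and `C = φ(B)`,
`A = B ∩ ker φ`, of an ambient group -/
theorem mulPair_subgroups_exact
    (h1 : (mulPair (subEnd σ A hA) n (subEnd_pow_eq_one σ n hσ A hA)).Defined)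
    (h2 : (mulPair (subEnd σ C hC) n (subEnd_pow_eq_one σ n hσ C hC)).Defined) :
    (mulPair (subEnd σ B hB) n (subEnd_pow_eq_one σ n hσ B hB)).Defined ∧
      (mulPair (subEnd σ B hB) n (subEnd_pow_eq_one σ n hσ B hB)).q =
        (mulPair (subEnd σ A hA) n (subEnd_pow_eq_one σ n hσ A hA)).q *
          (mulPair (subEnd σ C hC) n (subEnd_pow_eq_one σ n hσ C hC)).q := by
  refine mulPair_exact _ _ _ n _ _ _ (Subgroup.inclusion hAB)
    ((φ.comp B.subtype).codRestrict C (fun b => hφC b b.2)) (fun _ => rfl)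
    (fun b => Subtype.ext (hφσ b b.2)) (Subgroup.inclusion_injective hAB) ?_ ?_ h1 h2
  · rintro ⟨c, hc⟩
    obtain ⟨b, hb, rfl⟩ := hsurj c hc
    exact ⟨⟨b, hb⟩, rfl⟩
  · rintro ⟨b, hb⟩
    constructor
    · intro h
      have h' : φ b = 1 := congrArg Subtype.val h
      exact ⟨⟨b, (hker b hb).1 h'⟩, rfl⟩
    · rintro ⟨⟨a, ha⟩, h⟩
      have hab : a = b := congrArg Subtype.val h
      apply Subtype.ext
      change φ b = 1
      rw [hker b hb, ← hab]
      exact ha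

end SubgroupExact

section Misc

variable (σ : Monoid.End M) (n : ℕ) (hσ : σ ^ n = 1)

/-- equal subgroups have the same Herbrand quotient -/
theorem mulPair_subgroup_congr {A B : Subgroup M} (h : A = B) (hA : ∀ x ∈ A, σ x ∈ A)
    (hB : ∀ x ∈ B, σ x ∈ B) :
    ((mulPair (subEnd σ A hA) n (subEnd_pow_eq_one σ n hσ A hA)).Defined ↔
      (mulPair (subEnd σ B hB) n (subEnd_pow_eq_one σ n hσ B hB)).Defined) ∧
    (mulPair (subEnd σ A hA) n (subEnd_pow_eq_one σ n hσ A hA)).q =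
      (mulPair (subEnd σ B hB) n (subEnd_pow_eq_one σ n hσ B hB)).q := by
  subst h
  exact ⟨Iff.rfl, rfl⟩

/-- the trivial subgroup -/
theorem mulPair_bot (h : ∀ x ∈ (⊥ : Subgroup M), σ x ∈ (⊥ : Subgroup M)) :
    (mulPair (subEnd σ ⊥ h) n (subEnd_pow_eq_one σ n hσ ⊥ h)).Defined ∧
      (mulPair (subEnd σ ⊥ h) n (subEnd_pow_eq_one σ n hσ ⊥ h)).q = 1 :=
  mulPair_of_finite _ n _

/-- the full subgroup -/
theorem mulPair_top (h : ∀ x ∈ (⊤ : Subgroup M), σ x ∈ (⊤ : Subgroup M)) :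
    ((mulPair (subEnd σ ⊤ h) n (subEnd_pow_eq_one σ n hσ ⊤ h)).Defined ↔
      (mulPair σ n hσ).Defined) ∧
    (mulPair (subEnd σ ⊤ h) n (subEnd_pow_eq_one σ n hσ ⊤ h)).q = (mulPair σ n hσ).q :=
  mulPair_equiv _ _ n _ _ Subgroup.topEquiv (fun _ => rfl)

end Misc

/-! ### Packaged form: `HasHerbrand σ n hσ H c` -/

section Packaged

variable (σ : Monoid.End M) (n : ℕ) (hσ : σ ^ n = 1)

/-- The subgroup `H` is `σ`-stable, its Herbrand quotient is defined and equal to `c`. -/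
def HasHerbrand (H : Subgroup M) (c : ℚ) : Prop :=
  ∃ hH : ∀ x ∈ H, σ x ∈ H,
    (mulPair (subEnd σ H hH) n (subEnd_pow_eq_one σ n hσ H hH)).Defined ∧
      (mulPair (subEnd σ H hH) n (subEnd_pow_eq_one σ n hσ H hH)).q = c

variable {σ n hσ}

theorem HasHerbrand.stable {H : Subgroup M} {c : ℚ} (h : HasHerbrand σ n hσ H c) :
    ∀ x ∈ H, σ x ∈ H := h.1

theorem hasHerbrand_bot : HasHerbrand σ n hσ ⊥ 1 :=
  ⟨fun x hx => by rw [Subgroup.mem_bot] at hx ⊢; rw [hx, map_one], mulPair_bot σ n hσ _⟩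

theorem hasHerbrand_top_iff {c : ℚ} :
    HasHerbrand σ n hσ ⊤ c ↔ (mulPair σ n hσ).Defined ∧ (mulPair σ n hσ).q = c := by
  have key := mulPair_top σ n hσ (fun x _ => Subgroup.mem_top (σ x))
  constructor
  · rintro ⟨_, h1, h2⟩
    exact ⟨key.1.1 h1, key.2 ▸ h2⟩
  · rintro ⟨h1, h2⟩
    exact ⟨fun x _ => Subgroup.mem_top (σ x), key.1.2 h1, key.2.trans h2⟩

/-- multiplicativity on `A ≤ B`, `C = φ(B)`, `A = B ∩ ker φ` -/
theorem HasHerbrand.exact {A B C : Subgroup M} {a c : ℚ} (hA : HasHerbrand σ n hσ A a)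
    (hC : HasHerbrand σ n hσ C c) (hB : ∀ x ∈ B, σ x ∈ B)
    (φ : M →* M) (hφσ : ∀ x ∈ B, φ (σ x) = σ (φ x))
    (hAB : A ≤ B) (hφC : ∀ b ∈ B, φ b ∈ C) (hsurj : ∀ c ∈ C, ∃ b ∈ B, φ b = c)
    (hker : ∀ b ∈ B, φ b = 1 ↔ b ∈ A) : HasHerbrand σ n hσ B (a * c) := by
  obtain ⟨hA', hA1, hA2⟩ := hA
  obtain ⟨hC', hC1, hC2⟩ := hC
  obtain ⟨h1, h2⟩ := mulPair_subgroups_exact σ n hσ A B C hA' hB hC' φ hφσ hAB hφC hsurj hker
    hA1 hC1
  exact ⟨hB, h1, by rw [h2, hA2, hC2]⟩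

theorem HasHerbrand.congr {A B : Subgroup M} {a : ℚ} (hA : HasHerbrand σ n hσ A a) (h : A = B) :
    HasHerbrand σ n hσ B a := h ▸ hA

/-- trace one (induced) subgroups -/
theorem hasHerbrand_of_traceOne {H : Subgroup M} (hH : ∀ x ∈ H, σ x ∈ H) (π : M →* M)
    (hπH : ∀ x ∈ H, π x ∈ H)
    (hπ : ∀ x ∈ H, ∏ i ∈ range n, (σ ^ i) (π ((σ ^ (n - i)) x)) = x) :
    HasHerbrand σ n hσ H 1 := by
  refine ⟨hH, ?_⟩
  refine mulPair_of_traceOne _ n _ ((π.comp H.subtype).codRestrict H (fun x => hπH x x.2)) ?_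
  intro x
  apply Subtype.ext
  rw [Subgroup.val_finsetProd]
  conv_rhs => rw [← hπ x x.2]
  refine Finset.prod_congr rfl fun i _ => ?_
  rw [coe_subEnd_pow]
  congr 1
  change π (((subEnd σ H hH ^ (n - i)) x : H) : M) = _
  rw [coe_subEnd_pow]

/-- invariance under subgroups of finite relative index -/
theorem HasHerbrand.of_relIndex_ne_zero {A B : Subgroup M} {a : ℚ} (hAB : A ≤ B)
    (hidx : A.relIndex B ≠ 0) (hA : ∀ x ∈ A, σ x ∈ A) (hB : ∀ x ∈ B, σ x ∈ B) :
    (HasHerbrand σ n hσ A a → HasHerbrand σ n hσ B a) ∧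
      (HasHerbrand σ n hσ B a → HasHerbrand σ n hσ A a) := by
  -- work inside `B`
  set τ := subEnd σ B hB with hτ
  have hτn := subEnd_pow_eq_one σ n hσ B hB
  have hst : ∀ x ∈ A.subgroupOf B, τ x ∈ A.subgroupOf B := fun x hx => hA x.1 hx
  have key := mulPair_subgroup_of_index_ne_zero τ n hτn (A.subgroupOf B) hst hidx
  -- identify `A.subgroupOf B` with `A`
  have e := mulPair_equiv (subEnd τ (A.subgroupOf B) hst) (subEnd σ A hA) n
    (subEnd_pow_eq_one τ n hτn _ hst) (subEnd_pow_eq_one σ n hσ A hA)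
    (Subgroup.subgroupOfEquivOfLe hAB) (fun x => rfl)
  constructor
  · rintro ⟨_, h1, h2⟩
    have hd := key.1.1 (e.1.2 h1)
    exact ⟨hB, hd, by rw [← key.2 hd, e.2, h2]⟩
  · rintro ⟨_, h1, h2⟩
    exact ⟨hA, e.1.1 (key.1.2 h1), by rw [← e.2, key.2 h1, h2]⟩

end Packaged

/-- transfer from another group along an equivariant isomorphism `H ≃* N` -/
theorem hasHerbrand_of_equiv {σ : Monoid.End M} {n : ℕ} {hσ : σ ^ n = 1} {τ : Monoid.End N}
    {hτ : τ ^ n = 1} {H : Subgroup M} (hH : ∀ x ∈ H, σ x ∈ H) (e : H ≃* N)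
    (he : ∀ x : H, e (subEnd σ H hH x) = τ (e x)) {c : ℚ}
    (h : (mulPair τ n hτ).Defined ∧ (mulPair τ n hτ).q = c) : HasHerbrand σ n hσ H c := by
  have key := mulPair_equiv (subEnd σ H hH) τ n (subEnd_pow_eq_one σ n hσ H hH) hτ e he
  exact ⟨hH, key.1.2 h.1, key.2.trans h.2⟩

section General

variable {σ : Monoid.End M} {τ : Monoid.End N} {ρ : Monoid.End R} {n : ℕ}
  {hσ : σ ^ n = 1} {hτ : τ ^ n = 1} {hρ : ρ ^ n = 1}

/-- multiplicativity for stable subgroups `A ≤ M`, `B ≤ N`, `C ≤ R` and maps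
`i : M →* N`, `π : N →* R` inducing an exact sequence `1 → A → B → C → 1` -/
theorem HasHerbrand.exact₃ {A : Subgroup M} {B : Subgroup N} {C : Subgroup R} {a c : ℚ}
    (hA : HasHerbrand σ n hσ A a) (hC : HasHerbrand ρ n hρ C c) (hB : ∀ x ∈ B, τ x ∈ B)
    (i : M →* N) (π : N →* R) (hiσ : ∀ x ∈ A, i (σ x) = τ (i x))
    (hπτ : ∀ x ∈ B, π (τ x) = ρ (π x)) (hiB : ∀ x ∈ A, i x ∈ B)
    (hinj : ∀ x ∈ A, i x = 1 → x = 1) (hπC : ∀ b ∈ B, π b ∈ C)
    (hsurj : ∀ c ∈ C, ∃ b ∈ B, π b = c) (hker : ∀ b ∈ B, π b = 1 ↔ ∃ x ∈ A, i x = b) :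
    HasHerbrand τ n hτ B (a * c) := by
  obtain ⟨hA', hA1, hA2⟩ := hA
  obtain ⟨hC', hC1, hC2⟩ := hC
  have key := mulPair_exact (subEnd σ A hA') (subEnd τ B hB) (subEnd ρ C hC') n
    (subEnd_pow_eq_one σ n hσ A hA') (subEnd_pow_eq_one τ n hτ B hB)
    (subEnd_pow_eq_one ρ n hρ C hC')
    ((i.comp A.subtype).codRestrict B (fun x => hiB x x.2))
    ((π.comp B.subtype).codRestrict C (fun b => hπC b b.2))
    (fun x => Subtype.ext (hiσ x x.2)) (fun b => Subtype.ext (hπτ b b.2))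
    (by
      intro x y hxy
      have h1 : i x = i y := congrArg Subtype.val hxy
      have h2 : i ((x * y⁻¹ : A) : M) = 1 := by
        rw [Subgroup.coe_mul, Subgroup.coe_inv, map_mul, map_inv, h1, mul_inv_cancel]
      have h3 := hinj _ (x * y⁻¹).2 h2
      have h4 : x * y⁻¹ = 1 := Subtype.ext h3
      exact mul_inv_eq_one.1 h4)
    (by
      rintro ⟨c, hc⟩
      obtain ⟨b, hb, rfl⟩ := hsurj c hc
      exact ⟨⟨b, hb⟩, rfl⟩)
    (by
      rintro ⟨b, hb⟩
      constructor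
      · intro h
        have h' : π b = 1 := congrArg Subtype.val h
        obtain ⟨x, hx, hxb⟩ := (hker b hb).1 h'
        exact ⟨⟨x, hx⟩, Subtype.ext hxb⟩
      · rintro ⟨⟨x, hx⟩, h⟩
        have hxb : i x = b := congrArg Subtype.val h
        apply Subtype.ext
        change π b = 1
        rw [hker b hb]
        exact ⟨x, hx, hxb⟩) hA1 hC1
  exact ⟨hB, key.1, by rw [key.2, hA2, hC2]⟩

/-- the Herbrand quotient of the right-hand term of an exact sequence `1 → A → B → C → 1` -/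
theorem HasHerbrand.exact₃_right {A : Subgroup M} {B : Subgroup N} {C : Subgroup R} {a b : ℚ}
    (hA : HasHerbrand σ n hσ A a) (hB : HasHerbrand τ n hτ B b) (hC : ∀ x ∈ C, ρ x ∈ C)
    (i : M →* N) (π : N →* R) (hiσ : ∀ x ∈ A, i (σ x) = τ (i x))
    (hπτ : ∀ x ∈ B, π (τ x) = ρ (π x)) (hiB : ∀ x ∈ A, i x ∈ B)
    (hinj : ∀ x ∈ A, i x = 1 → x = 1) (hπC : ∀ b ∈ B, π b ∈ C)
    (hsurj : ∀ c ∈ C, ∃ b ∈ B, π b = c) (hker : ∀ b ∈ B, π b = 1 ↔ ∃ x ∈ A, i x = b) :
    HasHerbrand ρ n hρ C (b / a) := by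
  obtain ⟨hA', hA1, hA2⟩ := hA
  obtain ⟨hB', hB1, hB2⟩ := hB
  have hinj' : Function.Injective ((i.comp A.subtype).codRestrict B (fun x => hiB x x.2)) := by
    intro x y hxy
    have h1 : i x = i y := congrArg Subtype.val hxy
    have h2 : i ((x * y⁻¹ : A) : M) = 1 := by
      rw [Subgroup.coe_mul, Subgroup.coe_inv, map_mul, map_inv, h1, mul_inv_cancel]
    have h3 := hinj _ (x * y⁻¹).2 h2
    have h4 : x * y⁻¹ = 1 := Subtype.ext h3
    exact mul_inv_eq_one.1 h4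
  have hsurj' : Function.Surjective ((π.comp B.subtype).codRestrict C (fun b => hπC b b.2)) := by
    rintro ⟨c, hc⟩
    obtain ⟨b, hb, rfl⟩ := hsurj c hc
    exact ⟨⟨b, hb⟩, rfl⟩
  have hex' : ∀ y : B, ((π.comp B.subtype).codRestrict C (fun b => hπC b b.2)) y = 1 ↔
      ∃ x : A, ((i.comp A.subtype).codRestrict B (fun x => hiB x x.2)) x = y := by
    rintro ⟨b, hb⟩
    constructor
    · intro h
      have h' : π b = 1 := congrArg Subtype.val h
      obtain ⟨x, hx, hxb⟩ := (hker b hb).1 h'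
      exact ⟨⟨x, hx⟩, Subtype.ext hxb⟩
    · rintro ⟨⟨x, hx⟩, h⟩
      have hxb : i x = b := congrArg Subtype.val h
      apply Subtype.ext
      change π b = 1
      rw [hker b hb]
      exact ⟨x, hx, hxb⟩
  have hC1 := mulPair_exact_right (subEnd σ A hA') (subEnd τ B hB') (subEnd ρ C hC) n
    (subEnd_pow_eq_one σ n hσ A hA') (subEnd_pow_eq_one τ n hτ B hB')
    (subEnd_pow_eq_one ρ n hρ C hC)
    ((i.comp A.subtype).codRestrict B (fun x => hiB x x.2))
    ((π.comp B.subtype).codRestrict C (fun b => hπC b b.2))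
    (fun x => Subtype.ext (hiσ x x.2)) (fun b => Subtype.ext (hπτ b b.2)) hinj' hsurj' hex' hA1 hB1
  have key := mulPair_exact (subEnd σ A hA') (subEnd τ B hB') (subEnd ρ C hC) n
    (subEnd_pow_eq_one σ n hσ A hA') (subEnd_pow_eq_one τ n hτ B hB')
    (subEnd_pow_eq_one ρ n hρ C hC)
    ((i.comp A.subtype).codRestrict B (fun x => hiB x x.2))
    ((π.comp B.subtype).codRestrict C (fun b => hπC b b.2))
    (fun x => Subtype.ext (hiσ x x.2)) (fun b => Subtype.ext (hπτ b b.2)) hinj' hsurj' hex' hA1 hC1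
  refine ⟨hC, hC1, ?_⟩
  have ha0 : a ≠ 0 := by
    rw [← hA2, Pair.q]
    exact div_ne_zero (Nat.cast_ne_zero.2 hA1.1) (Nat.cast_ne_zero.2 hA1.2)
  rw [eq_div_iff ha0, ← hB2, key.2, hA2, mul_comm]

/-- transport along an equivariant homomorphism which is injective on the subgroup -/
theorem HasHerbrand.map {A : Subgroup M} {a : ℚ} (hA : HasHerbrand σ n hσ A a) (i : M →* N)
    (hiσ : ∀ x ∈ A, i (σ x) = τ (i x)) (hinj : ∀ x ∈ A, i x = 1 → x = 1) :
    HasHerbrand τ n hτ (A.map i) a := by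
  have hB : ∀ x ∈ A.map i, τ x ∈ A.map i := by
    rintro _ ⟨x, hx, rfl⟩
    exact ⟨σ x, hA.stable x hx, hiσ x hx⟩
  have h1 : HasHerbrand (1 : Monoid.End PUnit.{1}) n (one_pow n) (⊥ : Subgroup PUnit.{1}) 1 :=
    hasHerbrand_bot
  have := HasHerbrand.exact₃ (hτ := hτ) hA h1 hB i (1 : N →* PUnit.{1}) hiσ
    (fun x _ => by simp) (fun x hx => ⟨x, hx, rfl⟩) hinj (fun b _ => by simp)
    (fun c _ => ⟨1, one_mem _, rfl⟩)
    (fun b hb => ⟨fun _ => hb, fun _ => rfl⟩)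
  rwa [mul_one] at this

end General

section ActEnd

variable {G : Type*} [Monoid G] (M) [MulDistribMulAction G M]

/-- the action of a group element as an endomorphism -/
def mulActEnd (g : G) : Monoid.End M := MulDistribMulAction.toMonoidEnd G M g

@[simp] lemma mulActEnd_apply (g : G) (x : M) : mulActEnd M g x = g • x := rfl

lemma mulActEnd_pow (g : G) (i : ℕ) : mulActEnd M g ^ i = mulActEnd M (g ^ i) :=
  (map_pow (MulDistribMulAction.toMonoidEnd G M) g i).symm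

lemma mulActEnd_pow_eq_one {g : G} {n : ℕ} (h : g ^ n = 1) : mulActEnd M g ^ n = 1 := by
  rw [mulActEnd_pow, h]
  exact map_one (MulDistribMulAction.toMonoidEnd G M)

end ActEnd

end Fermat.Agent.CFT.Coh.Herbrand
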