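/-
P4 / Layer C2: the first inequality, final form.  For a cyclic extension `L / K` of number fields
of odd prime degree `p` with group `G = ⟨g₀⟩` and every finite nonempty set `S` of rational primes,
the Herbrand quotient of `C_S(L)` is defined and equal to `p`.

The local input (`h(U_w) = 1` for the units of a cyclic extension of local fields) is helper7's
`Local.hasHerbrand_unitsM_of_isCyclic`, transported to the semi-local algebra through helper3's
`SL.unitsSingle`.
-/
import Fermat.Agent.Lib.CFT.Global.FirstIneq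
import Fermat.Agent.Lib.CFT.Global.Induced
import Fermat.Agent.Lib.CFT.Local.HerbrandLocal

set_option autoImplicit false
set_option linter.style.haveILetI false
set_option linter.unusedSectionVars false
set_option linter.unusedDecidableInType false
set_option linter.unusedFintypeInType false

open scoped TensorProduct

namespace Fermat.Agent.CFT.Global

open Fermat.Agent.CFT.Coh.Herbrand Finset

noncomputable section

section Local

variable {L : Type} [Field L] [NumberField L]
  {G : Type} [Group G] [Finite G] [MulSemiringAction G L] [FaithfulSMul G L]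
  {p : ℕ} [hp : Fact p.Prime] (hG : Nat.card G = p) {g₀ : G}
  (hg₀ : ∀ g : G, g ∈ Subgroup.zpowers g₀)
  {q : ℕ} [Fact q.Prime]

omit [Finite G] [FaithfulSMul G L] in
include hg₀ in
lemma decompGroup_eq_top_of_fixed {w : Place q L} (hw : g₀ • w = w) : decompGroup G w = ⊤ := by
  rw [Subgroup.eq_top_iff']
  intro g
  have h1 : Subgroup.zpowers g₀ ≤ decompGroup G w := by
    rw [Subgroup.zpowers_le]
    exact hw
  exact h1 (hg₀ g)

lemma hasHerbrand_cast {M : Type*} [CommGroup M] {σ : Monoid.End M} {n m : ℕ} (hnm : n = m)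
    {hσ : σ ^ n = 1} {H : Subgroup M} {c : ℚ} (h : HasHerbrand σ n hσ H c) :
    HasHerbrand σ m (hnm ▸ hσ) H c := by
  subst hnm
  exact h

include hG hg₀ in
/-- the local units at a fixed place have Herbrand quotient `1` -/
theorem SL.hasHerbrand_unitGroup_of_fixed [Fintype (Place q L)] [DecidableEq (Place q L)]
    (w : Place q L) (hw : g₀ • w = w) :
    HasHerbrand (SL.actEnd g₀) p (SL.actEnd_pow_eq_one (gen_pow_card hG hg₀))
      (SL.unitGroup q L ⊓ SL.supportedOn {w}) 1 := by
  have htop := decompGroup_eq_top_of_fixed hg₀ hw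
  set h₀ : decompGroup G w := ⟨g₀, hw⟩ with hh₀def
  have hh₀ : ∀ h : decompGroup G w, h ∈ Subgroup.zpowers h₀ := by
    intro h
    obtain ⟨m, hm⟩ := Subgroup.mem_zpowers_iff.1 (hg₀ (h : G))
    refine Subgroup.mem_zpowers_iff.2 ⟨m, Subtype.ext ?_⟩
    rw [Subgroup.coe_zpow]
    exact hm
  have hcard : Nat.card (decompGroup G w) = p := by
    rw [htop, Subgroup.card_top, hG]
  have key := Local.hasHerbrand_unitsM_of_isCyclic q (Kv w) (decompGroup G w) h₀ hh₀
  have key' := hasHerbrand_cast hcard key
  have hmap := HasHerbrand.map (τ := SL.actEnd g₀)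
    (hτ := SL.actEnd_pow_eq_one (gen_pow_card hG hg₀)) key' (SL.unitsSingle w)
    (fun x _ => SL.unitsSingle_smul w h₀ x)
    (fun x _ hx => SL.unitsSingle_injective w (hx.trans (map_one _).symm))
  refine hmap.congr ?_
  ext u
  rw [Subgroup.mem_map, Subgroup.mem_inf, SL.mem_supportedOn_iff_forall]
  constructor
  · rintro ⟨y, hy, rfl⟩
    refine ⟨(SL.unitsSingle_mem_unitGroup_iff' w y).2 hy, fun w' hw' => ?_⟩
    have hne : w' ≠ w := fun h => hw' (h ▸ Finset.mem_singleton_self w)
    have := SL.unitsProj_unitsSingle_of_ne hne y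
    exact congrArg Units.val this
  · rintro ⟨hu1, hu2⟩
    refine ⟨SL.unitsProj w u, (SL.mem_unitGroup_iff_forall_unitsProj_mem u).1 hu1 w, ?_⟩
    apply SL.units_ext_unitsProj
    intro w'
    by_cases hw' : w' = w
    · subst hw'
      rw [SL.unitsProj_unitsSingle_self]
    · rw [SL.unitsProj_unitsSingle_of_ne hw']
      apply Units.ext
      rw [SL.coe_unitsProj, hu2 w' (fun h => hw' (Finset.mem_singleton.1 h))]
      rfl

include hG hg₀ in
/-- **the semi-local units have Herbrand quotient `1`** -/
theorem SL.hasHerbrand_unitGroup (q : ℕ) [Fact q.Prime] :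
    HasHerbrand (SL.actEnd g₀) p (SL.actEnd_pow_eq_one (gen_pow_card hG hg₀))
      (SL.unitGroup q L) 1 := by
  classical
  letI : Fintype (Place q L) := Fintype.ofFinite _
  have key := SL.hasHerbrand_of_fixed hG hg₀ (SL.unitGroup q L)
    (fun u hu => SL.smul_mem_unitGroup q g₀ hu) (fun T u hu => SL.projOn_mem_unitGroup T hu)
    (fun _ => 1)
    (fun w hw => SL.hasHerbrand_unitGroup_of_fixed hG hg₀ w (Place.mem_fixedBy.1 hw))
  rwa [Finset.prod_const_one] at key

end Local

section Main

variable {L : Type} [Field L] [NumberField L]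
  {G : Type} [Group G] [Finite G] [MulSemiringAction G L]
  {p : ℕ} [hp : Fact p.Prime] (hp2 : p ≠ 2) (hG : Nat.card G = p) {g₀ : G}
  (hg₀ : ∀ g : G, g ∈ Subgroup.zpowers g₀)

include hp2 hG hg₀ in
/-- **The first inequality** (Herbrand quotient form): `h(C_S(L)) = p` for a cyclic extension
`L / K` of odd prime degree `p` and every nonempty finite set `S` of rational primes. -/
theorem herbrand_CS (K : Type) [Field K] [NumberField K] [Algebra K L]
    [IsGaloisGroup G K L] (S : Finset Nat.Primes) (hS : S.Nonempty) :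
    (mulPair (mulActEnd (CS S L) g₀) p (mulActEnd_pow_eq_one _ (gen_pow_card hG hg₀))).Defined ∧
      (mulPair (mulActEnd (CS S L) g₀) p (mulActEnd_pow_eq_one _ (gen_pow_card hG hg₀))).q = p := by
  haveI : FaithfulSMul G L := IsGaloisGroup.faithful K
  exact herbrand_CS_of_local hp2 hG hg₀ K S hS
    (fun q _ => SL.hasHerbrand_unitGroup hG hg₀ (q : ℕ))

end Main

end

end Fermat.Agent.CFT.Global
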