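/-
P4 / Layer C: the norm index of the `S`-idele class group.  For `L / K` cyclic of odd prime degree
`p` with group `G = ⟨g₀⟩`, unramified outside the nonempty finite set `S`:

* `h0_CS_dvd_index_normSubgroup` : `h⁰(C_S(L)) = [C_S(L)^G : N C_S(L)]` divides
  `[J_K : Kˣ N J_L]` (Galois descent `C_S(L)^G = C_S(K)`);
* `normSubgroup_ne_top` : `Kˣ N J_L ≠ J_K` (first inequality);
* `firstInequality` : helper2's `FirstInequality p`, given that every number field is unramified
  outside a finite set of primes;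
* `h0_CS_eq`, `h1_CS_eq` : given the second inequality, `h⁰ = p` and `h¹ = 1`.
-/
import Fermat.Agent.Lib.CFT.Global.Descent
import Fermat.Agent.Lib.CFT.Global.FirstIneqMain
import Fermat.Agent.Lib.CFT.Global.SecondIneq.Defs

set_option autoImplicit false
set_option linter.style.haveILetI false
set_option linter.unusedSectionVars false

open scoped TensorProduct

namespace Fermat.Agent.CFT.Coh.Herbrand

section

variable {X : Type*} [CommGroup X] (σ : Monoid.End X) (n : ℕ) (hσ : σ ^ n = 1)

lemma mulPair_g_eq' : (mulPair σ n hσ).g = MonoidHom.toAdditive (cycNorm σ n) := by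
  refine AddMonoidHom.ext fun x => ?_
  rw [mulPair_g_apply]
  rfl

lemma mulPair_f_eq' : (mulPair σ n hσ).f = MonoidHom.toAdditive (cycDiv σ) := rfl

/-- `h⁰` in multiplicative terms -/
theorem h0_mulPair :
    (mulPair σ n hσ).h0 = (cycNorm σ n).range.relIndex (cycDiv σ).ker := by
  rw [Pair.h0, mulPair_g_eq', mulPair_f_eq']
  change (Subgroup.toAddSubgroup (cycNorm σ n).range).relIndex
    (Subgroup.toAddSubgroup (cycDiv σ).ker) = _
  rw [Subgroup.relIndex_toAddSubgroup]

/-- `h¹` in multiplicative terms -/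
theorem h1_mulPair :
    (mulPair σ n hσ).h1 = (cycDiv σ).range.relIndex (cycNorm σ n).ker := by
  rw [Pair.h1, mulPair_g_eq', mulPair_f_eq']
  change (Subgroup.toAddSubgroup (cycDiv σ).range).relIndex
    (Subgroup.toAddSubgroup (cycNorm σ n).ker) = _
  rw [Subgroup.relIndex_toAddSubgroup]

end

end Fermat.Agent.CFT.Coh.Herbrand

namespace Fermat.Agent.CFT.Global

open Fermat.Agent.CFT.Coh.Herbrand Finset

noncomputable section

section Cyclic

variable {G : Type} [Group G] [Finite G] {p : ℕ} (hG : Nat.card G = p) {g₀ : G}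
  (hg₀ : ∀ g : G, g ∈ Subgroup.zpowers g₀)

include hG hg₀ in
/-- for a cyclic group the norm is the product over the powers of a generator -/
lemma cycNorm_mulActEnd_eq {M : Type*} [CommGroup M] [MulDistribMulAction G M] (x : M) :
    cycNorm (mulActEnd M g₀) p x = normProd G x := by
  classical
  letI := Fintype.ofFinite G
  rw [cycNorm_apply, normProd_apply, finprod_eq_prod_of_fintype,
    Local.prod_univ_eq_prod_range_pow G g₀ hg₀ (fun h => h • x), hG]
  refine Finset.prod_congr rfl fun i _ => ?_
  rw [mulActEnd_pow, mulActEnd_apply]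

include hg₀ in
lemma mem_ker_cycDiv_mulActEnd_iff {M : Type*} [CommGroup M] [MulDistribMulAction G M] (x : M) :
    x ∈ (cycDiv (mulActEnd M g₀)).ker ↔ ∀ g : G, g • x = x := by
  rw [MonoidHom.mem_ker, cycDiv_apply, div_eq_one, mulActEnd_apply]
  constructor
  · intro h k
    obtain ⟨m, rfl⟩ := Subgroup.mem_zpowers_iff.1 (hg₀ k)
    have hstab : g₀ ∈ MulAction.stabilizer G x := h
    exact (MulAction.stabilizer G x).zpow_mem hstab m
  · intro h
    exact h g₀

end Cyclic

section Main

variable {K L : Type} [Field K] [NumberField K] [Field L] [NumberField L] [Algebra K L]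
  {G : Type} [Group G] [Finite G] [MulSemiringAction G L] [IsGaloisGroup G K L]
  {p : ℕ} [hp : Fact p.Prime] (hG : Nat.card G = p) {g₀ : G}
  (hg₀ : ∀ g : G, g ∈ Subgroup.zpowers g₀) {S : Finset Nat.Primes}

omit [Finite G] [IsGaloisGroup G K L] [NumberField K] [Algebra K L] in
lemma CS.mk_normProd [Finite G] (x : FinIdele L) :
    CS.mk S L (normProd G x) = normProd G (CS.mk S L x) := by
  classical
  letI := Fintype.ofFinite G
  rw [normProd_apply, normProd_apply, finprod_eq_prod_of_fintype, finprod_eq_prod_of_fintype,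
    map_prod]
  exact Finset.prod_congr rfl fun g _ => (CS.smul_mk S G g x).symm

omit [Finite G] in
/-- classes coming from `K` are `G`-invariant -/
lemma CS.smul_map_algebraMap (g : G) (c : CS S K) :
    g • CS.map S (algebraMap K L) c = CS.map S (algebraMap K L) c := by
  obtain ⟨x, rfl⟩ := CS.mk_surjective S c
  rw [CS.map_mk, CS.smul_mk, FinIdele.smul_map_algebraMap]

/-- the image of `Kˣ N J_L` in `C_S(K)` -/
def normClasses (K L : Type) [Field K] [NumberField K] [Field L] [NumberField L] [Algebra K L]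
    (G : Type) [Group G] [Finite G] [MulSemiringAction G L] (S : Finset Nat.Primes) :
    Subgroup (CS S K) := (normSubgroup K L G).map (CS.mk S K)

omit [IsGaloisGroup G K L] in
lemma index_normClasses_dvd : (normClasses K L G S).index ∣ (normSubgroup K L G).index :=
  Subgroup.index_map_dvd _ (CS.mk_surjective S)

omit [IsGaloisGroup G K L] in
/-- classes of norms from `K` are norms of classes -/
lemma map_normClasses_le_range :
    (normClasses K L G S).map (CS.map S (algebraMap K L)) ≤
      (normProd G : CS S L →* CS S L).range := by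
  rintro _ ⟨_, ⟨y, hy, rfl⟩, rfl⟩
  obtain ⟨a, z, ⟨x, hx⟩, rfl⟩ := mem_normSubgroup_iff.1 hy
  refine ⟨CS.mk S L x, ?_⟩
  rw [← CS.mk_normProd, hx, CS.map_mk, map_mul, map_mul, FinIdele.map_princ]
  have h1 : CS.mk S L (FinIdele.princ L (Units.map (algebraMap K L : K →* L) a)) = 1 := by
    rw [CS.mk_eq_one_iff']
    exact ⟨_, 1, one_mem _, by rw [mul_one]⟩
  rw [h1, one_mul]

include hG hg₀ in
/-- **`h⁰(C_S(L))` divides the norm index `[J_K : Kˣ N J_L]`** if `L` is unramified outside the
nonempty set `S` (Galois descent). -/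
theorem h0_CS_dvd_index_normSubgroup (hS : S.Nonempty) (hunr : UnramifiedOutside S L) :
    (mulPair (mulActEnd (CS S L) g₀) p (mulActEnd_pow_eq_one _ (gen_pow_card hG hg₀))).h0 ∣
      (normSubgroup K L G).index := by
  refine dvd_trans ?_ (index_normClasses_dvd (K := K) (L := L) (G := G) (S := S))
  rw [h0_mulPair]
  set ι := CS.map S (algebraMap K L) with hι
  have hinj : Function.Injective ι := CS.map_algebraMap_injective G hS
  -- the fixed points are the image of `C_S(K)`
  have hker : (cycDiv (mulActEnd (CS S L) g₀)).ker = (⊤ : Subgroup (CS S K)).map ι := by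
    ext c
    rw [mem_ker_cycDiv_mulActEnd_iff hg₀]
    constructor
    · intro hc
      obtain ⟨c₀, hc₀⟩ := CS.exists_map_eq_of_forall_smul_eq (K := K) hS hunr c hc
      exact ⟨c₀, Subgroup.mem_top _, hc₀⟩
    · rintro ⟨c₀, -, rfl⟩ g
      exact CS.smul_map_algebraMap g c₀
  -- the norms contain the image of the norm classes
  have hrange : (normClasses K L G S).map ι ≤ (cycNorm (mulActEnd (CS S L) g₀) p).range := by
    refine le_trans map_normClasses_le_range ?_
    rintro _ ⟨c, rfl⟩
    exact ⟨c, cycNorm_mulActEnd_eq hG hg₀ c⟩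
  rw [hker]
  refine dvd_trans (Subgroup.relIndex_dvd_of_le_left _ hrange) ?_
  rw [Subgroup.relIndex_map_map_of_injective _ _ hinj, Subgroup.relIndex_top_right]

omit [NumberField K] [Algebra K L] [IsGaloisGroup G K L] [Finite G] hp in
/-- `h⁰ = p · h¹` when the Herbrand quotient is `p` -/
lemma h0_eq_mul_h1_of_q {A : Type*} [AddCommGroup A] (P : Pair A) (hP : P.Defined)
    (hq : P.q = p) : P.h0 = p * P.h1 := by
  have h1 : (P.h1 : ℚ) ≠ 0 := Nat.cast_ne_zero.2 hP.2
  rw [Pair.q, div_eq_iff h1] at hq
  exact_mod_cast hq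

include hG hg₀ in
/-- **The first inequality**, norm index form: `Kˣ N J_L ≠ J_K` for a cyclic extension of odd
prime degree which is unramified outside a finite set of primes. -/
theorem normSubgroup_ne_top (hp2 : p ≠ 2) (hS : S.Nonempty) (hunr : UnramifiedOutside S L) :
    normSubgroup K L G ≠ ⊤ := by
  intro htop
  have h1 := h0_CS_dvd_index_normSubgroup (K := K) hG hg₀ hS hunr
  rw [htop, Subgroup.index_top, Nat.dvd_one] at h1
  obtain ⟨hdef, hq⟩ := herbrand_CS (L := L) hp2 hG hg₀ K S hS
  have h2 := h0_eq_mul_h1_of_q _ hdef hq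
  rw [h1] at h2
  have h3 : p ∣ 1 := ⟨_, h2⟩
  exact hp.out.one_lt.ne' (Nat.dvd_one.1 h3)

include hG hg₀ in
/-- given the second inequality, `h⁰(C_S(L)) = p` and `h¹(C_S(L)) = 1` -/
theorem h0_h1_CS_eq (hp2 : p ≠ 2) (hS : S.Nonempty) (hunr : UnramifiedOutside S L)
    (hsecond : (normSubgroup K L G).index ∣ p) :
    (mulPair (mulActEnd (CS S L) g₀) p (mulActEnd_pow_eq_one _ (gen_pow_card hG hg₀))).h0 = p ∧
      (mulPair (mulActEnd (CS S L) g₀) p (mulActEnd_pow_eq_one _ (gen_pow_card hG hg₀))).h1 = 1 := by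
  have h1 := dvd_trans (h0_CS_dvd_index_normSubgroup (K := K) hG hg₀ hS hunr) hsecond
  obtain ⟨hdef, hq⟩ := herbrand_CS (L := L) hp2 hG hg₀ K S hS
  have h2 := h0_eq_mul_h1_of_q _ hdef hq
  have hp0 : 0 < p := hp.out.pos
  have h3 : (mulPair (mulActEnd (CS S L) g₀) p
      (mulActEnd_pow_eq_one _ (gen_pow_card hG hg₀))).h1 = 1 := by
    rw [h2] at h1
    have h4 : p * (mulPair (mulActEnd (CS S L) g₀) p
      (mulActEnd_pow_eq_one _ (gen_pow_card hG hg₀))).h1 ∣ p * 1 := by rwa [mul_one]
    exact Nat.dvd_one.1 ((Nat.mul_dvd_mul_iff_left hp0).1 h4)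
  rw [h2, h3, mul_one]
  exact ⟨rfl, rfl⟩

end Main

/-- **The first inequality** in the `S`-free form needed by the second inequality, given that every
number field is unramified outside a finite set of primes. -/
theorem firstInequality (p : ℕ) [hp : Fact p.Prime] (hp2 : p ≠ 2)
    (hram : ∀ (L : Type) [Field L] [NumberField L], ∃ S : Finset Nat.Primes, UnramifiedOutside S L) :
    FirstInequality p := by
  intro K L _ _ _ _ _ G _ _ _ _ hG
  obtain ⟨S, hS⟩ := hram L
  haveI : Fact (Nat.card G).Prime := by rw [hG]; exact hp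
  haveI : IsCyclic G := isCyclic_of_prime_card hG
  obtain ⟨g₀, hg₀⟩ := IsCyclic.exists_generator (α := G)
  classical
  have hS' : UnramifiedOutside (insert (⟨2, Nat.prime_two⟩ : Nat.Primes) S) L :=
    fun r hr => hS r (fun h => hr (Finset.mem_insert_of_mem h))
  exact normSubgroup_ne_top hG hg₀ hp2 (Finset.insert_nonempty _ _) hS'

end

end Fermat.Agent.CFT.Global
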