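/-
P4 / Layer C4 (glue): cyclic layers of degree `p` inside a Galois extension.

`K` is a finite group acting faithfully on the number field `L`, `V ⊲ K` a normal subgroup with
`K ⧸ V` of order `p`.  The fixed field `F = L^V` is a number field with an action of `K ⧸ V`, and
`C_S(F) ≃ C_S(L)^V` (Galois descent), compatibly with the actions.  Hence the Herbrand data of the
`K ⧸ V`-module `C_S(L)^V` are those of the cyclic extension `F / F^{K/V}` of degree `p`.
-/
import Fermat.Agent.Lib.CFT.Global.NormIndex
import Fermat.Agent.Lib.CFT.Global.UnramifiedCriterion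

set_option autoImplicit false
set_option linter.style.haveILetI false
set_option linter.unusedSectionVars false

open scoped TensorProduct

namespace Fermat.Agent.CFT.Coh.Herbrand

/-- invariance of `h⁰`, `h¹` under equivariant isomorphisms -/
theorem mulPair_h0_h1_of_equiv {M N : Type*} [CommGroup M] [CommGroup N] (σ : Monoid.End M)
    (τ : Monoid.End N) (n : ℕ) (hσ : σ ^ n = 1) (hτ : τ ^ n = 1) (e : M ≃* N)
    (h : ∀ x, e (σ x) = τ (e x)) :
    (mulPair σ n hσ).h0 = (mulPair τ n hτ).h0 ∧ (mulPair σ n hσ).h1 = (mulPair τ n hτ).h1 := by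
  have hf : ∀ x, (MulEquiv.toAdditive e) ((mulPair σ n hσ).f x) =
      (mulPair τ n hτ).f ((MulEquiv.toAdditive e) x) :=
    (mulPairHom σ τ n hσ hτ e.toMonoidHom h).comm_f
  have hg : ∀ x, (MulEquiv.toAdditive e) ((mulPair σ n hσ).g x) =
      (mulPair τ n hτ).g ((MulEquiv.toAdditive e) x) :=
    (mulPairHom σ τ n hσ hτ e.toMonoidHom h).comm_g
  exact ⟨Pair.h0_eq_of_equiv _ _ (MulEquiv.toAdditive e) hf hg,
    Pair.h1_eq_of_equiv _ _ (MulEquiv.toAdditive e) hf hg⟩

end Fermat.Agent.CFT.Coh.Herbrand

namespace Fermat.Agent.CFT.Global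

open Fermat.Agent.CFT.Coh.Herbrand Finset

noncomputable section

/-! ## The action of `K ⧸ V` on the fixed field of `V` -/

section FixedField

variable (K L : Type) [Group K] [Field L] [MulSemiringAction K L] (V : Subgroup K) [V.Normal]

lemma mem_fixedSubfield_iff {x : L} : x ∈ FixedPoints.subfield V L ↔ ∀ v : V, v • x = x :=
  Iff.rfl

variable {K L V} in
lemma smul_mem_fixedSubfield (k : K) {x : L} (hx : x ∈ FixedPoints.subfield V L) :
    k • x ∈ FixedPoints.subfield V L := by
  rw [mem_fixedSubfield_iff] at hx ⊢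
  intro v
  have h1 : (v : K) • k • x = k • ((k⁻¹ * v * k : K) • x) := by
    rw [← mul_smul, ← mul_smul]
    congr 1
    group
  have h2 : (k⁻¹ * (v : K) * k) • x = x :=
    hx ⟨k⁻¹ * v * k, Subgroup.Normal.conj_mem' inferInstance (v : K) v.2 k⟩
  change (v : K) • k • x = k • x
  rw [h1, h2]

/-- the action of `K` on the fixed field of the normal subgroup `V` -/
@[instance_reducible] def fixedFieldAction : MulSemiringAction K (FixedPoints.subfield V L) where
  smul k x := ⟨k • (x : L), smul_mem_fixedSubfield k x.2⟩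
  one_smul x := Subtype.ext (one_smul K (x : L))
  mul_smul k k' x := Subtype.ext (mul_smul k k' (x : L))
  smul_zero k := Subtype.ext (smul_zero k)
  smul_add k x y := Subtype.ext (smul_add k (x : L) (y : L))
  smul_one k := Subtype.ext (smul_one k)
  smul_mul k x y := Subtype.ext (smul_mul' k (x : L) (y : L))

/-- `K ⧸ V → Aut(L^V)` -/
def fixedFieldHom : K ⧸ V →* RingAut (FixedPoints.subfield V L) :=
  QuotientGroup.lift V
    (@MulSemiringAction.toRingAut K (FixedPoints.subfield V L) _ _ (fixedFieldAction K L V)) (by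
      intro v hv
      ext x
      exact x.2 ⟨v, hv⟩)

/-- the action of `K ⧸ V` on the fixed field of `V` -/
@[instance_reducible] def quotientFixedFieldAction : MulSemiringAction (K ⧸ V) (FixedPoints.subfield V L) :=
  MulSemiringAction.compHom _ (fixedFieldHom K L V)

lemma coe_quotient_smul (k : K) (x : FixedPoints.subfield V L) :
    ((letI := quotientFixedFieldAction K L V; (k : K ⧸ V) • x : FixedPoints.subfield V L) : L) =
      k • (x : L) := rfl

end FixedField

/-- **The second inequality** for all cyclic extensions of number fields of degree `p`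
(the statement proved in C3). -/
def SecondInequalityStatement (p : ℕ) : Prop :=
  ∀ (K L : Type) [Field K] [NumberField K] [Field L] [NumberField L] [Algebra K L]
    (G : Type) [Group G] [Finite G] [MulSemiringAction G L] [IsGaloisGroup G K L],
    Nat.card G = p → (normSubgroup K L G).index ∣ p

/-! ## The invariants of a normal subgroup in `C_S(L)` -/

section Invariants

variable {K L : Type} [Group K] [Field L] [NumberField L] [MulSemiringAction K L]
  (S : Finset Nat.Primes) (V : Subgroup K)

/-- the `V`-invariant classes -/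
def CS.invariants : Subgroup (CS S L) where
  carrier := {c | ∀ v : V, (v : K) • c = c}
  one_mem' := fun v => smul_one _
  mul_mem' := fun {x y} hx hy v => by rw [smul_mul', hx v, hy v]
  inv_mem' := fun {x} hx v => by rw [smul_inv', hx v]

variable {S V}

lemma CS.mem_invariants_iff {c : CS S L} : c ∈ CS.invariants S V ↔ ∀ v : V, (v : K) • c = c :=
  Iff.rfl

lemma CS.smul_mem_invariants [V.Normal] (k : K) {c : CS S L} (hc : c ∈ CS.invariants S V) :
    k • c ∈ CS.invariants S V := by
  intro v
  have h1 : (v : K) • k • c = k • ((k⁻¹ * v * k : K) • c) := by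
    rw [← mul_smul, ← mul_smul]
    congr 1
    group
  rw [h1, hc ⟨k⁻¹ * v * k, Subgroup.Normal.conj_mem' inferInstance (v : K) v.2 k⟩]

end Invariants

/-! ## The main theorem on layers -/

section Layer

variable {K L : Type} [Group K] [Finite K] [Field L] [NumberField L] [MulSemiringAction K L]
  [FaithfulSMul K L] (V : Subgroup K) [V.Normal] {p : ℕ} [hp : Fact p.Prime]
  {S : Finset Nat.Primes}

lemma CS.mulActEnd_mem_invariants (k₀ : K) :
    ∀ x ∈ CS.invariants S V (L := L), mulActEnd (CS S L) k₀ x ∈ CS.invariants S V (L := L) :=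
  fun _ hc => CS.smul_mem_invariants k₀ hc

/-- the action of `k₀` on the `V`-invariants -/
def CS.invEnd (k₀ : K) : Monoid.End (CS.invariants S V (L := L)) :=
  subEnd (mulActEnd (CS S L) k₀) (CS.invariants S V) (CS.mulActEnd_mem_invariants V k₀)

lemma CS.coe_invEnd_pow (k₀ : K) (i : ℕ) (c : CS.invariants S V (L := L)) :
    (((CS.invEnd V k₀ ^ i) c : CS.invariants S V (L := L)) : CS S L) = k₀ ^ i • (c : CS S L) := by
  rw [CS.invEnd, coe_subEnd_pow, mulActEnd_pow, mulActEnd_apply]

lemma CS.invEnd_pow_eq_one (hidx : V.index = p) (k₀ : K) : CS.invEnd (S := S) (L := L) V k₀ ^ p = 1 := by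
  ext c
  rw [CS.coe_invEnd_pow]
  have h1 : ((k₀ ^ p : K) : K ⧸ V) = 1 := by
    rw [QuotientGroup.mk_pow, ← hidx, Subgroup.index_eq_card]
    exact pow_card_eq_one'
  have h2 : k₀ ^ p ∈ V := (QuotientGroup.eq_one_iff _).1 h1
  exact c.2 ⟨k₀ ^ p, h2⟩

end Layer

/-! ## Faithfulness of the quotient action; unramifiedness of subfields -/

section Faithful

variable (K L : Type) [Group K] [Finite K] [Field L] [MulSemiringAction K L] [FaithfulSMul K L]
  (V : Subgroup K) [V.Normal]

/-- an element of `K` fixing `L^V` pointwise lies in `V` (Galois correspondence) -/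
lemma mem_of_forall_smul_eq_of_mem_fixedSubfield (k : K)
    (hk : ∀ x ∈ FixedPoints.subfield V L, k • x = x) : k ∈ V := by
  have h1 := IsGaloisGroup.fixingSubgroup_fixedPoints K (FixedPoints.subfield K L) L V
  rw [← h1, mem_fixingSubgroup_iff]
  intro x hx
  exact hk x hx

lemma faithfulSMul_quotient_fixedSubfield :
    @FaithfulSMul (K ⧸ V) (FixedPoints.subfield V L)
      (quotientFixedFieldAction K L V).toSMul := by
  letI := quotientFixedFieldAction K L V
  refine ⟨fun {m₁ m₂} h => ?_⟩
  obtain ⟨k₁, rfl⟩ := QuotientGroup.mk_surjective m₁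
  obtain ⟨k₂, rfl⟩ := QuotientGroup.mk_surjective m₂
  rw [QuotientGroup.eq]
  apply mem_of_forall_smul_eq_of_mem_fixedSubfield K L V
  intro x hx
  have h2 : k₁ • x = k₂ • x := congrArg Subtype.val (h ⟨x, hx⟩)
  rw [mul_smul, ← h2, inv_smul_smul]

end Faithful

lemma UnramifiedOutside.of_ringHom {S : Finset Nat.Primes} {K L : Type} [Field K] [NumberField K]
    [Field L] [NumberField L] (f : K →+* L) (h : UnramifiedOutside S L) : UnramifiedOutside S K :=
  fun r hr => UnramifiedAt.of_ringHom f (h r hr)

/-! ## The main theorem -/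

section Main

variable {K L : Type} [Group K] [Finite K] [Field L] [NumberField L] [MulSemiringAction K L]
  [FaithfulSMul K L] (V : Subgroup K) [V.Normal] {p : ℕ} [hp : Fact p.Prime]
  {S : Finset Nat.Primes}

omit [Finite K] [FaithfulSMul K L] [V.Normal] in
lemma CS.subgroup_smul_eq (v : V) (c : CS S L) : v • c = (v : K) • c := rfl

/-- **Cyclic layers of degree `p`** inside a Galois extension unramified outside `S`:
`h⁰(K/V, C_S(L)^V) = p` and `h¹(K/V, C_S(L)^V) = 1`, given the second inequality. -/
theorem layer_h0_h1 (hp2 : p ≠ 2) (hidx : V.index = p) (k₀ : K)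
    (hk₀ : ∀ g : K ⧸ V, g ∈ Subgroup.zpowers (k₀ : K ⧸ V))
    (hS : S.Nonempty) (hunr : UnramifiedOutside S L) (hsecond : SecondInequalityStatement p) :
    (mulPair (CS.invEnd (S := S) (L := L) V k₀) p (CS.invEnd_pow_eq_one V hidx k₀)).h0 = p ∧
    (mulPair (CS.invEnd (S := S) (L := L) V k₀) p (CS.invEnd_pow_eq_one V hidx k₀)).h1 = 1 := by
  classical
  letI actF : MulSemiringAction (K ⧸ V) (FixedPoints.subfield V L) :=
    quotientFixedFieldAction K L V
  haveI hfaith : FaithfulSMul (K ⧸ V) (FixedPoints.subfield V L) :=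
    faithfulSMul_quotient_fixedSubfield K L V
  have hcard : Nat.card (K ⧸ V) = p := by rw [← hidx, Subgroup.index_eq_card]
  have hunrF : UnramifiedOutside S (FixedPoints.subfield V L) :=
    UnramifiedOutside.of_ringHom (algebraMap (FixedPoints.subfield V L) L) hunr
  obtain ⟨h0, h1⟩ := h0_h1_CS_eq (K := FixedPoints.subfield (K ⧸ V) (FixedPoints.subfield V L))
    (L := FixedPoints.subfield V L) (G := K ⧸ V) hcard hk₀ hp2 hS hunrF
    (hsecond _ _ (K ⧸ V) hcard)
  -- the descent isomorphism
  have hmem : ∀ c : CS S (FixedPoints.subfield V L),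
      CS.map S (algebraMap (FixedPoints.subfield V L) L) c ∈ CS.invariants S V (L := L) := by
    intro c v
    rw [← CS.subgroup_smul_eq]
    exact CS.smul_map_algebraMap (K := FixedPoints.subfield V L) (G := V) v c
  have hinj : Function.Injective (CS.map S (algebraMap (FixedPoints.subfield V L) L)) :=
    CS.map_algebraMap_injective V hS
  have hsurj : ∀ c ∈ CS.invariants S V (L := L),
      ∃ c₀, CS.map S (algebraMap (FixedPoints.subfield V L) L) c₀ = c := by
    intro c hc
    exact CS.exists_map_eq_of_forall_smul_eq (K := FixedPoints.subfield V L) (G := V) hS hunr c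
      (fun v => hc v)
  let ι : CS S (FixedPoints.subfield V L) →* CS.invariants S V (L := L) :=
    (CS.map S (algebraMap (FixedPoints.subfield V L) L)).codRestrict _ hmem
  have hι : Function.Bijective ι := by
    constructor
    · intro x y hxy
      exact hinj (congrArg Subtype.val hxy)
    · rintro ⟨c, hc⟩
      obtain ⟨c₀, rfl⟩ := hsurj c hc
      exact ⟨c₀, rfl⟩
  have hequiv : ∀ c, ι (mulActEnd (CS S (FixedPoints.subfield V L)) (k₀ : K ⧸ V) c) =
      CS.invEnd V k₀ (ι c) := by
    intro c
    apply Subtype.ext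
    change CS.map S (algebraMap (FixedPoints.subfield V L) L) ((k₀ : K ⧸ V) • c) =
      k₀ • CS.map S (algebraMap (FixedPoints.subfield V L) L) c
    rw [CS.smul_def, CS.smul_def, ← CS.map_comp, ← CS.map_comp]
    rfl
  obtain ⟨e0, e1⟩ := mulPair_h0_h1_of_equiv
    (mulActEnd (CS S (FixedPoints.subfield V L)) (k₀ : K ⧸ V)) (CS.invEnd V k₀) p
    (mulActEnd_pow_eq_one _ (gen_pow_card hcard hk₀)) (CS.invEnd_pow_eq_one V hidx k₀)
    (MulEquiv.ofBijective ι hι) hequiv
  rw [← e0, ← e1]
  exact ⟨h0, h1⟩

end Main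

end

end Fermat.Agent.CFT.Global
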