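/-
P4 / Layer C (C1f, elementary part): units of the semi-local algebra supported on a set of places.

For a finite set `T` of places of `K` above `q`, `SL.idemOn T = ∑_{w ∈ T} e_w` and
`SL.projOn T : (ℚ_q ⊗ K)ˣ →* (ℚ_q ⊗ K)ˣ`, `u ↦ e_T u + (1 - e_T)`: the unit with the same components
as `u` at the places of `T` and `1` elsewhere.
-/
import Fermat.Agent.Lib.CFT.Global.PlacesOver
import Fermat.Agent.Lib.CFT.Global.LocalInt

set_option autoImplicit false
set_option linter.style.haveILetI false
set_option linter.unusedSectionVars false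
set_option linter.unusedDecidableInType false

open scoped TensorProduct

namespace Fermat.Agent.CFT.Global

noncomputable section

variable {q : ℕ} [Fact q.Prime] {K : Type} [Field K] [NumberField K]
  [DecidableEq (Place q K)]

/-- The idempotent of a finite set of places. -/
def SL.idemOn (T : Finset (Place q K)) : SL q K := ∑ w ∈ T, Place.idem w

lemma SL.proj_idemOn (T : Finset (Place q K)) (w : Place q K) :
    Kv.proj w (SL.idemOn T) = if w ∈ T then 1 else 0 := by
  rw [SL.idemOn, map_sum]
  split_ifs with h
  · rw [Finset.sum_eq_single_of_mem w h, Place.proj_idem_self]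
    intro w' _ hw'
    exact Place.proj_idem_of_ne hw'.symm
  · refine Finset.sum_eq_zero fun w' hw' => Place.proj_idem_of_ne ?_
    rintro rfl
    exact h hw'

lemma SL.units_ext_proj {u v : (SL q K)ˣ}
    (h : ∀ w : Place q K, Kv.proj w (u : SL q K) = Kv.proj w (v : SL q K)) : u = v :=
  Units.ext (SL.ext_proj h)

lemma Kv.proj_mul_proj_inv (w : Place q K) (u : (SL q K)ˣ) :
    Kv.proj w (u : SL q K) * Kv.proj w ((u⁻¹ : (SL q K)ˣ) : SL q K) = 1 := by
  rw [← map_mul, Units.mul_inv, map_one]

lemma Kv.proj_inv_mul_proj (w : Place q K) (u : (SL q K)ˣ) :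
    Kv.proj w ((u⁻¹ : (SL q K)ˣ) : SL q K) * Kv.proj w (u : SL q K) = 1 := by
  rw [← map_mul, Units.inv_mul, map_one]

/-- The projection of the units onto the units supported in `T`. -/
def SL.projOn (T : Finset (Place q K)) : (SL q K)ˣ →* (SL q K)ˣ where
  toFun u := ⟨SL.idemOn T * u + (1 - SL.idemOn T),
    SL.idemOn T * ((u⁻¹ : (SL q K)ˣ) : SL q K) + (1 - SL.idemOn T), by
      apply SL.ext_proj
      intro w
      simp only [map_mul, map_add, map_sub, map_one, SL.proj_idemOn]
      split_ifs
      · rw [one_mul, one_mul, sub_self, add_zero, add_zero, Kv.proj_mul_proj_inv]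
      · rw [zero_mul, zero_mul, sub_zero, zero_add, one_mul], by
      apply SL.ext_proj
      intro w
      simp only [map_mul, map_add, map_sub, map_one, SL.proj_idemOn]
      split_ifs
      · rw [one_mul, one_mul, sub_self, add_zero, add_zero, Kv.proj_inv_mul_proj]
      · rw [zero_mul, zero_mul, sub_zero, zero_add, one_mul]⟩
  map_one' := by
    apply Units.ext
    simp
  map_mul' u v := by
    apply SL.units_ext_proj
    intro w
    simp only [Units.val_mul, map_mul, map_add, map_sub, map_one, SL.proj_idemOn]
    split_ifs <;> simp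

lemma SL.proj_projOn (T : Finset (Place q K)) (u : (SL q K)ˣ) (w : Place q K) :
    Kv.proj w (SL.projOn T u : SL q K) = if w ∈ T then Kv.proj w (u : SL q K) else 1 := by
  change Kv.proj w (SL.idemOn T * u + (1 - SL.idemOn T)) = _
  simp only [map_mul, map_add, map_sub, map_one, SL.proj_idemOn]
  split_ifs <;> simp

lemma SL.projOn_univ [Fintype (Place q K)] (u : (SL q K)ˣ) : SL.projOn Finset.univ u = u := by
  apply SL.units_ext_proj
  intro w
  rw [SL.proj_projOn, if_pos (Finset.mem_univ w)]

lemma SL.projOn_empty (u : (SL q K)ˣ) : SL.projOn (∅ : Finset (Place q K)) u = 1 := by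
  apply SL.units_ext_proj
  intro w
  rw [SL.proj_projOn, if_neg (Finset.notMem_empty w), Units.val_one, map_one]

lemma SL.projOn_projOn (T T' : Finset (Place q K)) (u : (SL q K)ˣ) :
    SL.projOn T (SL.projOn T' u) = SL.projOn (T ∩ T') u := by
  apply SL.units_ext_proj
  intro w
  simp only [SL.proj_projOn, Finset.mem_inter]
  split_ifs <;> simp_all

lemma SL.projOn_mul_projOn {T T' : Finset (Place q K)} (h : Disjoint T T') (u : (SL q K)ˣ) :
    SL.projOn T u * SL.projOn T' u = SL.projOn (T ∪ T') u := by
  apply SL.units_ext_proj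
  intro w
  simp only [Units.val_mul, map_mul, SL.proj_projOn, Finset.mem_union]
  by_cases h1 : w ∈ T
  · have h2 : w ∉ T' := Finset.disjoint_left.1 h h1
    simp [h1, h2]
  · by_cases h2 : w ∈ T' <;> simp [h1, h2]

/-- a unit is supported in `T` if it is `1` outside `T` -/
def SL.supportedOn (T : Finset (Place q K)) : Subgroup (SL q K)ˣ where
  carrier := {u | SL.projOn T u = u}
  one_mem' := map_one _
  mul_mem' := fun {u v} hu hv => by
    change SL.projOn T (u * v) = u * v
    rw [map_mul, hu, hv]
  inv_mem' := fun {u} hu => by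
    change SL.projOn T u⁻¹ = u⁻¹
    rw [map_inv, hu]

lemma SL.mem_supportedOn_iff (T : Finset (Place q K)) (u : (SL q K)ˣ) :
    u ∈ SL.supportedOn T ↔ SL.projOn T u = u := Iff.rfl

lemma SL.mem_supportedOn_iff_forall (T : Finset (Place q K)) (u : (SL q K)ˣ) :
    u ∈ SL.supportedOn T ↔ ∀ w, w ∉ T → Kv.proj w (u : SL q K) = 1 := by
  rw [SL.mem_supportedOn_iff]
  constructor
  · intro h w hw
    rw [← h, SL.proj_projOn, if_neg hw]
  · intro h
    apply SL.units_ext_proj
    intro w
    rw [SL.proj_projOn]
    split_ifs with hw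
    · rfl
    · exact (h w hw).symm

lemma SL.projOn_mem_supportedOn (T : Finset (Place q K)) (u : (SL q K)ˣ) :
    SL.projOn T u ∈ SL.supportedOn T := by
  rw [SL.mem_supportedOn_iff, SL.projOn_projOn, Finset.inter_self]

lemma SL.supportedOn_mono {T T' : Finset (Place q K)} (h : T ⊆ T') :
    SL.supportedOn T ≤ SL.supportedOn T' := by
  intro u hu
  rw [SL.mem_supportedOn_iff_forall] at hu ⊢
  exact fun w hw => hu w (fun hwT => hw (h hwT))

lemma SL.projOn_eq_one_iff (T : Finset (Place q K)) (u : (SL q K)ˣ) :
    SL.projOn T u = 1 ↔ ∀ w ∈ T, Kv.proj w (u : SL q K) = 1 := by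
  constructor
  · intro h w hw
    have := congrArg (fun v : (SL q K)ˣ => Kv.proj w (v : SL q K)) h
    simp only [SL.proj_projOn, if_pos hw, Units.val_one, map_one] at this
    exact this
  · intro h
    apply SL.units_ext_proj
    intro w
    rw [SL.proj_projOn, Units.val_one, map_one]
    split_ifs with hw
    · exact h w hw
    · rfl

/-- the local units are stable under the projections -/
lemma SL.projOn_mem_unitGroup (T : Finset (Place q K)) {u : (SL q K)ˣ}
    (hu : u ∈ SL.unitGroup q K) : SL.projOn T u ∈ SL.unitGroup q K := by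
  rw [SL.mem_unitGroup_iff_forall_ordAt] at hu ⊢
  intro w
  by_cases hw : w ∈ T
  · have : Units.map (Kv.proj w : SL q K →* Kv w) (SL.projOn T u) =
        Units.map (Kv.proj w : SL q K →* Kv w) u := by
      apply Units.ext
      change Kv.proj w (SL.projOn T u : SL q K) = Kv.proj w (u : SL q K)
      rw [SL.proj_projOn, if_pos hw]
    unfold SL.ordAt
    rw [MonoidHom.comp_apply, this]
    exact hu w
  · have : Units.map (Kv.proj w : SL q K →* Kv w) (SL.projOn T u) = 1 := by
      apply Units.ext
      change Kv.proj w (SL.projOn T u : SL q K) = 1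
      rw [SL.proj_projOn, if_neg hw]
    unfold SL.ordAt
    rw [MonoidHom.comp_apply, this, map_one]

end

section Action

variable {q : ℕ} [Fact q.Prime] {K : Type} [Field K] [NumberField K]
  [DecidableEq (Place q K)] {G : Type} [Group G] [MulSemiringAction G K]

lemma SL.smul_idemOn (g : G) (T : Finset (Place q K)) :
    g • SL.idemOn T = SL.idemOn (T.image (g • ·)) := by
  rw [SL.idemOn, SL.idemOn, Finset.smul_sum, Finset.sum_image]
  · exact Finset.sum_congr rfl fun w _ => Place.smul_idem g w
  · intro w _ w' _ h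
    exact (MulAction.injective g) h

lemma SL.smul_projOn (g : G) (T : Finset (Place q K)) (u : (SL q K)ˣ) :
    g • SL.projOn T u = SL.projOn (T.image (g • ·)) (g • u) := by
  apply Units.ext
  change g • (SL.idemOn T * u + (1 - SL.idemOn T)) =
    SL.idemOn (T.image (g • ·)) * (g • (u : SL q K)) + (1 - SL.idemOn (T.image (g • ·)))
  rw [smul_add, smul_mul', smul_sub, smul_one, SL.smul_idemOn]

lemma SL.smul_mem_supportedOn (g : G) {T : Finset (Place q K)} {u : (SL q K)ˣ}
    (hu : u ∈ SL.supportedOn T) : g • u ∈ SL.supportedOn (T.image (g • ·)) := by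
  rw [SL.mem_supportedOn_iff] at hu ⊢
  rw [← SL.smul_projOn, hu]

end Action

end Fermat.Agent.CFT.Global
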