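/-
P4 / Layer C2 (semi-local part): for a group `G = ⟨g₀⟩` of prime order `p` acting on a number field
`K`, the Herbrand quotient of a "product subgroup" `𝒰` of `(ℚ_q ⊗ K)ˣ` is the product of the
Herbrand quotients of its components at the places fixed by `G`: the places which are not fixed
come in free orbits and contribute an induced module.
-/
import Fermat.Agent.Lib.CFT.Global.Support
import Fermat.Agent.Lib.CFT.Global.HerbrandMul

set_option autoImplicit false
set_option linter.style.haveILetI false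
set_option linter.unusedSectionVars false
set_option linter.unusedDecidableInType false
set_option linter.unusedFintypeInType false

open scoped TensorProduct

namespace Fermat.Agent.CFT.Global

open Fermat.Agent.CFT.Coh.Herbrand Finset

noncomputable section

section ActEnd

variable {q : ℕ} [Fact q.Prime] {K : Type} [Field K] [CharZero K]
  {G : Type} [Group G] [MulSemiringAction G K]

/-- the action of a group element on the units of the semi-local algebra, as an endomorphism -/
def SL.actEnd (g : G) : Monoid.End (SL q K)ˣ := MulDistribMulAction.toMonoidEnd G (SL q K)ˣ g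

@[simp] lemma SL.actEnd_apply (g : G) (u : (SL q K)ˣ) : SL.actEnd g u = g • u := rfl

lemma SL.actEnd_pow (g : G) (i : ℕ) : (SL.actEnd g : Monoid.End (SL q K)ˣ) ^ i = SL.actEnd (g ^ i) :=
  (map_pow (MulDistribMulAction.toMonoidEnd G (SL q K)ˣ) g i).symm

lemma SL.actEnd_pow_eq_one {g : G} {n : ℕ} (h : g ^ n = 1) :
    (SL.actEnd g : Monoid.End (SL q K)ˣ) ^ n = 1 := by
  rw [SL.actEnd_pow, h]
  exact map_one (MulDistribMulAction.toMonoidEnd G (SL q K)ˣ)

end ActEnd

variable {q : ℕ} [Fact q.Prime] {K : Type} [Field K] [NumberField K]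
  [Fintype (Place q K)] [DecidableEq (Place q K)]
  {G : Type} [Group G] [MulSemiringAction G K]

/-- the places fixed by `g₀` -/
def Place.fixedBy (g₀ : G) : Finset (Place q K) := univ.filter (fun w => g₀ • w = w)

lemma Place.mem_fixedBy {g₀ : G} {w : Place q K} : w ∈ Place.fixedBy g₀ ↔ g₀ • w = w := by
  simp [Place.fixedBy]

lemma Place.image_fixedBy (g₀ : G) :
    (Place.fixedBy g₀ : Finset (Place q K)).image (g₀ • ·) = Place.fixedBy g₀ := by
  ext w
  rw [mem_image]
  constructor
  · rintro ⟨w', hw', rfl⟩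
    rw [Place.mem_fixedBy] at hw' ⊢
    rw [hw', hw']
  · intro hw
    exact ⟨w, hw, Place.mem_fixedBy.1 hw⟩

lemma Place.image_compl_fixedBy (g₀ : G) :
    ((Place.fixedBy g₀ : Finset (Place q K))ᶜ).image (g₀ • ·) = (Place.fixedBy g₀)ᶜ := by
  ext w
  rw [mem_image, mem_compl, Place.mem_fixedBy]
  constructor
  · rintro ⟨w', hw', rfl⟩
    rw [mem_compl, Place.mem_fixedBy] at hw'
    intro h
    exact hw' (MulAction.injective g₀ h)
  · intro hw
    refine ⟨g₀⁻¹ • w, ?_, smul_inv_smul g₀ w⟩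
    rw [mem_compl, Place.mem_fixedBy, smul_inv_smul]
    intro h
    apply hw
    conv_lhs => rw [h, smul_inv_smul]

variable (G) in
/-- a representative of the orbit of `w` -/
def Place.rep (w : Place q K) : Place q K :=
  (Quotient.mk (MulAction.orbitRel G (Place q K)) w).out

lemma Place.exists_smul_eq_rep (w : Place q K) : ∃ g : G, g • w = Place.rep G w := by
  have h : (MulAction.orbitRel G (Place q K)) (Place.rep G w) w :=
    Quotient.exact (Quotient.out_eq _)
  rw [MulAction.orbitRel_apply] at h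
  obtain ⟨g, hg⟩ := h
  exact ⟨g, hg⟩

lemma Place.rep_smul (g : G) (w : Place q K) : Place.rep G (g • w) = Place.rep G w := by
  unfold Place.rep
  congr 1
  apply Quotient.sound
  change (MulAction.orbitRel G (Place q K)) (g • w) w
  rw [MulAction.orbitRel_apply]
  exact ⟨g, rfl⟩

/-- the chosen representatives of the non-fixed orbits -/
def Place.reps (g₀ : G) : Finset (Place q K) :=
  univ.filter (fun w => w ∉ Place.fixedBy g₀ ∧ Place.rep G w = w)

lemma Place.mem_reps {g₀ : G} {w : Place q K} :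
    w ∈ Place.reps g₀ ↔ w ∉ Place.fixedBy g₀ ∧ Place.rep G w = w := by
  simp [Place.reps]

end

section Prime

variable {q : ℕ} [Fact q.Prime] {K : Type} [Field K] [NumberField K]
  [Fintype (Place q K)] [DecidableEq (Place q K)]
  {G : Type} [Group G] [MulSemiringAction G K]
  {p : ℕ} [hp : Fact p.Prime] (hG : Nat.card G = p) {g₀ : G}
  (hg₀ : ∀ g : G, g ∈ Subgroup.zpowers g₀)

include hG hg₀

lemma orderOf_gen : orderOf g₀ = p := by
  rw [← hG]
  exact orderOf_eq_card_of_forall_mem_zpowers hg₀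

lemma gen_pow_card : g₀ ^ p = 1 := by
  rw [← orderOf_gen hG hg₀]
  exact pow_orderOf_eq_one g₀

lemma exists_pow_eq (g : G) : ∃ i < p, g₀ ^ i = g := by
  obtain ⟨k, hk⟩ := Subgroup.mem_zpowers_iff.1 (hg₀ g)
  have hpos : 0 < p := hp.out.pos
  refine ⟨(k % (p : ℤ)).toNat, ?_, ?_⟩
  · have h1 : 0 ≤ k % (p : ℤ) := Int.emod_nonneg _ (by exact_mod_cast hpos.ne')
    have h2 : k % (p : ℤ) < p := Int.emod_lt_of_pos _ (by exact_mod_cast hpos)
    omega
  · rw [← hk, ← zpow_natCast, Int.toNat_of_nonneg (Int.emod_nonneg _ (by exact_mod_cast hpos.ne')),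
      ← orderOf_gen hG hg₀, zpow_mod_orderOf]

lemma Place.smul_eq_of_mem_fixedBy {w : Place q K} (hw : w ∈ Place.fixedBy g₀) (g : G) :
    g • w = w := by
  obtain ⟨i, -, rfl⟩ := exists_pow_eq hG hg₀ g
  rw [Place.mem_fixedBy] at hw
  induction i with
  | zero => rw [pow_zero, one_smul]
  | succ i ih => rw [pow_succ, mul_smul, hw, ih]

lemma Place.stabilizer_eq_bot {w : Place q K} (hw : w ∉ Place.fixedBy g₀) :
    MulAction.stabilizer G w = ⊥ := by
  haveI : Fact (Nat.card G).Prime := ⟨hG ▸ hp.out⟩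
  rcases (MulAction.stabilizer G w).eq_bot_or_eq_top_of_prime_card with h | h
  · exact h
  · exfalso
    apply hw
    rw [Place.mem_fixedBy]
    have : g₀ ∈ MulAction.stabilizer G w := h ▸ Subgroup.mem_top g₀
    exact this

lemma Place.exists_pow_smul_reps {w : Place q K} (hw : w ∉ Place.fixedBy g₀) :
    ∃ i < p, ∃ r ∈ Place.reps g₀, g₀ ^ i • r = w := by
  obtain ⟨g, hg⟩ := Place.exists_smul_eq_rep (G := G) w
  obtain ⟨i, hi, hgi⟩ := exists_pow_eq hG hg₀ g⁻¹
  refine ⟨i, hi, Place.rep G w, ?_, ?_⟩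
  · rw [Place.mem_reps]
    refine ⟨fun h => hw ?_, ?_⟩
    · have h1 : g⁻¹ • Place.rep G w = Place.rep G w := Place.smul_eq_of_mem_fixedBy hG hg₀ h g⁻¹
      rw [← hg, inv_smul_smul] at h1
      rw [h1, hg]
      exact h
    · rw [← hg, Place.rep_smul, hg]
  · rw [hgi, ← hg, inv_smul_smul]

lemma Place.pow_smul_reps_notMem_fixedBy {i : ℕ} {r : Place q K} (hr : r ∈ Place.reps g₀) :
    g₀ ^ i • r ∉ Place.fixedBy g₀ := by
  intro h
  have h1 := Place.smul_eq_of_mem_fixedBy hG hg₀ h (g₀ ^ i)⁻¹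
  rw [inv_smul_smul] at h1
  rw [← h1] at h
  exact (Place.mem_reps.1 hr).1 h

lemma Place.pow_smul_reps_inj {i j : ℕ} (hi : i < p) (hj : j < p) {r r' : Place q K}
    (hr : r ∈ Place.reps g₀) (hr' : r' ∈ Place.reps g₀) (h : g₀ ^ i • r = g₀ ^ j • r') :
    i = j ∧ r = r' := by
  have h1 : r = r' := by
    rw [← (Place.mem_reps.1 hr).2, ← (Place.mem_reps.1 hr').2, ← Place.rep_smul (g₀ ^ i) r, h,
      Place.rep_smul]
  subst h1
  refine ⟨?_, rfl⟩
  have h2 : (g₀ ^ j)⁻¹ * g₀ ^ i ∈ MulAction.stabilizer G r := by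
    rw [MulAction.mem_stabilizer_iff, mul_smul, h, inv_smul_smul]
  rw [Place.stabilizer_eq_bot hG hg₀ (Place.mem_reps.1 hr).1, Subgroup.mem_bot,
    inv_mul_eq_one] at h2
  have hord := orderOf_gen hG hg₀
  exact (pow_injOn_Iio_orderOf (x := g₀) (by rw [Set.mem_Iio, hord]; exact hj)
    (by rw [Set.mem_Iio, hord]; exact hi) h2).symm

/-- the translates of the set of representatives partition the non-fixed places -/
lemma Place.biUnion_image_reps :
    (range p).biUnion (fun i => (Place.reps g₀).image (g₀ ^ i • ·)) =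
      ((Place.fixedBy g₀ : Finset (Place q K))ᶜ) := by
  ext w
  rw [mem_biUnion, mem_compl]
  constructor
  · rintro ⟨i, -, hw⟩
    rw [mem_image] at hw
    obtain ⟨r, hr, rfl⟩ := hw
    exact Place.pow_smul_reps_notMem_fixedBy hG hg₀ hr
  · intro hw
    obtain ⟨i, hi, r, hr, rfl⟩ := Place.exists_pow_smul_reps hG hg₀ hw
    exact ⟨i, mem_range.2 hi, mem_image.2 ⟨r, hr, rfl⟩⟩

lemma Place.pairwiseDisjoint_image_reps :
    ((range p : Finset ℕ) : Set ℕ).PairwiseDisjoint
      (fun i => (Place.reps g₀ : Finset (Place q K)).image (g₀ ^ i • ·)) := by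
  intro i hi j hj hij
  rw [Function.onFun, disjoint_left]
  intro w hw hw'
  rw [mem_image] at hw hw'
  obtain ⟨r, hr, rfl⟩ := hw
  obtain ⟨r', hr', h⟩ := hw'
  exact hij (Place.pow_smul_reps_inj hG hg₀ (mem_range.1 hi) (mem_range.1 hj) hr hr' h.symm).1

end Prime

section Product

variable {q : ℕ} [Fact q.Prime] {K : Type} [Field K] [NumberField K]
  [Fintype (Place q K)] [DecidableEq (Place q K)]

lemma SL.prod_projOn {ι : Type*} (s : Finset ι) (T : ι → Finset (Place q K))
    (h : (s : Set ι).PairwiseDisjoint T) (u : (SL q K)ˣ) :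
    ∏ i ∈ s, SL.projOn (T i) u = SL.projOn (s.biUnion T) u := by
  classical
  induction s using Finset.induction_on with
  | empty => rw [prod_empty, biUnion_empty, SL.projOn_empty]
  | insert a s ha ih =>
    rw [prod_insert ha, biUnion_insert, ih (h.subset (by simp)), SL.projOn_mul_projOn]
    rw [disjoint_biUnion_right]
    intro i hi
    exact h (by simp) (by simp [hi]) (fun hai => ha (hai ▸ hi))

end Product

section Main

variable {q : ℕ} [Fact q.Prime] {K : Type} [Field K] [NumberField K]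
  [Fintype (Place q K)] [DecidableEq (Place q K)]
  {G : Type} [Group G] [MulSemiringAction G K]
  {p : ℕ} [hp : Fact p.Prime] (hG : Nat.card G = p) {g₀ : G}
  (hg₀ : ∀ g : G, g ∈ Subgroup.zpowers g₀)
  (𝒰 : Subgroup (SL q K)ˣ) (h𝒰σ : ∀ u ∈ 𝒰, g₀ • u ∈ 𝒰)
  (h𝒰π : ∀ (T : Finset (Place q K)), ∀ u ∈ 𝒰, SL.projOn T u ∈ 𝒰)

include hG hg₀ h𝒰σ h𝒰π

/-- **The part supported on the non-fixed places is induced.** -/
theorem SL.hasHerbrand_nonfixed :
    HasHerbrand (SL.actEnd g₀) p (SL.actEnd_pow_eq_one (gen_pow_card hG hg₀))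
      (𝒰 ⊓ SL.supportedOn ((Place.fixedBy g₀)ᶜ)) 1 := by
  have hst : ∀ x ∈ 𝒰 ⊓ SL.supportedOn ((Place.fixedBy g₀ : Finset (Place q K))ᶜ),
      SL.actEnd g₀ x ∈ 𝒰 ⊓ SL.supportedOn ((Place.fixedBy g₀)ᶜ) := by
    rintro x ⟨hx1, hx2⟩
    refine ⟨h𝒰σ x hx1, ?_⟩
    have := SL.smul_mem_supportedOn g₀ hx2
    rwa [Place.image_compl_fixedBy] at this
  refine hasHerbrand_of_traceOne hst (SL.projOn (Place.reps g₀)) ?_ ?_
  · rintro x ⟨hx1, hx2⟩
    refine ⟨h𝒰π _ x hx1, ?_⟩
    refine SL.supportedOn_mono ?_ (SL.projOn_mem_supportedOn _ x)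
    intro w hw
    rw [mem_compl]
    exact (Place.mem_reps.1 hw).1
  · rintro x ⟨hx1, hx2⟩
    have hterm : ∀ i ∈ range p, (SL.actEnd g₀ ^ i) (SL.projOn (Place.reps g₀)
        ((SL.actEnd g₀ ^ (p - i)) x)) = SL.projOn ((Place.reps g₀).image (g₀ ^ i • ·)) x := by
      intro i hi
      rw [mem_range] at hi
      rw [SL.actEnd_pow, SL.actEnd_pow, SL.actEnd_apply, SL.actEnd_apply, SL.smul_projOn,
        ← mul_smul, ← pow_add, Nat.add_sub_cancel' hi.le, gen_pow_card hG hg₀, one_smul]
    rw [prod_congr rfl hterm, SL.prod_projOn _ _ (Place.pairwiseDisjoint_image_reps hG hg₀),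
      Place.biUnion_image_reps hG hg₀]
    exact hx2

/-- **Herbrand quotient of a product subgroup**: only the fixed places contribute. -/
theorem SL.hasHerbrand_of_fixed (c : Place q K → ℚ)
    (hloc : ∀ w ∈ Place.fixedBy g₀, HasHerbrand (SL.actEnd g₀) p
      (SL.actEnd_pow_eq_one (gen_pow_card hG hg₀)) (𝒰 ⊓ SL.supportedOn {w}) (c w)) :
    HasHerbrand (SL.actEnd g₀) p (SL.actEnd_pow_eq_one (gen_pow_card hG hg₀)) 𝒰
      (∏ w ∈ Place.fixedBy g₀, c w) := by
  -- the fixed part, by induction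
  have hfix : ∀ T : Finset (Place q K), T ⊆ Place.fixedBy g₀ →
      HasHerbrand (SL.actEnd g₀) p (SL.actEnd_pow_eq_one (gen_pow_card hG hg₀))
        (𝒰 ⊓ SL.supportedOn T) (∏ w ∈ T, c w) := by
    intro T
    induction T using Finset.induction_on with
    | empty =>
      intro _
      rw [prod_empty]
      refine hasHerbrand_bot.congr ?_
      ext u
      rw [Subgroup.mem_bot, Subgroup.mem_inf, SL.mem_supportedOn_iff, SL.projOn_empty]
      constructor
      · rintro rfl
        exact ⟨one_mem _, rfl⟩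
      · rintro ⟨_, h⟩
        exact h.symm
    | insert a T ha ih =>
      intro hsub
      have haF : a ∈ Place.fixedBy g₀ := hsub (mem_insert_self a T)
      have hTF : T ⊆ Place.fixedBy g₀ := fun w hw => hsub (mem_insert_of_mem hw)
      rw [prod_insert ha, mul_comm]
      have himg : ∀ T' : Finset (Place q K), T' ⊆ Place.fixedBy g₀ → T'.image (g₀ • ·) = T' := by
        intro T' hT'
        ext w
        rw [mem_image]
        constructor
        · rintro ⟨w', hw', rfl⟩
          rw [Place.mem_fixedBy.1 (hT' hw')]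
          exact hw'
        · intro hw
          exact ⟨w, hw, Place.mem_fixedBy.1 (hT' hw)⟩
      have hstB : ∀ x ∈ 𝒰 ⊓ SL.supportedOn (insert a T),
          SL.actEnd g₀ x ∈ 𝒰 ⊓ SL.supportedOn (insert a T) := by
        rintro x ⟨hx1, hx2⟩
        refine ⟨h𝒰σ x hx1, ?_⟩
        have := SL.smul_mem_supportedOn g₀ hx2
        rwa [himg _ hsub] at this
      refine HasHerbrand.exact (ih hTF) (hloc a haF) hstB (SL.projOn {a}) ?_ ?_ ?_ ?_ ?_
      · intro x _
        rw [SL.actEnd_apply, SL.actEnd_apply, SL.smul_projOn,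
          himg {a} (singleton_subset_iff.2 haF)]
      · exact inf_le_inf_left _ (SL.supportedOn_mono (subset_insert a T))
      · rintro b ⟨hb1, _⟩
        exact ⟨h𝒰π _ b hb1, SL.projOn_mem_supportedOn _ b⟩
      · rintro c ⟨hc1, hc2⟩
        refine ⟨c, ⟨hc1, SL.supportedOn_mono (singleton_subset_iff.2 (mem_insert_self a T)) hc2⟩,
          hc2⟩
      · rintro b ⟨hb1, hb2⟩
        rw [SL.projOn_eq_one_iff]
        constructor
        · intro h
          refine ⟨hb1, ?_⟩
          have hb2' := (SL.mem_supportedOn_iff_forall _ _).1 hb2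
          refine (SL.mem_supportedOn_iff_forall _ _).2 ?_
          intro w hw
          by_cases hwa : w = a
          · subst hwa
            exact h w (mem_singleton_self w)
          · exact hb2' w (by simp [hwa, hw])
        · rintro ⟨_, hb3⟩ w hw
          rw [mem_singleton] at hw
          subst hw
          exact (SL.mem_supportedOn_iff_forall _ _).1 hb3 w ha
  -- assemble
  have h1 := SL.hasHerbrand_nonfixed hG hg₀ 𝒰 h𝒰σ h𝒰π
  have h2 := hfix (Place.fixedBy g₀) (subset_refl _)
  rw [← one_mul (∏ w ∈ Place.fixedBy g₀, c w)]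
  have hstU : ∀ x ∈ 𝒰, SL.actEnd g₀ x ∈ 𝒰 := h𝒰σ
  refine HasHerbrand.exact h1 h2 hstU (SL.projOn (Place.fixedBy g₀)) ?_ ?_ ?_ ?_ ?_
  · intro x _
    rw [SL.actEnd_apply, SL.actEnd_apply, SL.smul_projOn, Place.image_fixedBy]
  · exact inf_le_left
  · intro b hb
    exact ⟨h𝒰π _ b hb, SL.projOn_mem_supportedOn _ b⟩
  · rintro c ⟨hc1, hc2⟩
    exact ⟨c, hc1, hc2⟩
  · intro b hb
    rw [SL.projOn_eq_one_iff]
    constructor
    · intro h
      refine ⟨hb, ?_⟩
      refine (SL.mem_supportedOn_iff_forall _ _).2 ?_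
      intro w hw
      rw [mem_compl, not_not] at hw
      exact h w hw
    · rintro ⟨_, hb2⟩ w hw
      exact (SL.mem_supportedOn_iff_forall _ _).1 hb2 w (by rw [mem_compl, not_not]; exact hw)

end Main

end Fermat.Agent.CFT.Global
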