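/-
P4 / Layer C5-d (AR3): non-split places exist.

For a cyclic extension `L / K` of number fields of odd prime degree `p` and every finite set `T` of
rational primes there is a place of `L`, above a prime outside `T`, which is fixed by the Galois
group (i.e. the place of `K` below it does not split).  This is a corollary of the first inequality
`Kˣ · N J_L ≠ J_K`: if all places outside `T` were split, every idele would be a norm up to a
principal idele (weak approximation at `T`: `J_T = Kˣ · J_Tᵖ`).
-/
import Fermat.Agent.Lib.CFT.Global.NormIndex
import Fermat.Agent.Lib.CFT.Global.FinitelyRamified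
import Fermat.Agent.Lib.CFT.Global.SecondIneq.LocalNorm
import Fermat.Agent.Lib.CFT.Global.SecondIneq.WeakApprox

set_option autoImplicit false
set_option linter.style.haveILetI false
set_option linter.unusedSectionVars false

open scoped TensorProduct

namespace Fermat.Agent.CFT.Global

noncomputable section

/-- **The first inequality** `Kˣ · N J_L ≠ J_K` for all cyclic extensions of number fields of odd
prime degree `p` (unconditional form). -/
theorem NonSplit.firstIneq_odd (p : ℕ) [hp : Fact p.Prime] (hp2 : p ≠ 2) : FirstInequality p :=
  firstInequality p hp2 (fun L _ _ => exists_unramifiedOutside L)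

variable {p : ℕ} [hp : Fact p.Prime] {K L : Type} [Field K] [NumberField K] [Field L]
  [NumberField L] [Algebra K L] {G : Type} [Group G] [Finite G] [MulSemiringAction G L]
  [IsGaloisGroup G K L]

/-- in a group of prime order acting on a set, a point which is not fixed by the whole group has
trivial stabilizer -/
lemma eq_one_of_smul_eq_of_exists_smul_ne {X : Type*} [MulAction G X] (hG : Nat.card G = p)
    {x : X} (hx : ∃ h : G, h • x ≠ x) (g : G) (hg : g • x = x) : g = 1 := by
  by_contra hg1
  have htop : Subgroup.zpowers g = ⊤ := zpowers_eq_top_of_prime_card hG hg1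
  obtain ⟨h, hh⟩ := hx
  apply hh
  have hmem : h ∈ Subgroup.zpowers g := by rw [htop]; exact Subgroup.mem_top h
  obtain ⟨k, rfl⟩ := Subgroup.mem_zpowers_iff.1 hmem
  have hfix : g ∈ MulAction.stabilizer G x := hg
  exact (MulAction.stabilizer G x).zpow_mem hfix k

/-- if all places of `L` above the primes outside `T` have trivial stabilizer, every idele of `K`
is a principal idele times a norm -/
theorem normSubgroup_eq_top_of_free (hG : Nat.card G = p) (T : Finset Nat.Primes)
    (hfree : ∀ q : Nat.Primes, q ∉ T → ∀ (w : Place (q : ℕ) L) (g : G), g • w = w → g = 1) :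
    normSubgroup K L G = ⊤ := by
  classical
  rw [eq_top_iff]
  intro y _
  let yT : JS T K := fun q => FinIdele.comp (q : Nat.Primes) y
  obtain ⟨a, z, hz⟩ := JS.exists_diag_mul_pow T K p hp.out.ne_zero yT
  set y' : FinIdele K := (FinIdele.princ K a)⁻¹ * y with hy'
  have hyy' : FinIdele.princ K a * y' = y := by rw [hy', mul_inv_cancel_left]
  rw [mem_normSubgroup_iff]
  refine ⟨a, y', ?_, hyy'⟩
  have hcompT : ∀ (q : Nat.Primes) (hq : q ∈ T), FinIdele.comp q y' = z ⟨q, hq⟩ ^ p := by
    intro q hq
    have h1 : FinIdele.comp q y = SL.unitsIncl (q : ℕ) K a * z ⟨q, hq⟩ ^ p := by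
      have := congrFun hz ⟨q, hq⟩
      exact this
    have h2 : FinIdele.comp q (FinIdele.princ K a) = SL.unitsIncl (q : ℕ) K a := rfl
    rw [hy', map_mul, map_inv, h1, h2, inv_mul_cancel_left]
  apply mem_normIdeles_of_forall
  · intro q
    by_cases hq : q ∈ T
    · rw [hcompT q hq, ← hG]
      exact SL.pow_card_mem_normGroup _
    · apply SL.mem_of_forall_projOn_singleton
      intro w
      exact SL.projOn_singleton_mem_normGroup_of_free (G := G) (L := L) w
        (fun w' _ => hfree q hq w') _
  · refine (T.finite_toSet.union y'.finite_notMem_unitGroup).subset ?_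
    intro q hq
    by_contra hq'
    rw [Set.mem_union, not_or] at hq'
    apply hq
    have hqT : q ∉ T := fun h => hq'.1 (Finset.mem_coe.2 h)
    have hu : FinIdele.comp q y' ∈ SL.unitGroup (q : ℕ) K := by
      by_contra h
      exact hq'.2 h
    apply SL.mem_of_forall_projOn_singleton
    intro w
    exact SL.projOn_singleton_mem_normUnitGroup_of_free (G := G) (L := L) w
      (fun w' _ => hfree q hqT w') hu

/-- **Non-split places exist** (AR3): for a cyclic extension `L / K` of number fields of odd prime
degree `p` and a finite set `T` of rational primes, there is a place `w` of `L` above a prime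
`q ∉ T` which is fixed by the whole Galois group.  (`K` is explicit: it does not occur in the
conclusion.) -/
theorem exists_nonsplit_place (K : Type) {L : Type} [Field K] [NumberField K] [Field L]
    [NumberField L] [Algebra K L] {G : Type} [Group G] [Finite G] [MulSemiringAction G L]
    [IsGaloisGroup G K L] (hp2 : p ≠ 2) (hG : Nat.card G = p) (T : Finset Nat.Primes) :
    ∃ q : Nat.Primes, q ∉ T ∧ ∃ w : Place (q : ℕ) L, ∀ g : G, g • w = w := by
  by_contra hcon
  push Not at hcon
  apply NonSplit.firstIneq_odd p hp2 K L G hG
  apply normSubgroup_eq_top_of_free hG T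
  intro q hq w g hg
  exact eq_one_of_smul_eq_of_exists_smul_ne hG (hcon q hq w) g hg

end

end Fermat.Agent.CFT.Global
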