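/-
P4 / Layer C2: the first inequality.  For a cyclic extension `L / K` of number fields of odd prime
degree `p` with group `G = ⟨g₀⟩`, the Herbrand quotient of `C_S(L)` is `p`:
`[C_S(L)^G : N C_S(L)] = p · |H¹(G, C_S(L))|`.

Proof: `C_S(L) ⊇ W = image of U_S = ∏_{q ∈ S} (local units at q)` with finite index (class group),
`1 → 𝓞_Lˣ → U_S → W → 1`, `h(U_S) = 1` (semi-local units), `h(𝓞_Lˣ) = 1 / p` (Dirichlet).
-/
import Fermat.Agent.Lib.CFT.Global.CyclicSupport
import Fermat.Agent.Lib.CFT.Global.IdeleClass

set_option autoImplicit false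
set_option linter.style.haveILetI false
set_option linter.unusedSectionVars false

open scoped TensorProduct

namespace Fermat.Agent.CFT.Global

open Fermat.Agent.CFT.Coh.Herbrand Finset

noncomputable section

/-! ## The unit ideles supported in `S` -/

section UnitsInside

variable (S : Finset Nat.Primes) (L : Type) [Field L] [CharZero L]

/-- Ideles which are local units at the primes of `S` and `1` outside `S`. -/
def unitsInside : Subgroup (FinIdele L) where
  carrier := {x | (∀ q ∈ S, FinIdele.comp q x ∈ SL.unitGroup (q : ℕ) L) ∧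
    ∀ q ∉ S, FinIdele.comp q x = 1}
  one_mem' := ⟨fun q _ => by rw [map_one]; exact one_mem _, fun q _ => map_one _⟩
  mul_mem' := fun {x y} hx hy => ⟨fun q hq => by rw [map_mul]; exact mul_mem (hx.1 q hq) (hy.1 q hq),
    fun q hq => by rw [map_mul, hx.2 q hq, hy.2 q hq, one_mul]⟩
  inv_mem' := fun {x} hx => ⟨fun q hq => by rw [map_inv]; exact inv_mem (hx.1 q hq),
    fun q hq => by rw [map_inv, hx.2 q hq, inv_one]⟩

variable {S L}

lemma mem_unitsInside_iff {x : FinIdele L} : x ∈ unitsInside S L ↔
    (∀ q ∈ S, FinIdele.comp q x ∈ SL.unitGroup (q : ℕ) L) ∧ ∀ q ∉ S, FinIdele.comp q x = 1 :=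
  Iff.rfl

lemma unitsInside_empty : unitsInside ∅ L = ⊥ := by
  ext x
  rw [Subgroup.mem_bot, mem_unitsInside_iff]
  constructor
  · rintro ⟨_, h⟩
    ext q
    rw [h q (Finset.notMem_empty q), map_one]
  · rintro rfl
    exact ⟨fun q hq => absurd hq (Finset.notMem_empty q), fun q _ => map_one _⟩

lemma unitsInside_mono {S' : Finset Nat.Primes} (h : S ⊆ S') : unitsInside S L ≤ unitsInside S' L := by
  intro x hx
  refine ⟨fun q hq => ?_, fun q hq => hx.2 q (fun hqS => hq (h hqS))⟩
  by_cases hqS : q ∈ S
  · exact hx.1 q hqS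
  · rw [hx.2 q hqS]
    exact one_mem _

end UnitsInside

/-! ## The Herbrand quotient of the unit ideles supported in `S` -/

section PartB

variable {L : Type} [Field L] [NumberField L]
  {G : Type} [Group G] [MulSemiringAction G L]

lemma FinIdele.smul_single (g : G) (q : Nat.Primes) (u : (SL (q : ℕ) L)ˣ) :
    g • FinIdele.single q u = FinIdele.single q (g • u) := by
  ext r
  rw [FinIdele.comp_smul]
  by_cases h : r = q
  · subst h
    rw [FinIdele.comp_single_same, FinIdele.comp_single_same]
  · rw [FinIdele.comp_single_of_ne h, FinIdele.comp_single_of_ne h, smul_one]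

lemma FinIdele.single_injective (q : Nat.Primes) :
    Function.Injective (FinIdele.single q : (SL (q : ℕ) L)ˣ →* FinIdele L) := by
  intro u v h
  have := congrArg (FinIdele.comp q) h
  rwa [FinIdele.comp_single_same, FinIdele.comp_single_same] at this

lemma smul_mem_unitsInside (S : Finset Nat.Primes) (g : G) {x : FinIdele L}
    (hx : x ∈ unitsInside S L) : g • x ∈ unitsInside S L := by
  refine ⟨fun q hq => ?_, fun q hq => ?_⟩
  · rw [FinIdele.comp_smul]
    exact SL.smul_mem_unitGroup (q : ℕ) g (hx.1 q hq)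
  · rw [FinIdele.comp_smul, hx.2 q hq, smul_one]

variable {p : ℕ} [hp : Fact p.Prime] {g₀ : G} (hg₀p : g₀ ^ p = 1)

include hg₀p in
/-- if the local units at every `q ∈ S` have Herbrand quotient `1`, so has `U_S` -/
theorem hasHerbrand_unitsInside (S : Finset Nat.Primes)
    (hloc : ∀ q ∈ S, HasHerbrand (SL.actEnd g₀) p (SL.actEnd_pow_eq_one hg₀p)
      (SL.unitGroup ((q : Nat.Primes) : ℕ) L) 1) :
    HasHerbrand (mulActEnd (FinIdele L) g₀) p (mulActEnd_pow_eq_one _ hg₀p) (unitsInside S L) 1 := by
  classical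
  induction S using Finset.induction_on with
  | empty =>
    rw [unitsInside_empty]
    exact hasHerbrand_bot
  | insert q S hq ih =>
    have hA := ih (fun r hr => hloc r (Finset.mem_insert_of_mem hr))
    have hC : HasHerbrand (mulActEnd (FinIdele L) g₀) p (mulActEnd_pow_eq_one _ hg₀p)
        ((SL.unitGroup (q : ℕ) L).map (FinIdele.single q)) 1 :=
      (hloc q (Finset.mem_insert_self q S)).map (FinIdele.single q)
        (fun u _ => (FinIdele.smul_single g₀ q u).symm)
        (fun u _ hu => FinIdele.single_injective q (hu.trans (map_one _).symm))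
    rw [← one_mul (1 : ℚ)]
    refine HasHerbrand.exact hA hC (fun x hx => smul_mem_unitsInside _ g₀ hx)
      ((FinIdele.single q).comp (FinIdele.comp q)) ?_ (unitsInside_mono (Finset.subset_insert q S))
      ?_ ?_ ?_
    · intro x _
      simp only [MonoidHom.comp_apply, mulActEnd_apply]
      rw [FinIdele.comp_smul, FinIdele.smul_single]
    · intro b hb
      exact ⟨_, hb.1 q (Finset.mem_insert_self q S), rfl⟩
    · rintro _ ⟨u, hu, rfl⟩
      refine ⟨FinIdele.single q u, ⟨fun r _ => ?_, fun r hr => ?_⟩, ?_⟩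
      · by_cases h : r = q
        · subst h
          rw [FinIdele.comp_single_same]
          exact hu
        · rw [FinIdele.comp_single_of_ne h]
          exact one_mem _
      · have h : r ≠ q := fun h => hr (h ▸ Finset.mem_insert_self q S)
        exact FinIdele.comp_single_of_ne h u
      · rw [MonoidHom.comp_apply, FinIdele.comp_single_same]
    · intro b hb
      rw [MonoidHom.comp_apply]
      constructor
      · intro h
        have h1 : FinIdele.comp q b = 1 :=
          FinIdele.single_injective q (h.trans (map_one _).symm)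
        refine ⟨fun r hr => hb.1 r (Finset.mem_insert_of_mem hr), fun r hr => ?_⟩
        by_cases hrq : r = q
        · subst hrq
          exact h1
        · exact hb.2 r (fun h' => (Finset.mem_insert.1 h').elim hrq hr)
      · intro hbA
        rw [hbA.2 q hq, map_one]

end PartB

/-! ## The Herbrand quotient of the global units -/

section FieldUnitsAction

variable {L : Type} [Field L] {G : Type} [Group G] [MulSemiringAction G L]

/-- the action of a group of field automorphisms on the units -/
instance unitsFieldAction : MulDistribMulAction G Lˣ := Units.mulDistribMulActionRight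

@[simp] lemma coe_smul_fieldUnits (g : G) (x : Lˣ) : ((g • x : Lˣ) : L) = g • (x : L) := rfl

lemma smul_fieldUnits_eq (g : G) (x : Lˣ) :
    g • x = Units.map (MulSemiringAction.toRingHom G L g : L →* L) x := Units.ext rfl

end FieldUnitsAction

section PartC

variable {K L : Type} [Field K] [NumberField K] [Field L] [NumberField L] [Algebra K L]
  {G : Type} [Group G] [Finite G] [MulSemiringAction G L]

lemma smul_mem_SUnits (S : Finset Nat.Primes) (g : G) {x : Lˣ} (hx : x ∈ SUnits S L) :
    g • x ∈ SUnits S L := by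
  intro q hq
  rw [smul_fieldUnits_eq, ← SL.smul_unitsIncl]
  exact SL.smul_mem_unitGroup (q : ℕ) g (hx q hq)

lemma map_algebraMap_mem_SUnits_iff (S : Finset Nat.Primes) (y : Kˣ) :
    Units.map (algebraMap K L : K →* L) y ∈ SUnits S L ↔ y ∈ SUnits S K := by
  rw [mem_SUnits_iff, mem_SUnits_iff]
  refine forall_congr' fun q => forall_congr' fun _ => ?_
  rw [← SL.unitsMap_unitsIncl, SL.unitsMap_mem_unitGroup_iff]

/-- the units of `K` inside the units of `L` -/
def SUnits.baseChange (S : Finset Nat.Primes) : SUnits S K →* SUnits S L :=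
  ((Units.map (algebraMap K L : K →* L)).comp (SUnits S K).subtype).codRestrict (SUnits S L)
    (fun y => (map_algebraMap_mem_SUnits_iff S y.1).2 y.2)

lemma SUnits.coe_baseChange (S : Finset Nat.Primes) (y : SUnits S K) :
    ((SUnits.baseChange (L := L) S y : Lˣ) : L) = algebraMap K L (y : Kˣ) := rfl

lemma SUnits.baseChange_injective (S : Finset Nat.Primes) :
    Function.Injective (SUnits.baseChange (K := K) (L := L) S) := by
  intro y z h
  have h1 := congrArg (fun w : SUnits S L => ((w : Lˣ) : L)) h
  simp only [SUnits.coe_baseChange] at h1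
  exact Subtype.ext (Units.ext ((algebraMap K L).injective h1))

variable [IsGaloisGroup G K L]

variable {p : ℕ} [hp : Fact p.Prime] (hp2 : p ≠ 2) (hG : Nat.card G = p) {g₀ : G}
  (hg₀ : ∀ g : G, g ∈ Subgroup.zpowers g₀)

include hG hg₀ in
omit [NumberField K] [NumberField L] in
/-- an element fixed by the generator comes from `K` -/
lemma exists_algebraMap_eq_of_gen_smul_eq (x : L) (hx : g₀ • x = x) :
    ∃ y : K, algebraMap K L y = x := by
  apply (IsGaloisGroup.isInvariant (G := G) (A := K) (B := L)).isInvariant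
  intro g
  obtain ⟨i, -, rfl⟩ := exists_pow_eq hG hg₀ g
  induction i with
  | zero => rw [pow_zero, one_smul]
  | succ i ih => rw [pow_succ, mul_smul, hx, ih]

include hp2 hG in
omit [NumberField K] [NumberField L] [MulSemiringAction G L] [Finite G] in
lemma odd_of_prime_ne_two : Odd p := hp.out.odd_of_ne_two hp2

include hp2 hG in
/-- the number of infinite places is multiplied by `p` -/
lemma card_infinitePlace_eq_mul :
    Fintype.card (NumberField.InfinitePlace L) = Fintype.card (NumberField.InfinitePlace K) * p := by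
  haveI : IsGalois K L := IsGaloisGroup.isGalois G K L
  have hfr : Module.finrank K L = p := by
    rw [← IsGaloisGroup.card_eq_finrank G K L, hG]
  haveI : IsUnramifiedAtInfinitePlaces K L :=
    IsUnramifiedAtInfinitePlaces_of_odd_finrank (hfr ▸ hp.out.odd_of_ne_two hp2)
  rw [IsUnramifiedAtInfinitePlaces.card_infinitePlace K L, hfr]

end PartC

section PartC'

variable {L : Type} [Field L] [NumberField L]
  {G : Type} [Group G] [Finite G] [MulSemiringAction G L]
  {p : ℕ} [hp : Fact p.Prime] (hp2 : p ≠ 2) (hG : Nat.card G = p) {g₀ : G}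
  (hg₀ : ∀ g : G, g ∈ Subgroup.zpowers g₀)

include hp2 hG hg₀ in
/-- **The Herbrand quotient of the global units is `1 / p`** (Dirichlet's unit theorem; the
archimedean places split completely since `p` is odd). -/
theorem hasHerbrand_globalUnits (K : Type) [Field K] [NumberField K] [Algebra K L]
    [IsGaloisGroup G K L] :
    HasHerbrand (mulActEnd Lˣ g₀) p (mulActEnd_pow_eq_one _ (gen_pow_card hG hg₀))
      (SUnits ∅ L) ((p : ℚ)⁻¹) := by
  have hst : ∀ x ∈ SUnits ∅ L, mulActEnd Lˣ g₀ x ∈ SUnits ∅ L :=
    fun x hx => smul_mem_SUnits ∅ g₀ hx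
  refine ⟨hst, ?_⟩
  set σ := subEnd (mulActEnd Lˣ g₀) (SUnits ∅ L) hst with hσdef
  have hσ : σ ^ p = 1 := subEnd_pow_eq_one _ p (mulActEnd_pow_eq_one _ (gen_pow_card hG hg₀)) _ hst
  -- the ranks
  have hrL : Module.finrank ℤ (Additive (SUnits ∅ L)) = NumberField.Units.rank L := by
    rw [SUnits.finrank_eq_sum, Finset.sum_empty, add_zero]
  have hrK : Module.finrank ℤ (Additive (SUnits ∅ K)) = NumberField.Units.rank K := by
    rw [SUnits.finrank_eq_sum, Finset.sum_empty, add_zero]
  have hcard := card_infinitePlace_eq_mul (K := K) (L := L) hp2 hG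
  have hposK : 0 < Fintype.card (NumberField.InfinitePlace K) := Fintype.card_pos
  -- the fixed points
  let φ : Additive (SUnits ∅ K) →ₗ[ℤ] Additive (SUnits ∅ L) :=
    (MonoidHom.toAdditive (SUnits.baseChange (K := K) (L := L) ∅)).toIntLinearMap
  have hφinj : Function.Injective φ := fun x y h => SUnits.baseChange_injective ∅ h
  have hrange : LinearMap.range φ = (mulPair σ p hσ).f.ker.toIntSubmodule := by
    ext x
    change _ ↔ x ∈ (mulPair σ p hσ).f.ker
    rw [mem_ker_mulPair_f]
    constructor
    · rintro ⟨y, rfl⟩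
      apply Subtype.ext
      apply Units.ext
      change g₀ • algebraMap K L ((y.toMul : SUnits ∅ K) : Kˣ) = algebraMap K L _
      haveI := IsGaloisGroup.commutes (G := G) (A := K) (B := L)
      rw [smul_algebraMap]
      rfl
    · intro hx
      have hx' : g₀ • (((x.toMul : SUnits ∅ L) : Lˣ) : L) = ((x.toMul : SUnits ∅ L) : Lˣ) := by
        have := congrArg (fun w : SUnits ∅ L => ((w : Lˣ) : L)) hx
        exact this
      obtain ⟨y, hy⟩ := exists_algebraMap_eq_of_gen_smul_eq (K := K) hG hg₀ _ hx'
      have hy0 : y ≠ 0 := by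
        rintro rfl
        rw [map_zero] at hy
        exact (Units.ne_zero _) hy.symm
      have hyu : Units.map (algebraMap K L : K →* L) (Units.mk0 y hy0) =
          ((x.toMul : SUnits ∅ L) : Lˣ) := Units.ext hy
      have hyS : Units.mk0 y hy0 ∈ SUnits ∅ K := by
        rw [← map_algebraMap_mem_SUnits_iff (L := L), hyu]
        exact (x.toMul : SUnits ∅ L).2
      exact ⟨Additive.ofMul ⟨Units.mk0 y hy0, hyS⟩, Subtype.ext hyu⟩
  have ha : Module.finrank ℤ (mulPair σ p hσ).f.ker = NumberField.Units.rank K := by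
    have h1 : Module.finrank ℤ (mulPair σ p hσ).f.ker =
        Module.finrank ℤ (mulPair σ p hσ).f.ker.toIntSubmodule := rfl
    rw [h1, ← hrange, LinearMap.finrank_range_of_inj hφinj, hrK]
  have hA : Module.finrank ℤ (Additive (SUnits ∅ L)) =
      NumberField.Units.rank K + (p - 1) * (NumberField.Units.rank K + 1) := by
    rw [hrL]
    unfold NumberField.Units.rank
    rw [hcard]
    have hp1 : 1 ≤ p := hp.out.one_le
    obtain ⟨r, hr⟩ : ∃ r, Fintype.card (NumberField.InfinitePlace K) = r + 1 :=
      ⟨_, (Nat.succ_pred_eq_of_pos hposK).symm⟩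
    obtain ⟨m, hm⟩ : ∃ m, p = m + 1 := ⟨_, (Nat.succ_pred_eq_of_pos hp.out.pos).symm⟩
    rw [hr, hm]
    simp only [Nat.add_sub_cancel]
    ring_nf
    omega
  have key := Pair.q_of_prime_of_finrank p (addEnd σ) (addEnd_pow_eq_one hσ)
    (NumberField.Units.rank K) (NumberField.Units.rank K + 1) ha hA
  refine ⟨key.1, ?_⟩
  rw [mulPair, key.2]
  push_cast
  rw [show ((NumberField.Units.rank K : ℤ) - ((NumberField.Units.rank K : ℤ) + 1)) = -1 by ring,
    zpow_neg_one]

end PartC'

/-! ## The exact sequence `1 → 𝓞_Lˣ → U_S → W → 1` -/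

section PartD

variable (S : Finset Nat.Primes) (L : Type) [Field L] [NumberField L]

/-- the `S`-truncated principal ideles -/
def truncPrinc : Lˣ →* FinIdele L := (JS.toFinIdele S L).comp (JS.diag S L)

variable {S L}

lemma comp_truncPrinc_of_mem (a : Lˣ) {q : Nat.Primes} (h : q ∈ S) :
    FinIdele.comp q (truncPrinc S L a) = SL.unitsIncl (q : ℕ) L a := by
  rw [truncPrinc, MonoidHom.comp_apply, JS.comp_toFinIdele_of_mem _ h, JS.comp_diag]

lemma comp_truncPrinc_of_notMem (a : Lˣ) {q : Nat.Primes} (h : q ∉ S) :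
    FinIdele.comp q (truncPrinc S L a) = 1 := JS.comp_toFinIdele_of_notMem _ h

lemma truncPrinc_injective (hS : S.Nonempty) : Function.Injective (truncPrinc S L) :=
  JS.toFinIdele_injective.comp (JS.diag_injective L hS)

lemma smul_truncPrinc {G : Type} [Group G] [MulSemiringAction G L] (g : G) (a : Lˣ) :
    g • truncPrinc S L a = truncPrinc S L (g • a) := by
  ext q
  rw [FinIdele.comp_smul]
  by_cases h : q ∈ S
  · rw [comp_truncPrinc_of_mem _ h, comp_truncPrinc_of_mem _ h, SL.smul_unitsIncl,
      smul_fieldUnits_eq]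
  · rw [comp_truncPrinc_of_notMem _ h, comp_truncPrinc_of_notMem _ h, smul_one]

lemma truncPrinc_mem_unitsInside {a : Lˣ} (ha : a ∈ SUnits ∅ L) :
    truncPrinc S L a ∈ unitsInside S L := by
  refine ⟨fun q hq => ?_, fun q hq => comp_truncPrinc_of_notMem a hq⟩
  rw [comp_truncPrinc_of_mem a hq]
  exact ha q (Finset.notMem_empty q)

/-- the kernel of `U_S → C_S(L)` consists of the truncated global units -/
lemma mk_eq_one_iff_of_mem_unitsInside {b : FinIdele L} (hb : b ∈ unitsInside S L) :
    CS.mk S L b = 1 ↔ ∃ a ∈ SUnits ∅ L, truncPrinc S L a = b := by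
  rw [CS.mk_eq_one_iff']
  constructor
  · rintro ⟨a, u, hu, h⟩
    rw [mem_unitsOutside_iff] at hu
    have hcomp : ∀ q : Nat.Primes, FinIdele.comp q b = SL.unitsIncl (q : ℕ) L a * FinIdele.comp q u := by
      intro q
      rw [h, map_mul]
      rfl
    refine ⟨a, fun q _ => ?_, ?_⟩
    · by_cases hq : q ∈ S
      · have h1 := hcomp q
        rw [hu.1 q hq, mul_one] at h1
        rw [← h1]
        exact hb.1 q hq
      · have h1 := hcomp q
        rw [hb.2 q hq] at h1
        have h2 : SL.unitsIncl (q : ℕ) L a = (FinIdele.comp q u)⁻¹ :=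
          eq_inv_of_mul_eq_one_left h1.symm
        rw [h2]
        exact inv_mem (hu.2 q hq)
    · ext q
      by_cases hq : q ∈ S
      · rw [comp_truncPrinc_of_mem _ hq, hcomp q, hu.1 q hq, mul_one]
      · rw [comp_truncPrinc_of_notMem _ hq, hb.2 q hq]
  · rintro ⟨a, ha, rfl⟩
    refine ⟨a, (FinIdele.princ L a)⁻¹ * truncPrinc S L a, ?_, by rw [mul_inv_cancel_left]⟩
    rw [mem_unitsOutside_iff]
    have hprinc : ∀ q : Nat.Primes, FinIdele.comp q (FinIdele.princ L a) = SL.unitsIncl (q : ℕ) L a :=
      fun q => rfl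
    constructor
    · intro q hq
      rw [map_mul, map_inv, comp_truncPrinc_of_mem _ hq, hprinc, inv_mul_cancel]
    · intro q hq
      rw [map_mul, map_inv, comp_truncPrinc_of_notMem _ hq, mul_one, hprinc]
      exact inv_mem (ha q (Finset.notMem_empty q))

variable (S L) in
/-- the image of the unit ideles in `C_S(L)` -/
def unitClasses : Subgroup (CS S L) := (unitsInside S L).map (CS.mk S L)

/-- `C_S(L) / W` is a quotient of the class group -/
def CS.emptyToUnitQuotient : CS ∅ L →* CS S L ⧸ unitClasses S L :=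
  QuotientGroup.lift _ ((QuotientGroup.mk' (unitClasses S L)).comp (CS.mk S L)) (by
    intro x hx
    rw [CS.relations, Subgroup.mem_sup] at hx
    obtain ⟨_, ⟨a, rfl⟩, u, hu, rfl⟩ := hx
    rw [MonoidHom.mem_ker, MonoidHom.comp_apply, map_mul, map_mul]
    have h1 : CS.mk S L (FinIdele.princ L a) = 1 := by
      rw [CS.mk_eq_one_iff']
      exact ⟨a, 1, one_mem _, by rw [mul_one]⟩
    rw [h1, map_one, one_mul, QuotientGroup.mk'_apply, QuotientGroup.eq_one_iff]
    -- split `u` into its `S`-part and the rest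
    set y : FinIdele L := JS.toFinIdele S L (FinIdele.partS S L u) with hy
    have hyS : y ∈ unitsInside S L := by
      refine ⟨fun q hq => ?_, fun q hq => JS.comp_toFinIdele_of_notMem _ hq⟩
      rw [hy, JS.comp_toFinIdele_of_mem _ hq]
      exact hu.2 q (Finset.notMem_empty q)
    have hu' : y⁻¹ * u ∈ unitsOutside S L := by
      rw [mem_unitsOutside_iff]
      constructor
      · intro q hq
        rw [map_mul, map_inv, hy, JS.comp_toFinIdele_of_mem _ hq]
        exact inv_mul_cancel _
      · intro q hq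
        rw [map_mul, map_inv, hy, JS.comp_toFinIdele_of_notMem _ hq, inv_one, one_mul]
        exact hu.2 q (Finset.notMem_empty q)
    have h2 : CS.mk S L (y⁻¹ * u) = 1 := by
      rw [CS.mk_eq_one_iff']
      exact ⟨1, _, hu', by rw [map_one, one_mul]⟩
    have h3 : CS.mk S L u = CS.mk S L y := by
      calc CS.mk S L u = CS.mk S L (y * (y⁻¹ * u)) := by rw [mul_inv_cancel_left]
        _ = CS.mk S L y := by rw [map_mul, h2, mul_one]
    rw [h3]
    exact ⟨y, hyS, rfl⟩)

lemma CS.emptyToUnitQuotient_surjective :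
    Function.Surjective (CS.emptyToUnitQuotient (S := S) (L := L)) := by
  intro c
  obtain ⟨c', rfl⟩ := QuotientGroup.mk_surjective c
  obtain ⟨x, rfl⟩ := CS.mk_surjective S c'
  exact ⟨CS.mk ∅ L x, rfl⟩

instance finite_CS_quotient_unitClasses : Finite (CS S L ⧸ unitClasses S L) :=
  Finite.of_surjective _ (CS.emptyToUnitQuotient_surjective (S := S) (L := L))

lemma index_unitClasses_ne_zero : (unitClasses S L).index ≠ 0 :=
  Subgroup.index_ne_zero_of_finite

end PartD

/-! ## The first inequality -/

section Main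

variable {L : Type} [Field L] [NumberField L]
  {G : Type} [Group G] [Finite G] [MulSemiringAction G L]
  {p : ℕ} [hp : Fact p.Prime] (hp2 : p ≠ 2) (hG : Nat.card G = p) {g₀ : G}
  (hg₀ : ∀ g : G, g ∈ Subgroup.zpowers g₀)

include hp2 hG hg₀ in
/-- **The first inequality** (Herbrand quotient form), assuming that the local units at the primes
of `S` have Herbrand quotient `1`. -/
theorem herbrand_CS_of_local (K : Type) [Field K] [NumberField K] [Algebra K L]
    [IsGaloisGroup G K L] (S : Finset Nat.Primes) (hS : S.Nonempty)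
    (hloc : ∀ q ∈ S, HasHerbrand (SL.actEnd g₀) p (SL.actEnd_pow_eq_one (gen_pow_card hG hg₀))
      (SL.unitGroup ((q : Nat.Primes) : ℕ) L) 1) :
    (mulPair (mulActEnd (CS S L) g₀) p (mulActEnd_pow_eq_one _ (gen_pow_card hG hg₀))).Defined ∧
      (mulPair (mulActEnd (CS S L) g₀) p (mulActEnd_pow_eq_one _ (gen_pow_card hG hg₀))).q = p := by
  have hA := hasHerbrand_globalUnits (L := L) hp2 hG hg₀ K
  have hB := hasHerbrand_unitsInside (gen_pow_card hG hg₀) S hloc
  have hWst : ∀ x ∈ unitClasses S L, mulActEnd (CS S L) g₀ x ∈ unitClasses S L := by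
    rintro _ ⟨b, hb, rfl⟩
    exact ⟨g₀ • b, smul_mem_unitsInside S g₀ hb, rfl⟩
  have hW : HasHerbrand (mulActEnd (CS S L) g₀) p (mulActEnd_pow_eq_one _ (gen_pow_card hG hg₀))
      (unitClasses S L) (1 / (p : ℚ)⁻¹) :=
    HasHerbrand.exact₃_right hA hB hWst (truncPrinc S L) (CS.mk S L)
      (fun x _ => (smul_truncPrinc g₀ x).symm) (fun x _ => rfl)
      (fun x hx => truncPrinc_mem_unitsInside hx)
      (fun x _ hx => truncPrinc_injective hS (hx.trans (map_one _).symm))
      (fun b hb => ⟨b, hb, rfl⟩) (fun c hc => hc)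
      (fun b hb => mk_eq_one_iff_of_mem_unitsInside hb)
  rw [one_div, inv_inv] at hW
  have htop := (HasHerbrand.of_relIndex_ne_zero (σ := mulActEnd (CS S L) g₀) (n := p)
    (hσ := mulActEnd_pow_eq_one _ (gen_pow_card hG hg₀)) (a := (p : ℚ))
    (le_top : unitClasses S L ≤ ⊤)
    (by rw [Subgroup.relIndex_top_right]; exact index_unitClasses_ne_zero) hWst
    (fun x _ => Subgroup.mem_top _)).1 hW
  exact hasHerbrand_top_iff.1 htop

end Main

end

end Fermat.Agent.CFT.Global
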