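/-
P4 / Layer C5-d (AR2): the norm of a prime idele.

Let `L / ℚ` be Galois with group `G`, `w` a place of `L` above `q` and `N ≤ G`.  The idele
`primeIdele q (Place.orbitFinset N w)` has component `q` at the places in the `N`-orbit of `w` and `1`
elsewhere.  It is `N`-invariant and its relative norm `∏_{c ∈ G ⧸ N} c.out • X` is the idele with
component `q ^ f` at all places above `q`, where `f = |D_w| / |D_w ∩ N|`.
-/
import Fermat.Agent.Lib.CFT.Global.SecondIneq.Components
import Fermat.Agent.Lib.CFT.Global.Descent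
import Fermat.Agent.Lib.CFT.Global.FirstIneq

set_option autoImplicit false
set_option linter.style.haveILetI false
set_option linter.unusedSectionVars false
set_option linter.unusedDecidableInType false
set_option linter.unusedFintypeInType false

open scoped TensorProduct

namespace Fermat.Agent.CFT.Global

noncomputable section

/-! ## A counting lemma for group actions -/

namespace PrimeIdele

open MulAction

variable {G Ω : Type*} [Group G] [MulAction G Ω]

/-- the cosets `c = g N` with `g⁻¹ • (h • w) ∈ N • w` are the cosets `(h d) N` with `d ∈ D_w` -/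
lemma out_inv_smul_mem_orbit_iff (N : Subgroup G) (w : Ω) (h : G) (c : G ⧸ N) :
    (c.out)⁻¹ • (h • w) ∈ orbit N w ↔ ∃ d ∈ stabilizer G w, ((h * d : G) : G ⧸ N) = c := by
  constructor
  · rintro ⟨n, hn⟩
    refine ⟨h⁻¹ * c.out * (n : G), ?_, ?_⟩
    · rw [mem_stabilizer_iff, mul_smul, mul_smul]
      have h1 : (n : G) • w = (c.out)⁻¹ • (h • w) := hn
      rw [h1, smul_inv_smul, inv_smul_smul]
    · rw [← mul_assoc, mul_inv_cancel_left]
      conv_rhs => rw [← QuotientGroup.out_eq' c]
      rw [QuotientGroup.eq]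
      simp
  · rintro ⟨d, hd, rfl⟩
    obtain ⟨n, hn⟩ := QuotientGroup.mk_out_eq_mul N (h * d)
    rw [hn]
    refine ⟨n⁻¹, ?_⟩
    rw [mem_stabilizer_iff] at hd
    change ((n⁻¹ : N) : G) • w = _
    rw [mul_inv_rev, mul_inv_rev, mul_smul, mul_smul, inv_smul_smul, Subgroup.coe_inv]
    congr 1
    rw [eq_inv_smul_iff, hd]

variable [Finite G]

/-- the number of cosets `(h d) N` with `d ∈ D` is `|D| / |D ∩ N|` -/
lemma card_range_mk_subgroup (D N : Subgroup G) (h : G) :
    Nat.card (Set.range fun d : D => ((h * (d : G) : G) : G ⧸ N)) =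
      Nat.card D / Nat.card ↥(D ⊓ N) := by
  classical
  set f : D → G ⧸ N := fun d => ((h * (d : G) : G) : G ⧸ N) with hf
  have h1 : Nat.card (Set.range f) = Nat.card (Quotient (Setoid.ker f)) :=
    Nat.card_congr (Setoid.quotientKerEquivRange f).symm
  have h2 : Setoid.ker f = QuotientGroup.leftRel (N.subgroupOf D) := by
    ext a b
    rw [Setoid.ker_def, QuotientGroup.leftRel_apply, hf]
    simp only [QuotientGroup.eq, Subgroup.mem_subgroupOf]
    constructor <;> intro h' <;> simpa [mul_assoc] using h'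
  have h3 : Nat.card (Quotient (Setoid.ker f)) = Nat.card (D ⧸ N.subgroupOf D) := by
    rw [h2]
    rfl
  have h4 : Nat.card (N.subgroupOf D) = Nat.card ↥(D ⊓ N) := by
    rw [← Subgroup.inf_subgroupOf_left]
    exact Nat.card_congr (Subgroup.subgroupOfEquivOfLe inf_le_left).toEquiv
  rw [h1, h3, ← h4]
  have h5 := Subgroup.card_eq_card_quotient_mul_card_subgroup (N.subgroupOf D)
  rw [h5, Nat.mul_div_cancel _ Nat.card_pos]

/-- **Counting lemma**: the number of cosets `c ∈ G ⧸ N` such that `h • w` lies in the translate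
`c • (N • w)` of the `N`-orbit of `w` is `|D_w| / |D_w ∩ N|`. -/
theorem card_out_inv_smul_mem_orbit (N : Subgroup G) (w : Ω) (h : G) :
    Nat.card {c : G ⧸ N // (c.out)⁻¹ • (h • w) ∈ orbit N w} =
      Nat.card (stabilizer G w) / Nat.card ↥(stabilizer G w ⊓ N) := by
  rw [← card_range_mk_subgroup (stabilizer G w) N h]
  apply Nat.card_congr
  apply Equiv.subtypeEquivRight
  intro c
  rw [out_inv_smul_mem_orbit_iff, Set.mem_range]
  constructor
  · rintro ⟨d, hd, hc⟩
    exact ⟨⟨d, hd⟩, hc⟩
  · rintro ⟨d, hc⟩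
    exact ⟨d, d.2, hc⟩

end PrimeIdele

/-! ## Scalar units of the semi-local algebra -/

section Scalar

variable (q : ℕ) [hq : Fact q.Prime]

/-- the prime `q` as a unit of `ℚ_q` -/
def padicPrimeUnit : ℚ_[q]ˣ :=
  Units.mk0 (q : ℚ_[q]) (Nat.cast_ne_zero.2 hq.out.ne_zero)

@[simp] lemma coe_padicPrimeUnit : ((padicPrimeUnit q : ℚ_[q]ˣ) : ℚ_[q]) = (q : ℚ_[q]) := rfl

variable (K : Type) [Field K] [NumberField K]

/-- the image of `ℚ_qˣ` in `(ℚ_q ⊗ K)ˣ` -/
def SL.scalarUnits : ℚ_[q]ˣ →* (SL q K)ˣ :=
  Units.map (algebraMap ℚ_[q] (SL q K) : ℚ_[q] →* SL q K)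

@[simp] lemma SL.coe_scalarUnits (a : ℚ_[q]ˣ) :
    ((SL.scalarUnits q K a : (SL q K)ˣ) : SL q K) = algebraMap ℚ_[q] (SL q K) (a : ℚ_[q]) := rfl

variable {K} {L : Type} [Field L] [NumberField L]

lemma SL.unitsMap_scalarUnits (f : K →+* L) (a : ℚ_[q]ˣ) :
    SL.unitsMap q f (SL.scalarUnits q K a) = SL.scalarUnits q L a :=
  Units.ext ((SL.map q f).commutes (a : ℚ_[q]))

variable {q}

lemma SL.smul_scalarUnits {G : Type} [Group G] [MulSemiringAction G L] (g : G) (a : ℚ_[q]ˣ) :
    g • SL.scalarUnits q L a = SL.scalarUnits q L a :=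
  Units.ext (SL.smul_algebraMap G q g (a : ℚ_[q]))

lemma SL.unitsProj_scalarUnits_padicPrimeUnit (w : Place q L) :
    SL.unitsProj w (SL.scalarUnits q L (padicPrimeUnit q)) = Kv.primeUnit w := by
  apply Units.ext
  change Kv.proj w (algebraMap ℚ_[q] (SL q L) (q : ℚ_[q])) = algebraMap ℚ_[q] (Kv w) (q : ℚ_[q])
  exact (Kv.proj w).commutes _

end Scalar

/-! ## The semi-local unit which is `q` on a set of places -/

section PrimeOn

variable {q : ℕ} [hq : Fact q.Prime] {L : Type} [Field L] [NumberField L]
  [DecidableEq (Place q L)]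

/-- the unit of `ℚ_q ⊗ L` with component `q` at the places in `T` and `1` elsewhere -/
def SL.primeOn (T : Finset (Place q L)) : (SL q L)ˣ :=
  SL.projOn T (SL.scalarUnits q L (padicPrimeUnit q))

lemma SL.unitsProj_primeOn (T : Finset (Place q L)) (w : Place q L) :
    SL.unitsProj w (SL.primeOn T) = if w ∈ T then Kv.primeUnit w else 1 := by
  rw [SL.primeOn, SL.unitsProj_projOn, SL.unitsProj_scalarUnits_padicPrimeUnit]

lemma SL.primeOn_univ [Fintype (Place q L)] :
    SL.primeOn (Finset.univ : Finset (Place q L)) = SL.scalarUnits q L (padicPrimeUnit q) := by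
  rw [SL.primeOn, SL.projOn_univ]

variable {G : Type} [Group G] [MulSemiringAction G L]

lemma SL.smul_primeOn (g : G) (T : Finset (Place q L)) :
    g • SL.primeOn T = SL.primeOn (T.image (g • ·)) := by
  rw [SL.primeOn, SL.smul_projOn, SL.smul_scalarUnits, SL.primeOn]

end PrimeOn

/-! ## Orbits of places -/

section Orbit

variable {q : ℕ} [hq : Fact q.Prime] {L : Type} [Field L] [NumberField L]
  [DecidableEq (Place q L)] [Fintype (Place q L)] {G : Type} [Group G] [MulSemiringAction G L]

/-- the orbit of the place `w` under the subgroup `N`, as a finset -/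
def Place.orbitFinset (N : Subgroup G) (w : Place q L) : Finset (Place q L) := by
  classical
  exact Finset.univ.filter fun w' => w' ∈ MulAction.orbit N w

lemma Place.mem_orbitFinset {N : Subgroup G} {w w' : Place q L} :
    w' ∈ Place.orbitFinset N w ↔ w' ∈ MulAction.orbit N w := by
  classical
  simp [Place.orbitFinset]

lemma Place.image_smul_orbitFinset {N : Subgroup G} (w : Place q L) {n : G} (hn : n ∈ N) :
    (Place.orbitFinset N w).image (n • ·) = Place.orbitFinset N w := by
  ext w'
  rw [Finset.mem_image, Place.mem_orbitFinset]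
  constructor
  · rintro ⟨w'', hw'', rfl⟩
    rw [Place.mem_orbitFinset] at hw''
    exact MulAction.mem_orbit_of_mem_orbit (⟨n, hn⟩ : N) hw''
  · intro hw'
    refine ⟨n⁻¹ • w', ?_, smul_inv_smul n _⟩
    rw [Place.mem_orbitFinset]
    exact MulAction.mem_orbit_of_mem_orbit ((⟨n, hn⟩ : N)⁻¹) hw'

lemma Place.mem_image_smul_orbitFinset_iff (N : Subgroup G) (w w' : Place q L) (g : G) :
    w' ∈ (Place.orbitFinset N w).image (g • ·) ↔ g⁻¹ • w' ∈ MulAction.orbit N w := by
  rw [Finset.mem_image]
  constructor
  · rintro ⟨w'', hw'', rfl⟩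
    rw [inv_smul_smul]
    exact Place.mem_orbitFinset.1 hw''
  · intro h
    exact ⟨g⁻¹ • w', Place.mem_orbitFinset.2 h, smul_inv_smul g w'⟩

end Orbit

/-! ## The relative norm of the prime element on an orbit -/

section Norm

variable {q : ℕ} [hq : Fact q.Prime] {L : Type} [Field L] [NumberField L]
  [DecidableEq (Place q L)] [Fintype (Place q L)] {G : Type} [Group G] [Finite G]
  [MulSemiringAction G L] [IsGaloisGroup G ℚ L]

omit [Finite G] [IsGaloisGroup G ℚ L] in
/-- the prime element on an `N`-orbit is `N`-invariant -/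
lemma SL.smul_primeOn_orbitFinset {N : Subgroup G} (w : Place q L) {n : G} (hn : n ∈ N) :
    n • SL.primeOn (Place.orbitFinset N w) = SL.primeOn (Place.orbitFinset N w) := by
  rw [SL.smul_primeOn, Place.image_smul_orbitFinset w hn]

/-- **The relative norm of the prime element on an `N`-orbit** (semi-local form): it is `q ^ f` at
all places, `f = |D_w| / |D_w ∩ N|`. -/
theorem SL.finprod_out_smul_primeOn_orbitFinset (N : Subgroup G) (w : Place q L) :
    ∏ᶠ c : G ⧸ N, c.out • SL.primeOn (Place.orbitFinset N w) =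
      SL.scalarUnits q L (padicPrimeUnit q) ^
        (Nat.card (decompGroup G w) / Nat.card ↥(decompGroup G w ⊓ N)) := by
  classical
  letI := Fintype.ofFinite (G ⧸ N)
  apply SL.units_ext_unitsProj
  intro w'
  obtain ⟨h, rfl⟩ := Place.exists_smul_eq_of_rat (G := G) w w'
  rw [finprod_eq_prod_of_fintype, map_prod, map_pow, SL.unitsProj_scalarUnits_padicPrimeUnit]
  have h1 : ∀ c : G ⧸ N, SL.unitsProj (h • w) (c.out • SL.primeOn (Place.orbitFinset N w)) =
      if (c.out)⁻¹ • (h • w) ∈ MulAction.orbit N w then Kv.primeUnit (h • w) else 1 := by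
    intro c
    rw [SL.smul_primeOn, SL.unitsProj_primeOn]
    congr 1
    exact propext (Place.mem_image_smul_orbitFinset_iff N w (h • w) c.out)
  simp only [h1]
  rw [Finset.prod_ite, Finset.prod_const_one, mul_one, Finset.prod_const]
  congr 1
  have h2 := PrimeIdele.card_out_inv_smul_mem_orbit N w h
  rw [Nat.card_eq_fintype_card, Fintype.card_subtype] at h2
  exact h2

end Norm

/-! ## The prime ideles -/

section Idele

variable {q : Nat.Primes} {L : Type} [Field L] [NumberField L]
  [DecidableEq (Place (q : ℕ) L)] [Fintype (Place (q : ℕ) L)] {G : Type} [Group G]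
  [MulSemiringAction G L]

variable (q) in
/-- the idele with component `q` at the places in `T` (above `q`) and `1` elsewhere -/
def primeIdele (T : Finset (Place (q : ℕ) L)) : FinIdele L := FinIdele.single q (SL.primeOn T)

lemma comp_primeIdele_same (T : Finset (Place (q : ℕ) L)) :
    FinIdele.comp q (primeIdele q T) = SL.primeOn T := FinIdele.comp_single_same q _

lemma comp_primeIdele_of_ne (T : Finset (Place (q : ℕ) L)) {r : Nat.Primes} (h : r ≠ q) :
    FinIdele.comp r (primeIdele q T) = 1 := FinIdele.comp_single_of_ne h _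

lemma smul_primeIdele (g : G) (T : Finset (Place (q : ℕ) L)) :
    g • primeIdele q T = primeIdele q (T.image (g • ·)) := by
  rw [primeIdele, FinIdele.smul_single, SL.smul_primeOn, primeIdele]

/-- the prime idele of an `N`-orbit is `N`-invariant -/
theorem smul_primeIdele_orbitFinset {N : Subgroup G} (w : Place (q : ℕ) L) {n : G} (hn : n ∈ N) :
    n • primeIdele q (Place.orbitFinset N w) = primeIdele q (Place.orbitFinset N w) := by
  rw [smul_primeIdele, Place.image_smul_orbitFinset w hn]

variable [Finite G] [IsGaloisGroup G ℚ L]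

/-- **The relative norm of a prime idele** (AR2): for `w` a place of `L` above `q` and `N ≤ G`, the
relative norm from `L^N` to `ℚ` of the `N`-invariant idele which is `q` on the `N`-orbit of `w` is
the idele `q ^ f` at `q`, where `f = |D_w| / |D_w ∩ N|`. -/
theorem finprod_out_smul_primeIdele_orbitFinset (N : Subgroup G) (w : Place (q : ℕ) L) :
    ∏ᶠ c : G ⧸ N, c.out • primeIdele q (Place.orbitFinset N w) =
      FinIdele.single q (SL.scalarUnits (q : ℕ) L (padicPrimeUnit (q : ℕ)) ^
        (Nat.card (decompGroup G w) / Nat.card ↥(decompGroup G w ⊓ N))) := by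
  classical
  letI := Fintype.ofFinite (G ⧸ N)
  rw [← SL.finprod_out_smul_primeOn_orbitFinset N w, finprod_eq_prod_of_fintype,
    finprod_eq_prod_of_fintype, map_prod]
  exact Finset.prod_congr rfl fun c _ => by rw [primeIdele, FinIdele.smul_single]

end Idele

end

end Fermat.Agent.CFT.Global
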