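import Fermat.Agent.Lib.CFT.Global.Dictionary

/-!
# P4 / Layer C (C1d): global units, `S`-units and their rank

* `unitsIncl_mem_unitGroup_iff` : `x ∈ Kˣ` is a local unit at `q` iff all its valuations at the primes
  of `𝓞 K` above `q` vanish;
* `forall_unitsIncl_mem_unitGroup_iff` : `Kˣ ∩ (local units everywhere) = (𝓞 K)ˣ`;
* `SUnits` is a finitely generated abelian group of rank `r₁ + r₂ - 1 + #{places above S}`.
-/

set_option autoImplicit false
set_option linter.unusedSectionVars false
set_option linter.style.haveILetI false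

open scoped TensorProduct NumberField nonZeroDivisors

open IsDedekindDomain

namespace Fermat.Agent.CFT.Global

open Fermat.Agent.CFT.Local

noncomputable section

section Local

variable {q : ℕ} [Fact q.Prime] {K : Type} [Field K] [NumberField K]

lemma Place.ordAt_unitsIncl_eq_one_iff (w : Place q K) (x : Kˣ) :
    SL.ordAt w (SL.unitsIncl q K x) = 1 ↔ primeOrd (Place.toPrime w) x = 0 := by
  rw [SL.ordAt_unitsIncl, Place.ordK_eq]
  exact ofAdd_eq_one

/-- `x ∈ Kˣ` is a local unit at `q` iff its valuations at all primes of `𝓞 K` above `q` vanish. -/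
theorem unitsIncl_mem_unitGroup_iff (x : Kˣ) :
    SL.unitsIncl q K x ∈ SL.unitGroup q K ↔ ∀ v ∈ primesAbove q K, primeOrd v x = 0 := by
  rw [SL.mem_unitGroup_iff_forall_ordAt]
  constructor
  · intro h v hv
    obtain ⟨w, rfl⟩ := Place.exists_toPrime_eq v hv
    exact (Place.ordAt_unitsIncl_eq_one_iff w x).mp (h w)
  · intro h w
    exact (Place.ordAt_unitsIncl_eq_one_iff w x).mpr (h _ (Place.natCast_mem_toPrime w))

end Local

section Primes

variable {K : Type} [Field K] [NumberField K]

/-- every prime of `𝓞 K` lies above a rational prime -/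
theorem exists_natPrime_mem (v : HeightOneSpectrum (𝓞 K)) :
    ∃ q : Nat.Primes, ((q : ℕ) : 𝓞 K) ∈ v.asIdeal := by
  set I : Ideal ℤ := v.asIdeal.comap (Int.castRingHom (𝓞 K)) with hI
  have hIprime : I.IsPrime := Ideal.comap_isPrime _ _
  have hIne : I ≠ ⊥ := by
    intro h
    have h1 : ((Ideal.absNorm v.asIdeal : ℕ) : ℤ) ∈ I := by
      rw [hI, Ideal.mem_comap]
      have := Ideal.absNorm_mem v.asIdeal
      simpa using this
    rw [h, Ideal.mem_bot] at h1
    have h2 : Ideal.absNorm v.asIdeal = 0 := by exact_mod_cast h1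
    rw [Ideal.absNorm_eq_zero_iff] at h2
    exact v.ne_bot h2
  obtain ⟨g, hg⟩ : ∃ g : ℤ, I = Ideal.span {g} :=
    ⟨_, (Ideal.span_singleton_generator I).symm⟩
  have hg0 : g ≠ 0 := by
    rintro rfl
    apply hIne
    rw [hg]
    simp
  have hgp : Prime g := by
    rw [← Ideal.span_singleton_prime hg0, ← hg]
    exact hIprime
  have hnat : (g.natAbs).Prime := Int.prime_iff_natAbs_prime.mp hgp
  refine ⟨⟨g.natAbs, hnat⟩, ?_⟩
  have h3 : ((g.natAbs : ℕ) : ℤ) ∈ I := by
    rw [hg, Ideal.mem_span_singleton]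
    exact Int.dvd_natAbs.mpr dvd_rfl |>.trans (by exact dvd_rfl)
  rw [hI, Ideal.mem_comap] at h3
  simpa using h3

/-- a prime of `𝓞 K` lies above only one rational prime -/
theorem natPrime_unique (v : HeightOneSpectrum (𝓞 K)) {q q' : Nat.Primes}
    (hq : ((q : ℕ) : 𝓞 K) ∈ v.asIdeal) (hq' : ((q' : ℕ) : 𝓞 K) ∈ v.asIdeal) : q = q' := by
  by_contra hne
  have hcop : Nat.Coprime (q : ℕ) (q' : ℕ) := by
    rw [Nat.coprime_primes q.2 q'.2]
    exact fun h => hne (Subtype.ext h)
  have h1 := Nat.isCoprime_iff_coprime.mpr hcop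
  obtain ⟨a, b, hab⟩ := h1
  have h2 : (1 : 𝓞 K) ∈ v.asIdeal := by
    have h3 : ((a * ((q : ℕ) : ℤ) + b * ((q' : ℕ) : ℤ) : ℤ) : 𝓞 K) = 1 := by
      rw [hab]; simp
    rw [← h3]
    push_cast
    exact Ideal.add_mem _ (Ideal.mul_mem_left _ _ hq) (Ideal.mul_mem_left _ _ hq')
  exact v.isPrime.ne_top ((Ideal.eq_top_iff_one _).mpr h2)

theorem primeOrd_eq_zero_iff (v : HeightOneSpectrum (𝓞 K)) (x : Kˣ) :
    primeOrd v x = 0 ↔ v.valuation K (x : K) = 1 := by
  rw [primeOrd_eq_iff, neg_zero, WithZero.exp_zero]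

theorem primeOrd_inv (v : HeightOneSpectrum (𝓞 K)) (x : Kˣ) :
    primeOrd v x⁻¹ = - primeOrd v x := by
  have := primeOrd_zpow v x (-1)
  simpa using this

/-- `Kˣ ∩ (local units everywhere) = (𝓞 K)ˣ` -/
theorem forall_unitsIncl_mem_unitGroup_iff (x : Kˣ) :
    (∀ q : Nat.Primes, SL.unitsIncl (q : ℕ) K x ∈ SL.unitGroup (q : ℕ) K)
      ↔ ∃ u : (𝓞 K)ˣ, Units.map (algebraMap (𝓞 K) K : 𝓞 K →* K) u = x := by
  constructor
  · intro h
    have hv : ∀ v : HeightOneSpectrum (𝓞 K), primeOrd v x = 0 := by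
      intro v
      obtain ⟨q, hq⟩ := exists_natPrime_mem v
      exact (unitsIncl_mem_unitGroup_iff x).mp (h q) v hq
    have h1 : (x : K) ∈ (algebraMap (𝓞 K) K).range :=
      HeightOneSpectrum.mem_integers_of_valuation_le_one K (x : K) (fun v => by
        rw [(primeOrd_eq_zero_iff v x).mp (hv v)])
    have h2 : ((x⁻¹ : Kˣ) : K) ∈ (algebraMap (𝓞 K) K).range :=
      HeightOneSpectrum.mem_integers_of_valuation_le_one K _ (fun v => by
        have : primeOrd v x⁻¹ = 0 := by rw [primeOrd_inv, hv v, neg_zero]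
        rw [(primeOrd_eq_zero_iff v x⁻¹).mp this])
    obtain ⟨a, ha⟩ := h1
    obtain ⟨b, hb⟩ := h2
    have hab : a * b = 1 := by
      apply FaithfulSMul.algebraMap_injective (𝓞 K) K
      rw [map_mul, ha, hb, map_one]
      exact x.mul_inv
    have hba : b * a = 1 := by rw [mul_comm]; exact hab
    exact ⟨⟨a, b, hab, hba⟩, Units.ext ha⟩
  · rintro ⟨u, rfl⟩ q
    rw [SL.mem_unitGroup_iff]
    constructor
    · exact SL.incl_mem_integers_of_isIntegral (q : ℕ) (u : 𝓞 K).2
    · have : (((SL.unitsIncl (q : ℕ) K (Units.map (algebraMap (𝓞 K) K : 𝓞 K →* K) u))⁻¹ :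
          (SL (q : ℕ) K)ˣ) : SL (q : ℕ) K)
          = SL.incl (q : ℕ) K (((u⁻¹ : (𝓞 K)ˣ) : 𝓞 K) : K) := by
        rw [← map_inv, ← map_inv]
        rfl
      rw [this]
      exact SL.incl_mem_integers_of_isIntegral (q : ℕ) ((u⁻¹ : (𝓞 K)ˣ) : 𝓞 K).2

end Primes

/-! ## `S`-units -/

section SUnitsRank

variable (S : Finset Nat.Primes) (K : Type) [Field K] [NumberField K]

/-- the places of `K` above the primes in `S` -/
abbrev PlacesOver : Type := Σ q : S, Place ((q : Nat.Primes) : ℕ) K

instance : Finite (PlacesOver S K) := inferInstance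

/-- the class number of `K` -/
def classNum : ℕ := Fintype.card (ClassGroup (𝓞 K))

lemma classNum_pos : 0 < classNum K := Fintype.card_pos

/-- the power `v ^ h` of a prime is principal, generated by an element with known valuations -/
theorem exists_generator_pow_classNum (v : HeightOneSpectrum (𝓞 K)) :
    ∃ x : Kˣ, primeOrd v x = classNum K ∧
      ∀ v' : HeightOneSpectrum (𝓞 K), v' ≠ v → primeOrd v' x = 0 := by
  set h := classNum K with hh
  have hv0 : v.asIdeal ∈ (Ideal (𝓞 K))⁰ := mem_nonZeroDivisors_of_ne_zero v.ne_bot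
  have hpow : (v.asIdeal ^ h) ∈ (Ideal (𝓞 K))⁰ := pow_mem hv0 h
  have h1 : ClassGroup.mk0 ⟨v.asIdeal ^ h, hpow⟩ = 1 := by
    have h2 : (⟨v.asIdeal ^ h, hpow⟩ : (Ideal (𝓞 K))⁰) = ⟨v.asIdeal, hv0⟩ ^ h := by
      apply Subtype.ext
      rfl
    rw [h2, map_pow, hh, classNum, pow_card_eq_one]
  rw [ClassGroup.mk0_eq_one_iff] at h1
  obtain ⟨a, ha⟩ := h1.principal
  have ha' : Ideal.span {a} = v.asIdeal ^ h := by
    rw [ha]
  have ha0 : a ≠ 0 := by
    rintro rfl
    have : v.asIdeal ^ h = ⊥ := by rw [← ha']; simp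
    exact pow_ne_zero h v.ne_bot this
  have haK : (algebraMap (𝓞 K) K a) ≠ 0 := by
    rw [Ne, map_eq_zero_iff _ (FaithfulSMul.algebraMap_injective (𝓞 K) K)]
    exact ha0
  refine ⟨Units.mk0 _ haK, ?_, ?_⟩
  · -- valuation at `v`
    set n := primeOrd v (Units.mk0 _ haK) with hn
    have hval : v.valuation K (algebraMap (𝓞 K) K a) = WithZero.exp (-n) :=
      valuation_eq_exp_neg_primeOrd v (Units.mk0 _ haK)
    rw [HeightOneSpectrum.valuation_of_algebraMap] at hval
    have h3 : v.intValuation a ≤ WithZero.exp (-(h : ℤ)) := by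
      rw [HeightOneSpectrum.intValuation_le_pow_iff_dvd, ha']
    have h4 : ¬ v.intValuation a ≤ WithZero.exp (-((h + 1 : ℕ) : ℤ)) := by
      rw [HeightOneSpectrum.intValuation_le_pow_iff_dvd, ha', Ideal.dvd_iff_le]
      exact not_le_of_gt (Ideal.pow_succ_lt_pow v.ne_bot h)
    rw [hval, WithZero.exp_le_exp] at h3 h4
    push_cast at h4
    omega
  · intro v' hv'
    rw [primeOrd_eq_zero_iff]
    show v'.valuation K (algebraMap (𝓞 K) K a) = 1
    rw [HeightOneSpectrum.valuation_of_algebraMap]
    refine le_antisymm (v'.intValuation_le_one a) (not_lt.mp ?_)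
    rw [HeightOneSpectrum.intValuation_lt_one_iff_dvd, ha']
    intro hdvd
    have h5 : v'.asIdeal ∣ v.asIdeal := v'.prime.dvd_of_dvd_pow hdvd
    rw [Ideal.dvd_iff_le] at h5
    exact hv' (HeightOneSpectrum.ext (v.isMaximal.eq_of_le v'.isPrime.ne_top h5)).symm

variable {K} in
/-- the primes below two places coincide only if the places coincide -/
theorem PlacesOver.eq_of_toPrime_eq {w w' : PlacesOver S K}
    (h : Place.toPrime w.2 = Place.toPrime w'.2) : w = w' := by
  obtain ⟨q, w⟩ := w
  obtain ⟨q', w'⟩ := w'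
  have hq : (q : Nat.Primes) = (q' : Nat.Primes) :=
    natPrime_unique (Place.toPrime w) (Place.natCast_mem_toPrime w)
      (by
        have h1 : Place.toPrime w = Place.toPrime w' := h
        rw [h1]; exact Place.natCast_mem_toPrime w')
  have hq' : q = q' := Subtype.ext hq
  subst hq'
  have : w = w' := Place.toPrime_injective h
  rw [this]

/-- the valuation vector of an `S`-unit -/
def SUnits.ordVec : Additive (SUnits S K) →ₗ[ℤ] (PlacesOver S K → ℤ) :=
  AddMonoidHom.toIntLinearMap
    { toFun := fun x w => Place.ordK w.2 ((Additive.toMul x : SUnits S K) : Kˣ)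
      map_zero' := by
        funext w
        exact Place.ordK_one w.2
      map_add' := fun x y => by
        funext w
        exact Place.ordK_mul w.2 _ _ }

lemma SUnits.ordVec_apply (x : Additive (SUnits S K)) (w : PlacesOver S K) :
    SUnits.ordVec S K x w = Place.ordK w.2 ((Additive.toMul x : SUnits S K) : Kˣ) := rfl

/-- global units are `S`-units -/
def unitsToSUnits : (𝓞 K)ˣ →* SUnits S K :=
  (Units.map (algebraMap (𝓞 K) K : 𝓞 K →* K)).codRestrict (SUnits S K) (fun u q _ =>
    (forall_unitsIncl_mem_unitGroup_iff _).mpr ⟨u, rfl⟩ q)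

lemma coe_unitsToSUnits (u : (𝓞 K)ˣ) :
    ((unitsToSUnits S K u : SUnits S K) : Kˣ) = Units.map (algebraMap (𝓞 K) K : 𝓞 K →* K) u := rfl

lemma unitsToSUnits_injective : Function.Injective (unitsToSUnits S K) := by
  intro u u' h
  have h1 := congrArg (fun x : SUnits S K => ((x : Kˣ) : K)) h
  apply Units.ext
  exact FaithfulSMul.algebraMap_injective (𝓞 K) K h1

/-- the kernel of the valuation vector consists of the global units -/
theorem SUnits.mem_ker_ordVec_iff (x : Additive (SUnits S K)) :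
    x ∈ LinearMap.ker (SUnits.ordVec S K) ↔
      ∃ u : (𝓞 K)ˣ, unitsToSUnits S K u = Additive.toMul x := by
  rw [LinearMap.mem_ker]
  constructor
  · intro h
    obtain ⟨u, hu⟩ := (forall_unitsIncl_mem_unitGroup_iff
      ((Additive.toMul x : SUnits S K) : Kˣ)).mp (fun q => by
        by_cases hq : q ∈ S
        · rw [SL.mem_unitGroup_iff_forall_ordAt]
          intro w
          have h1 := congrFun h ⟨⟨q, hq⟩, w⟩
          rw [SUnits.ordVec_apply] at h1
          rw [SL.ordAt_unitsIncl]
          show Multiplicative.ofAdd (Place.ordK w _) = 1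
          rw [h1]
          rfl
        · exact (Additive.toMul x : SUnits S K).2 q hq)
    exact ⟨u, Subtype.ext hu⟩
  · rintro ⟨u, hu⟩
    funext w
    rw [SUnits.ordVec_apply, ← hu, coe_unitsToSUnits]
    have h1 := (forall_unitsIncl_mem_unitGroup_iff
      (Units.map (algebraMap (𝓞 K) K : 𝓞 K →* K) u)).mpr ⟨u, rfl⟩ (w.1 : Nat.Primes)
    rw [SL.mem_unitGroup_iff_forall_ordAt] at h1
    have h2 := h1 w.2
    rw [SL.ordAt_unitsIncl] at h2
    exact ofAdd_eq_one.mp h2

/-- the kernel of the valuation vector, as a module, is the unit group of `𝓞 K` -/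
def SUnits.kerOrdVecEquiv : Additive (𝓞 K)ˣ ≃ₗ[ℤ] LinearMap.ker (SUnits.ordVec S K) :=
  LinearEquiv.ofBijective
    ((AddMonoidHom.toIntLinearMap (MonoidHom.toAdditive (unitsToSUnits S K))).codRestrict
      (LinearMap.ker (SUnits.ordVec S K)) (fun u =>
        (SUnits.mem_ker_ordVec_iff S K _).mpr ⟨Additive.toMul u, rfl⟩))
    ⟨fun u u' h => by
      have h1 := congrArg Subtype.val h
      exact unitsToSUnits_injective S K h1,
     fun x => by
      obtain ⟨u, hu⟩ := (SUnits.mem_ker_ordVec_iff S K x.1).mp x.2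
      exact ⟨Additive.ofMul u, Subtype.ext hu⟩⟩

/-- the range of the valuation vector contains `h • ℤ^P` -/
theorem SUnits.smul_mem_range_ordVec (f : PlacesOver S K → ℤ) :
    (classNum K : ℤ) • f ∈ LinearMap.range (SUnits.ordVec S K) := by
  classical
  haveI : Fintype (PlacesOver S K) := Fintype.ofFinite _
  have hsingle : ∀ w : PlacesOver S K,
      (classNum K : ℤ) • (Pi.single w (1 : ℤ) : PlacesOver S K → ℤ)
        ∈ LinearMap.range (SUnits.ordVec S K) := by
    intro w
    obtain ⟨x, hx1, hx2⟩ := exists_generator_pow_classNum K (Place.toPrime w.2)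
    have hxS : x ∈ SUnits S K := by
      intro q hq
      rw [unitsIncl_mem_unitGroup_iff]
      intro v' hv'
      apply hx2
      rintro rfl
      have := natPrime_unique (Place.toPrime w.2) hv' (Place.natCast_mem_toPrime w.2)
      exact hq (this ▸ (w.1 : S).2)
    refine ⟨Additive.ofMul ⟨x, hxS⟩, ?_⟩
    funext w'
    rw [SUnits.ordVec_apply]
    show Place.ordK w'.2 x = _
    rw [Place.ordK_eq, Pi.smul_apply, smul_eq_mul]
    by_cases hww : w' = w
    · subst hww
      rw [Pi.single_eq_same, mul_one, hx1]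
    · rw [Pi.single_eq_of_ne hww, mul_zero]
      apply hx2
      intro h
      exact hww (PlacesOver.eq_of_toPrime_eq S h)
  have hf : f = ∑ w, f w • (Pi.single w (1 : ℤ) : PlacesOver S K → ℤ) := by
    funext w'
    rw [Finset.sum_apply]
    simp [Pi.single_apply]
  rw [hf, Finset.smul_sum]
  refine Submodule.sum_mem _ (fun w _ => ?_)
  rw [smul_comm]
  exact Submodule.smul_mem _ _ (hsingle w)

theorem SUnits.finrank_range_ordVec :
    Module.finrank ℤ (LinearMap.range (SUnits.ordVec S K)) = Nat.card (PlacesOver S K) := by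
  classical
  haveI : Fintype (PlacesOver S K) := Fintype.ofFinite _
  apply le_antisymm
  · have := Submodule.finrank_le (LinearMap.range (SUnits.ordVec S K))
    rw [Module.finrank_pi, Nat.card_eq_fintype_card] at *
    exact this
  · let g : (PlacesOver S K → ℤ) →ₗ[ℤ] LinearMap.range (SUnits.ordVec S K) :=
      ((classNum K : ℤ) • (LinearMap.id : (PlacesOver S K → ℤ) →ₗ[ℤ] _)).codRestrict _
        (fun f => SUnits.smul_mem_range_ordVec S K f)
    have hg : Function.Injective g := by
      intro f f' h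
      have h1 : (classNum K : ℤ) • f = (classNum K : ℤ) • f' := congrArg Subtype.val h
      have h0 : (classNum K : ℤ) ≠ 0 := by exact_mod_cast (classNum_pos K).ne'
      funext w
      have h2 := congrFun h1 w
      simp only [Pi.smul_apply, smul_eq_mul] at h2
      exact mul_left_cancel₀ h0 h2
    have := LinearMap.finrank_le_finrank_of_injective hg
    rw [Module.finrank_pi, ← Nat.card_eq_fintype_card] at this
    exact this

instance SUnits.moduleFinite : Module.Finite ℤ (Additive (SUnits S K)) := by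
  rw [Module.finite_def]
  refine Submodule.fg_of_fg_map_of_fg_inf_ker (SUnits.ordVec S K) ?_ ?_
  · rw [Submodule.map_top]
    exact IsNoetherian.noetherian _
  · rw [inf_of_le_right le_top]
    rw [← Module.Finite.iff_fg]
    exact Module.Finite.equiv (SUnits.kerOrdVecEquiv S K)

/-- **Rank of the `S`-units**: `rank (𝓞 K)ˣ + #{places above S}` -/
theorem SUnits.finrank_eq :
    Module.finrank ℤ (Additive (SUnits S K))
      = NumberField.Units.rank K + Nat.card (PlacesOver S K) := by
  have h1 := (LinearMap.ker (SUnits.ordVec S K)).finrank_quotient_add_finrank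
  have h2 : Module.finrank ℤ (Additive (SUnits S K) ⧸ LinearMap.ker (SUnits.ordVec S K))
      = Module.finrank ℤ (LinearMap.range (SUnits.ordVec S K)) :=
    LinearEquiv.finrank_eq (SUnits.ordVec S K).quotKerEquivRange
  have h3 : Module.finrank ℤ (LinearMap.ker (SUnits.ordVec S K))
      = Module.finrank ℤ (Additive (𝓞 K)ˣ) :=
    (LinearEquiv.finrank_eq (SUnits.kerOrdVecEquiv S K)).symm
  rw [h2, h3, SUnits.finrank_range_ordVec, NumberField.Units.finrank_eq] at h1
  omega

theorem card_placesOver :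
    Nat.card (PlacesOver S K) = ∑ q ∈ S, Nat.card (Place ((q : Nat.Primes) : ℕ) K) := by
  classical
  haveI : ∀ q : S, Fintype (Place ((q : Nat.Primes) : ℕ) K) := fun q => Fintype.ofFinite _
  rw [Nat.card_eq_fintype_card, Fintype.card_sigma, ← Finset.sum_coe_sort S]
  refine Finset.sum_congr rfl (fun q _ => ?_)
  rw [Nat.card_eq_fintype_card]

/-- **Rank of the `S`-units**, as a sum over the primes in `S` -/
theorem SUnits.finrank_eq_sum :
    Module.finrank ℤ (Additive (SUnits S K))
      = NumberField.Units.rank K + ∑ q ∈ S, Nat.card (Place ((q : Nat.Primes) : ℕ) K) := by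
  rw [SUnits.finrank_eq, card_placesOver]

end SUnitsRank

end

end Fermat.Agent.CFT.Global
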