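/-
P4 / Layer C (C6-PREP): `C_S(K) / C_S(K)ⁿ` is finite, for every number field `K`, every finite set of
primes `S` and every `n ≠ 0`.

* `JS.index_range_pow_ne_zero` : `[J_{K,S} : J_{K,S}ⁿ]` is finite;
* `CS.index_range_pow_ne_zero` : `[C_S(K) : C_S(K)ⁿ]` is finite;
* `CS.exists_finset_mul_pow` : a finite set of representatives;
* `CS.exists_finset_invariants_mul_pow` : Galois situation `L / K` with group `G`, `L / ℚ` unramified
  outside `S`: the invariant classes modulo `n`-th powers of invariant classes are represented by a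
  finite set (this is `PFundamental.finite_mod_p` for the global tower).
-/
import Fermat.Agent.Lib.CFT.Global.SecondIneq.LocalIndex
import Fermat.Agent.Lib.CFT.Global.NormIndex
import Fermat.Agent.Lib.CFT.Global.IdeleClass

set_option autoImplicit false
set_option linter.style.haveILetI false

open scoped TensorProduct

namespace Fermat.Agent.CFT.Global

open Fermat.Agent.CFT.Local

noncomputable section

section NumberField

variable {q : ℕ} [Fact q.Prime] {K : Type} [Field K] [NumberField K]

/-- the `n`-th powers have finite index in `K_wˣ` -/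
theorem Kv.index_range_pow_ne_zero (w : Place q K) {n : ℕ} (hn : n ≠ 0) :
    (powMonoidHom n : (Kv w)ˣ →* (Kv w)ˣ).range.index ≠ 0 :=
  Local.index_range_powMonoidHom_field_ne_zero (A := Ow w) (K := Kv w) n (Ow.natCast_ne_zero w hn)

variable (q K) in
/-- the `n`-th powers have finite index in `(ℚ_q ⊗ K)ˣ` -/
theorem SL.index_range_pow_ne_zero {n : ℕ} (hn : n ≠ 0) :
    (powMonoidHom n : (SL q K)ˣ →* (SL q K)ˣ).range.index ≠ 0 := by
  classical
  letI := Fintype.ofFinite (Place q K)
  rw [index_range_powMonoidHom_congr (SL.unitsEquivPi (q := q) (L := K)) n,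
    index_range_powMonoidHom_pi]
  exact Finset.prod_ne_zero_iff.2 fun w _ => Kv.index_range_pow_ne_zero w hn

end NumberField

section Global

variable (S : Finset Nat.Primes) (K : Type) [Field K] [NumberField K]

/-- the `n`-th powers have finite index in the `S`-ideles -/
theorem JS.index_range_pow_ne_zero {n : ℕ} (hn : n ≠ 0) :
    (powMonoidHom n : JS S K →* JS S K).range.index ≠ 0 := by
  classical
  have h1 : (powMonoidHom n : JS S K →* JS S K).range.index =
      ∏ q : S, (powMonoidHom n : (SL ((q : Nat.Primes) : ℕ) K)ˣ →*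
        (SL ((q : Nat.Primes) : ℕ) K)ˣ).range.index :=
    index_range_powMonoidHom_pi (G := fun q : S => (SL ((q : Nat.Primes) : ℕ) K)ˣ) n
  rw [h1]
  exact Finset.prod_ne_zero_iff.2 fun q _ =>
    haveI : Fact ((q : Nat.Primes) : ℕ).Prime := ⟨(q : Nat.Primes).2⟩
    SL.index_range_pow_ne_zero ((q : Nat.Primes) : ℕ) K hn

/-- **`C_S(K) / C_S(K)ⁿ` is finite.** -/
theorem CS.index_range_pow_ne_zero {n : ℕ} (hn : n ≠ 0) :
    (powMonoidHom n : CS S K →* CS S K).range.index ≠ 0 := by
  have h1 : ((powMonoidHom n : JS S K →* JS S K).range.map (JS.toCS S K)).index ≠ 0 := by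
    rw [Subgroup.index_map]
    refine mul_ne_zero ?_ ?_
    · intro h
      exact JS.index_range_pow_ne_zero S K hn
        (Nat.eq_zero_of_zero_dvd (h ▸ Subgroup.index_dvd_of_le le_sup_left))
    · have : Finite (CS S K ⧸ (JS.toCS S K).range) := inferInstance
      exact Subgroup.index_ne_zero_of_finite
  have h2 : (powMonoidHom n : JS S K →* JS S K).range.map (JS.toCS S K) ≤
      (powMonoidHom n : CS S K →* CS S K).range := by
    rintro _ ⟨_, ⟨y, rfl⟩, rfl⟩
    exact ⟨JS.toCS S K y, (map_pow _ _ _).symm⟩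
  intro h
  exact h1 (Nat.eq_zero_of_zero_dvd (h ▸ Subgroup.index_dvd_of_le h2))

/-- a finite set of representatives of `C_S(K)` modulo `n`-th powers -/
theorem CS.exists_finset_mul_pow {n : ℕ} (hn : n ≠ 0) :
    ∃ F : Finset (CS S K), ∀ c : CS S K, ∃ f ∈ F, ∃ e : CS S K, c = f * e ^ n := by
  classical
  haveI : (powMonoidHom n : CS S K →* CS S K).range.FiniteIndex :=
    ⟨CS.index_range_pow_ne_zero S K hn⟩
  haveI : Finite (CS S K ⧸ (powMonoidHom n : CS S K →* CS S K).range) :=
    Subgroup.finite_quotient_of_finiteIndex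
  letI := Fintype.ofFinite (CS S K ⧸ (powMonoidHom n : CS S K →* CS S K).range)
  refine ⟨Finset.univ.image fun x : CS S K ⧸ (powMonoidHom n : CS S K →* CS S K).range =>
    Quotient.out x, fun c => ?_⟩
  refine ⟨Quotient.out (QuotientGroup.mk c : CS S K ⧸ (powMonoidHom n : CS S K →* CS S K).range),
    Finset.mem_image.2 ⟨_, Finset.mem_univ _, rfl⟩, ?_⟩
  have h : (Quotient.out (QuotientGroup.mk c : CS S K ⧸ (powMonoidHom n : CS S K →* CS S K).range))⁻¹
      * c ∈ (powMonoidHom n : CS S K →* CS S K).range := by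
    rw [← QuotientGroup.eq]
    exact Quotient.out_eq _
  obtain ⟨e, he⟩ := h
  refine ⟨e, ?_⟩
  have he' : e ^ n = _ := he
  rw [he', mul_inv_cancel_left]

end Global

section Galois


/-- **Finiteness of the invariants modulo `n`** (`PFundamental.finite_mod_p` for the global tower): the
`G`-invariant classes of `C_S(L)` are represented, modulo `n`-th powers of `G`-invariant classes,
by a finite set. -/
theorem CS.exists_finset_invariants_mul_pow (S : Finset Nat.Primes) (K : Type) {L : Type} [Field K]
    [NumberField K] [Field L] [NumberField L] [Algebra K L] {G : Type} [Group G] [Finite G]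
    [MulSemiringAction G L] [IsGaloisGroup G K L] (hS : S.Nonempty) (hunr : UnramifiedOutside S L)
    {n : ℕ} (hn : n ≠ 0) :
    ∃ F : Finset (CS S L), ∀ c : CS S L, (∀ g : G, g • c = c) →
      ∃ f ∈ F, ∃ e : CS S L, (∀ g : G, g • e = e) ∧ c = f * e ^ n := by
  classical
  obtain ⟨F₀, hF₀⟩ := CS.exists_finset_mul_pow S K hn
  refine ⟨F₀.image (CS.map S (algebraMap K L)), fun c hc => ?_⟩
  obtain ⟨c₀, rfl⟩ := CS.exists_map_eq_of_forall_smul_eq (K := K) hS hunr c hc
  obtain ⟨f, hf, e, he⟩ := hF₀ c₀
  refine ⟨_, Finset.mem_image_of_mem _ hf, CS.map S (algebraMap K L) e, ?_, ?_⟩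
  · intro g
    exact CS.smul_map_algebraMap g e
  · rw [he, map_mul, map_pow]

end Galois

end

end Fermat.Agent.CFT.Global
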