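/-
P4 / Layer C5-a (application): cyclic layers of `p`-power degree inside a Galois extension.

`K` a finite group acting faithfully on the number field `L` (unramified outside `S`), `V ⊲ K` with
`K ⧸ V` cyclic of order `p^j` generated by the class of `k₀`.  Then, for `τ = k₀` acting on
`C_S(L)` and `H₀ = C_S(L)^V`:
* `H¹ = 0`: every `y ∈ H₀` with `N_{p^j} y = 1` is of the form `τ z / z`, `z ∈ H₀`;
* the norm index `[C_S(L)^K : N_{p^j} (C_S(L)^V)]` is `p^j`.
The layers of degree `p` come from `layer_h0_h1` (first + second inequality); they are assembled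
with `layer_pow_le`.
-/
import Fermat.Agent.Lib.CFT.Global.Layer
import Fermat.Agent.Lib.CFT.Coh.CyclicTower

set_option autoImplicit false
set_option linter.style.haveILetI false
set_option linter.unusedSectionVars false

namespace Fermat.Agent.CFT.Coh.Herbrand

variable {X : Type*} [CommGroup X]

/-- `h⁰` of a stable subgroup, in ambient terms (only `σ^n = 1` on the subgroup is needed) -/
theorem h0_mulPair_subEnd' (σ : Monoid.End X) (n : ℕ) (H : Subgroup X) (hH : ∀ x ∈ H, σ x ∈ H)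
    (h : subEnd σ H hH ^ n = 1) :
    (mulPair (subEnd σ H hH) n h).h0 = (H.map (cycNorm σ n)).relIndex (H ⊓ (cycDiv σ).ker) := by
  rw [h0_mulPair, ← Subgroup.relIndex_map_map_of_injective _ _ H.subtype_injective]
  have e1 := map_range_subNorm σ n H hH
  have e2 := map_ker_subDiv σ H hH
  unfold subNorm at e1
  unfold subDiv at e2
  rw [e1, e2]

/-- `h¹` of a stable subgroup, in ambient terms -/
theorem h1_mulPair_subEnd' (σ : Monoid.End X) (n : ℕ) (H : Subgroup X) (hH : ∀ x ∈ H, σ x ∈ H)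
    (h : subEnd σ H hH ^ n = 1) :
    (mulPair (subEnd σ H hH) n h).h1 = (H.map (cycDiv σ)).relIndex (H ⊓ (cycNorm σ n).ker) := by
  rw [h1_mulPair, ← Subgroup.relIndex_map_map_of_injective _ _ H.subtype_injective]
  have e1 := map_range_subDiv σ H hH
  have e2 := map_ker_subNorm σ n H hH
  unfold subNorm at e2
  unfold subDiv at e1
  rw [e1, e2]

end Fermat.Agent.CFT.Coh.Herbrand

namespace Fermat.Agent.CFT.Global

open Fermat.Agent.CFT.Coh.Herbrand Finset

noncomputable section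

/-! ## The chain of subgroups -/

section Chain

variable {K : Type} [Group K] (V : Subgroup K) [V.Normal] (p : ℕ) (k₀ : K)

/-- the preimage in `K` of the subgroup of `K ⧸ V` generated by `k₀ ^ (p ^ i)` -/
def layerSub (i : ℕ) : Subgroup K :=
  (Subgroup.zpowers ((k₀ : K ⧸ V) ^ p ^ i)).comap (QuotientGroup.mk' V)

variable {V p k₀}

lemma mem_layerSub_iff {i : ℕ} {k : K} :
    k ∈ layerSub V p k₀ i ↔ (k : K ⧸ V) ∈ Subgroup.zpowers ((k₀ : K ⧸ V) ^ p ^ i) := Iff.rfl

lemma le_layerSub (i : ℕ) : V ≤ layerSub V p k₀ i := by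
  intro v hv
  rw [mem_layerSub_iff, (QuotientGroup.eq_one_iff v).2 hv]
  exact one_mem _

lemma pow_mem_layerSub (i : ℕ) : k₀ ^ p ^ i ∈ layerSub V p k₀ i := by
  rw [mem_layerSub_iff, QuotientGroup.mk_pow]
  exact Subgroup.mem_zpowers _

lemma layerSub_succ_le (i : ℕ) : layerSub V p k₀ (i + 1) ≤ layerSub V p k₀ i := by
  intro k hk
  rw [mem_layerSub_iff] at hk ⊢
  obtain ⟨m, hm⟩ := Subgroup.mem_zpowers_iff.1 hk
  rw [Subgroup.mem_zpowers_iff]
  refine ⟨p * m, ?_⟩
  rw [← hm, pow_succ, pow_mul, zpow_mul, zpow_natCast]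

/-- elements of `layerSub i` are of the form `(k₀ ^ p^i)^m v` -/
lemma exists_eq_of_mem_layerSub {i : ℕ} {k : K} (hk : k ∈ layerSub V p k₀ i) :
    ∃ (m : ℤ) (v : K), v ∈ V ∧ k = (k₀ ^ p ^ i) ^ m * v := by
  obtain ⟨m, hm⟩ := Subgroup.mem_zpowers_iff.1 (mem_layerSub_iff.1 hk)
  refine ⟨m, ((k₀ ^ p ^ i) ^ m)⁻¹ * k, ?_, by group⟩
  rw [← QuotientGroup.eq, QuotientGroup.mk_zpow, QuotientGroup.mk_pow]
  exact hm

variable (hk₀ : ∀ g : K ⧸ V, g ∈ Subgroup.zpowers (k₀ : K ⧸ V))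

include hk₀ in
lemma layerSub_normal (i : ℕ) : (layerSub V p k₀ i).Normal := by
  haveI : IsCyclic (K ⧸ V) := ⟨(k₀ : K ⧸ V), hk₀⟩
  letI : CommGroup (K ⧸ V) := IsCyclic.commGroup
  haveI : (Subgroup.zpowers ((k₀ : K ⧸ V) ^ p ^ i)).Normal := Subgroup.normal_of_isMulCommutative _
  exact Subgroup.Normal.comap inferInstance _

variable [Finite K] [hp : Fact p.Prime] {j : ℕ} (hord : V.index = p ^ j)

include hk₀ hord in
lemma orderOf_mk_gen : orderOf (k₀ : K ⧸ V) = p ^ j := by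
  rw [orderOf_eq_card_of_forall_mem_zpowers hk₀, ← Subgroup.index_eq_card, hord]

include hk₀ hord in
lemma orderOf_mk_gen_pow {i : ℕ} (hi : i ≤ j) : orderOf ((k₀ : K ⧸ V) ^ p ^ i) = p ^ (j - i) := by
  rw [orderOf_pow_of_dvd (pow_pos hp.out.pos i).ne', orderOf_mk_gen hk₀ hord,
    Nat.pow_div hi hp.out.pos]
  rw [orderOf_mk_gen hk₀ hord]
  exact pow_dvd_pow p hi

include hk₀ hord in
/-- the layers have index `p` -/
lemma index_layerSub_subgroupOf {i : ℕ} (hi : i < j) :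
    ((layerSub V p k₀ (i + 1)).subgroupOf (layerSub V p k₀ i)).index = p := by
  change (layerSub V p k₀ (i + 1)).relIndex (layerSub V p k₀ i) = p
  unfold layerSub
  rw [Subgroup.relIndex_comap, Subgroup.map_comap_eq_self_of_surjective
    (QuotientGroup.mk'_surjective V)]
  set A := Subgroup.zpowers ((k₀ : K ⧸ V) ^ p ^ i) with hA
  set B := Subgroup.zpowers ((k₀ : K ⧸ V) ^ p ^ (i + 1)) with hB
  have hBA : B ≤ A := by
    rw [hB, Subgroup.zpowers_le, pow_succ, pow_mul]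
    exact pow_mem (Subgroup.mem_zpowers _) p
  have hcA : Nat.card A = p ^ (j - i) := by
    rw [hA, Nat.card_zpowers, orderOf_mk_gen_pow hk₀ hord hi.le]
  have hcB : Nat.card B = p ^ (j - (i + 1)) := by
    rw [hB, Nat.card_zpowers, orderOf_mk_gen_pow hk₀ hord hi]
  have h1 := Subgroup.relIndex_mul_index hBA
  have h2 := A.index_mul_card
  have h3 := B.index_mul_card
  have hBpos : 0 < Nat.card B := Nat.card_pos
  have hApos : 0 < A.index := Nat.pos_of_ne_zero Subgroup.index_ne_zero_of_finite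
  have h4 : B.relIndex A * A.index * Nat.card B = A.index * (p * Nat.card B) := by
    rw [h1, h3, ← h2, hcA, hcB, ← pow_succ']
    congr 2
    omega
  have h5 : B.relIndex A * A.index * Nat.card B = A.index * (B.relIndex A * Nat.card B) := by ring
  rw [h5] at h4
  have h6 := Nat.eq_of_mul_eq_mul_left hApos h4
  exact Nat.eq_of_mul_eq_mul_right hBpos h6

/-- the class of `k₀ ^ p^i` generates `layerSub i ⧸ layerSub (i+1)` -/
lemma mem_zpowers_layerSub_quotient (i : ℕ) [(layerSub V p k₀ (i + 1)).Normal]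
    (g : ↥(layerSub V p k₀ i) ⧸ (layerSub V p k₀ (i + 1)).subgroupOf (layerSub V p k₀ i)) :
    g ∈ Subgroup.zpowers (((⟨k₀ ^ p ^ i, pow_mem_layerSub i⟩ : ↥(layerSub V p k₀ i)) :
      ↥(layerSub V p k₀ i) ⧸ (layerSub V p k₀ (i + 1)).subgroupOf (layerSub V p k₀ i))) := by
  induction g using QuotientGroup.induction_on with | H k =>
  obtain ⟨m, v, hv, hk⟩ := exists_eq_of_mem_layerSub k.2
  rw [Subgroup.mem_zpowers_iff]
  refine ⟨m, ?_⟩
  rw [← QuotientGroup.mk_zpow, QuotientGroup.eq, Subgroup.mem_subgroupOf]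
  have : (((⟨k₀ ^ p ^ i, pow_mem_layerSub i⟩ : ↥(layerSub V p k₀ i)) ^ m)⁻¹ * k :
      ↥(layerSub V p k₀ i)).1 = v := by
    rw [Subgroup.coe_mul, Subgroup.coe_inv, Subgroup.coe_zpow, hk]
    group
  rw [this]
  exact le_layerSub (i + 1) hv

end Chain

/-! ## Invariants of the layers -/

section Inv

variable {K L : Type} [Group K] [Finite K] [Field L] [NumberField L] [MulSemiringAction K L]
  (V : Subgroup K) [V.Normal] {p : ℕ} {S : Finset Nat.Primes} (k₀ : K)

lemma mulActEnd_subgroup_eq (H : Subgroup K) (h : H) :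
    mulActEnd (CS S L) h = mulActEnd (CS S L) (h : K) := rfl

/-- the invariants of `layerSub i` are the `τ^(p^i)`-fixed points of `C_S(L)^V` -/
lemma invariants_layerSub (i : ℕ) :
    CS.invariants S (layerSub V p k₀ i) (L := L) =
      CS.invariants S V (L := L) ⊓ fixSub (mulActEnd (CS S L) k₀ ^ p ^ i) := by
  ext c
  rw [Subgroup.mem_inf, mem_fixSub, mulActEnd_pow, mulActEnd_apply]
  constructor
  · intro hc
    exact ⟨fun v => hc ⟨v, le_layerSub i v.2⟩, hc ⟨k₀ ^ p ^ i, pow_mem_layerSub i⟩⟩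
  · rintro ⟨hV, hk⟩ ⟨k, hk'⟩
    obtain ⟨m, v, hv, rfl⟩ := exists_eq_of_mem_layerSub hk'
    change ((k₀ ^ p ^ i) ^ m * v) • c = c
    rw [mul_smul, hV ⟨v, hv⟩]
    have hstab : k₀ ^ p ^ i ∈ MulAction.stabilizer K c := hk
    exact (MulAction.stabilizer K c).zpow_mem hstab m

/-- invariants of a subgroup of a subgroup -/
lemma invariants_subgroupOf (H H' : Subgroup K) (hle : H' ≤ H) :
    CS.invariants S (H'.subgroupOf H) (L := L) = CS.invariants S H' (L := L) := by
  ext c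
  constructor
  · intro hc v
    exact hc ⟨⟨v, hle v.2⟩, v.2⟩
  · intro hc v
    exact hc ⟨(v : H), v.2⟩

end Inv

/-! ## The main theorem -/

section Main

variable {K L : Type} [Group K] [Finite K] [Field L] [NumberField L] [MulSemiringAction K L]
  [FaithfulSMul K L] (V : Subgroup K) [V.Normal] {p : ℕ} [hp : Fact p.Prime]
  {S : Finset Nat.Primes} (k₀ : K) (hk₀ : ∀ g : K ⧸ V, g ∈ Subgroup.zpowers (k₀ : K ⧸ V))
  {j : ℕ} (hord : V.index = p ^ j)

lemma stable_invariants : Stable (CS.invariants S V (L := L)) (mulActEnd (CS S L) k₀) :=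
  CS.mulActEnd_mem_invariants V k₀

include hk₀ hord in
/-- the layers of degree `p` -/
theorem layer_prime (hp2 : p ≠ 2) (hS : S.Nonempty) (hunr : UnramifiedOutside S L)
    (hsecond : SecondInequalityStatement p) {i : ℕ} (hi : i < j) :
    LayerH1 (CS.invariants S V (L := L)) (mulActEnd (CS S L) k₀ ^ p ^ i) p ∧
      layerH0 (CS.invariants S V (L := L)) (mulActEnd (CS S L) k₀ ^ p ^ i) p = p := by
  set τ := mulActEnd (CS S L) k₀ with hτ
  set H₀ := CS.invariants S V (L := L) with hH₀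
  set Ki := layerSub V p k₀ i with hKi
  set Ki1 := layerSub V p k₀ (i + 1) with hKi1
  haveI : Ki1.Normal := layerSub_normal hk₀ (i + 1)
  have hle : Ki1 ≤ Ki := layerSub_succ_le i
  set g₀ : ↥Ki := ⟨k₀ ^ p ^ i, pow_mem_layerSub i⟩ with hg₀
  have hidx : (Ki1.subgroupOf Ki).index = p := index_layerSub_subgroupOf hk₀ hord hi
  obtain ⟨e0, e1⟩ := layer_h0_h1 (K := ↥Ki) (L := L) (S := S) (Ki1.subgroupOf Ki) hp2 hidx g₀
    (mem_zpowers_layerSub_quotient i) hS hunr hsecond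
  -- translate to ambient terms
  have hσ : mulActEnd (CS S L) g₀ = τ ^ p ^ i := by
    rw [mulActEnd_subgroup_eq, hτ, mulActEnd_pow]
  have hinv : CS.invariants S (Ki1.subgroupOf Ki) (L := L) = H₀ ⊓ fixSub ((τ ^ p ^ i) ^ p) := by
    rw [invariants_subgroupOf Ki Ki1 hle, hKi1, invariants_layerSub, ← pow_mul, ← pow_succ]
  have e0' := h0_mulPair_subEnd' (mulActEnd (CS S L) g₀) p (CS.invariants S (Ki1.subgroupOf Ki))
    (CS.mulActEnd_mem_invariants _ g₀) (CS.invEnd_pow_eq_one (Ki1.subgroupOf Ki) hidx g₀)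
  have e1' := h1_mulPair_subEnd' (mulActEnd (CS S L) g₀) p (CS.invariants S (Ki1.subgroupOf Ki))
    (CS.mulActEnd_mem_invariants _ g₀) (CS.invEnd_pow_eq_one (Ki1.subgroupOf Ki) hidx g₀)
  replace e0 := e0'.symm.trans e0
  replace e1 := e1'.symm.trans e1
  rw [hσ, hinv] at e0 e1
  have hfix : H₀ ⊓ fixSub ((τ ^ p ^ i) ^ p) ⊓ (cycDiv (τ ^ p ^ i)).ker =
      H₀ ⊓ fixSub (τ ^ p ^ i) := by
    rw [inf_assoc]
    congr 1
    exact inf_eq_right.2 (fixSub_le_pow _ p)
  constructor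
  · -- `H¹ = 0`
    intro y hy hN
    have hy' : y ∈ H₀ ⊓ fixSub ((τ ^ p ^ i) ^ p) ⊓ (cycNorm (τ ^ p ^ i) p).ker :=
      Subgroup.mem_inf.2 ⟨hy, MonoidHom.mem_ker.2 hN⟩
    have hle' : H₀ ⊓ fixSub ((τ ^ p ^ i) ^ p) ⊓ (cycNorm (τ ^ p ^ i) p).ker ≤
        (H₀ ⊓ fixSub ((τ ^ p ^ i) ^ p)).map (cycDiv (τ ^ p ^ i)) :=
      Subgroup.relIndex_eq_one.1 e1
    obtain ⟨z, hz, hzy⟩ := hle' hy'
    exact ⟨z, hz, hzy.symm⟩
  · rw [layerH0, ← hfix]
    exact e0

include hk₀ hord in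
/-- **cyclic layers of degree `p^j`**: `H¹ = 0` and `h⁰ = p^j` -/
theorem cyclicLayer_CS (hp2 : p ≠ 2) (hS : S.Nonempty) (hunr : UnramifiedOutside S L)
    (hsecond : SecondInequalityStatement p) :
    LayerH1 (CS.invariants S V (L := L)) (mulActEnd (CS S L) k₀) (p ^ j) ∧
      layerH0 (CS.invariants S V (L := L)) (mulActEnd (CS S L) k₀) (p ^ j) = p ^ j := by
  have h := layer_pow_le (p := p) (mulActEnd (CS S L) k₀) (stable_invariants V k₀) j
    (fun i hi => (layer_prime V k₀ hk₀ hord hp2 hS hunr hsecond hi).1)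
    (fun i hi => (layer_prime V k₀ hk₀ hord hp2 hS hunr hsecond hi).2) j 0 (by omega)
  rwa [pow_zero, pow_one] at h

include hk₀ hord in
lemma pow_card_mem : k₀ ^ p ^ j ∈ V := by
  rw [← QuotientGroup.eq_one_iff, QuotientGroup.mk_pow, ← orderOf_mk_gen hk₀ hord]
  exact pow_orderOf_eq_one _

include hk₀ hord in
lemma invariants_inf_fixSub_pow :
    CS.invariants S V (L := L) ⊓ fixSub (mulActEnd (CS S L) k₀ ^ p ^ j) =
      CS.invariants S V (L := L) := by
  refine inf_eq_left.2 fun c hc => ?_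
  rw [mem_fixSub, mulActEnd_pow, mulActEnd_apply]
  exact hc ⟨k₀ ^ p ^ j, pow_card_mem V k₀ hk₀ hord⟩

include hk₀ in
lemma invariants_inf_fixSub :
    CS.invariants S V (L := L) ⊓ fixSub (mulActEnd (CS S L) k₀) =
      CS.invariants S (⊤ : Subgroup K) (L := L) := by
  ext c
  rw [Subgroup.mem_inf, mem_fixSub, mulActEnd_apply]
  constructor
  · rintro ⟨hV, hk⟩ ⟨k, -⟩
    obtain ⟨m, hm⟩ := Subgroup.mem_zpowers_iff.1 (hk₀ (k : K ⧸ V))
    have hv : (k₀ ^ m)⁻¹ * k ∈ V := by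
      rw [← QuotientGroup.eq, QuotientGroup.mk_zpow]
      exact hm
    have hk' : k = k₀ ^ m * ((k₀ ^ m)⁻¹ * k) := by group
    change k • c = c
    rw [hk', mul_smul, hV ⟨_, hv⟩]
    have hstab : k₀ ∈ MulAction.stabilizer K c := hk
    exact (MulAction.stabilizer K c).zpow_mem hstab m
  · intro hc
    exact ⟨fun v => hc ⟨v, Subgroup.mem_top _⟩, hc ⟨k₀, Subgroup.mem_top _⟩⟩

include hk₀ hord in
/-- **Hilbert 90 for cyclic layers of degree `p^j`** -/
theorem exists_smul_div_of_cycNorm_eq_one (hp2 : p ≠ 2) (hS : S.Nonempty)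
    (hunr : UnramifiedOutside S L) (hsecond : SecondInequalityStatement p)
    (y : CS S L) (hy : y ∈ CS.invariants S V (L := L))
    (hN : cycNorm (mulActEnd (CS S L) k₀) (p ^ j) y = 1) :
    ∃ z ∈ CS.invariants S V (L := L), y = k₀ • z / z := by
  have h := (cyclicLayer_CS V k₀ hk₀ hord hp2 hS hunr hsecond).1 y
    (by rw [invariants_inf_fixSub_pow V k₀ hk₀ hord]; exact hy) hN
  obtain ⟨z, hz, hyz⟩ := h
  rw [invariants_inf_fixSub_pow V k₀ hk₀ hord] at hz
  exact ⟨z, hz, hyz⟩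

include hk₀ hord in
/-- **the norm index of a cyclic layer of degree `p^j`** is `p^j` -/
theorem relIndex_map_cycNorm_invariants (hp2 : p ≠ 2) (hS : S.Nonempty)
    (hunr : UnramifiedOutside S L) (hsecond : SecondInequalityStatement p) :
    ((CS.invariants S V (L := L)).map (cycNorm (mulActEnd (CS S L) k₀) (p ^ j))).relIndex
      (CS.invariants S (⊤ : Subgroup K) (L := L)) = p ^ j := by
  have h := (cyclicLayer_CS V k₀ hk₀ hord hp2 hS hunr hsecond).2
  rw [layerH0, invariants_inf_fixSub_pow V k₀ hk₀ hord, invariants_inf_fixSub V k₀ hk₀] at h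
  exact h

end Main

/-! ## The norm as a product over the quotient -/

section NormForm

variable {K : Type} [Group K] [Finite K] {M : Type*} [CommGroup M] [MulDistribMulAction K M]
  (V : Subgroup K) [V.Normal] (k₀ : K) (hk₀ : ∀ g : K ⧸ V, g ∈ Subgroup.zpowers (k₀ : K ⧸ V))

/-- the relative norm `c ↦ ∏_{q ∈ K/V} q • c` (on `V`-invariant elements) -/
def relNormProd (c : M) : M := ∏ᶠ q : K ⧸ V, q.out • c

omit [Finite K] [V.Normal] in
lemma out_smul_eq_of_invariant {c : M} (hc : ∀ v ∈ V, v • c = c) (k : K) :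
    ((k : K ⧸ V)).out • c = k • c := by
  obtain ⟨v, hv⟩ := QuotientGroup.mk_out_eq_mul V k
  rw [hv, mul_smul, hc v v.2]

include hk₀ in
/-- for a cyclic quotient the relative norm is the cyclic norm -/
theorem cycNorm_eq_relNormProd {c : M} (hc : ∀ v ∈ V, v • c = c) :
    cycNorm (mulActEnd M k₀) (Nat.card (K ⧸ V)) c = relNormProd V c := by
  classical
  letI := Fintype.ofFinite (K ⧸ V)
  rw [relNormProd, finprod_eq_prod_of_fintype, cycNorm_apply]
  have hord : orderOf (k₀ : K ⧸ V) = Nat.card (K ⧸ V) :=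
    orderOf_eq_card_of_forall_mem_zpowers hk₀
  have hfin : IsOfFinOrder (k₀ : K ⧸ V) := isOfFinOrder_of_finite _
  rw [← hord]
  -- reindex along `i ↦ k̄₀ ^ i`
  have h1 : ∏ q : K ⧸ V, q.out • c =
      ∏ i : Fin (orderOf (k₀ : K ⧸ V)), ((k₀ : K ⧸ V) ^ (i : ℕ)).out • c := by
    refine (Fintype.prod_equiv ((finEquivZPowers hfin).trans
      ((Equiv.subtypeUnivEquiv (fun q => hk₀ q)))) _ _ (fun i => ?_)).symm
    rfl
  rw [h1, ← Fin.prod_univ_eq_prod_range (fun i => (mulActEnd M k₀ ^ i) c)]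
  refine Finset.prod_congr rfl fun i _ => ?_
  rw [mulActEnd_pow, mulActEnd_apply, ← QuotientGroup.mk_pow, out_smul_eq_of_invariant V hc]

end NormForm

end

end Fermat.Agent.CFT.Global
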