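/-
P4 / Layer C4: the cohomological form of the cyclic layers:
`LayerHyp p (Rep.ofMulDistribMulAction G (CS S L))` for a finite group `G` acting faithfully on a
number field `L` unramified outside `S`, given the second inequality; hence (dévissage, Layer A)
`H¹(P, C_S(L)) = 0` and `|H²(P, C_S(L))| ≤ |P|` for every `p`-subgroup `P ≤ G`.
-/
import Fermat.Agent.Lib.CFT.Global.Layer
import Fermat.Agent.Lib.CFT.Coh.Devissage
import Fermat.Agent.Lib.CFT.Coh.CyclicLink

set_option autoImplicit false
set_option linter.style.haveILetI false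
set_option linter.unusedSectionVars false

open CategoryTheory

namespace Fermat.Agent.CFT.Coh

open Herbrand

attribute [local instance] IsCyclic.commGroup in
/-- the cohomology of a finite cyclic group in degrees `1`, `2`, computed from a multiplicative
model of the module -/
theorem card_H2_H1_of_equiv {Q : Type} [Group Q] [Fintype Q] [IsCyclic Q] (A : Rep.{0} ℤ Q) (g : Q)
    (hg : ∀ x, x ∈ Subgroup.zpowers g) {M : Type} [CommGroup M] (σ : Monoid.End M) (n : ℕ)
    (hn : n = Fintype.card Q) (hσ : σ ^ n = 1) (e : A.V ≃+ Additive M)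
    (he : ∀ x, e (A.ρ g x) = addEnd σ (e x)) :
    Nat.card (groupCohomology A 2) = (mulPair σ n hσ).h0 ∧
      Nat.card (groupCohomology A 1) = (mulPair σ n hσ).h1 := by
  subst hn
  rw [card_H2_eq_h0 A g hg, card_H1_eq_h1 A g hg]
  let φ := Pair.ofCyclicHom (repEnd A g) (addEnd σ) (Fintype.card Q) (repEnd_pow_card A g)
    (addEnd_pow_eq_one hσ) e.toAddMonoidHom he
  exact ⟨Pair.h0_eq_of_equiv _ _ e φ.comm_f φ.comm_g, Pair.h1_eq_of_equiv _ _ e φ.comm_f φ.comm_g⟩

end Fermat.Agent.CFT.Coh

namespace Fermat.Agent.CFT.Global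

open Fermat.Agent.CFT.Coh Fermat.Agent.CFT.Coh.Herbrand

noncomputable section

variable {G L : Type} [Group G] [Finite G] [Field L] [NumberField L] [MulSemiringAction G L]
  [FaithfulSMul G L] {p : ℕ} [hp : Fact p.Prime] {S : Finset Nat.Primes}

omit [Finite G] [FaithfulSMul G L] in
lemma CS.compHom_smul_eq {K : Type} [Group K] (f : K →* G) (k : K) (c : CS S L) :
    (letI := MulSemiringAction.compHom L f; k • c) = f k • c := rfl

/-- **The cyclic layers** of `C_S(L)`: the hypothesis of the dévissage. -/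
theorem layerHyp_CS (hp2 : p ≠ 2) (hS : S.Nonempty) (hunr : UnramifiedOutside S L)
    (hsecond : SecondInequalityStatement p) :
    LayerHyp p (Rep.ofMulDistribMulAction G (CS S L)) := by
  classical
  rw [layerHyp_iff]
  intro K _ _ f hf V _ hV
  letI actK : MulSemiringAction K L := MulSemiringAction.compHom L f
  haveI : FaithfulSMul K L := ⟨fun {k₁ k₂} h => hf (eq_of_smul_eq_smul (α := L) h)⟩
  have hcard : Nat.card (K ⧸ V) = p := by rw [← hV, Subgroup.index_eq_card]
  haveI hcyc : IsCyclic (K ⧸ V) := isCyclic_of_prime_card hcard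
  obtain ⟨g, hg⟩ := IsCyclic.exists_generator (α := K ⧸ V)
  obtain ⟨k₀, rfl⟩ := QuotientGroup.mk_surjective g
  obtain ⟨h0, h1⟩ := layer_h0_h1 V hp2 hV k₀ hg hS hunr hsecond
  letI : Fintype (K ⧸ V) := Fintype.ofFinite _
  let A := (Rep.res f (Rep.ofMulDistribMulAction G (CS S L))).quotientToInvariants V
  let e : A.V ≃+ Additive (CS.invariants S V (L := L)) :=
    { toFun := fun x => Additive.ofMul ⟨(x.1 : Additive (CS S L)).toMul, fun v => by
        have := x.2 v
        exact congrArg Additive.toMul this⟩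
      invFun := fun y => ⟨Additive.ofMul (y.toMul : CS S L), fun v => by
        exact congrArg Additive.ofMul (y.toMul.2 v)⟩
      left_inv := fun x => rfl
      right_inv := fun y => rfl
      map_add' := fun x y => rfl }
  have he : ∀ x, e (A.ρ (k₀ : K ⧸ V) x) = addEnd (CS.invEnd V k₀) (e x) := fun x => rfl
  obtain ⟨c2, c1⟩ := card_H2_H1_of_equiv A (k₀ : K ⧸ V) hg (CS.invEnd V k₀) p
    (by rw [← hcard, Nat.card_eq_fintype_card]) (CS.invEnd_pow_eq_one V hV k₀) e he
  rw [h0] at c2
  rw [h1] at c1
  refine ⟨?_, ?_, le_of_eq c2⟩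
  · have := (Nat.card_eq_one_iff_unique.1 c1).1
    exact ModuleCat.isZero_of_subsingleton _
  · apply Nat.finite_of_card_ne_zero
    rw [c2]
    exact hp.out.ne_zero

/-- **Hilbert 90 and the second inequality for `p`-subgroups**: `H¹(P, C_S(L)) = 0` and
`|H²(P, C_S(L))| ≤ |P|` for every `p`-subgroup `P` of `G`. -/
theorem h1P_h2P_CS (hp2 : p ≠ 2) (hS : S.Nonempty) (hunr : UnramifiedOutside S L)
    (hsecond : SecondInequalityStatement p) (P : Subgroup G) (hP : IsPGroup p P) :
    Limits.IsZero (groupCohomology (Rep.res P.subtype (Rep.ofMulDistribMulAction G (CS S L))) 1) ∧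
      Finite (groupCohomology (Rep.res P.subtype (Rep.ofMulDistribMulAction G (CS S L))) 2) ∧
      Nat.card (groupCohomology (Rep.res P.subtype (Rep.ofMulDistribMulAction G (CS S L))) 2) ≤
        Nat.card P :=
  devissage_core p _ P rfl hP _
    ((layerHyp_CS hp2 hS hunr hsecond).res P.subtype P.subtype_injective)

end

end Fermat.Agent.CFT.Global
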