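/-
P4 / Layer C: the projections `C_S(K) → C_{S'}(K)` for `S' ⊆ S`.
-/
import Fermat.Agent.Lib.CFT.Global.Defs

set_option autoImplicit false
set_option linter.unusedSectionVars false

namespace Fermat.Agent.CFT.Global

noncomputable section

variable {S S' : Finset Nat.Primes} (h : S' ⊆ S) (K : Type) [Field K] [CharZero K]

include h in
lemma unitsOutside_anti : unitsOutside S K ≤ unitsOutside S' K := by
  intro x hx
  refine ⟨fun q hq => hx.1 q (h hq), fun q hq => ?_⟩
  by_cases hqS : q ∈ S
  · rw [hx.1 q hqS]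
    exact one_mem _
  · exact hx.2 q hqS

variable [Algebra.IsAlgebraic ℚ K]

include h in
lemma CS.relations_anti : CS.relations S K ≤ CS.relations S' K :=
  sup_le_sup_left (unitsOutside_anti h K) _

/-- the projection `C_S(K) → C_{S'}(K)` for `S' ⊆ S` -/
def CS.proj : CS S K →* CS S' K :=
  QuotientGroup.map _ _ (MonoidHom.id (FinIdele K)) (fun _ hx => CS.relations_anti h K hx)

@[simp] lemma CS.proj_mk (x : FinIdele K) : CS.proj h K (CS.mk S K x) = CS.mk S' K x := rfl

lemma CS.proj_surjective : Function.Surjective (CS.proj h K) := by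
  intro y
  obtain ⟨x, rfl⟩ := CS.mk_surjective S' y
  exact ⟨CS.mk S K x, rfl⟩

variable {K} {L : Type} [Field L] [CharZero L] [Algebra.IsAlgebraic ℚ L]

lemma CS.proj_map (f : K →+* L) (x : CS S K) :
    CS.proj h L (CS.map S f x) = CS.map S' f (CS.proj h K x) := by
  obtain ⟨x, rfl⟩ := CS.mk_surjective S x
  rfl

lemma CS.proj_smul {G : Type} [Group G] [MulSemiringAction G K] (g : G) (x : CS S K) :
    CS.proj h K (g • x) = g • CS.proj h K x :=
  CS.proj_map h _ x

end

end Fermat.Agent.CFT.Global
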