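/-
P4 / Layer C, task C0 (helper5): Kummer theory of exponent `n` (`μ_n ⊆ K`) for arbitrary finite
abelian extensions / finite subgroups of `Kˣ/Kˣⁿ`.  Pure field theory.

Main objects, for a field extension `L/K` and `n : ℕ`:
* `rootGroup K L n`   : the subgroup `B = {β ∈ Lˣ | βⁿ ∈ K}` of `Lˣ`;
* `kummerGroup K L n` : the subgroup `Δ(L) = Kˣ ∩ Lˣⁿ` of `Kˣ`;
* `kummerChar β σ = σ β / β`.
-/
import Mathlib

set_option autoImplicit false
set_option linter.unusedSectionVars false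
set_option linter.style.haveILetI false

namespace Fermat.Agent.CFT.Global.Kummer

open IntermediateField

variable (K L : Type*) [Field K] [Field L] [Algebra K L]

/-- the inclusion `Kˣ → Lˣ` -/
def unitsIncl : Kˣ →* Lˣ := Units.map (algebraMap K L : K →* L)

@[simp]
theorem coe_unitsIncl (a : Kˣ) : ((unitsIncl K L a : Lˣ) : L) = algebraMap K L a := rfl

theorem unitsIncl_injective : Function.Injective (unitsIncl K L) :=
  Units.map_injective (algebraMap K L).injective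

/-- `B = {β ∈ Lˣ | βⁿ ∈ K}` -/
def rootGroup (n : ℕ) : Subgroup Lˣ := (unitsIncl K L).range.comap (powMonoidHom n)

/-- `Δ(L) = Kˣ ∩ Lˣⁿ` -/
def kummerGroup (n : ℕ) : Subgroup Kˣ := (powMonoidHom n : Lˣ →* Lˣ).range.comap (unitsIncl K L)

variable {K L}

theorem mem_rootGroup {n : ℕ} {β : Lˣ} :
    β ∈ rootGroup K L n ↔ ∃ a : Kˣ, unitsIncl K L a = β ^ n := Iff.rfl

theorem mem_kummerGroup {n : ℕ} {a : Kˣ} :
    a ∈ kummerGroup K L n ↔ ∃ β : Lˣ, β ^ n = unitsIncl K L a := Iff.rfl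

theorem range_unitsIncl_le_rootGroup (n : ℕ) : (unitsIncl K L).range ≤ rootGroup K L n := by
  rintro _ ⟨a, rfl⟩
  exact ⟨a ^ n, map_pow _ _ _⟩

theorem range_pow_le_kummerGroup (n : ℕ) :
    (powMonoidHom n : Kˣ →* Kˣ).range ≤ kummerGroup K L n := by
  rintro _ ⟨a, rfl⟩
  exact ⟨unitsIncl K L a, (map_pow _ _ _).symm⟩

/-- the Kummer character `σ ↦ σ β / β` -/
def kummerChar (β : Lˣ) (σ : Gal(L/K)) : Lˣ := σ • β / β

theorem kummerChar_def (β : Lˣ) (σ : Gal(L/K)) : kummerChar β σ = σ • β / β := rfl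

theorem smul_unitsIncl (σ : Gal(L/K)) (a : Kˣ) : σ • unitsIncl K L a = unitsIncl K L a := by
  ext
  simp [AlgEquiv.smul_units_def]

theorem kummerChar_pow_eq_one {n : ℕ} {β : Lˣ} (hβ : β ∈ rootGroup K L n) (σ : Gal(L/K)) :
    kummerChar β σ ^ n = 1 := by
  obtain ⟨a, ha⟩ := hβ
  have ha' : unitsIncl K L a = β ^ n := ha
  rw [kummerChar, div_pow, ← smul_pow', ← ha', smul_unitsIncl, div_self']

section PrimitiveRoot

variable {n : ℕ} [NeZero n] {ζ : K} (hζ : IsPrimitiveRoot ζ n)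

include hζ

/-- all `n`-th roots of unity of `L` come from `K` -/
theorem exists_unitsIncl_eq_of_pow_eq_one {ξ : Lˣ} (hξ : ξ ^ n = 1) :
    ∃ r : Kˣ, r ^ n = 1 ∧ unitsIncl K L r = ξ := by
  have hζL : IsPrimitiveRoot (algebraMap K L ζ) n := hζ.map_of_injective (algebraMap K L).injective
  have hξ' : (ξ : L) ^ n = 1 := by
    rw [← Units.val_pow_eq_pow_val, hξ, Units.val_one]
  obtain ⟨i, -, hi⟩ := hζL.eq_pow_of_pow_eq_one hξ'
  have hu : IsUnit ζ := hζ.isUnit (NeZero.ne n)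
  refine ⟨hu.unit ^ i, ?_, ?_⟩
  · rw [← pow_mul, mul_comm, pow_mul]
    have : hu.unit ^ n = 1 := by
      ext
      simp [hζ.pow_eq_one]
    rw [this, one_pow]
  · ext
    simp [← hi]

theorem smul_eq_of_pow_eq_one {ξ : Lˣ} (hξ : ξ ^ n = 1) (σ : Gal(L/K)) : σ • ξ = ξ := by
  obtain ⟨r, -, rfl⟩ := exists_unitsIncl_eq_of_pow_eq_one hζ hξ
  exact smul_unitsIncl σ r

theorem kummerChar_mul_right {β : Lˣ} (hβ : β ∈ rootGroup K L n) (σ τ : Gal(L/K)) :
    kummerChar β (σ * τ) = kummerChar β σ * kummerChar β τ := by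
  have h1 := smul_eq_of_pow_eq_one hζ (kummerChar_pow_eq_one hβ τ) σ
  rw [kummerChar, smul_div'] at h1
  rw [kummerChar, kummerChar, kummerChar, mul_smul]
  rw [div_eq_iff_eq_mul] at h1
  rw [h1, mul_div_assoc, mul_comm]

/-- the Kummer character of `β ∈ B` as a homomorphism `Gal(L/K) →* Lˣ` -/
def kummerHom {β : Lˣ} (hβ : β ∈ rootGroup K L n) : Gal(L/K) →* Lˣ where
  toFun := kummerChar β
  map_one' := by simp [kummerChar]
  map_mul' := kummerChar_mul_right hζ hβ

@[simp]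
theorem kummerHom_apply {β : Lˣ} (hβ : β ∈ rootGroup K L n) (σ : Gal(L/K)) :
    kummerHom hζ hβ σ = σ • β / β := rfl

/-- the Kummer pairing as a homomorphism `B →* Hom(Gal(L/K), Lˣ)` -/
def kummerPairing : ↥(rootGroup K L n) →* (Gal(L/K) →* Lˣ) where
  toFun β := kummerHom hζ β.2
  map_one' := by
    ext σ
    simp
  map_mul' β γ := by
    ext σ
    simp only [kummerHom_apply, Subgroup.coe_mul, MonoidHom.mul_apply, smul_mul', Units.val_mul,
      Units.val_div_eq_div_val]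
    have h1 : ((β : Lˣ) : L) ≠ 0 := Units.ne_zero _
    have h2 : ((γ : Lˣ) : L) ≠ 0 := Units.ne_zero _
    field_simp

@[simp]
theorem kummerPairing_apply (β : ↥(rootGroup K L n)) (σ : Gal(L/K)) :
    kummerPairing hζ β σ = σ • (β : Lˣ) / β := rfl

end PrimitiveRoot

/-! ### The main theorem for a finite abelian extension of exponent `n` -/

section Main

variable {n : ℕ} [NeZero n] {ζ : K} (hζ : IsPrimitiveRoot ζ n) [FiniteDimensional K L]

include hζ

/-- `L` has enough `n`-th roots of unity -/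
theorem hasEnoughRootsOfUnity : HasEnoughRootsOfUnity L n where
  prim := ⟨algebraMap K L ζ, hζ.map_of_injective (algebraMap K L).injective⟩
  cyc := rootsOfUnity.isCyclic L n

/-- Hilbert 90: every character with values in the `n`-th roots of unity is a Kummer character -/
theorem exists_kummerChar_eq (χ : Gal(L/K) →* Lˣ) (hχ : ∀ σ, χ σ ^ n = 1) :
    ∃ β : Lˣ, ∀ σ : Gal(L/K), σ • β / β = χ σ := by
  have hcoc : groupCohomology.IsMulCocycle₁ (fun σ => χ σ) := by
    intro σ τ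
    show χ (σ * τ) = σ • χ τ * χ σ
    rw [map_mul, smul_eq_of_pow_eq_one hζ (hχ τ) σ, mul_comm]
  exact groupCohomology.isMulCoboundary₁_of_isMulCocycle₁_of_aut_to_units _ hcoc

omit hζ in
theorem mem_range_unitsIncl_iff [IsGalois K L] {β : Lˣ} :
    β ∈ (unitsIncl K L).range ↔ ∀ σ : Gal(L/K), σ • β = β := by
  constructor
  · rintro ⟨a, rfl⟩ σ
    exact smul_unitsIncl σ a
  · intro h
    have h' : ∀ σ : Gal(L/K), σ (β : L) = β := fun σ => by
      have := congrArg Units.val (h σ)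
      simpa [AlgEquiv.smul_units_def] using this
    obtain ⟨a, ha⟩ := (IsGalois.mem_range_algebraMap_iff_fixed (β : L)).mpr h'
    have ha0 : a ≠ 0 := by
      rintro rfl
      rw [map_zero] at ha
      exact β.ne_zero ha.symm
    exact ⟨Units.mk0 a ha0, Units.ext ha⟩

omit hζ in
theorem mem_rootGroup_of_forall [IsGalois K L] {β : Lˣ}
    (h : ∀ σ : Gal(L/K), (σ • β / β) ^ n = 1) : β ∈ rootGroup K L n := by
  show β ^ n ∈ (unitsIncl K L).range
  rw [mem_range_unitsIncl_iff]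
  intro σ
  have := h σ
  rwa [div_pow, div_eq_one, ← smul_pow'] at this

theorem kummerPairing_surjective [IsGalois K L] (hexp : ∀ σ : Gal(L/K), σ ^ n = 1) :
    Function.Surjective (kummerPairing (L := L) hζ) := by
  intro χ
  have hχ : ∀ σ, χ σ ^ n = 1 := fun σ => by rw [← map_pow, hexp, map_one]
  obtain ⟨β, hβ⟩ := exists_kummerChar_eq hζ χ hχ
  have hmem : β ∈ rootGroup K L n := mem_rootGroup_of_forall fun σ => by rw [hβ]; exact hχ σ
  refine ⟨⟨β, hmem⟩, ?_⟩
  ext σ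
  rw [kummerPairing_apply]
  exact congrArg Units.val (hβ σ)

theorem ker_kummerPairing [IsGalois K L] :
    (kummerPairing (L := L) hζ).ker = (unitsIncl K L).range.subgroupOf (rootGroup K L n) := by
  ext β
  rw [MonoidHom.mem_ker, Subgroup.mem_subgroupOf, mem_range_unitsIncl_iff]
  constructor
  · intro h σ
    have := DFunLike.congr_fun h σ
    rwa [kummerPairing_apply, MonoidHom.one_apply, div_eq_one] at this
  · intro h
    ext σ
    rw [kummerPairing_apply, h σ, div_self']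
    rfl

/-- characters of `Gal(L/K)` (abelian of exponent `n`) separate points -/
theorem eq_one_of_forall_char (hcomm : ∀ σ τ : Gal(L/K), σ * τ = τ * σ)
    (hexp : ∀ σ : Gal(L/K), σ ^ n = 1) {σ : Gal(L/K)} (h : ∀ χ : Gal(L/K) →* Lˣ, χ σ = 1) :
    σ = 1 := by
  letI : CommGroup Gal(L/K) := { (inferInstance : Group Gal(L/K)) with mul_comm := hcomm }
  haveI := hasEnoughRootsOfUnity (L := L) hζ
  haveI : HasEnoughRootsOfUnity L (Monoid.exponent Gal(L/K)) :=
    HasEnoughRootsOfUnity.of_dvd L (Monoid.exponent_dvd_of_forall_pow_eq_one hexp)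
  exact (CommGroup.forall_apply_eq_apply_iff Gal(L/K) (M := L) (g := σ) (g' := 1)).mp
    fun χ => by rw [h χ, map_one]

theorem card_char_eq (hcomm : ∀ σ τ : Gal(L/K), σ * τ = τ * σ)
    (hexp : ∀ σ : Gal(L/K), σ ^ n = 1) : Nat.card (Gal(L/K) →* Lˣ) = Nat.card Gal(L/K) := by
  letI : CommGroup Gal(L/K) := { (inferInstance : Group Gal(L/K)) with mul_comm := hcomm }
  haveI := hasEnoughRootsOfUnity (L := L) hζ
  haveI : HasEnoughRootsOfUnity L (Monoid.exponent Gal(L/K)) :=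
    HasEnoughRootsOfUnity.of_dvd L (Monoid.exponent_dvd_of_forall_pow_eq_one hexp)
  exact CommGroup.card_monoidHom_of_hasEnoughRootsOfUnity Gal(L/K) L

/-- **Kummer theory I**: `[B : Kˣ] = [L : K]` for a finite abelian extension of exponent `n` -/
theorem relIndex_rootGroup [IsGalois K L] (hcomm : ∀ σ τ : Gal(L/K), σ * τ = τ * σ)
    (hexp : ∀ σ : Gal(L/K), σ ^ n = 1) :
    (unitsIncl K L).range.relIndex (rootGroup K L n) = Module.finrank K L := by
  rw [Subgroup.relIndex, ← ker_kummerPairing hζ, Subgroup.index_ker,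
    MonoidHom.range_eq_top.mpr (kummerPairing_surjective hζ hexp), Subgroup.card_top,
    card_char_eq hζ hcomm hexp, IsGalois.card_aut_eq_finrank]

/-- **Kummer theory II**: a finite abelian extension of exponent `n` is generated by `n`-th roots
of elements of `K` -/
theorem adjoin_rootGroup_eq_top [IsGalois K L] (hcomm : ∀ σ τ : Gal(L/K), σ * τ = τ * σ)
    (hexp : ∀ σ : Gal(L/K), σ ^ n = 1) :
    IntermediateField.adjoin K {x : L | ∃ β ∈ rootGroup K L n, (β : L) = x} = ⊤ := by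
  set E := IntermediateField.adjoin K {x : L | ∃ β ∈ rootGroup K L n, (β : L) = x} with hE
  have hfix : E.fixingSubgroup = ⊥ := by
    rw [eq_bot_iff]
    intro σ hσ
    rw [Subgroup.mem_bot]
    apply eq_one_of_forall_char hζ hcomm hexp
    intro χ
    have hχ : ∀ σ, χ σ ^ n = 1 := fun σ => by rw [← map_pow, hexp, map_one]
    obtain ⟨β, hβ⟩ := exists_kummerChar_eq hζ χ hχ
    have hmem : β ∈ rootGroup K L n := mem_rootGroup_of_forall fun σ => by rw [hβ]; exact hχ σ
    have hβE : (β : L) ∈ E := IntermediateField.subset_adjoin K _ ⟨β, hmem, rfl⟩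
    have hσβ : σ (β : L) = β := (IntermediateField.mem_fixingSubgroup_iff E σ).mp hσ _ hβE
    rw [← hβ σ, div_eq_one]
    ext
    simpa [AlgEquiv.smul_units_def] using hσβ
  rw [← IsGalois.fixedField_fixingSubgroup E, hfix, IntermediateField.fixedField_bot]

end Main

/-! ### Transfer between `B`-type subgroups of `Lˣ` and subgroups of `Kˣ` -/

section Transfer

variable (L) in
/-- `{β ∈ Lˣ | βⁿ ∈ Δ}` for a subgroup `Δ ≤ Kˣ` -/
def rootGroupOf (Δ : Subgroup Kˣ) (n : ℕ) : Subgroup Lˣ :=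
  (Δ.map (unitsIncl K L)).comap (powMonoidHom n)

theorem mem_rootGroupOf {Δ : Subgroup Kˣ} {n : ℕ} {β : Lˣ} :
    β ∈ rootGroupOf L Δ n ↔ ∃ a ∈ Δ, unitsIncl K L a = β ^ n := Iff.rfl

theorem rootGroupOf_top (n : ℕ) : rootGroupOf L (⊤ : Subgroup Kˣ) n = rootGroup K L n := by
  ext β
  rw [mem_rootGroupOf, mem_rootGroup]
  simp

theorem rootGroupOf_mono {Δ Δ' : Subgroup Kˣ} (h : Δ ≤ Δ') (n : ℕ) :
    rootGroupOf L Δ n ≤ rootGroupOf L Δ' n := by
  rintro β ⟨a, ha, hβ⟩
  exact ⟨a, h ha, hβ⟩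

theorem rootGroupOf_le_rootGroup (Δ : Subgroup Kˣ) (n : ℕ) :
    rootGroupOf L Δ n ≤ rootGroup K L n := by
  rw [← rootGroupOf_top]
  exact rootGroupOf_mono le_top n

theorem range_unitsIncl_le_rootGroupOf {Δ : Subgroup Kˣ} {n : ℕ}
    (hΔ : (powMonoidHom n : Kˣ →* Kˣ).range ≤ Δ) :
    (unitsIncl K L).range ≤ rootGroupOf L Δ n := by
  rintro _ ⟨a, rfl⟩
  exact ⟨a ^ n, hΔ ⟨a, rfl⟩, map_pow _ _ _⟩

variable {n : ℕ} [NeZero n] {ζ : K} (hζ : IsPrimitiveRoot ζ n)

include hζ in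
theorem ker_pow_le_range_unitsIncl :
    (powMonoidHom n : Lˣ →* Lˣ).ker ≤ (unitsIncl K L).range := by
  intro ξ hξ
  obtain ⟨r, -, hr⟩ := exists_unitsIncl_eq_of_pow_eq_one hζ (MonoidHom.mem_ker.mp hξ)
  exact ⟨r, hr⟩

omit [NeZero n] in
theorem ker_pow_le_rootGroupOf (Δ : Subgroup Kˣ) :
    (powMonoidHom n : Lˣ →* Lˣ).ker ≤ rootGroupOf L Δ n := by
  intro ξ hξ
  refine ⟨1, one_mem _, ?_⟩
  rw [map_one]
  exact (MonoidHom.mem_ker.mp hξ).symm

include hζ in
/-- `[{β | βⁿ ∈ Δ} : Kˣ] = [Δ : Kˣⁿ]` for `Δ ≤ Kˣ ∩ Lˣⁿ` -/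
theorem relIndex_rootGroupOf {Δ : Subgroup Kˣ} (hΔ : Δ ≤ kummerGroup K L n) :
    (unitsIncl K L).range.relIndex (rootGroupOf L Δ n)
      = (powMonoidHom n : Kˣ →* Kˣ).range.relIndex Δ := by
  have h1 := Subgroup.relIndex_map_map (powMonoidHom n : Lˣ →* Lˣ) (unitsIncl K L).range
    (rootGroupOf L Δ n)
  rw [sup_eq_left.mpr (ker_pow_le_range_unitsIncl hζ),
    sup_eq_left.mpr (ker_pow_le_rootGroupOf Δ)] at h1
  rw [← h1]
  have h2 : (unitsIncl K L).range.map (powMonoidHom n : Lˣ →* Lˣ)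
      = ((powMonoidHom n : Kˣ →* Kˣ).range).map (unitsIncl K L) := by
    rw [MonoidHom.map_range, MonoidHom.map_range]
    congr 1
    ext a
    simp
  have h3 : (rootGroupOf L Δ n).map (powMonoidHom n : Lˣ →* Lˣ) = Δ.map (unitsIncl K L) := by
    rw [rootGroupOf, Subgroup.map_comap_eq_self]
    rintro _ ⟨a, ha, rfl⟩
    obtain ⟨β, hβ⟩ := hΔ ha
    exact ⟨β, hβ⟩
  rw [h2, h3, Subgroup.relIndex_map_map_of_injective _ _ (unitsIncl_injective K L)]

include hζ in
theorem relIndex_kummerGroup :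
    (powMonoidHom n : Kˣ →* Kˣ).range.relIndex (kummerGroup K L n)
      = (unitsIncl K L).range.relIndex (rootGroup K L n) := by
  rw [← relIndex_rootGroupOf hζ le_rfl]
  congr 1
  ext β
  rw [mem_rootGroupOf, mem_rootGroup]
  constructor
  · rintro ⟨a, -, ha⟩
    exact ⟨a, ha⟩
  · rintro ⟨a, ha⟩
    exact ⟨a, ⟨β, ha.symm⟩, ha⟩

include hζ in
/-- **Kummer theory I'**: `[Kˣ ∩ Lˣⁿ : Kˣⁿ] = [L : K]` for a finite abelian extension of
exponent `n` -/
theorem relIndex_kummerGroup_eq_finrank [FiniteDimensional K L] [IsGalois K L]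
    (hcomm : ∀ σ τ : Gal(L/K), σ * τ = τ * σ) (hexp : ∀ σ : Gal(L/K), σ ^ n = 1) :
    (powMonoidHom n : Kˣ →* Kˣ).range.relIndex (kummerGroup K L n) = Module.finrank K L := by
  rw [relIndex_kummerGroup hζ, relIndex_rootGroup hζ hcomm hexp]

end Transfer

/-! ### The extension generated by the `n`-th roots of a subgroup `Δ ≤ Kˣ` -/

section Generated

open Polynomial

/-- two automorphisms agreeing on a generating set are equal -/
theorem algEquiv_ext_of_adjoin_eq_top {S : Set L} (hS : IntermediateField.adjoin K S = ⊤)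
    {σ τ : Gal(L/K)} (h : ∀ x ∈ S, σ x = τ x) : σ = τ := by
  ext x
  have hx : x ∈ IntermediateField.adjoin K S := by rw [hS]; exact IntermediateField.mem_top
  induction hx using IntermediateField.adjoin_induction with
  | mem x hx => exact h x hx
  | algebraMap x => rw [AlgEquiv.commutes, AlgEquiv.commutes]
  | add x y _ _ hx hy => rw [map_add, map_add, hx, hy]
  | inv x _ hx => rw [map_inv₀, map_inv₀, hx]
  | mul x y _ _ hx hy => rw [map_mul, map_mul, hx, hy]

variable {n : ℕ} [NeZero n] {ζ : K} (hζ : IsPrimitiveRoot ζ n) (Δ : Subgroup Kˣ)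

/-- the set of `n`-th roots in `L` of the elements of `Δ` -/
def rootSetOf (Δ : Subgroup Kˣ) (n : ℕ) : Set L := {x : L | ∃ β ∈ rootGroupOf L Δ n, (β : L) = x}

theorem smul_eq_kummerChar_mul (β : Lˣ) (σ : Gal(L/K)) : σ • β = kummerChar β σ * β := by
  rw [kummerChar, div_mul_cancel]

include hζ in
theorem isIntegral_splits_separable_of_mem_rootSetOf {x : L} (hx : x ∈ rootSetOf (L := L) Δ n) :
    IsIntegral K x ∧ ((minpoly K x).map (algebraMap K L)).Splits ∧ IsSeparable K x := by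
  obtain ⟨β, ⟨a, -, ha⟩, rfl⟩ := hx
  have ha' : unitsIncl K L a = β ^ n := ha
  have hroot : (β : L) ^ n = algebraMap K L a := by
    have := congrArg Units.val ha'
    rw [coe_unitsIncl, Units.val_pow_eq_pow_val] at this
    exact this.symm
  have hn0 : n ≠ 0 := NeZero.ne n
  have hmonic : (X ^ n - C (a : K)).Monic := monic_X_pow_sub_C _ hn0
  have haeval : aeval (β : L) (X ^ n - C (a : K)) = 0 := by
    rw [map_sub, map_pow, aeval_X, aeval_C, hroot, sub_self]
  have hint : IsIntegral K (β : L) := ⟨_, hmonic, haeval⟩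
  have hdvd : minpoly K (β : L) ∣ X ^ n - C (a : K) := minpoly.dvd K _ haeval
  have hζL : IsPrimitiveRoot (algebraMap K L ζ) n := hζ.map_of_injective (algebraMap K L).injective
  have hsplit : ((X ^ n - C (a : K)).map (algebraMap K L)).Splits := by
    rw [Polynomial.map_sub, Polynomial.map_pow, map_X, map_C]
    exact X_pow_sub_C_splits_of_isPrimitiveRoot hζL hroot
  have hne : (X ^ n - C (a : K)).map (algebraMap K L) ≠ 0 :=
    (hmonic.map (algebraMap K L)).ne_zero
  refine ⟨hint, hsplit.of_dvd hne (Polynomial.map_dvd _ hdvd), ?_⟩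
  have hnK : ((n : ℕ) : K) ≠ 0 := (hζ.neZero').ne
  have hsep : (X ^ n - C (a : K)).Separable := separable_X_pow_sub_C _ hnK a.ne_zero
  exact hsep.of_dvd hdvd

variable (hgen : IntermediateField.adjoin K (rootSetOf (L := L) Δ n) = ⊤)

include hζ hgen

theorem isGalois_of_adjoin_rootSetOf : IsGalois K L := by
  have h := fun x hx => isIntegral_splits_separable_of_mem_rootSetOf (L := L) hζ Δ (x := x) hx
  rw [isGalois_iff]
  constructor
  · rw [← IntermediateField.isSeparable_top, ← hgen,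
      IntermediateField.isSeparable_adjoin_iff_isSeparable]
    exact fun x hx => (h x hx).2.2
  · rw [normal_iff]
    intro x
    have hx : x ∈ IntermediateField.adjoin K (rootSetOf (L := L) Δ n) := by
      rw [hgen]; exact IntermediateField.mem_top
    have halg : Algebra.IsAlgebraic K (IntermediateField.adjoin K (rootSetOf (L := L) Δ n)) :=
      IntermediateField.isAlgebraic_adjoin fun x hx => (h x hx).1
    refine ⟨?_, IntermediateField.splits_of_mem_adjoin K L
      (fun x hx => ⟨(h x hx).1, (h x hx).2.1⟩) hx⟩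
    have := (halg.isAlgebraic ⟨x, hx⟩).isIntegral
    exact (isIntegral_algHom_iff (IntermediateField.val _) Subtype.val_injective).mpr this

theorem comm_of_adjoin_rootSetOf (σ τ : Gal(L/K)) : σ * τ = τ * σ := by
  apply algEquiv_ext_of_adjoin_eq_top hgen
  rintro _ ⟨β, hβ, rfl⟩
  have hβ' : β ∈ rootGroup K L n := rootGroupOf_le_rootGroup Δ n hβ
  have h1 : kummerChar β (σ * τ) = kummerChar β (τ * σ) := by
    rw [kummerChar_mul_right hζ hβ', kummerChar_mul_right hζ hβ', mul_comm]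
  have h2 : (σ * τ) • β = (τ * σ) • β := by
    rw [smul_eq_kummerChar_mul, smul_eq_kummerChar_mul, h1]
  simpa [AlgEquiv.smul_units_def] using congrArg Units.val h2

theorem pow_eq_one_of_adjoin_rootSetOf (σ : Gal(L/K)) : σ ^ n = 1 := by
  apply algEquiv_ext_of_adjoin_eq_top hgen
  rintro _ ⟨β, hβ, rfl⟩
  have hβ' : β ∈ rootGroup K L n := rootGroupOf_le_rootGroup Δ n hβ
  have h1 : kummerChar β (σ ^ n) = 1 := by
    have := map_pow (kummerHom hζ hβ') σ n
    rw [kummerHom_apply, kummerHom_apply, ← kummerChar_def, ← kummerChar_def,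
      kummerChar_pow_eq_one hβ'] at this
    exact this
  have h2 : (σ ^ n) • β = β := by
    rw [smul_eq_kummerChar_mul, h1, one_mul]
  simpa [AlgEquiv.smul_units_def] using congrArg Units.val h2

/-- `L` is spanned over `K` by the roots -/
theorem span_rootSetOf_eq_top : Submodule.span K (rootSetOf (L := L) Δ n) = ⊤ := by
  have h := fun x hx => isIntegral_splits_separable_of_mem_rootSetOf (L := L) hζ Δ (x := x) hx
  have hclosure : Submonoid.closure (rootSetOf (L := L) Δ n)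
      = ((rootGroupOf L Δ n).toSubmonoid.map (Units.coeHom L)) := by
    apply le_antisymm
    · rw [Submonoid.closure_le]
      rintro _ ⟨β, hβ, rfl⟩
      exact ⟨β, hβ, rfl⟩
    · rintro _ ⟨β, hβ, rfl⟩
      exact Submonoid.subset_closure ⟨β, hβ, rfl⟩
  have h1 : (Algebra.adjoin K (rootSetOf (L := L) Δ n)).toSubmodule
      = Submodule.span K (rootSetOf (L := L) Δ n) := by
    rw [Algebra.adjoin_eq_span, hclosure]
    congr 1
  rw [← h1, ← IntermediateField.adjoin_toSubalgebra_of_isAlgebraic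
    (fun x hx => (h x hx).1.isAlgebraic), hgen]
  rfl

/-- the degree is bounded by the number of classes of roots modulo `Kˣ` -/
theorem finrank_le_relIndex
    (hfin : (unitsIncl K L).range.relIndex (rootGroupOf L Δ n) ≠ 0) :
    FiniteDimensional K L ∧
      Module.finrank K L ≤ (unitsIncl K L).range.relIndex (rootGroupOf L Δ n) := by
  classical
  set A := (unitsIncl K L).range with hA
  set B := rootGroupOf L Δ n with hB
  haveI : (A.subgroupOf B).FiniteIndex := ⟨hfin⟩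
  haveI : Finite (↥B ⧸ A.subgroupOf B) := Subgroup.finite_quotient_of_finiteIndex
  letI : Fintype (↥B ⧸ A.subgroupOf B) := Fintype.ofFinite _
  let b : (↥B ⧸ A.subgroupOf B) → L := fun q => ((q.out : ↥B) : Lˣ)
  have hspan : Submodule.span K (Set.range b) = ⊤ := by
    rw [eq_top_iff, ← span_rootSetOf_eq_top hζ Δ hgen, Submodule.span_le]
    rintro _ ⟨β, hβ, rfl⟩
    obtain ⟨⟨⟨h, hhB⟩, hh⟩, hout⟩ :=
      QuotientGroup.mk_out_eq_mul (A.subgroupOf B) (⟨β, hβ⟩ : ↥B)
    obtain ⟨c, hc⟩ : h ∈ A := hh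
    have h1 : (((QuotientGroup.mk (⟨β, hβ⟩ : ↥B) : ↥B ⧸ A.subgroupOf B).out : ↥B) : Lˣ)
        = β * h := by
      have := congrArg (fun z : ↥B => (z : Lˣ)) hout
      exact this
    have h2 : (β : L) = (c⁻¹ : Kˣ) • b (QuotientGroup.mk (⟨β, hβ⟩ : ↥B)) := by
      show (β : L) = (c⁻¹ : Kˣ) • ((((QuotientGroup.mk (⟨β, hβ⟩ : ↥B) :
        ↥B ⧸ A.subgroupOf B).out : ↥B) : Lˣ) : L)
      rw [h1, ← hc, Units.smul_def, Algebra.smul_def, Units.val_mul, coe_unitsIncl,
        Units.val_inv_eq_inv_val, map_inv₀]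
      have hc0 : algebraMap K L (c : K) ≠ 0 := by
        rw [← coe_unitsIncl]; exact Units.ne_zero _
      field_simp
    rw [h2]
    exact Submodule.smul_mem _ _ (Submodule.subset_span ⟨_, rfl⟩)
  have hfd : FiniteDimensional K L := by
    rw [FiniteDimensional, Module.finite_def, ← hspan]
    exact Submodule.fg_span (Set.finite_range b)
  refine ⟨hfd, ?_⟩
  have h1 := finrank_range_le_card (R := K) b
  rw [Set.finrank, hspan, finrank_top] at h1
  rw [Subgroup.relIndex, Subgroup.index, Nat.card_eq_fintype_card]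
  exact h1

/-- **Kummer theory III**: the extension `L = K(Δ^{1/n})` generated by the `n`-th roots of a
subgroup `Δ ≤ Kˣ` with `[Δ Kˣⁿ : Kˣⁿ]` finite. -/
theorem kummer_generated (hΔ : Δ ≤ kummerGroup K L n)
    (hfin : (powMonoidHom n : Kˣ →* Kˣ).range.relIndex Δ ≠ 0) :
    FiniteDimensional K L ∧ IsGalois K L ∧ (∀ σ τ : Gal(L/K), σ * τ = τ * σ) ∧
      (∀ σ : Gal(L/K), σ ^ n = 1) ∧
      Module.finrank K L = (powMonoidHom n : Kˣ →* Kˣ).range.relIndex Δ ∧
      kummerGroup K L n = Δ ⊔ (powMonoidHom n : Kˣ →* Kˣ).range := by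
  have hrel := relIndex_rootGroupOf (L := L) hζ hΔ
  obtain ⟨hfd, hle⟩ := finrank_le_relIndex hζ Δ hgen (by rw [hrel]; exact hfin)
  haveI := hfd
  haveI := isGalois_of_adjoin_rootSetOf hζ Δ hgen
  have hcomm := comm_of_adjoin_rootSetOf hζ Δ hgen
  have hexp := pow_eq_one_of_adjoin_rootSetOf hζ Δ hgen
  have hT1 := relIndex_kummerGroup_eq_finrank (L := L) hζ hcomm hexp
  have hpos : 0 < Module.finrank K L := Module.finrank_pos
  have hle2 : (powMonoidHom n : Kˣ →* Kˣ).range.relIndex Δ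
      ≤ (powMonoidHom n : Kˣ →* Kˣ).range.relIndex (kummerGroup K L n) :=
    Subgroup.relIndex_le_of_le_right hΔ (by rw [hT1]; omega)
  rw [hrel] at hle
  have heq : Module.finrank K L = (powMonoidHom n : Kˣ →* Kˣ).range.relIndex Δ := by omega
  refine ⟨hfd, inferInstance, hcomm, hexp, heq, ?_⟩
  apply le_antisymm
  · rw [← Subgroup.relIndex_eq_one]
    have h1 := Subgroup.relIndex_mul_relIndex (powMonoidHom n : Kˣ →* Kˣ).range
      (Δ ⊔ (powMonoidHom n : Kˣ →* Kˣ).range) (kummerGroup K L n) le_sup_right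
      (sup_le hΔ (range_pow_le_kummerGroup n))
    rw [Subgroup.relIndex_sup_right, hT1, ← heq] at h1
    exact Nat.eq_of_mul_eq_mul_left hpos (h1.trans (mul_one _).symm)
  · exact sup_le hΔ (range_pow_le_kummerGroup n)

end Generated

/-! ### The Kummer extension inside a big field -/

section Inside

variable {Ω : Type*} [Field Ω] [Algebra K Ω]
variable {n : ℕ} [NeZero n] {ζ : K} (hζ : IsPrimitiveRoot ζ n) (Δ : Subgroup Kˣ)

variable (Ω) in
/-- `K(Δ^{1/n})` inside `Ω` -/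
def kummerField (Δ : Subgroup Kˣ) (n : ℕ) : IntermediateField K Ω :=
  IntermediateField.adjoin K (rootSetOf (L := Ω) Δ n)

omit [NeZero n] in
theorem val_image_rootSetOf :
    (kummerField Ω Δ n).val '' (rootSetOf (L := ↥(kummerField Ω Δ n)) Δ n)
      = rootSetOf (L := Ω) Δ n := by
  ext x
  constructor
  · rintro ⟨y, ⟨β, ⟨a, ha, hβ⟩, rfl⟩, rfl⟩
    refine ⟨Units.map ((kummerField Ω Δ n).val : ↥(kummerField Ω Δ n) →* Ω) β, ⟨a, ha, ?_⟩, rfl⟩
    have hβ' : unitsIncl K ↥(kummerField Ω Δ n) a = β ^ n := hβ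
    ext
    have := congrArg (fun u : (↥(kummerField Ω Δ n))ˣ => ((u : ↥(kummerField Ω Δ n)) : Ω)) hβ'
    simpa using this
  · rintro ⟨β, ⟨a, ha, hβ⟩, rfl⟩
    have hβ' : unitsIncl K Ω a = β ^ n := hβ
    have hmem : (β : Ω) ∈ kummerField Ω Δ n :=
      IntermediateField.subset_adjoin K _ ⟨β, ⟨a, ha, hβ⟩, rfl⟩
    have hne : (⟨(β : Ω), hmem⟩ : ↥(kummerField Ω Δ n)) ≠ 0 := by
      intro h
      exact β.ne_zero (congrArg Subtype.val h)
    refine ⟨⟨(β : Ω), hmem⟩, ⟨Units.mk0 _ hne, ⟨a, ha, ?_⟩, rfl⟩, rfl⟩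
    ext
    have := congrArg (fun u : Ωˣ => (u : Ω)) hβ'
    simpa using this

omit [NeZero n] in
theorem adjoin_rootSetOf_kummerField :
    IntermediateField.adjoin K (rootSetOf (L := ↥(kummerField Ω Δ n)) Δ n) = ⊤ := by
  apply IntermediateField.map_injective (kummerField Ω Δ n).val
  rw [IntermediateField.adjoin_map, val_image_rootSetOf, ← AlgHom.fieldRange_eq_map,
    IntermediateField.fieldRange_val]
  rfl

omit [NeZero n] in
theorem le_kummerGroup_kummerField
    (hroots : ∀ a ∈ Δ, ∃ β : Ωˣ, β ^ n = unitsIncl K Ω a) :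
    Δ ≤ kummerGroup K ↥(kummerField Ω Δ n) n := by
  intro a ha
  obtain ⟨β, hβ⟩ := hroots a ha
  have hmem : (β : Ω) ∈ kummerField Ω Δ n :=
    IntermediateField.subset_adjoin K _ ⟨β, ⟨a, ha, hβ.symm⟩, rfl⟩
  have hne : (⟨(β : Ω), hmem⟩ : ↥(kummerField Ω Δ n)) ≠ 0 := by
    intro h
    exact β.ne_zero (congrArg Subtype.val h)
  refine ⟨Units.mk0 _ hne, ?_⟩
  ext
  have := congrArg (fun u : Ωˣ => (u : Ω)) hβ
  simpa using this

include hζ in
/-- **Kummer theory IV**: `M = K(Δ^{1/n}) ⊆ Ω` is a finite abelian extension of exponent `n` with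
`[M : K] = [Δ Kˣⁿ : Kˣⁿ]` and `Kˣ ∩ Mˣⁿ = Δ Kˣⁿ`. -/
theorem kummerField_spec (hroots : ∀ a ∈ Δ, ∃ β : Ωˣ, β ^ n = unitsIncl K Ω a)
    (hfin : (powMonoidHom n : Kˣ →* Kˣ).range.relIndex Δ ≠ 0) :
    FiniteDimensional K ↥(kummerField Ω Δ n) ∧ IsGalois K ↥(kummerField Ω Δ n) ∧
      (∀ σ τ : Gal(↥(kummerField Ω Δ n)/K), σ * τ = τ * σ) ∧
      (∀ σ : Gal(↥(kummerField Ω Δ n)/K), σ ^ n = 1) ∧
      Module.finrank K ↥(kummerField Ω Δ n) = (powMonoidHom n : Kˣ →* Kˣ).range.relIndex Δ ∧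
      kummerGroup K ↥(kummerField Ω Δ n) n = Δ ⊔ (powMonoidHom n : Kˣ →* Kˣ).range :=
  kummer_generated hζ Δ (adjoin_rootSetOf_kummerField Δ) (le_kummerGroup_kummerField Δ hroots) hfin

omit [NeZero n] in
theorem exists_root_of_isAlgClosed [IsAlgClosed Ω] (hn : n ≠ 0) (a : Kˣ) :
    ∃ β : Ωˣ, β ^ n = unitsIncl K Ω a := by
  obtain ⟨z, hz⟩ := IsAlgClosed.exists_pow_nat_eq (algebraMap K Ω (a : K)) (Nat.pos_of_ne_zero hn)
  have hz0 : z ≠ 0 := by
    rintro rfl
    rw [zero_pow hn] at hz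
    exact (unitsIncl K Ω a).ne_zero hz.symm
  refine ⟨Units.mk0 z hz0, ?_⟩
  ext
  simpa using hz

end Inside

end Fermat.Agent.CFT.Global.Kummer
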