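import Fermat.Agent.Lib.CFT.Global.UnramifiedCriterion

/-!
# P4 / Layer C (C7): Kummer-type splitting fields unramified outside `S`

For a number field `K`, a natural number `n`, a finite set `A ⊆ K` and an algebraically closed field
`Ω` of characteristic zero, `kummerSplit K n A Ω : IntermediateField ℚ Ω` is the splitting field
over `ℚ` inside `Ω` of the polynomial
`kummerPoly K n A = ∏_j minpoly(b_j) · ∏_{a ∈ A} minpoly(a)(X^n) · (X^n - 1)` (`b_j` a `ℚ`-basis of
`K`).  It is finite Galois over `ℚ` (`kummerLevel`), contains the image of every embedding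
`ψ : K →+* Ω` (`ringHom_mem_kummerSplit`, `toKummerSplit`), the `n`-th roots of unity and the `n`-th
roots of all conjugates of the elements of `A`.

Main result `kummerSplit_unramifiedOutside`: if `K` is unramified outside `S`, all prime factors of
`n` lie in `S` and every `a ∈ A` is, locally at every `q ∉ S`, an `n`-th power times a unit, then
`kummerSplit K n A Ω` is unramified outside `S`.
-/

set_option autoImplicit false

open scoped TensorProduct
open Polynomial

namespace Fermat.Agent.CFT.Global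

noncomputable section

section KummerSplit

variable (K : Type) [Field K] [NumberField K] (n : ℕ) (A : Finset K)

/-- A polynomial over `ℚ` whose splitting field contains all conjugates of `K`, the `n`-th roots
of unity and the `n`-th roots of all conjugates of the elements of `A`. -/
def kummerPoly : ℚ[X] :=
  (∏ j, minpoly ℚ (Module.finBasis ℚ K j)) * (∏ a ∈ A, (minpoly ℚ a).comp (X ^ n)) * (X ^ n - 1)

variable {K n A}

lemma kummerPoly_monic (hn : n ≠ 0) : (kummerPoly K n A).Monic := by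
  unfold kummerPoly
  refine Monic.mul (Monic.mul ?_ ?_) ?_
  · exact monic_prod_of_monic _ _ fun j _ => minpoly.monic (Algebra.IsIntegral.isIntegral _)
  · refine monic_prod_of_monic _ _ fun a _ => ?_
    refine Monic.comp (minpoly.monic (Algebra.IsIntegral.isIntegral _)) (monic_X_pow n) ?_
    rw [natDegree_X_pow]
    exact hn
  · exact monic_X_pow_sub_C 1 hn

lemma kummerPoly_ne_zero (hn : n ≠ 0) : kummerPoly K n A ≠ 0 := (kummerPoly_monic hn).ne_zero

variable {Ω : Type} [Field Ω] [Algebra ℚ Ω]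

lemma aeval_kummerPoly_eq_zero_iff (ρ : Ω) : aeval ρ (kummerPoly K n A) = 0 ↔
    (∃ j, aeval ρ (minpoly ℚ (Module.finBasis ℚ K j)) = 0) ∨
    (∃ a ∈ A, aeval (ρ ^ n) (minpoly ℚ a) = 0) ∨ ρ ^ n = 1 := by
  unfold kummerPoly
  rw [map_mul, map_mul, mul_eq_zero, mul_eq_zero, or_assoc, map_prod, map_prod,
    Finset.prod_eq_zero_iff, Finset.prod_eq_zero_iff]
  simp only [Finset.mem_univ, true_and, aeval_comp, map_pow, aeval_X, map_sub, map_one,
    sub_eq_zero]

lemma mem_rootSet_kummerPoly_iff (hn : n ≠ 0) (ρ : Ω) : ρ ∈ (kummerPoly K n A).rootSet Ω ↔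
    (∃ j, aeval ρ (minpoly ℚ (Module.finBasis ℚ K j)) = 0) ∨
    (∃ a ∈ A, aeval (ρ ^ n) (minpoly ℚ a) = 0) ∨ ρ ^ n = 1 := by
  rw [mem_rootSet, aeval_kummerPoly_eq_zero_iff]
  exact and_iff_right (kummerPoly_ne_zero hn)

variable (K n A Ω) in
/-- The splitting field of `kummerPoly K n A` inside `Ω`. -/
def kummerSplit : IntermediateField ℚ Ω :=
  IntermediateField.adjoin ℚ ((kummerPoly K n A).rootSet Ω)

/-- Every embedding of `K` into `Ω` lands in `kummerSplit`. -/
theorem ringHom_mem_kummerSplit (hn : n ≠ 0) (ψ : K →+* Ω) (k : K) : ψ k ∈ kummerSplit K n A Ω := by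
  let ψ' : K →ₐ[ℚ] Ω := ψ.toRatAlgHom
  have h1 : ∀ j, ψ (Module.finBasis ℚ K j) ∈ kummerSplit K n A Ω := by
    intro j
    apply IntermediateField.subset_adjoin
    rw [mem_rootSet_kummerPoly_iff hn]
    left
    refine ⟨j, ?_⟩
    change aeval (ψ' _) _ = 0
    rw [aeval_algHom_apply, minpoly.aeval, map_zero]
  have h2 : (⊤ : Submodule ℚ K) ≤ Submodule.comap ψ'.toLinearMap
      (Subalgebra.toSubmodule (kummerSplit K n A Ω).toSubalgebra) := by
    rw [← (Module.finBasis ℚ K).span_eq, Submodule.span_le]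
    rintro _ ⟨j, rfl⟩
    exact h1 j
  exact h2 (Submodule.mem_top : k ∈ ⊤)

/-- `kummerSplit` contains the `n`-th roots of the conjugates of the elements of `A`. -/
theorem mem_kummerSplit_of_pow_eq (hn : n ≠ 0) (ψ : K →+* Ω) {a : K} (ha : a ∈ A) {β : Ω}
    (hβ : β ^ n = ψ a) : β ∈ kummerSplit K n A Ω := by
  apply IntermediateField.subset_adjoin
  rw [mem_rootSet_kummerPoly_iff hn]
  right; left
  refine ⟨a, ha, ?_⟩
  rw [hβ]
  change aeval (ψ.toRatAlgHom a) _ = 0
  rw [aeval_algHom_apply, minpoly.aeval, map_zero]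

/-- `kummerSplit` contains the `n`-th roots of unity. -/
theorem mem_kummerSplit_of_pow_eq_one (hn : n ≠ 0) {ζ : Ω} (hζ : ζ ^ n = 1) :
    ζ ∈ kummerSplit K n A Ω := by
  apply IntermediateField.subset_adjoin
  rw [mem_rootSet_kummerPoly_iff hn]
  right; right
  exact hζ

variable [IsAlgClosed Ω]

variable (K n A Ω) in
/-- `kummerSplit` as a finite Galois intermediate field. -/
def kummerLevel : FiniteGaloisIntermediateField ℚ Ω :=
  letI : Algebra ℚ (kummerSplit K n A Ω) := (kummerSplit K n A Ω).algebra'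
  have _hsplit : (kummerPoly K n A).IsSplittingField ℚ (kummerSplit K n A Ω) :=
    IntermediateField.adjoin_rootSet_isSplittingField (IsAlgClosed.splits _)
  have _hnormal : Normal ℚ (kummerSplit K n A Ω) := Normal.of_isSplittingField (kummerPoly K n A)
  { kummerSplit K n A Ω with
    finiteDimensional := Polynomial.IsSplittingField.finiteDimensional _ (kummerPoly K n A)
    isGalois := ⟨⟩ }

@[simp] lemma kummerLevel_toIntermediateField :
    (kummerLevel K n A Ω).toIntermediateField = kummerSplit K n A Ω := rfl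

instance kummerSplit_numberField : NumberField (kummerSplit K n A Ω) :=
  letI : Algebra ℚ (kummerSplit K n A Ω) := (kummerSplit K n A Ω).algebra'
  have : FiniteDimensional ℚ (kummerSplit K n A Ω) := (kummerLevel K n A Ω).finiteDimensional
  NumberField.of_module_finite ℚ _

/-- A root in `Ω` of the minimal polynomial of `x : K` is a conjugate of `x`. -/
lemma exists_ringHom_apply_eq {x : K} {y : Ω}
    (hy : aeval y (minpoly ℚ x) = 0) : ∃ ψ : K →+* Ω, ψ x = y := by
  obtain ⟨ψ, hψ⟩ := IntermediateField.exists_algHom_of_splits_of_aeval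
    (F := ℚ) (E := K) (K := Ω) (fun s => ⟨Algebra.IsIntegral.isIntegral s, IsAlgClosed.splits _⟩) hy
  exact ⟨ψ.toRingHom, hψ⟩

/-- The restriction of an embedding `K → Ω` to `kummerSplit`. -/
def toKummerSplit (hn : n ≠ 0) (ψ : K →+* Ω) : K →+* kummerSplit K n A Ω :=
  ψ.codRestrict (kummerSplit K n A Ω) (ringHom_mem_kummerSplit hn ψ)

omit [IsAlgClosed Ω] in
@[simp] lemma coe_toKummerSplit (hn : n ≠ 0) (ψ : K →+* Ω) (k : K) :
    ((toKummerSplit (A := A) hn ψ k : kummerSplit K n A Ω) : Ω) = ψ k := rfl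

/-- **`kummerSplit` is unramified at `q`** if `K` is, `q ∤ n`, and the elements of `A` are locally
at `q` an `n`-th power times a unit. -/
theorem kummerSplit_unramifiedAt (q : ℕ) [Fact q.Prime] (hn : ¬ q ∣ n) (hK : UnramifiedAt q K)
    (hA : ∀ a ∈ A, ∃ t : (SL q K)ˣ, ∃ u ∈ SL.unitGroup q K,
      SL.incl q K a = (t : SL q K) ^ n * (u : SL q K)) :
    UnramifiedAt q (kummerSplit K n A Ω) := by
  have hn0 : n ≠ 0 := fun h => hn (h ▸ dvd_zero q)
  set L₀ := kummerSplit K n A Ω with hL₀
  set Γ : Set L₀ := {γ | (∃ a ∈ A, aeval ((γ : Ω) ^ n) (minpoly ℚ a) = 0) ∨ (γ : Ω) ^ n = 1} with hΓ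
  obtain ⟨ψ₀⟩ : Nonempty (K →+* Ω) := ⟨(IsAlgClosed.lift : K →ₐ[ℚ] Ω).toRingHom⟩
  refine unramifiedAt_of_generators (fun _ : K →+* Ω => K) (fun ψ => toKummerSplit hn0 ψ)
    (fun _ => hK) Γ ?_ ?_
  · rintro γ (⟨a, ha, hγ⟩ | hγ)
    · obtain ⟨ψ, hψ⟩ := exists_ringHom_apply_eq hγ
      obtain ⟨t, u, hu, htu⟩ := hA a ha
      exact ⟨n, hn, ψ, a, Subtype.ext (by change (γ : Ω) ^ n = ψ a; exact hψ.symm), t, u, hu, htu⟩
    · refine ⟨n, hn, ψ₀, 1, Subtype.ext (by simpa using hγ), 1, 1, one_mem _, ?_⟩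
      simp
  · rw [eq_top_iff]
    set G : Set L₀ := (⋃ ψ : K →+* Ω, Set.range (toKummerSplit (A := A) hn0 ψ)) ∪ Γ with hG
    have halg : L₀.toSubalgebra = Algebra.adjoin ℚ ((kummerPoly K n A).rootSet Ω) :=
      IntermediateField.adjoin_toSubalgebra_of_isAlgebraic
        fun x hx => isAlgebraic_of_mem_rootSet hx
    have key : ∀ y ∈ Algebra.adjoin ℚ ((kummerPoly K n A).rootSet Ω), ∀ hy : y ∈ L₀,
        (⟨y, hy⟩ : L₀) ∈ Algebra.adjoin ℚ G := by
      intro y hy
      induction hy using Algebra.adjoin_induction with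
      | mem ρ hρ =>
        intro hy
        apply Algebra.subset_adjoin
        rw [mem_rootSet_kummerPoly_iff hn0] at hρ
        rcases hρ with ⟨j, hj⟩ | h
        · left
          obtain ⟨ψ, hψ⟩ := exists_ringHom_apply_eq hj
          exact Set.mem_iUnion.2 ⟨ψ, ⟨Module.finBasis ℚ K j, Subtype.ext hψ⟩⟩
        · right
          exact h
      | algebraMap r =>
        intro hy
        have : (⟨algebraMap ℚ Ω r, hy⟩ : L₀) = algebraMap ℚ L₀ r := by
          apply Subtype.ext
          simp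
        rw [this]
        exact Subalgebra.algebraMap_mem _ r
      | add a b ha hb iha ihb =>
        intro hy
        have haL : a ∈ L₀ := by
          have : a ∈ L₀.toSubalgebra := halg ▸ ha
          exact this
        have hbL : b ∈ L₀ := by
          have : b ∈ L₀.toSubalgebra := halg ▸ hb
          exact this
        exact add_mem (iha haL) (ihb hbL)
      | mul a b ha hb iha ihb =>
        intro hy
        have haL : a ∈ L₀ := by
          have : a ∈ L₀.toSubalgebra := halg ▸ ha
          exact this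
        have hbL : b ∈ L₀ := by
          have : b ∈ L₀.toSubalgebra := halg ▸ hb
          exact this
        exact mul_mem (iha haL) (ihb hbL)
    rintro ⟨y, hy⟩ -
    have hy' : y ∈ L₀.toSubalgebra := hy
    rw [halg] at hy'
    exact key y hy' hy

/-- **`kummerSplit` is unramified outside `S`** if `K` is, all prime factors of `n` are in `S`, and
the elements of `A` are, locally outside `S`, `n`-th powers times units. -/
theorem kummerSplit_unramifiedOutside (S : Finset Nat.Primes)
    (hn : ∀ r : Nat.Primes, r ∉ S → ¬ (r : ℕ) ∣ n) (hK : UnramifiedOutside S K)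
    (hA : ∀ a ∈ A, ∀ r : Nat.Primes, r ∉ S → ∃ t : (SL (r : ℕ) K)ˣ, ∃ u ∈ SL.unitGroup (r : ℕ) K,
      SL.incl (r : ℕ) K a = (t : SL (r : ℕ) K) ^ n * (u : SL (r : ℕ) K)) :
    UnramifiedOutside S (kummerSplit K n A Ω) :=
  fun r hr => kummerSplit_unramifiedAt (r : ℕ) (hn r hr) (hK r hr) (fun a ha => hA a ha r hr)

/-- `kummerSplit` contains an `n`-th root of `ψ a` for `a ∈ A`, `a ≠ 0`. -/
theorem exists_unit_kummerSplit_pow_eq (hn : n ≠ 0) (ψ : K →+* Ω) {a : Kˣ} (ha : (a : K) ∈ A) :
    ∃ b : (kummerSplit K n A Ω)ˣ, b ^ n = Units.map (toKummerSplit (A := A) hn ψ : K →* _) a := by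
  obtain ⟨β, hβ⟩ := IsAlgClosed.exists_pow_nat_eq (ψ a) (Nat.pos_of_ne_zero hn)
  have hβL : β ∈ kummerSplit K n A Ω := mem_kummerSplit_of_pow_eq hn ψ ha hβ
  have hβ0 : (⟨β, hβL⟩ : kummerSplit K n A Ω) ≠ 0 := by
    intro h
    have h1 : β = 0 := congrArg Subtype.val h
    rw [h1, zero_pow hn] at hβ
    exact a.ne_zero ((map_eq_zero ψ).1 hβ.symm)
  refine ⟨Units.mk0 _ hβ0, Units.ext (Subtype.ext ?_)⟩
  simpa using hβ

end KummerSplit

end

end Fermat.Agent.CFT.Global
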