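import Fermat.Agent.Lib.CFT.Global.LocalInt

/-!
# P4 / Layer C (C1b): density of `K` in the semi-local algebra `ℚ_q ⊗ K`
-/

set_option autoImplicit false

open scoped TensorProduct

namespace Fermat.Agent.CFT.Global

noncomputable section

variable (q : ℕ) [Fact q.Prime] (K : Type) [Field K] [NumberField K]

variable {q K} in
lemma SL.smul_mem_integers_of_norm_le_one {u : ℚ_[q]} (hu : ‖u‖ ≤ 1) {z : SL q K}
    (hz : z ∈ SL.integers q K) : u • z ∈ SL.integers q K := by
  have h := Subalgebra.smul_mem (SL.integers q K) hz (⟨u, hu⟩ : ℤ_[q])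
  exact h

/-- **Density**: every element of `ℚ_q ⊗ K` is congruent to an element of `K` modulo
`q^n` times the maximal order. -/
theorem SL.exists_incl_add_smul (x : SL q K) (n : ℕ) :
    ∃ y : K, ∃ z ∈ SL.integers q K, x = SL.incl q K y + (q : ℚ_[q]) ^ n • z := by
  induction x using TensorProduct.induction_on with
  | zero => exact ⟨0, 0, zero_mem _, by simp⟩
  | add x₁ x₂ h₁ h₂ =>
    obtain ⟨y₁, z₁, hz₁, rfl⟩ := h₁
    obtain ⟨y₂, z₂, hz₂, rfl⟩ := h₂
    exact ⟨y₁ + y₂, z₁ + z₂, add_mem hz₁ hz₂, by rw [map_add, smul_add]; abel⟩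
  | tmul a b =>
    have halg : IsAlgebraic ℤ b :=
      (IsFractionRing.isAlgebraic_iff ℤ ℚ K).2 (Algebra.IsAlgebraic.isAlgebraic b)
    obtain ⟨m, hm0, hm⟩ := halg.exists_integral_multiple
    have hmq : (m : ℚ_[q]) ≠ 0 := Int.cast_ne_zero.2 hm0
    have hq0 : (q : ℚ_[q]) ≠ 0 := Nat.cast_ne_zero.2 (Fact.out : q.Prime).ne_zero
    have hε : 0 < ‖(m : ℚ_[q]) * (q : ℚ_[q]) ^ n‖ :=
      norm_pos_iff.2 (mul_ne_zero hmq (pow_ne_zero _ hq0))
    obtain ⟨r, hr⟩ := Padic.rat_dense q a hε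
    set u : ℚ_[q] := (a - r) / ((m : ℚ_[q]) * (q : ℚ_[q]) ^ n) with hu
    have hu1 : ‖u‖ ≤ 1 := by
      rw [hu, norm_div]
      exact (div_le_one hε).2 hr.le
    refine ⟨r • b, u • SL.incl q K (m • b), ?_, ?_⟩
    · exact SL.smul_mem_integers_of_norm_le_one hu1 (SL.incl_mem_integers_of_isIntegral q hm)
    · have h1 : ((q : ℚ_[q]) ^ n • (u • SL.incl q K (m • b)) : SL q K)
          = ((a - r) : ℚ_[q]) ⊗ₜ[ℚ] b := by
        rw [SL.incl_apply, TensorProduct.smul_tmul', TensorProduct.smul_tmul', smul_eq_mul,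
          smul_eq_mul, mul_one]
        have h2 : (m • b : K) = ((m : ℚ) • b : K) := by
          rw [zsmul_eq_mul, Algebra.smul_def]
          simp
        rw [h2, ← TensorProduct.smul_tmul, hu]
        congr 1
        rw [Algebra.smul_def]
        simp only [eq_ratCast, Rat.cast_intCast]
        field_simp
      rw [h1, SL.incl_apply, TensorProduct.sub_tmul]
      have h3 : ((r : ℚ_[q]) ⊗ₜ[ℚ] b : SL q K) = (1 : ℚ_[q]) ⊗ₜ[ℚ] (r • b) := by
        rw [← TensorProduct.smul_tmul]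
        congr 1
        rw [Algebra.smul_def]
        simp
      rw [h3]
      abel

end

end Fermat.Agent.CFT.Global
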