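import Fermat.Agent.Lib.CFT.Global.GlobalUnits

/-!
# P4 / Layer C (C1d): the fractional ideal of a finite idele

* `FinIdele.ordAtPrime v : FinIdele K →* Multiplicative ℤ` : the valuation of an idele at a prime of
  `𝓞 K`;
* `FinIdele.toFracIdeal : FinIdele K →* (FractionalIdeal (𝓞 K)⁰ K)ˣ` : the ideal of an idele, with
  kernel the unit ideles `unitsOutside ∅ K`, value `(a)` at the principal idele of `a`, surjective.
-/

set_option autoImplicit false
set_option linter.unusedSectionVars false
set_option linter.style.haveILetI false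

open scoped TensorProduct NumberField nonZeroDivisors

open IsDedekindDomain

namespace Fermat.Agent.CFT.Global

open Fermat.Agent.CFT.Local

noncomputable section

variable {K : Type} [Field K] [NumberField K]

/-- the rational prime below a prime of `𝓞 K` -/
def primeBelow (v : HeightOneSpectrum (𝓞 K)) : Nat.Primes := (exists_natPrime_mem v).choose

lemma primeBelow_mem (v : HeightOneSpectrum (𝓞 K)) :
    (((primeBelow v : Nat.Primes) : ℕ) : 𝓞 K) ∈ v.asIdeal := (exists_natPrime_mem v).choose_spec

lemma primeBelow_eq {v : HeightOneSpectrum (𝓞 K)} {q : Nat.Primes}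
    (hq : ((q : ℕ) : 𝓞 K) ∈ v.asIdeal) : primeBelow v = q :=
  natPrime_unique v (primeBelow_mem v) hq

/-- the place attached to a prime of `𝓞 K` -/
def placeOfPrime (v : HeightOneSpectrum (𝓞 K)) : Place ((primeBelow v : Nat.Primes) : ℕ) K :=
  (Place.exists_toPrime_eq v (primeBelow_mem v)).choose

lemma toPrime_placeOfPrime (v : HeightOneSpectrum (𝓞 K)) : Place.toPrime (placeOfPrime v) = v :=
  (Place.exists_toPrime_eq v (primeBelow_mem v)).choose_spec

/-- the valuation of an idele at a prime of `𝓞 K` -/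
def FinIdele.ordAtPrime (v : HeightOneSpectrum (𝓞 K)) : FinIdele K →* Multiplicative ℤ :=
  (SL.ordAt (placeOfPrime v)).comp (FinIdele.comp (primeBelow v))

lemma ordAt_comp_eq_of_toPrime_eq {q q' : Nat.Primes} (w : Place (q : ℕ) K)
    (w' : Place (q' : ℕ) K) (h : Place.toPrime w = Place.toPrime w') (x : FinIdele K) :
    SL.ordAt w (FinIdele.comp q x) = SL.ordAt w' (FinIdele.comp q' x) := by
  have hq : q = q' := natPrime_unique (Place.toPrime w) (Place.natCast_mem_toPrime w)
    (h ▸ Place.natCast_mem_toPrime w')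
  subst hq
  rw [Place.toPrime_injective h]

lemma FinIdele.ordAtPrime_toPrime {q : Nat.Primes} (w : Place (q : ℕ) K) (x : FinIdele K) :
    FinIdele.ordAtPrime (Place.toPrime w) x = SL.ordAt w (FinIdele.comp q x) :=
  ordAt_comp_eq_of_toPrime_eq _ _ (toPrime_placeOfPrime _) x

lemma FinIdele.ordAtPrime_princ (v : HeightOneSpectrum (𝓞 K)) (a : Kˣ) :
    FinIdele.ordAtPrime v (FinIdele.princ K a) = Multiplicative.ofAdd (primeOrd v a) := by
  show SL.ordAt (placeOfPrime v) (SL.unitsIncl _ K a) = _
  rw [SL.ordAt_unitsIncl, Place.ordK_eq, toPrime_placeOfPrime]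

/-- an idele is a unit idele iff all its valuations vanish -/
theorem FinIdele.comp_mem_unitGroup_iff (x : FinIdele K) (q : Nat.Primes) :
    FinIdele.comp q x ∈ SL.unitGroup (q : ℕ) K ↔
      ∀ v : HeightOneSpectrum (𝓞 K), ((q : ℕ) : 𝓞 K) ∈ v.asIdeal →
        FinIdele.ordAtPrime v x = 1 := by
  rw [SL.mem_unitGroup_iff_forall_ordAt]
  constructor
  · intro h v hv
    obtain ⟨w, rfl⟩ := Place.exists_toPrime_eq v hv
    rw [FinIdele.ordAtPrime_toPrime]
    exact h w
  · intro h w
    rw [← FinIdele.ordAtPrime_toPrime]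
    exact h _ (Place.natCast_mem_toPrime w)

/-- the valuations of an idele vanish at almost all primes -/
theorem FinIdele.finite_ordAtPrime_ne_one (x : FinIdele K) :
    {v : HeightOneSpectrum (𝓞 K) | FinIdele.ordAtPrime v x ≠ 1}.Finite := by
  have hbad := x.finite_notMem_unitGroup
  have hsub : {v : HeightOneSpectrum (𝓞 K) | FinIdele.ordAtPrime v x ≠ 1} ⊆
      ⋃ q ∈ {q : Nat.Primes | FinIdele.comp q x ∉ SL.unitGroup (q : ℕ) K},
        Set.range (Place.toPrime : Place ((q : Nat.Primes) : ℕ) K → _) := by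
    intro v hv
    simp only [Set.mem_iUnion, Set.mem_ofPred_eq, Set.mem_range]
    refine ⟨primeBelow v, ?_, placeOfPrime v, toPrime_placeOfPrime v⟩
    intro hunit
    exact hv ((FinIdele.comp_mem_unitGroup_iff x _).mp hunit v (primeBelow_mem v))
  exact (hbad.biUnion (fun q _ => Set.finite_range _)).subset hsub

/-- the prime `v` as a unit of the monoid of fractional ideals -/
def primeUnit (v : HeightOneSpectrum (𝓞 K)) : (FractionalIdeal (𝓞 K)⁰ K)ˣ :=
  Units.mk0 (v.asIdeal : FractionalIdeal (𝓞 K)⁰ K) (FractionalIdeal.coeIdeal_ne_zero.mpr v.ne_bot)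

lemma FinIdele.mulSupport_subset (x : FinIdele K) :
    Function.mulSupport (fun v : HeightOneSpectrum (𝓞 K) =>
      primeUnit v ^ (Multiplicative.toAdd (FinIdele.ordAtPrime v x)))
      ⊆ {v : HeightOneSpectrum (𝓞 K) | FinIdele.ordAtPrime v x ≠ 1} := by
  intro v hv h
  apply hv
  show primeUnit v ^ (Multiplicative.toAdd (FinIdele.ordAtPrime v x)) = 1
  rw [h]
  simp

/-- **The fractional ideal of an idele.** -/
def FinIdele.toFracIdeal : FinIdele K →* (FractionalIdeal (𝓞 K)⁰ K)ˣ where
  toFun x := ∏ᶠ v : HeightOneSpectrum (𝓞 K),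
    primeUnit v ^ (Multiplicative.toAdd (FinIdele.ordAtPrime v x))
  map_one' := by
    simp
  map_mul' x y := by
    rw [← finprod_mul_distrib
      ((FinIdele.finite_ordAtPrime_ne_one x).subset (FinIdele.mulSupport_subset x))
      ((FinIdele.finite_ordAtPrime_ne_one y).subset (FinIdele.mulSupport_subset y))]
    refine finprod_congr (fun v => ?_)
    rw [map_mul, toAdd_mul, zpow_add]

lemma FinIdele.toFracIdeal_apply (x : FinIdele K) :
    FinIdele.toFracIdeal x = ∏ᶠ v : HeightOneSpectrum (𝓞 K),
      primeUnit v ^ (Multiplicative.toAdd (FinIdele.ordAtPrime v x)) := rfl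

/-- the underlying fractional ideal -/
theorem FinIdele.coe_toFracIdeal (x : FinIdele K) :
    ((FinIdele.toFracIdeal x : (FractionalIdeal (𝓞 K)⁰ K)ˣ) : FractionalIdeal (𝓞 K)⁰ K)
      = ∏ᶠ v : HeightOneSpectrum (𝓞 K), (v.asIdeal : FractionalIdeal (𝓞 K)⁰ K) ^
          (Multiplicative.toAdd (FinIdele.ordAtPrime v x)) := by
  rw [FinIdele.toFracIdeal_apply]
  have h := MonoidHom.map_finprod (Units.coeHom (FractionalIdeal (𝓞 K)⁰ K))
    ((FinIdele.finite_ordAtPrime_ne_one x).subset (FinIdele.mulSupport_subset x))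
  rw [Units.coeHom_apply] at h
  rw [h]
  refine finprod_congr (fun v => ?_)
  rw [Units.coeHom_apply, Units.val_zpow_eq_zpow_val]
  rfl

lemma FinIdele.eventually_ordAtPrime (x : FinIdele K) :
    ∀ᶠ v : HeightOneSpectrum (𝓞 K) in Filter.cofinite,
      Multiplicative.toAdd (FinIdele.ordAtPrime v x) = 0 := by
  rw [Filter.eventually_cofinite]
  refine (FinIdele.finite_ordAtPrime_ne_one x).subset (fun v hv h => hv ?_)
  simp only [Set.mem_ofPred_eq] at hv ⊢
  rw [h]
  rfl

/-- the multiplicities of the ideal of an idele -/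
theorem FinIdele.count_toFracIdeal (x : FinIdele K) (v : HeightOneSpectrum (𝓞 K)) :
    FractionalIdeal.count K v
      ((FinIdele.toFracIdeal x : (FractionalIdeal (𝓞 K)⁰ K)ˣ) : FractionalIdeal (𝓞 K)⁰ K)
      = Multiplicative.toAdd (FinIdele.ordAtPrime v x) := by
  rw [FinIdele.coe_toFracIdeal]
  exact FractionalIdeal.count_finprod K v _ (FinIdele.eventually_ordAtPrime x)

/-- the kernel of `toFracIdeal` consists of the unit ideles -/
theorem FinIdele.toFracIdeal_eq_one_iff (x : FinIdele K) :
    FinIdele.toFracIdeal x = 1 ↔ x ∈ unitsOutside ∅ K := by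
  rw [mem_unitsOutside_iff]
  constructor
  · intro h
    refine ⟨fun q hq => absurd hq (Finset.notMem_empty q), fun q _ => ?_⟩
    rw [FinIdele.comp_mem_unitGroup_iff]
    intro v _
    have h1 := FinIdele.count_toFracIdeal x v
    rw [h, Units.val_one, FractionalIdeal.count_one] at h1
    exact Multiplicative.toAdd.injective h1.symm
  · rintro ⟨-, h⟩
    rw [FinIdele.toFracIdeal_apply]
    have : ∀ v : HeightOneSpectrum (𝓞 K), primeUnit v ^
        (Multiplicative.toAdd (FinIdele.ordAtPrime v x)) = 1 := by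
      intro v
      have h1 := (FinIdele.comp_mem_unitGroup_iff x (primeBelow v)).mp
        (h _ (Finset.notMem_empty _)) v (primeBelow_mem v)
      rw [h1]
      simp
    simp [this]

/-! ## Principal ideles -/

open FractionalIdeal in
/-- the multiplicity of `v` in the principal fractional ideal `(a)` is the `v`-adic valuation -/
theorem count_spanSingleton (v : HeightOneSpectrum (𝓞 K)) (a : Kˣ) :
    FractionalIdeal.count K v (FractionalIdeal.spanSingleton (𝓞 K)⁰ (a : K)) = primeOrd v a := by
  obtain ⟨n, d, hnd⟩ := IsLocalization.exists_mk'_eq (𝓞 K)⁰ (a : K)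
  have hd_ne_zero : (algebraMap (𝓞 K) K) (d : 𝓞 K) ≠ 0 :=
    map_ne_zero_of_mem_nonZeroDivisors _ (IsFractionRing.injective (𝓞 K) K) d.property
  have hn0 : n ≠ 0 := by
    rintro rfl
    rw [IsLocalization.mk'_zero] at hnd
    exact a.ne_zero hnd.symm
  have hd0 : (d : 𝓞 K) ≠ 0 := nonZeroDivisors.ne_zero d.2
  have h0 : spanSingleton (𝓞 K)⁰ (a : K) ≠ 0 := by
    rw [spanSingleton_ne_zero_iff]
    exact a.ne_zero
  have hI : spanSingleton (𝓞 K)⁰ (a : K) =
      spanSingleton (𝓞 K)⁰ ((algebraMap (𝓞 K) K) d)⁻¹ * ↑(Ideal.span {n} : Ideal (𝓞 K)) := by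
    rw [coeIdeal_span_singleton, spanSingleton_mul_spanSingleton, ← hnd]
    apply congr_arg
    rw [IsFractionRing.mk'_eq_div, div_eq_mul_inv, mul_comm]
  rw [FractionalIdeal.count_well_defined K v h0 hI, eq_comm, primeOrd_eq_iff, ← hnd,
    HeightOneSpectrum.valuation_of_mk', v.intValuation_if_neg hn0, v.intValuation_if_neg hd0,
    ← WithZero.exp_sub]
  congr 1
  ring

/-- the ideal of a principal idele is the principal ideal -/
theorem FinIdele.toFracIdeal_princ (a : Kˣ) :
    FinIdele.toFracIdeal (FinIdele.princ K a) = toPrincipalIdeal (𝓞 K) K a := by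
  apply Units.ext
  rw [FinIdele.coe_toFracIdeal, coe_toPrincipalIdeal]
  have h0 : FractionalIdeal.spanSingleton (𝓞 K)⁰ (a : K) ≠ 0 := by
    rw [FractionalIdeal.spanSingleton_ne_zero_iff]
    exact a.ne_zero
  rw [← FractionalIdeal.finprod_heightOneSpectrum_factorization' K h0]
  refine finprod_congr (fun v => ?_)
  rw [count_spanSingleton, FinIdele.ordAtPrime_princ]
  rfl

/-! ## Surjectivity -/

/-- two invertible fractional ideals with the same multiplicities are equal -/
theorem fracIdeal_units_ext {I J : (FractionalIdeal (𝓞 K)⁰ K)ˣ}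
    (h : ∀ v : HeightOneSpectrum (𝓞 K), FractionalIdeal.count K v (I : FractionalIdeal (𝓞 K)⁰ K)
      = FractionalIdeal.count K v (J : FractionalIdeal (𝓞 K)⁰ K)) : I = J := by
  apply Units.ext
  rw [← FractionalIdeal.finprod_heightOneSpectrum_factorization' K I.ne_zero,
    ← FractionalIdeal.finprod_heightOneSpectrum_factorization' K J.ne_zero]
  exact finprod_congr (fun v => by rw [h v])

open Classical in
/-- every invertible fractional ideal is the ideal of an idele -/
theorem FinIdele.toFracIdeal_surjective :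
    Function.Surjective (FinIdele.toFracIdeal : FinIdele K →* _) := by
  intro I
  -- the target valuations
  set n : ∀ q : Nat.Primes, Place (q : ℕ) K → Multiplicative ℤ := fun q w =>
    Multiplicative.ofAdd (FractionalIdeal.count K (Place.toPrime w)
      (I : FractionalIdeal (𝓞 K)⁰ K)) with hn
  have hex : ∀ q : Nat.Primes, ∃ u : (SL (q : ℕ) K)ˣ, SL.ordAll u = n q ∧ (n q = 1 → u = 1) := by
    intro q
    by_cases h1 : n q = 1
    · exact ⟨1, by rw [map_one, h1], fun _ => rfl⟩
    · obtain ⟨u, hu⟩ := SL.ordAll_surjective (n q)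
      exact ⟨u, hu, fun h => absurd h h1⟩
  choose u hu hu1 using hex
  have hfin : {q : Nat.Primes | u q ∉ SL.unitGroup (q : ℕ) K}.Finite := by
    have h1 : {v : HeightOneSpectrum (𝓞 K) |
        FractionalIdeal.count K v (I : FractionalIdeal (𝓞 K)⁰ K) ≠ 0}.Finite := by
      have := FractionalIdeal.finite_factors (I : FractionalIdeal (𝓞 K)⁰ K)
      rwa [Filter.eventually_cofinite] at this
    refine (h1.image primeBelow).subset (fun q hq => ?_)
    by_contra hne
    apply hq
    have h2 : n q = 1 := by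
      funext w
      by_contra h3
      apply hne
      refine ⟨Place.toPrime w, ?_, primeBelow_eq (Place.natCast_mem_toPrime w)⟩
      intro h4
      apply h3
      show Multiplicative.ofAdd _ = 1
      rw [h4]
      rfl
    rw [hu1 q h2]
    exact one_mem _
  refine ⟨FinIdele.mk u hfin, ?_⟩
  apply fracIdeal_units_ext
  intro v
  rw [FinIdele.count_toFracIdeal]
  have h1 : FinIdele.ordAtPrime v (FinIdele.mk u hfin)
      = SL.ordAt (placeOfPrime v) (u (primeBelow v)) := rfl
  rw [h1, ← SL.ordAll_apply, hu, hn]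
  show FractionalIdeal.count K (Place.toPrime (placeOfPrime v)) _ = _
  rw [toPrime_placeOfPrime]

end

end Fermat.Agent.CFT.Global
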