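/-
P4 / Layer C1e (part 4): the local extension `L_w / K_v` with its rings of integers, in the form
required by layer B (`IsLocalInt`, `IsIntegralClosure`).
-/
import Fermat.Agent.Lib.CFT.Global.LocalGalois
import Fermat.Agent.Lib.CFT.Global.LocalInt

set_option autoImplicit false
set_option linter.style.haveILetI false

open scoped TensorProduct

namespace Fermat.Agent.CFT.Global

open Fermat.Agent.CFT.Local

noncomputable section

variable {q : ℕ} [Fact q.Prime] {K L : Type} [Field K] [NumberField K] [Field L] [NumberField L]
  [Algebra K L]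

/-- `O_v → O_w`. -/
def Ow.map (w : Place q L) : Ow (Place.under (algebraMap K L) w) →ₐ[ℤ_[q]] Ow w :=
  ((Kv.map (algebraMap K L) w).restrictScalars ℤ_[q]).mapIntegralClosure

lemma Ow.coe_map (w : Place q L) (x : Ow (Place.under (algebraMap K L) w)) :
    ((Ow.map w x : Ow w) : Kv w) = Kv.map (algebraMap K L) w (x : Kv _) := rfl

instance (priority := high) Ow.algebraUnder (w : Place q L) :
    Algebra (Ow (Place.under (algebraMap K L) w)) (Ow w) :=
  (Ow.map w).toRingHom.toAlgebra

instance (priority := high) Ow.smulUnder (w : Place q L) :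
    SMul (Ow (Place.under (algebraMap K L) w)) (Ow w) := Algebra.toSMul

instance (priority := high) Ow.algebraUnder' (w : Place q L) :
    Algebra (Ow (Place.under (algebraMap K L) w)) (Kv w) :=
  ((algebraMap (Kv (Place.under (algebraMap K L) w)) (Kv w)).comp
    (algebraMap (Ow (Place.under (algebraMap K L) w)) (Kv (Place.under (algebraMap K L) w)))).toAlgebra

instance (priority := high) Ow.smulUnder' (w : Place q L) :
    SMul (Ow (Place.under (algebraMap K L) w)) (Kv w) := Algebra.toSMul

instance (priority := high) Ow.isScalarTower_int (w : Place q L) :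
    IsScalarTower ℤ_[q] (Ow (Place.under (algebraMap K L) w)) (Kv w) :=
  IsScalarTower.of_algebraMap_eq fun a => by
    change algebraMap ℤ_[q] (Kv w) a = Kv.map (algebraMap K L) w
      (algebraMap ℤ_[q] (Kv (Place.under (algebraMap K L) w)) a)
    exact (((Kv.map (algebraMap K L) w).restrictScalars ℤ_[q]).commutes a).symm

instance Ow.isScalarTower_under (w : Place q L) :
    IsScalarTower (Ow (Place.under (algebraMap K L) w)) (Ow w) (Kv w) :=
  IsScalarTower.of_algebraMap_eq fun _ => rfl

instance Ow.isScalarTower_under' (w : Place q L) :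
    IsScalarTower (Ow (Place.under (algebraMap K L) w)) (Kv (Place.under (algebraMap K L) w))
      (Kv w) :=
  IsScalarTower.of_algebraMap_eq fun _ => rfl

instance Ow.isIntegralClosure_under (w : Place q L) :
    IsIntegralClosure (Ow w) (Ow (Place.under (algebraMap K L) w)) (Kv w) where
  algebraMap_injective := Subtype.val_injective
  isIntegral_iff {x} := by
    constructor
    · intro hx
      haveI : Algebra.IsIntegral ℤ_[q] (Ow (Place.under (algebraMap K L) w)) :=
        inferInstance
      have : IsIntegral ℤ_[q] x := isIntegral_trans x hx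
      exact ⟨⟨x, this⟩, rfl⟩
    · rintro ⟨y, rfl⟩
      exact (y.2 : IsIntegral ℤ_[q] (y : Kv w)).tower_top

end

end Fermat.Agent.CFT.Global
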