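/-
P4 / Layer C5-e: invariance and transitivity of the relative norms
`relNormProd V c = ∏_{q ∈ K/V} q.out • c`.
-/
import Fermat.Agent.Lib.CFT.Global.CyclicLayers

set_option autoImplicit false
set_option linter.unusedSectionVars false
set_option linter.style.haveILetI false

namespace Fermat.Agent.CFT.Global

noncomputable section

variable {K : Type} [Group K] [Finite K] {M : Type*} [CommGroup M] [MulDistribMulAction K M]

/-- the relative norm of a `V`-invariant element is `K`-invariant (`V` normal) -/
theorem smul_relNormProd (V : Subgroup K) [V.Normal] {c : M} (hc : ∀ v ∈ V, v • c = c) (k : K) :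
    k • relNormProd V c = relNormProd V c := by
  classical
  letI := Fintype.ofFinite (K ⧸ V)
  rw [relNormProd, finprod_eq_prod_of_fintype, Finset.smul_prod']
  have h1 : ∀ q : K ⧸ V, k • (q.out • c) = ((k : K ⧸ V) * q).out • c := by
    intro q
    have h2 : ((k : K ⧸ V) * q) = ((k * q.out : K) : K ⧸ V) := by
      rw [QuotientGroup.mk_mul, QuotientGroup.out_eq']
    rw [h2, out_smul_eq_of_invariant V hc, mul_smul]
  rw [Finset.prod_congr rfl (fun q _ => h1 q)]
  exact Fintype.prod_equiv (Equiv.mulLeft (k : K ⧸ V)) _ _ (fun q => rfl)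

/-- the relative norm of an invariant element is a power -/
theorem relNormProd_of_invariant (V : Subgroup K) {c : M} (hc : ∀ k : K, k • c = c) :
    relNormProd V c = c ^ V.index := by
  classical
  letI := Fintype.ofFinite (K ⧸ V)
  rw [relNormProd, finprod_eq_prod_of_fintype, Finset.prod_congr rfl (fun q _ => hc q.out),
    Finset.prod_const, Finset.card_univ, Subgroup.index, Nat.card_eq_fintype_card]

/-- **transitivity of the relative norms** -/
theorem relNormProd_relNormProd (N V : Subgroup K) (hVN : V ≤ N) {c : M}
    (hc : ∀ v ∈ V, v • c = c) :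
    relNormProd N (∏ᶠ r : ↥N ⧸ V.subgroupOf N, ((r.out : ↥N) : K) • c) = relNormProd V c := by
  classical
  letI := Fintype.ofFinite (K ⧸ V)
  letI := Fintype.ofFinite (K ⧸ N)
  letI := Fintype.ofFinite (↥N ⧸ V.subgroupOf N)
  rw [relNormProd, relNormProd, finprod_eq_prod_of_fintype, finprod_eq_prod_of_fintype,
    finprod_eq_prod_of_fintype]
  simp_rw [Finset.smul_prod', ← mul_smul]
  rw [← Finset.prod_product']
  refine (Fintype.prod_equiv (Subgroup.quotientEquivProdOfLE hVN) _ _ (fun s => ?_)).symm
  obtain ⟨⟨q, r⟩, rfl⟩ := (Subgroup.quotientEquivProdOfLE hVN).symm.surjective s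
  rw [Equiv.apply_symm_apply]
  have h1 : (Subgroup.quotientEquivProdOfLE hVN).symm (q, r) =
      ((q.out * ((r.out : ↥N) : K) : K) : K ⧸ V) := by
    conv_lhs => rw [← r.out_eq']
    rfl
  rw [h1, out_smul_eq_of_invariant V hc]

/-- the inner product is the relative norm for the group `N` -/
theorem relNormProd_subgroupOf (N V : Subgroup K) (c : M) :
    relNormProd (K := ↥N) (V.subgroupOf N) c =
      ∏ᶠ r : ↥N ⧸ V.subgroupOf N, ((r.out : ↥N) : K) • c := rfl

/-- the relative norm is multiplicative -/
theorem relNormProd_mul (V : Subgroup K) (c d : M) :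
    relNormProd V (c * d) = relNormProd V c * relNormProd V d := by
  classical
  letI := Fintype.ofFinite (K ⧸ V)
  simp only [relNormProd, finprod_eq_prod_of_fintype, smul_mul', Finset.prod_mul_distrib]

/-- the relative norm as a homomorphism -/
def relNormHom (V : Subgroup K) : M →* M where
  toFun := relNormProd V
  map_one' := by
    classical
    letI := Fintype.ofFinite (K ⧸ V)
    simp only [relNormProd, finprod_eq_prod_of_fintype, smul_one, Finset.prod_const_one]
  map_mul' := relNormProd_mul V

@[simp] lemma relNormHom_apply (V : Subgroup K) (c : M) : relNormHom V c = relNormProd V c := rfl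

/-- equivariant homomorphisms commute with the relative norms -/
theorem map_relNormProd {M' : Type*} [CommGroup M'] [MulDistribMulAction K M'] (f : M →* M')
    (hf : ∀ (k : K) (m : M), f (k • m) = k • f m) (V : Subgroup K) (c : M) :
    f (relNormProd V c) = relNormProd V (f c) := by
  classical
  letI := Fintype.ofFinite (K ⧸ V)
  simp only [relNormProd, finprod_eq_prod_of_fintype, map_prod, hf]

end

end Fermat.Agent.CFT.Global
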