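import Fermat.Agent.Lib.CFT.Global.LocalInt
import Fermat.Agent.Lib.CFT.Global.Invariants

/-!
# P4 / Layer C (C7, C1g): a criterion for `UnramifiedAt q L` from generators

`UnramifiedAt q L` says that `q` generates a radical ideal in the maximal order `SL.integers q L` of
the semi-local algebra `SL q L = ℚ_q ⊗ L`.  The criterion proved here avoids any structure theory of
local fields:

* a `ℤ_q`-subalgebra `C` of `SL q L` is a *Frobenius subalgebra* (`IsFrobSubalgebra q C`) if it
  consists of integral elements and every element of `C` is a `q`-th power modulo `q C`;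
* then `C / q C` is a finite ring with surjective, hence injective, Frobenius, so `q C` is radical
  (`IsFrobSubalgebra.isRadical`), hence `C` is integrally closed in `C[1/q]`; if moreover
  `C[1/q] = SL q L` then `C = SL.integers q L` and `L` is unramified at `q`
  (`IsFrobSubalgebra.eq_integers`, `IsFrobSubalgebra.unramifiedAt`);
* Frobenius subalgebras are stable under suprema (`IsFrobSubalgebra.iSup`, `.sup`) and under
  adjoining `n`-th roots of their units for `q ∤ n` (`IsFrobSubalgebra.adjoin_roots`); the image of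
  the maximal order of a field unramified at `q` is one (`isFrobSubalgebra_map_integers`).

Main result: `unramifiedAt_of_generators`.  Consequences: `UnramifiedAt.of_ringEquiv`,
`UnramifiedAt.of_adjoin_range_union` (compositum), `UnramifiedAt.of_ringHom` (subfields).
-/

set_option autoImplicit false

open scoped TensorProduct

namespace Fermat.Agent.CFT.Global

section FrobAlgebra

variable {q : ℕ}

/-- In a subalgebra generated by elements which are `q`-th powers modulo `q`, over a base ring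
with the same property, every element is a `q`-th power modulo `q`. -/
theorem exists_pow_add_of_mem_adjoin {R A : Type*} [CommRing R] [CommRing A] [Algebra R A]
    (hq : q.Prime) (hR : ∀ r : R, ∃ y z : R, r = y ^ q + q * z) (T : Set A)
    (hT : ∀ t ∈ T, ∃ y ∈ Algebra.adjoin R T, ∃ z ∈ Algebra.adjoin R T, t = y ^ q + q * z) :
    ∀ x ∈ Algebra.adjoin R T,
      ∃ y ∈ Algebra.adjoin R T, ∃ z ∈ Algebra.adjoin R T, x = y ^ q + q * z := by
  intro x hx
  induction hx using Algebra.adjoin_induction with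
  | mem t ht => exact hT t ht
  | algebraMap r =>
    obtain ⟨y, z, rfl⟩ := hR r
    exact ⟨algebraMap R A y, Subalgebra.algebraMap_mem _ y, algebraMap R A z,
      Subalgebra.algebraMap_mem _ z, by simp⟩
  | add a b _ _ ha hb =>
    obtain ⟨y₁, hy₁, z₁, hz₁, rfl⟩ := ha
    obtain ⟨y₂, hy₂, z₂, hz₂, rfl⟩ := hb
    obtain ⟨r, hr⟩ := exists_add_pow_prime_eq hq y₁ y₂
    refine ⟨y₁ + y₂, add_mem hy₁ hy₂, z₁ + z₂ - y₁ * y₂ * ∑ k ∈ Finset.Ioo 0 q, y₁ ^ (k - 1) * y₂ ^ (q - k - 1) * ↑((q.choose k / q : ℕ)), ?_, ?_⟩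
    · refine sub_mem (add_mem hz₁ hz₂) (mul_mem (mul_mem hy₁ hy₂) (sum_mem fun k _ => ?_))
      exact mul_mem (mul_mem (pow_mem hy₁ _) (pow_mem hy₂ _)) (natCast_mem _ _)
    · rw [add_pow_prime_eq hq]
      ring
  | mul a b _ _ ha hb =>
    obtain ⟨y₁, hy₁, z₁, hz₁, rfl⟩ := ha
    obtain ⟨y₂, hy₂, z₂, hz₂, rfl⟩ := hb
    refine ⟨y₁ * y₂, mul_mem hy₁ hy₂, y₁ ^ q * z₂ + z₁ * y₂ ^ q + q * z₁ * z₂, ?_, ?_⟩
    · exact add_mem (add_mem (mul_mem (pow_mem hy₁ _) hz₂) (mul_mem hz₁ (pow_mem hy₂ _)))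
        (mul_mem (mul_mem (natCast_mem _ _) hz₁) hz₂)
    · ring

/-- `ℤ_q`: every element is a `q`-th power modulo `q`. -/
theorem padicInt_exists_pow_add [Fact q.Prime] (r : ℤ_[q]) : ∃ y z : ℤ_[q], r = y ^ q + q * z := by
  have h1 := PadicInt.sub_zmodRepr_mem r
  rw [PadicInt.maximalIdeal_eq_span_p, Ideal.mem_span_singleton] at h1
  obtain ⟨s, hs⟩ := h1
  set k : ℕ := PadicInt.zmodRepr r with hk
  have h2 : (q : ℤ) ∣ (k : ℤ) ^ q - k := by
    rw [← ZMod.intCast_zmod_eq_zero_iff_dvd]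
    push_cast
    rw [ZMod.pow_card, sub_self]
  obtain ⟨m, hm⟩ := h2
  refine ⟨k, s - m, ?_⟩
  have h3 : ((k : ℤ_[q])) ^ q - k = q * m := by
    have := congrArg (Int.cast : ℤ → ℤ_[q]) hm
    push_cast at this
    exact this
  have h4 : r = k + q * s := by rw [← hs]; ring
  rw [h4]
  linear_combination -h3

/-- If `C / q` is finite and every element of `C` is a `q`-th power modulo `q`, then `q C` is a
radical ideal. -/
theorem isRadical_span_of_exists_pow_add {C : Type*} [CommRing C] (hq : q.Prime)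
    [Finite (C ⧸ Ideal.span {(q : C)})] (h : ∀ x : C, ∃ y z : C, x = y ^ q + q * z) :
    (Ideal.span {(q : C)}).IsRadical := by
  set I : Ideal C := Ideal.span {(q : C)} with hI
  have hsurj : Function.Surjective (fun x : C ⧸ I => x ^ q) := by
    intro x
    obtain ⟨x, rfl⟩ := Ideal.Quotient.mk_surjective x
    obtain ⟨y, z, rfl⟩ := h x
    refine ⟨Ideal.Quotient.mk I y, ?_⟩
    change _ ^ q = _
    rw [← map_pow, eq_comm, Ideal.Quotient.eq]
    rw [add_sub_cancel_left]
    exact Ideal.mul_mem_right _ _ (Ideal.subset_span rfl)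
  have hinj : Function.Injective (fun x : C ⧸ I => x ^ q) := Finite.injective_iff_surjective.2 hsurj
  have hiter : ∀ m : ℕ, Function.Injective (fun x : C ⧸ I => x ^ q ^ m) := by
    intro m
    induction m with
    | zero => intro x y hxy; simpa using hxy
    | succ m ih =>
      intro x y hxy
      apply ih
      apply hinj
      change (x ^ q ^ m) ^ q = (y ^ q ^ m) ^ q
      rw [← pow_mul, ← pow_mul, ← pow_succ]
      exact hxy
  intro x hx
  obtain ⟨k, hk⟩ := hx
  rw [← Ideal.Quotient.eq_zero_iff_mem] at hk ⊢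
  rw [map_pow] at hk
  have h1 : k ≤ q ^ k := (Nat.lt_pow_self hq.one_lt).le
  apply hiter k
  change _ ^ q ^ k = 0 ^ q ^ k
  rw [zero_pow (pow_ne_zero _ hq.ne_zero), ← Nat.sub_add_cancel h1, pow_add, hk, mul_zero]

/-- Conversely, if `C / q` is finite and reduced, every element of `C` is a `q`-th power
modulo `q`. -/
theorem exists_pow_add_of_isRadical {C : Type*} [CommRing C] (hq : q.Prime)
    [Finite (C ⧸ Ideal.span {(q : C)})] (h : (Ideal.span {(q : C)}).IsRadical) (x : C) :
    ∃ y z : C, x = y ^ q + q * z := by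
  set I : Ideal C := Ideal.span {(q : C)} with hI
  have hq0 : ((q : C ⧸ I)) = 0 := by
    rw [← map_natCast (Ideal.Quotient.mk I), Ideal.Quotient.eq_zero_iff_mem]
    exact Ideal.subset_span rfl
  have hinj : Function.Injective (fun x : C ⧸ I => x ^ q) := by
    intro a b hab
    obtain ⟨a, rfl⟩ := Ideal.Quotient.mk_surjective a
    obtain ⟨b, rfl⟩ := Ideal.Quotient.mk_surjective b
    change _ ^ q = _ ^ q at hab
    rw [← map_pow, ← map_pow, Ideal.Quotient.eq] at hab
    rw [Ideal.Quotient.eq]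
    apply h
    refine ⟨q, ?_⟩
    obtain ⟨r, hr⟩ := exists_add_pow_prime_eq hq (a - b) b
    rw [sub_add_cancel] at hr
    have h2 : (a - b) ^ q = (a ^ q - b ^ q) - q * ((a - b) * b * r) := by rw [hr]; ring
    rw [h2]
    exact sub_mem hab (Ideal.mul_mem_right _ _ (Ideal.subset_span rfl))
  have hsurj : Function.Surjective (fun x : C ⧸ I => x ^ q) := Finite.injective_iff_surjective.1 hinj
  obtain ⟨y, hy⟩ := hsurj (Ideal.Quotient.mk I x)
  obtain ⟨y, rfl⟩ := Ideal.Quotient.mk_surjective y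
  change _ ^ q = _ at hy
  rw [← map_pow, eq_comm, Ideal.Quotient.eq, Ideal.mem_span_singleton] at hy
  obtain ⟨z, hz⟩ := hy
  exact ⟨y, z, by rw [← hz]; ring⟩

/-- In `C / q` with `q C` radical, the `q`-th power map is injective. -/
theorem pow_prime_injective_of_isRadical {C : Type*} [CommRing C] (hq : q.Prime)
    (h : (Ideal.span {(q : C)}).IsRadical) :
    Function.Injective (fun x : C ⧸ Ideal.span {(q : C)} => x ^ q) := by
  set I : Ideal C := Ideal.span {(q : C)} with hI
  intro a b hab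
  obtain ⟨a, rfl⟩ := Ideal.Quotient.mk_surjective a
  obtain ⟨b, rfl⟩ := Ideal.Quotient.mk_surjective b
  change _ ^ q = _ ^ q at hab
  rw [← map_pow, ← map_pow, Ideal.Quotient.eq] at hab
  rw [Ideal.Quotient.eq]
  apply h
  refine ⟨q, ?_⟩
  obtain ⟨r, hr⟩ := exists_add_pow_prime_eq hq (a - b) b
  rw [sub_add_cancel] at hr
  have h2 : (a - b) ^ q = (a ^ q - b ^ q) - q * ((a - b) * b * r) := by rw [hr]; ring
  rw [h2]
  exact sub_mem hab (Ideal.mul_mem_right _ _ (Ideal.subset_span rfl))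

/-- A unit of `C` has order prime to `q` modulo `q`, if `C / q` is finite and reduced. -/
theorem exists_pow_eq_one_add_of_isRadical {C : Type*} [CommRing C] (hq : q.Prime)
    [Finite (C ⧸ Ideal.span {(q : C)})] (h : (Ideal.span {(q : C)}).IsRadical) {u v : C}
    (huv : u * v = 1) : ∃ M : ℕ, 0 < M ∧ Nat.Coprime M q ∧ ∃ w : C, u ^ M = 1 + q * w := by
  set I : Ideal C := Ideal.span {(q : C)} with hI
  have hinj := pow_prime_injective_of_isRadical hq h
  let ub : (C ⧸ I)ˣ := Units.mkOfMulEqOne (Ideal.Quotient.mk I u) (Ideal.Quotient.mk I v)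
    (by rw [← map_mul, huv, map_one])
  have hpos : 0 < orderOf ub := orderOf_pos ub
  refine ⟨orderOf ub, hpos, ?_, ?_⟩
  · rw [Nat.coprime_comm, hq.coprime_iff_not_dvd]
    rintro ⟨M', hM'⟩
    have h1 : ((ub ^ M' : (C ⧸ I)ˣ) : C ⧸ I) ^ q = (1 : C ⧸ I) ^ q := by
      rw [one_pow, ← Units.val_pow_eq_pow_val, ← pow_mul, mul_comm, ← hM', pow_orderOf_eq_one]
      rfl
    have h2 : ((ub ^ M' : (C ⧸ I)ˣ) : C ⧸ I) = 1 := hinj h1
    have h3 : ub ^ M' = 1 := Units.ext h2
    have h4 : orderOf ub ∣ M' := orderOf_dvd_of_pow_eq_one h3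
    have hM'pos : 0 < M' := by
      rcases Nat.eq_zero_or_pos M' with h0 | h0
      · rw [h0, mul_zero] at hM'; omega
      · exact h0
    have h5 := Nat.le_of_dvd hM'pos h4
    have h6 : 2 * M' ≤ q * M' := Nat.mul_le_mul_right _ hq.two_le
    omega
  · have h1 : ((ub ^ orderOf ub : (C ⧸ I)ˣ) : C ⧸ I) = 1 := by rw [pow_orderOf_eq_one]; rfl
    rw [Units.val_pow_eq_pow_val] at h1
    change (Ideal.Quotient.mk I u) ^ orderOf ub = 1 at h1
    rw [← map_pow, ← map_one (Ideal.Quotient.mk I), Ideal.Quotient.eq, Ideal.mem_span_singleton] at h1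
    obtain ⟨w, hw⟩ := h1
    exact ⟨w, by rw [← hw]; ring⟩

lemma exists_one_add_mul_pow {C : Type*} [CommRing C] (a w : C) (k : ℕ) :
    ∃ w' : C, (1 + a * w) ^ k = 1 + a * w' := by
  induction k with
  | zero => exact ⟨0, by simp⟩
  | succ k ih =>
    obtain ⟨w', hw'⟩ := ih
    exact ⟨w' + w + a * w' * w, by rw [pow_succ, hw']; ring⟩

/-- An element of order prime to `q` modulo `q` is a `q`-th power modulo `q`. -/
theorem exists_pow_add_of_pow_eq_one_add {C : Type*} [CommRing C] (hq : q.Prime) {t w : C} {M : ℕ}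
    (hM : Nat.Coprime M q) (ht : t ^ M = 1 + q * w) :
    ∃ s : ℕ, ∃ z : C, t = (t ^ s) ^ q + q * (t * z) := by
  obtain ⟨m, -, hm⟩ := Nat.exists_mul_mod_eq_of_coprime (q - 1) hM hq.ne_zero
  have h1 : q ∣ 1 + M * m := by
    have h2 : (q - 1) % q = q - 1 := Nat.mod_eq_of_lt (Nat.sub_lt hq.pos one_pos)
    have h3 := hq.two_le
    rw [Nat.dvd_iff_mod_eq_zero, Nat.add_mod, hm, h2, Nat.mod_eq_of_lt hq.one_lt,
      show 1 + (q - 1) = q by omega, Nat.mod_self]
  obtain ⟨s, hs⟩ := h1
  obtain ⟨w', hw'⟩ := exists_one_add_mul_pow (q : C) w m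
  refine ⟨s, -w', ?_⟩
  rw [← pow_mul, mul_comm s q, ← hs, pow_add, pow_one, pow_mul, ht, hw']
  ring

end FrobAlgebra

section IntegralClosed

/-- If `q C` is radical in the subalgebra `C`, `q` is a nonzerodivisor, then an element `y` integral
over the base ring with `q y ∈ C` lies in `C`. -/
theorem mem_of_isIntegral_of_mul_mem {R A : Type*} [CommRing R] [CommRing A] [Algebra R A]
    (C : Subalgebra R A) (q : R)
    (hrad : ∀ c ∈ C, ∀ k : ℕ, (∃ d ∈ C, c ^ k = algebraMap R A q * d) →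
      ∃ d ∈ C, c = algebraMap R A q * d)
    (hreg : ∀ a : A, algebraMap R A q * a = 0 → a = 0) {y : A} (hy : IsIntegral R y)
    (hqy : algebraMap R A q * y ∈ C) : y ∈ C := by
  obtain ⟨P, hP, hPy⟩ := hy
  set c := algebraMap R A q * y with hc
  have h1 : Polynomial.aeval c (Polynomial.scaleRoots P q) = 0 :=
    Polynomial.scaleRoots_aeval_eq_zero hPy
  have h2 : (Polynomial.scaleRoots P q).natDegree = P.natDegree := Polynomial.natDegree_scaleRoots P q
  rw [Polynomial.aeval_eq_sum_range, h2, Finset.sum_range_succ, Polynomial.coeff_scaleRoots,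
    Nat.sub_self, pow_zero, mul_one, hP.coeff_natDegree, one_smul] at h1
  have h3 : ∃ d ∈ C, c ^ P.natDegree = algebraMap R A q * d := by
    refine ⟨-∑ i ∈ Finset.range P.natDegree, (P.coeff i * q ^ (P.natDegree - i - 1)) • c ^ i, ?_, ?_⟩
    · refine neg_mem (sum_mem fun i _ => ?_)
      exact Subalgebra.smul_mem _ (pow_mem hqy _) _
    · rw [eq_neg_of_add_eq_zero_right h1, mul_neg, Finset.mul_sum]
      congr 1
      refine Finset.sum_congr rfl fun i hi => ?_
      rw [Finset.mem_range] at hi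
      rw [Polynomial.coeff_scaleRoots, Algebra.smul_def, Algebra.smul_def, ← mul_assoc, ← map_mul]
      congr 2
      have : P.natDegree - i = (P.natDegree - i - 1) + 1 := by omega
      rw [mul_comm q, mul_assoc, ← pow_succ, ← this]
  obtain ⟨d, hd, hcd⟩ := hrad c hqy _ h3
  have h4 : y = d := by
    have : algebraMap R A q * (y - d) = 0 := by rw [mul_sub, ← hcd, hc, sub_self]
    exact sub_eq_zero.1 (hreg _ this)
  rw [h4]
  exact hd

/-- If `q C` is radical in the subalgebra `C` and `q` is a nonzerodivisor, then an integral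
element `x` with `q ^ m x ∈ C` lies in `C`. -/
theorem mem_of_isIntegral_of_pow_mul_mem {R A : Type*} [CommRing R] [CommRing A] [Algebra R A]
    (C : Subalgebra R A) (q : R)
    (hrad : ∀ c ∈ C, ∀ k : ℕ, (∃ d ∈ C, c ^ k = algebraMap R A q * d) →
      ∃ d ∈ C, c = algebraMap R A q * d)
    (hreg : ∀ a : A, algebraMap R A q * a = 0 → a = 0) {x : A} (hx : IsIntegral R x) (m : ℕ)
    (hqx : algebraMap R A q ^ m * x ∈ C) : x ∈ C := by
  induction m with
  | zero => simpa using hqx
  | succ m ih =>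
    apply ih
    apply mem_of_isIntegral_of_mul_mem C q hrad hreg
    · exact IsIntegral.mul (IsIntegral.pow isIntegral_algebraMap m) hx
    · rw [← mul_assoc, ← pow_succ']
      exact hqx

end IntegralClosed

noncomputable section

section General

variable {q : ℕ} [Fact q.Prime] {K L : Type} [Field K] [CharZero K] [Field L] [CharZero L]

lemma isUnit_natCast_SL : IsUnit ((q : ℕ) : SL q K) := by
  have h : IsUnit ((q : ℕ) : ℚ_[q]) :=
    isUnit_iff_ne_zero.2 (Nat.cast_ne_zero.2 (Fact.out : q.Prime).ne_zero)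
  simpa using h.map (algebraMap ℚ_[q] (SL q K))

/-- A subfield of a field unramified at `q` is unramified at `q`. -/
theorem UnramifiedAt.of_ringHom (f : K →+* L) (hL : UnramifiedAt q L) : UnramifiedAt q K := by
  unfold UnramifiedAt at hL ⊢
  rw [map_natCast] at hL ⊢
  intro x hx
  obtain ⟨k, hk⟩ := hx
  rw [Ideal.mem_span_singleton] at hk ⊢
  obtain ⟨d, hd⟩ := hk
  have hfx : SL.map q f x ∈ SL.integers q L := SL.map_mem_integers q f x.2
  have h1 : (⟨SL.map q f x, hfx⟩ : ↥(SL.integers q L)) ∈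
      Ideal.span {((q : ℕ) : ↥(SL.integers q L))} := by
    apply hL
    refine ⟨k, ?_⟩
    rw [Ideal.mem_span_singleton]
    refine ⟨⟨SL.map q f d, SL.map_mem_integers q f d.2⟩, Subtype.ext ?_⟩
    have := congrArg (fun z : ↥(SL.integers q K) => SL.map q f (z : SL q K)) hd
    simpa using this
  rw [Ideal.mem_span_singleton] at h1
  obtain ⟨d', hd'⟩ := h1
  have hd'' : SL.map q f x = (q : SL q L) * (d' : SL q L) := by
    have := congrArg Subtype.val hd'
    simpa using this
  obtain ⟨u, hu⟩ := isUnit_natCast_SL (q := q) (K := K)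
  obtain ⟨y, hy⟩ : ∃ y : SL q K, y = ((u⁻¹ : (SL q K)ˣ) : SL q K) * x := ⟨_, rfl⟩
  have hxy : (x : SL q K) = (q : SL q K) * y := by
    rw [hy, ← mul_assoc, ← hu, Units.mul_inv, one_mul]
  have hfy : SL.map q f y = d' := by
    have h2 : (q : SL q L) * SL.map q f y = (q : SL q L) * (d' : SL q L) := by
      rw [← hd'', ← map_natCast (SL.map q f) q, ← map_mul, ← hxy]
    exact (isUnit_natCast_SL (q := q) (K := L)).mul_left_cancel h2
  have hyint : y ∈ SL.integers q K := by
    rw [SL.mem_integers_iff]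
    rw [← isIntegral_algHom_iff ((SL.map q f).restrictScalars ℤ_[q]) (SL.map_injective q f)]
    change IsIntegral ℤ_[q] (SL.map q f y)
    rw [hfy]
    exact d'.2
  exact ⟨⟨y, hyint⟩, Subtype.ext (by simpa using hxy)⟩

/-- A root of a local unit is a local unit. -/
theorem SL.mem_unitGroup_of_pow_mem {u : (SL q K)ˣ} {n : ℕ} (hn : 0 < n)
    (hu : u ^ n ∈ SL.unitGroup q K) : u ∈ SL.unitGroup q K := by
  rw [SL.mem_unitGroup_iff] at hu ⊢
  constructor
  · exact IsIntegral.of_pow hn (by simpa using hu.1 : (u : SL q K) ^ n ∈ SL.integers q K)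
  · refine IsIntegral.of_pow hn ?_
    have := hu.2
    rw [← inv_pow] at this
    exact (by simpa using this : ((u⁻¹ : (SL q K)ˣ) : SL q K) ^ n ∈ SL.integers q K)

end General

section Finiteness

variable {q : ℕ} [Fact q.Prime] {K : Type} [Field K] [NumberField K]

instance Ow.moduleFinite (w : Place q K) : Module.Finite ℤ_[q] (Ow w) :=
  IsIntegralClosure.finite ℤ_[q] ℚ_[q] (Kv w) (Ow w)

variable (q K) in
/-- The maximal order of the semi-local algebra is a finite `ℤ_q`-module. -/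
theorem SL.finite_integers : Module.Finite ℤ_[q] ↥(SL.integers q K) := by
  have : Fintype (Place q K) := Fintype.ofFinite _
  let e : SL q K ≃ₐ[ℤ_[q]] (∀ w : Place q K, Kv w) := (SL.equivPi q K).restrictScalars ℤ_[q]
  let g : (∀ w : Place q K, Ow w) →ₗ[ℤ_[q]] SL q K :=
    e.symm.toLinearMap.comp (LinearMap.pi fun w => (Ow w).val.toLinearMap.comp (LinearMap.proj w))
  have hg : ∀ x, g x ∈ Subalgebra.toSubmodule (SL.integers q K) := by
    intro x
    change g x ∈ SL.integers q K
    rw [SL.mem_integers_iff_forall]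
    intro w
    have h1 : Kv.proj w (g x) = (x w : Kv w) := by
      rw [← SL.equivPi_apply]
      change e (e.symm _) w = _
      rw [AlgEquiv.apply_symm_apply]
      rfl
    rw [h1]
    exact (x w).2
  let f : (∀ w : Place q K, Ow w) →ₗ[ℤ_[q]] ↥(SL.integers q K) :=
    LinearMap.codRestrict (Subalgebra.toSubmodule (SL.integers q K)) g hg
  refine Module.Finite.of_surjective f ?_
  rintro ⟨y, hy⟩
  have hy' := hy
  rw [SL.mem_integers_iff_forall] at hy'
  refine ⟨fun w => ⟨Kv.proj w y, hy' w⟩, ?_⟩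
  apply Subtype.ext
  change e.symm _ = y
  rw [AlgEquiv.symm_apply_eq]
  funext w
  rfl

instance finite_padicInt_quotient_span : Finite (ℤ_[q] ⧸ Ideal.span {(q : ℤ_[q])}) := by
  rw [← PadicInt.maximalIdeal_eq_span_p]
  exact Finite.of_equiv _ (PadicInt.residueField (p := q)).symm.toEquiv

/-- A subalgebra of the maximal order is finite modulo `q`. -/
theorem finite_quotient_span_of_le_integers (C : Subalgebra ℤ_[q] (SL q K))
    (hC : C ≤ SL.integers q K) : Finite (↥C ⧸ Ideal.span {((q : ℕ) : ↥C)}) := by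
  have hfin := SL.finite_integers q K
  have hnoeth : IsNoetherian ℤ_[q] ↥(SL.integers q K) := isNoetherian_of_isNoetherianRing_of_finite _ _
  have hCfin : Module.Finite ℤ_[q] ↥C :=
    Module.Finite.of_injective (Subalgebra.inclusion hC).toLinearMap (Subalgebra.inclusion_injective hC)
  set I : Ideal ℤ_[q] := Ideal.span {(q : ℤ_[q])} with hI
  have h1 : Finite (↥C ⧸ (I • ⊤ : Submodule ℤ_[q] ↥C)) :=
    Submodule.finite_quotient_smul I (Module.finite_def.1 hCfin)
  set J : Ideal ↥C := Ideal.span {((q : ℕ) : ↥C)} with hJ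
  have hle : (I • ⊤ : Submodule ℤ_[q] ↥C) ≤ LinearMap.ker ((Ideal.Quotient.mkₐ ℤ_[q] J).toLinearMap) := by
    rw [Submodule.smul_le]
    intro a ha c _
    rw [LinearMap.mem_ker]
    change Ideal.Quotient.mk J (a • c) = 0
    rw [Ideal.Quotient.eq_zero_iff_mem]
    rw [hI, Ideal.mem_span_singleton] at ha
    obtain ⟨b, rfl⟩ := ha
    have : ((q : ℤ_[q]) * b) • c = ((q : ℕ) : ↥C) * (b • c) := by
      rw [mul_smul, Nat.cast_smul_eq_nsmul, nsmul_eq_mul]
    rw [this]
    exact Ideal.mul_mem_right _ _ (Ideal.subset_span rfl)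
  refine Finite.of_surjective (Submodule.liftQ _ ((Ideal.Quotient.mkₐ ℤ_[q] J).toLinearMap) hle) ?_
  intro x
  obtain ⟨c, rfl⟩ := Ideal.Quotient.mk_surjective x
  exact ⟨Submodule.Quotient.mk c, rfl⟩

end Finiteness

section Frob

variable (q : ℕ) [Fact q.Prime] {K : Type} [Field K] [NumberField K]

/-- A `ℤ_q`-subalgebra of `ℚ_q ⊗ K` consisting of integral elements in which every element is a
`q`-th power modulo `q`. -/
structure IsFrobSubalgebra (C : Subalgebra ℤ_[q] (SL q K)) : Prop where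
  le_integers : C ≤ SL.integers q K
  exists_pow_add : ∀ x ∈ C, ∃ y ∈ C, ∃ z ∈ C, x = y ^ q + (q : SL q K) * z

variable {q}

lemma IsFrobSubalgebra.exists_pow_add' {C : Subalgebra ℤ_[q] (SL q K)} (hC : IsFrobSubalgebra q C)
    (x : ↥C) : ∃ y z : ↥C, x = y ^ q + (q : ↥C) * z := by
  obtain ⟨y, hy, z, hz, h⟩ := hC.exists_pow_add x.1 x.2
  exact ⟨⟨y, hy⟩, ⟨z, hz⟩, Subtype.ext (by simpa using h)⟩

/-- In a Frobenius subalgebra, `q` generates a radical ideal. -/
theorem IsFrobSubalgebra.isRadical {C : Subalgebra ℤ_[q] (SL q K)} (hC : IsFrobSubalgebra q C) :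
    (Ideal.span {((q : ℕ) : ↥C)}).IsRadical := by
  have := finite_quotient_span_of_le_integers C hC.le_integers
  exact isRadical_span_of_exists_pow_add (Fact.out : q.Prime) hC.exists_pow_add'

/-- The subalgebra generated by a set of integral elements each of which is a `q`-th power modulo
`q` in it. -/
theorem isFrobSubalgebra_adjoin (T : Set (SL q K)) (hint : ∀ t ∈ T, t ∈ SL.integers q K)
    (hT : ∀ t ∈ T, ∃ y ∈ Algebra.adjoin ℤ_[q] T, ∃ z ∈ Algebra.adjoin ℤ_[q] T,
      t = y ^ q + (q : SL q K) * z) : IsFrobSubalgebra q (Algebra.adjoin ℤ_[q] T) where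
  le_integers := Algebra.adjoin_le hint
  exists_pow_add := exists_pow_add_of_mem_adjoin (Fact.out : q.Prime) padicInt_exists_pow_add T hT

/-- A supremum of Frobenius subalgebras is a Frobenius subalgebra. -/
theorem IsFrobSubalgebra.iSup {ι : Type*} {C : ι → Subalgebra ℤ_[q] (SL q K)}
    (hC : ∀ i, IsFrobSubalgebra q (C i)) : IsFrobSubalgebra q (⨆ i, C i) := by
  have h1 : (⨆ i, C i) = Algebra.adjoin ℤ_[q] (⋃ i, (C i : Set (SL q K))) := by
    rw [Algebra.adjoin_iUnion]
    congr 1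
    funext i
    exact (Algebra.adjoin_eq (C i)).symm
  rw [h1]
  apply isFrobSubalgebra_adjoin
  · intro t ht
    obtain ⟨i, hi⟩ := Set.mem_iUnion.1 ht
    exact (hC i).le_integers hi
  · intro t ht
    obtain ⟨i, hi⟩ := Set.mem_iUnion.1 ht
    obtain ⟨y, hy, z, hz, h⟩ := (hC i).exists_pow_add t hi
    have hle : (C i : Set (SL q K)) ⊆ Algebra.adjoin ℤ_[q] (⋃ i, (C i : Set (SL q K))) :=
      (Set.subset_iUnion (fun i => (C i : Set (SL q K))) i).trans Algebra.subset_adjoin
    exact ⟨y, hle hy, z, hle hz, h⟩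

theorem IsFrobSubalgebra.sup {C D : Subalgebra ℤ_[q] (SL q K)} (hC : IsFrobSubalgebra q C)
    (hD : IsFrobSubalgebra q D) : IsFrobSubalgebra q (C ⊔ D) := by
  rw [sup_eq_iSup]
  exact IsFrobSubalgebra.iSup (fun b => by cases b <;> assumption)

/-- Adjoining `n`-th roots (`q ∤ n`) of units of a Frobenius subalgebra gives a Frobenius
subalgebra. -/
theorem IsFrobSubalgebra.adjoin_roots {C : Subalgebra ℤ_[q] (SL q K)} (hC : IsFrobSubalgebra q C)
    (T : Set (SL q K))
    (hT : ∀ t ∈ T, ∃ n : ℕ, ¬ q ∣ n ∧ t ^ n ∈ C ∧ ∃ v ∈ C, t ^ n * v = 1) :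
    IsFrobSubalgebra q (Algebra.adjoin ℤ_[q] ((C : Set (SL q K)) ∪ T)) := by
  have hq : q.Prime := Fact.out
  apply isFrobSubalgebra_adjoin
  · rintro t (ht | ht)
    · exact hC.le_integers ht
    · obtain ⟨n, hn, htn, -⟩ := hT t ht
      have hn0 : 0 < n := Nat.pos_of_ne_zero (fun h => hn (h ▸ dvd_zero q))
      exact IsIntegral.of_pow hn0 (hC.le_integers htn)
  · rintro t (ht | ht)
    · obtain ⟨y, hy, z, hz, h⟩ := hC.exists_pow_add t ht
      have hle : (C : Set (SL q K)) ⊆ Algebra.adjoin ℤ_[q] ((C : Set (SL q K)) ∪ T) :=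
        Set.subset_union_left.trans Algebra.subset_adjoin
      exact ⟨y, hle hy, z, hle hz, h⟩
    · obtain ⟨n, hn, htn, v, hv, htv⟩ := hT t ht
      have := finite_quotient_span_of_le_integers C hC.le_integers
      obtain ⟨M, hM0, hMq, w, hw⟩ := exists_pow_eq_one_add_of_isRadical hq hC.isRadical
        (u := (⟨t ^ n, htn⟩ : ↥C)) (v := ⟨v, hv⟩) (Subtype.ext htv)
      have hw' : t ^ (n * M) = 1 + (q : SL q K) * (w : SL q K) := by
        have := congrArg Subtype.val hw
        simpa [pow_mul] using this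
      have hcop : Nat.Coprime (n * M) q :=
        Nat.Coprime.mul_left ((Nat.coprime_comm.1 ((hq.coprime_iff_not_dvd).2 hn))) hMq
      set D := Algebra.adjoin ℤ_[q] ((C : Set (SL q K)) ∪ T) with hD
      have htD : t ∈ D := Algebra.subset_adjoin (Set.mem_union_right _ ht)
      have hwD : (w : SL q K) ∈ D := Algebra.subset_adjoin (Set.mem_union_left _ w.2)
      obtain ⟨s, z, hz⟩ := exists_pow_add_of_pow_eq_one_add hq (C := ↥D) (t := ⟨t, htD⟩)
        (w := ⟨w, hwD⟩) hcop (Subtype.ext (by simpa using hw'))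
      refine ⟨t ^ s, pow_mem htD s, t * z, mul_mem htD z.2, ?_⟩
      have := congrArg Subtype.val hz
      simpa using this

end Frob

section Main

variable {q : ℕ} [Fact q.Prime] {K : Type} [Field K] [NumberField K]

/-- **Criterion.** A Frobenius subalgebra `C` with `C[1/q] = ℚ_q ⊗ K` is the maximal order. -/
theorem IsFrobSubalgebra.eq_integers {C : Subalgebra ℤ_[q] (SL q K)} (hC : IsFrobSubalgebra q C)
    (hgen : ∀ x : SL q K, ∃ m : ℕ, (q : SL q K) ^ m * x ∈ C) : C = SL.integers q K := by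
  refine le_antisymm hC.le_integers fun x hx => ?_
  obtain ⟨m, hm⟩ := hgen x
  have hq : algebraMap ℤ_[q] (SL q K) (q : ℤ_[q]) = (q : SL q K) := map_natCast _ q
  refine mem_of_isIntegral_of_pow_mul_mem C (q : ℤ_[q]) ?_ ?_ hx m (by rw [hq]; exact hm)
  · intro c hc k ⟨d, hd, hcd⟩
    rw [hq] at hcd ⊢
    have h1 : (⟨c, hc⟩ : ↥C) ^ k ∈ Ideal.span {((q : ℕ) : ↥C)} := by
      rw [Ideal.mem_span_singleton]
      exact ⟨⟨d, hd⟩, Subtype.ext (by simpa using hcd)⟩
    have h2 := hC.isRadical ⟨k, h1⟩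
    rw [Ideal.mem_span_singleton] at h2
    obtain ⟨d', hd'⟩ := h2
    refine ⟨d', d'.2, ?_⟩
    have := congrArg Subtype.val hd'
    simpa using this
  · intro a ha
    rw [hq] at ha
    exact (isUnit_natCast_SL (q := q) (K := K)).mul_right_eq_zero.1 ha

/-- **Criterion.** If `ℚ_q ⊗ K` contains a Frobenius subalgebra `C` with `C[1/q] = ℚ_q ⊗ K`,
then `K` is unramified at `q`. -/
theorem IsFrobSubalgebra.unramifiedAt {C : Subalgebra ℤ_[q] (SL q K)} (hC : IsFrobSubalgebra q C)
    (hgen : ∀ x : SL q K, ∃ m : ℕ, (q : SL q K) ^ m * x ∈ C) : UnramifiedAt q K := by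
  obtain rfl := hC.eq_integers hgen
  have h := hC.isRadical
  unfold UnramifiedAt
  rwa [map_natCast]

/-- The elements `x` with `q ^ m x ∈ C` for some `m`. -/
def invSubalgebra (C : Subalgebra ℤ_[q] (SL q K)) : Subalgebra ℚ_[q] (SL q K) where
  carrier := {x | ∃ m : ℕ, (q : SL q K) ^ m * x ∈ C}
  mul_mem' := by
    rintro x y ⟨m, hm⟩ ⟨n, hn⟩
    refine ⟨m + n, ?_⟩
    have : (q : SL q K) ^ (m + n) * (x * y) = ((q : SL q K) ^ m * x) * ((q : SL q K) ^ n * y) := by
      rw [pow_add]; ring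
    rw [this]
    exact mul_mem hm hn
  add_mem' := by
    rintro x y ⟨m, hm⟩ ⟨n, hn⟩
    refine ⟨m + n, ?_⟩
    have : (q : SL q K) ^ (m + n) * (x + y) = (q : SL q K) ^ n * ((q : SL q K) ^ m * x)
        + (q : SL q K) ^ m * ((q : SL q K) ^ n * y) := by
      rw [pow_add]; ring
    rw [this]
    exact add_mem (mul_mem (pow_mem (natCast_mem _ _) _) hm) (mul_mem (pow_mem (natCast_mem _ _) _) hn)
  algebraMap_mem' := by
    intro a
    have hq1 : (1 : ℝ) < q := by exact_mod_cast (Fact.out : q.Prime).one_lt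
    obtain ⟨m, hm⟩ := pow_unbounded_of_one_lt ‖a‖ hq1
    have hnorm : ‖(q : ℚ_[q]) ^ m * a‖ ≤ 1 := by
      rw [norm_mul, norm_pow, Padic.norm_p, inv_pow]
      rw [inv_mul_le_iff₀ (pow_pos (by linarith) m), mul_one]
      exact hm.le
    refine ⟨m, ?_⟩
    let b : ℤ_[q] := ⟨(q : ℚ_[q]) ^ m * a, hnorm⟩
    have h1 : (q : SL q K) ^ m * algebraMap ℚ_[q] (SL q K) a = algebraMap ℤ_[q] (SL q K) b := by
      rw [IsScalarTower.algebraMap_apply ℤ_[q] ℚ_[q] (SL q K)]
      change _ = algebraMap ℚ_[q] (SL q K) ((q : ℚ_[q]) ^ m * a)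
      rw [map_mul, map_pow, map_natCast]
    rw [h1]
    exact Subalgebra.algebraMap_mem C _

lemma mem_invSubalgebra_iff {C : Subalgebra ℤ_[q] (SL q K)} {x : SL q K} :
    x ∈ invSubalgebra C ↔ ∃ m : ℕ, (q : SL q K) ^ m * x ∈ C := Iff.rfl

/-- To check `C[1/q] = ℚ_q ⊗ K` it suffices to check that `C[1/q]` contains a set of generators
of the `ℚ`-algebra `K`. -/
theorem forall_exists_pow_mul_mem (C : Subalgebra ℤ_[q] (SL q K)) (G : Set K)
    (hG : Algebra.adjoin ℚ G = ⊤) (h : ∀ g ∈ G, ∃ m : ℕ, (q : SL q K) ^ m * SL.incl q K g ∈ C) :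
    ∀ x : SL q K, ∃ m : ℕ, (q : SL q K) ^ m * x ∈ C := by
  set D := invSubalgebra C with hD
  let D' : Subalgebra ℚ K := (D.restrictScalars ℚ).comap
    (Algebra.TensorProduct.includeRight : K →ₐ[ℚ] ℚ_[q] ⊗[ℚ] K)
  have h1 : G ⊆ D' := fun g hg => h g hg
  have h2 : D' = ⊤ := by
    rw [eq_top_iff, ← hG]
    exact Algebra.adjoin_le h1
  have h3 : ∀ k : K, SL.incl q K k ∈ D := by
    intro k
    have : k ∈ D' := by rw [h2]; exact Algebra.mem_top
    exact this
  intro x
  change x ∈ D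
  induction x using TensorProduct.induction_on with
  | zero => exact zero_mem _
  | tmul a k =>
    have : (a ⊗ₜ[ℚ] k : SL q K) = algebraMap ℚ_[q] (SL q K) a * SL.incl q K k := by
      rw [SL.incl_apply, Algebra.TensorProduct.algebraMap_apply, Algebra.TensorProduct.tmul_mul_tmul]
      simp
    rw [this]
    exact mul_mem (Subalgebra.algebraMap_mem D a) (h3 k)
  | add x y hx hy => exact add_mem hx hy

end Main

section Constructors

variable {q : ℕ} [Fact q.Prime] {K : Type} [Field K] [NumberField K]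

/-- Every element of `ℚ_q ⊗ K` becomes integral after multiplication by a power of `q`. -/
theorem SL.exists_pow_mul_mem_integers (x : SL q K) :
    ∃ m : ℕ, (q : SL q K) ^ m * x ∈ SL.integers q K := by
  refine forall_exists_pow_mul_mem (SL.integers q K) Set.univ (by simp) (fun g _ => ?_) x
  rw [← mem_invSubalgebra_iff]
  have halg : IsAlgebraic ℤ g :=
    (IsFractionRing.isAlgebraic_iff ℤ ℚ K).2 (Algebra.IsAlgebraic.isAlgebraic g)
  obtain ⟨n, hn0, hn⟩ := halg.exists_integral_multiple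
  have h1 : SL.incl q K (n • g) ∈ invSubalgebra (SL.integers q K) :=
    ⟨0, by simpa using SL.incl_mem_integers_of_isIntegral q hn⟩
  have hnq : (n : ℚ_[q]) ≠ 0 := Int.cast_ne_zero.2 hn0
  have h2 : SL.incl q K g = algebraMap ℚ_[q] (SL q K) (n : ℚ_[q])⁻¹ * SL.incl q K (n • g) := by
    rw [zsmul_eq_mul, map_mul, map_intCast, ← mul_assoc]
    have : algebraMap ℚ_[q] (SL q K) (n : ℚ_[q])⁻¹ * (n : SL q K) = 1 := by
      rw [← map_intCast (algebraMap ℚ_[q] (SL q K)) n, ← map_mul, inv_mul_cancel₀ hnq, map_one]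
    rw [this, one_mul]
  rw [h2]
  exact mul_mem (Subalgebra.algebraMap_mem _ _) h1

variable {L : Type} [Field L] [NumberField L]

/-- The image of the maximal order of an unramified field is a Frobenius subalgebra. -/
theorem isFrobSubalgebra_map_integers (f : K →+* L) (hK : UnramifiedAt q K) :
    IsFrobSubalgebra q ((SL.integers q K).map ((SL.map q f).restrictScalars ℤ_[q])) where
  le_integers := by
    rintro _ ⟨x, hx, rfl⟩
    exact SL.map_mem_integers q f hx
  exists_pow_add := by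
    rintro _ ⟨x, hx, rfl⟩
    have hfin := finite_quotient_span_of_le_integers (SL.integers q K) le_rfl
    have hrad : (Ideal.span {((q : ℕ) : ↥(SL.integers q K))}).IsRadical := by
      have h := hK
      unfold UnramifiedAt at h
      rwa [map_natCast] at h
    obtain ⟨y, z, hyz⟩ := exists_pow_add_of_isRadical (Fact.out : q.Prime) hrad ⟨x, hx⟩
    refine ⟨SL.map q f y, ⟨y, y.2, rfl⟩, SL.map q f z, ⟨z, z.2, rfl⟩, ?_⟩
    have h1 : x = (y : SL q K) ^ q + (q : SL q K) * z := by
      have := congrArg Subtype.val hyz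
      simpa using this
    change SL.map q f x = _
    rw [h1, map_add, map_pow, map_mul, map_natCast]

end Constructors

section Generators

variable {q : ℕ} [Fact q.Prime] {L : Type} [Field L] [NumberField L]

/-- **Unramifiedness from generators.**  If the number field `L` is generated by the images of
fields `K i` unramified at `q` and by elements `γ` with `γ ^ n = σ i a` where `q ∤ n` and `a` is
locally at `q` an `n`-th power times a unit, then `L` is unramified at `q`. -/
theorem unramifiedAt_of_generators {ι : Type*} (K : ι → Type) [∀ i, Field (K i)]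
    [∀ i, NumberField (K i)] (σ : ∀ i, K i →+* L) (hK : ∀ i, UnramifiedAt q (K i)) (Γ : Set L)
    (hΓ : ∀ γ ∈ Γ, ∃ n : ℕ, ¬ q ∣ n ∧ ∃ i, ∃ a : K i, γ ^ n = σ i a ∧
      ∃ t : (SL q (K i))ˣ, ∃ u ∈ SL.unitGroup q (K i),
        SL.incl q (K i) a = (t : SL q (K i)) ^ n * (u : SL q (K i)))
    (hgen : Algebra.adjoin ℚ ((⋃ i, Set.range (σ i)) ∪ Γ) = ⊤) : UnramifiedAt q L := by
  set C₀ : Subalgebra ℤ_[q] (SL q L) :=
    ⨆ i, (SL.integers q (K i)).map ((SL.map q (σ i)).restrictScalars ℤ_[q]) with hC₀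
  have hC₀frob : IsFrobSubalgebra q C₀ :=
    IsFrobSubalgebra.iSup fun i => isFrobSubalgebra_map_integers (σ i) (hK i)
  have hmapC₀ : ∀ i, ∀ x ∈ SL.integers q (K i), SL.map q (σ i) x ∈ C₀ := by
    intro i x hx
    have h1 : (SL.integers q (K i)).map ((SL.map q (σ i)).restrictScalars ℤ_[q]) ≤ C₀ :=
      le_iSup (fun i => (SL.integers q (K i)).map ((SL.map q (σ i)).restrictScalars ℤ_[q])) i
    exact h1 ⟨x, hx, rfl⟩
  set T : Set (SL q L) := {b | ∃ γ ∈ Γ, ∃ n : ℕ, ¬ q ∣ n ∧ ∃ i, ∃ a : K i, γ ^ n = σ i a ∧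
      ∃ t : (SL q (K i))ˣ, ∃ u ∈ SL.unitGroup q (K i),
        SL.incl q (K i) a = (t : SL q (K i)) ^ n * (u : SL q (K i)) ∧
        b = SL.incl q L γ * SL.map q (σ i) ((t⁻¹ : (SL q (K i))ˣ) : SL q (K i))} with hT
  set C : Subalgebra ℤ_[q] (SL q L) := Algebra.adjoin ℤ_[q] ((C₀ : Set (SL q L)) ∪ T) with hC
  have hCfrob : IsFrobSubalgebra q C := by
    apply hC₀frob.adjoin_roots
    rintro b ⟨γ, hγ, n, hn, i, a, hγa, t, u, hu, hatu, rfl⟩
    rw [SL.mem_unitGroup_iff] at hu
    have hpow : (SL.incl q L γ * SL.map q (σ i) ((t⁻¹ : (SL q (K i))ˣ) : SL q (K i))) ^ n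
        = SL.map q (σ i) (u : SL q (K i)) := by
      rw [mul_pow, ← map_pow, hγa, ← SL.map_incl, hatu, ← map_pow, ← map_mul]
      congr 1
      rw [mul_comm, ← mul_assoc, ← mul_pow, Units.inv_mul, one_pow, one_mul]
    refine ⟨n, hn, ?_, SL.map q (σ i) ((u⁻¹ : (SL q (K i))ˣ) : SL q (K i)), hmapC₀ i _ hu.2, ?_⟩
    · rw [hpow]
      exact hmapC₀ i _ hu.1
    · rw [hpow, ← map_mul, Units.mul_inv, map_one]
  have hC₀C : (C₀ : Set (SL q L)) ⊆ C := Set.subset_union_left.trans Algebra.subset_adjoin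
  have hTC : T ⊆ C := Set.subset_union_right.trans Algebra.subset_adjoin
  have hmapinv : ∀ i, ∀ x : SL q (K i), SL.map q (σ i) x ∈ invSubalgebra C := by
    intro i x
    obtain ⟨m, hm⟩ := SL.exists_pow_mul_mem_integers x
    refine ⟨m, ?_⟩
    have : (q : SL q L) ^ m * SL.map q (σ i) x = SL.map q (σ i) ((q : SL q (K i)) ^ m * x) := by
      rw [map_mul, map_pow, map_natCast]
    rw [this]
    exact hC₀C (hmapC₀ i _ hm)
  refine hCfrob.unramifiedAt (forall_exists_pow_mul_mem C _ hgen ?_)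
  rintro g (hg | hg)
  · obtain ⟨i, hi⟩ := Set.mem_iUnion.1 hg
    obtain ⟨k, rfl⟩ := hi
    rw [← mem_invSubalgebra_iff, ← SL.map_incl]
    exact hmapinv i _
  · obtain ⟨n, hn, i, a, hγa, t, u, hu, hatu⟩ := hΓ g hg
    rw [← mem_invSubalgebra_iff]
    have hb : SL.incl q L g * SL.map q (σ i) ((t⁻¹ : (SL q (K i))ˣ) : SL q (K i)) ∈ T :=
      ⟨g, hg, n, hn, i, a, hγa, t, u, hu, hatu, rfl⟩
    have h1 : SL.incl q L g = (SL.incl q L g * SL.map q (σ i) ((t⁻¹ : (SL q (K i))ˣ) : SL q (K i)))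
        * SL.map q (σ i) (t : SL q (K i)) := by
      rw [mul_assoc, ← map_mul, Units.inv_mul, map_one, mul_one]
    rw [h1]
    exact mul_mem ⟨0, by simpa using hTC hb⟩ (hmapinv i _)

end Generators

section Byproducts

variable {q : ℕ} [Fact q.Prime] {K L : Type} [Field K] [NumberField K] [Field L] [NumberField L]

/-- Unramifiedness is invariant under isomorphisms. -/
theorem UnramifiedAt.of_ringEquiv (e : K ≃+* L) (hK : UnramifiedAt q K) : UnramifiedAt q L :=
  UnramifiedAt.of_ringHom (e.symm : L →+* K) hK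

/-- The compositum of two fields unramified at `q` is unramified at `q`. -/
theorem UnramifiedAt.of_adjoin_range_union {K' : Type} [Field K'] [NumberField K']
    (f : K →+* L) (g : K' →+* L) (hK : UnramifiedAt q K) (hK' : UnramifiedAt q K')
    (hgen : Algebra.adjoin ℚ (Set.range f ∪ Set.range g) = ⊤) : UnramifiedAt q L := by
  set C : Subalgebra ℤ_[q] (SL q L) :=
    (SL.integers q K).map ((SL.map q f).restrictScalars ℤ_[q]) ⊔
      (SL.integers q K').map ((SL.map q g).restrictScalars ℤ_[q]) with hC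
  have hCfrob : IsFrobSubalgebra q C :=
    (isFrobSubalgebra_map_integers f hK).sup (isFrobSubalgebra_map_integers g hK')
  refine hCfrob.unramifiedAt (forall_exists_pow_mul_mem C _ hgen ?_)
  rintro x (⟨k, rfl⟩ | ⟨k, rfl⟩)
  · obtain ⟨m, hm⟩ := SL.exists_pow_mul_mem_integers (SL.incl q K k)
    refine ⟨m, ?_⟩
    have h1 : (q : SL q L) ^ m * SL.incl q L (f k)
        = SL.map q f ((q : SL q K) ^ m * SL.incl q K k) := by
      rw [map_mul, map_pow, map_natCast, SL.map_incl]
    rw [h1]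
    exact (le_sup_left : _ ≤ C) ⟨_, hm, rfl⟩
  · obtain ⟨m, hm⟩ := SL.exists_pow_mul_mem_integers (SL.incl q K' k)
    refine ⟨m, ?_⟩
    have h1 : (q : SL q L) ^ m * SL.incl q L (g k)
        = SL.map q g ((q : SL q K') ^ m * SL.incl q K' k) := by
      rw [map_mul, map_pow, map_natCast, SL.map_incl]
    rw [h1]
    exact (le_sup_right : _ ≤ C) ⟨_, hm, rfl⟩

end Byproducts

end

end Fermat.Agent.CFT.Global
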