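/-
P4 / Layer C (C-WA): weak approximation.

* `SL.ball q K n` : the additive subgroup `q^n • O_q` of `ℚ_q ⊗ K` (`O_q = SL.integers q K`);
* `SL.exists_forall_incl_sub_mem_ball` : for a finite set `T` of rational primes, `x_q ∈ ℚ_q ⊗ K`
  and `n`, there is `y ∈ K` with `x_q - y ∈ q^n • O_q` for all `q ∈ T` (Chinese remainder theorem);
* `SL.exists_forall_unitsIncl_div_sub_one_mem_ball` : multiplicative form, for units `x_q` there is
  `a ∈ Kˣ` with `a / x_q ∈ 1 + q^k • O_q` for all `q ∈ T`.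
-/
import Fermat.Agent.Lib.CFT.Global.Dictionary

set_option autoImplicit false
set_option linter.style.haveILetI false
set_option linter.unusedSectionVars false

open scoped TensorProduct

namespace Fermat.Agent.CFT.Global

noncomputable section

section Ball

variable (q : ℕ) [Fact q.Prime] (K : Type) [Field K] [NumberField K]

/-- the additive subgroup `q^n • O_q` of `ℚ_q ⊗ K` -/
def SL.ball (n : ℕ) : AddSubgroup (SL q K) where
  carrier := {t | ∃ z ∈ SL.integers q K, t = (q : ℚ_[q]) ^ n • z}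
  zero_mem' := ⟨0, zero_mem _, by simp⟩
  add_mem' := by
    rintro _ _ ⟨z₁, h₁, rfl⟩ ⟨z₂, h₂, rfl⟩
    exact ⟨z₁ + z₂, add_mem h₁ h₂, by rw [smul_add]⟩
  neg_mem' := by
    rintro _ ⟨z, h, rfl⟩
    exact ⟨-z, neg_mem h, by rw [smul_neg]⟩

variable {q K}

lemma SL.mem_ball_iff {n : ℕ} {t : SL q K} :
    t ∈ SL.ball q K n ↔ ∃ z ∈ SL.integers q K, t = (q : ℚ_[q]) ^ n • z := Iff.rfl

lemma SL.ball_zero_eq {t : SL q K} : t ∈ SL.ball q K 0 ↔ t ∈ SL.integers q K := by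
  rw [SL.mem_ball_iff]
  constructor
  · rintro ⟨z, hz, rfl⟩
    rwa [pow_zero, one_smul]
  · intro h
    exact ⟨t, h, by rw [pow_zero, one_smul]⟩

lemma SL.ball_anti {m n : ℕ} (h : m ≤ n) : SL.ball q K n ≤ SL.ball q K m := by
  rintro _ ⟨z, hz, rfl⟩
  refine ⟨(q : ℚ_[q]) ^ (n - m) • z, ?_, ?_⟩
  · apply SL.smul_mem_integers_of_norm_le_one _ hz
    rw [norm_pow]
    exact pow_le_one₀ (norm_nonneg _) (Padic.norm_p_lt_one (p := q)).le
  · rw [smul_smul, ← pow_add, Nat.add_sub_cancel' h]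

/-- `q^n • O_q` is an `O_q`-module -/
lemma SL.mul_mem_ball {n : ℕ} {z t : SL q K} (hz : z ∈ SL.integers q K)
    (ht : t ∈ SL.ball q K n) : z * t ∈ SL.ball q K n := by
  obtain ⟨z', hz', rfl⟩ := ht
  exact ⟨z * z', mul_mem hz hz', by rw [mul_smul_comm]⟩

lemma SL.mul_mem_ball_add {m n : ℕ} {s t : SL q K} (hs : s ∈ SL.ball q K m)
    (ht : t ∈ SL.ball q K n) : s * t ∈ SL.ball q K (m + n) := by
  obtain ⟨z, hz, rfl⟩ := hs
  obtain ⟨z', hz', rfl⟩ := ht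
  exact ⟨z * z', mul_mem hz hz', by rw [smul_mul_smul_comm, pow_add]⟩

lemma SL.intCast_mem_ball {n : ℕ} {c : ℤ} (hc : (q : ℤ) ^ n ∣ c) :
    (c : SL q K) ∈ SL.ball q K n := by
  obtain ⟨c', rfl⟩ := hc
  refine ⟨(c' : SL q K), intCast_mem _ c', ?_⟩
  rw [Algebra.smul_def, map_pow, map_natCast]
  push_cast
  rfl

/-- the denominators of an element of `K` are bounded at `q` -/
lemma SL.exists_pow_mul_incl_mem_integers (y : K) :
    ∃ M : ℕ, (q : SL q K) ^ M * SL.incl q K y ∈ SL.integers q K := by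
  have halg : IsAlgebraic ℤ y :=
    (IsFractionRing.isAlgebraic_iff ℤ ℚ K).2 (Algebra.IsAlgebraic.isAlgebraic y)
  obtain ⟨d, hd0, hd⟩ := halg.exists_integral_multiple
  have hq1 : ((q : ℤ)).natAbs ≠ 1 := by
    rw [Int.natAbs_natCast]
    exact (Fact.out : q.Prime).ne_one
  obtain ⟨d', hdd, hd'⟩ :=
    (Int.finiteMultiplicity_iff.2 ⟨hq1, hd0⟩).exists_eq_pow_mul_and_not_dvd
  refine ⟨multiplicity (q : ℤ) d, ?_⟩
  have h1 : SL.incl q K ((q : K) ^ multiplicity (q : ℤ) d * y) ∈ SL.integers q K := by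
    apply SL.incl_mem_integers_of_isIntegral_smul q hd'
    have h2 : d' • ((q : K) ^ multiplicity (q : ℤ) d * y) = d • y := by
      conv_rhs => rw [hdd]
      rw [zsmul_eq_mul, zsmul_eq_mul]
      push_cast
      ring
    rw [h2]
    exact hd
  rwa [map_mul, map_pow, map_natCast] at h1

/-- integers divisible by a high power of `q` move an element of `K` into `q^n • O_q` -/
lemma SL.exists_forall_intCast_mul_incl_mem_ball (y : K) :
    ∃ M : ℕ, ∀ (n : ℕ) (c : ℤ), (q : ℤ) ^ (M + n) ∣ c →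
      (c : SL q K) * SL.incl q K y ∈ SL.ball q K n := by
  obtain ⟨M, hM⟩ := SL.exists_pow_mul_incl_mem_integers (q := q) y
  refine ⟨M, fun n c hc => ?_⟩
  obtain ⟨c', rfl⟩ := hc
  have h1 : (((q : ℤ) ^ (M + n) * c' : ℤ) : SL q K) * SL.incl q K y =
      ((q : ℤ) ^ n * c' : ℤ) * ((q : SL q K) ^ M * SL.incl q K y) := by
    push_cast
    ring
  rw [h1, mul_comm]
  exact SL.mul_mem_ball hM (SL.intCast_mem_ball (Dvd.intro _ rfl))

end Ball

section Additive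

variable {K : Type} [Field K] [NumberField K]

/-- Chinese remainder theorem for powers of distinct primes -/
lemma exists_nat_modEq_one_and_dvd (T : Finset Nat.Primes) (N : ℕ) (q₀ : Nat.Primes) (hq₀ : q₀ ∈ T) :
    ∃ c : ℕ, c ≡ 1 [MOD (q₀ : ℕ) ^ N] ∧ ∀ r ∈ T, r ≠ q₀ → (r : ℕ) ^ N ∣ c := by
  classical
  have hs : ∀ r ∈ T, (fun r : Nat.Primes => (r : ℕ) ^ N) r ≠ 0 :=
    fun r _ => pow_ne_zero _ r.2.ne_zero
  have pp : Set.Pairwise (T : Set Nat.Primes)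
      (Function.onFun Nat.Coprime (fun r : Nat.Primes => (r : ℕ) ^ N)) := by
    intro r _ r' _ hne
    exact Nat.Coprime.pow _ _ ((Nat.coprime_primes r.2 r'.2).2 (fun h => hne (Subtype.ext h)))
  obtain ⟨c, hc⟩ := Nat.chineseRemainderOfFinset (fun r : Nat.Primes => if r = q₀ then 1 else 0)
    (fun r : Nat.Primes => (r : ℕ) ^ N) T hs pp
  refine ⟨c, ?_, fun r hr hne => ?_⟩
  · have := hc q₀ hq₀
    simpa using this
  · have := hc r hr
    rw [if_neg hne] at this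
    exact (Nat.modEq_zero_iff_dvd).1 this

/-- **Weak approximation** (additive form): finitely many elements `x_q ∈ ℚ_q ⊗ K` at distinct
rational primes can be simultaneously approximated by an element of `K`. -/
theorem SL.exists_forall_sub_incl_mem_ball (T : Finset Nat.Primes)
    (x : ∀ q : Nat.Primes, SL (q : ℕ) K) (n : ℕ) :
    ∃ y : K, ∀ q ∈ T, x q - SL.incl (q : ℕ) K y ∈ SL.ball (q : ℕ) K n := by
  classical
  -- step 1: density at each prime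
  have h1 : ∀ q : Nat.Primes, ∃ y : K, x q - SL.incl (q : ℕ) K y ∈ SL.ball (q : ℕ) K n := by
    intro q
    obtain ⟨y, z, hz, h⟩ := SL.exists_incl_add_smul (q : ℕ) K (x q) n
    exact ⟨y, z, hz, by rw [h]; abel⟩
  choose y₀ hy₀ using h1
  -- step 2: bound the denominators
  have h2 : ∀ r q : Nat.Primes, ∃ M : ℕ, ∀ (n : ℕ) (c : ℤ), ((r : ℕ) : ℤ) ^ (M + n) ∣ c →
      (c : SL (r : ℕ) K) * SL.incl (r : ℕ) K (y₀ q) ∈ SL.ball (r : ℕ) K n :=
    fun r q => SL.exists_forall_intCast_mul_incl_mem_ball (y₀ q)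
  choose M hM using h2
  set M₀ : ℕ := ∑ r ∈ T, ∑ q ∈ T, M r q with hM₀
  have hle : ∀ r ∈ T, ∀ q ∈ T, M r q ≤ M₀ := by
    intro r hr q hq
    calc M r q ≤ ∑ q ∈ T, M r q := Finset.single_le_sum (f := fun q => M r q)
          (fun _ _ => Nat.zero_le _) hq
      _ ≤ M₀ := Finset.single_le_sum (f := fun r => ∑ q ∈ T, M r q)
          (fun _ _ => Nat.zero_le _) hr
  -- step 3: the Chinese remainder theorem
  have h3 : ∀ q₀ ∈ T, ∃ c : ℕ, c ≡ 1 [MOD (q₀ : ℕ) ^ (M₀ + n)] ∧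
      ∀ r ∈ T, r ≠ q₀ → (r : ℕ) ^ (M₀ + n) ∣ c :=
    fun q₀ hq₀ => exists_nat_modEq_one_and_dvd T (M₀ + n) q₀ hq₀
  choose! c hc using h3
  refine ⟨∑ q ∈ T, (c q : K) * y₀ q, fun q₀ hq₀ => ?_⟩
  have hy : SL.incl (q₀ : ℕ) K (∑ q ∈ T, (c q : K) * y₀ q) =
      ∑ q ∈ T, ((c q : ℤ) : SL (q₀ : ℕ) K) * SL.incl (q₀ : ℕ) K (y₀ q) := by
    rw [map_sum]
    refine Finset.sum_congr rfl (fun q _ => ?_)
    rw [map_mul, map_natCast]
    push_cast
    rfl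
  have hsplit : x q₀ - SL.incl (q₀ : ℕ) K (∑ q ∈ T, (c q : K) * y₀ q) =
      (x q₀ - SL.incl (q₀ : ℕ) K (y₀ q₀)) +
        ((((1 - (c q₀ : ℤ) : ℤ)) : SL (q₀ : ℕ) K) * SL.incl (q₀ : ℕ) K (y₀ q₀) -
          ∑ q ∈ T.erase q₀, ((c q : ℤ) : SL (q₀ : ℕ) K) * SL.incl (q₀ : ℕ) K (y₀ q)) := by
    rw [hy, ← Finset.add_sum_erase T _ hq₀]
    push_cast
    ring
  rw [hsplit]
  refine add_mem (hy₀ q₀) (sub_mem ?_ (sum_mem fun r hr => ?_))
  · apply hM q₀ q₀ n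
    have h4 : (((q₀ : ℕ) ^ (M₀ + n) : ℕ) : ℤ) ∣ 1 - (c q₀ : ℤ) := by
      have := (Nat.modEq_iff_dvd).1 (hc q₀ hq₀).1
      simpa using this
    refine dvd_trans ?_ h4
    push_cast
    exact pow_dvd_pow _ (Nat.add_le_add_right (hle q₀ hq₀ q₀ hq₀) n)
  · have hr' := Finset.mem_erase.1 hr
    apply hM q₀ r n
    have h4 : (((q₀ : ℕ) ^ (M₀ + n) : ℕ) : ℤ) ∣ (c r : ℤ) :=
      Int.natCast_dvd_natCast.2 ((hc r hr'.2).2 q₀ hq₀ (fun h => hr'.1 h.symm))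
    refine dvd_trans ?_ h4
    push_cast
    exact pow_dvd_pow _ (Nat.add_le_add_right (hle q₀ hq₀ r hr'.2) n)

end Additive

section Multiplicative

variable {K : Type} [Field K] [NumberField K]

/-- every element of `ℚ_q ⊗ K` has bounded denominators -/
lemma SL.exists_pow_smul_mem_integers (q : ℕ) [Fact q.Prime] (t : SL q K) :
    ∃ m : ℕ, (q : ℚ_[q]) ^ m • t ∈ SL.integers q K := by
  have halg : IsAlgebraic ℤ_[q] t :=
    (IsFractionRing.isAlgebraic_iff ℤ_[q] ℚ_[q] (SL q K)).2 (Algebra.IsAlgebraic.isAlgebraic t)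
  obtain ⟨b, hb0, hb⟩ := halg.exists_integral_multiple
  obtain ⟨u, v, hspec⟩ : ∃ (u : ℤ_[q]ˣ) (v : ℕ), b = (u : ℤ_[q]) * (q : ℤ_[q]) ^ v :=
    ⟨PadicInt.unitCoeff hb0, b.valuation, PadicInt.unitCoeff_spec hb0⟩
  refine ⟨v, ?_⟩
  have h1 : (q : ℚ_[q]) ^ v • t = ((u⁻¹ : ℤ_[q]ˣ) : ℤ_[q]) • (b • t) := by
    rw [hspec, smul_smul, ← mul_assoc, Units.inv_mul, one_mul,
      ← algebraMap_smul ℚ_[q] ((q : ℤ_[q]) ^ v) t]
    congr 1
  rw [h1]
  exact Subalgebra.smul_mem _ hb _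

lemma SL.mul_mem_ball_of_pow_smul_mem {q : ℕ} [Fact q.Prime] {t s : SL q K} {n m k : ℕ}
    (ht : t ∈ SL.ball q K n) (hs : (q : ℚ_[q]) ^ m • s ∈ SL.integers q K) (h : k + m ≤ n) :
    t * s ∈ SL.ball q K k := by
  obtain ⟨z, hz, rfl⟩ := SL.ball_anti h ht
  refine ⟨z * ((q : ℚ_[q]) ^ m • s), mul_mem hz hs, ?_⟩
  rw [pow_add, mul_smul_comm, smul_mul_assoc, smul_smul]

/-- **Weak approximation** (multiplicative form): finitely many units `x_q ∈ (ℚ_q ⊗ K)ˣ` at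
distinct rational primes can be simultaneously approximated by an element of `Kˣ`:
`a / x_q ∈ 1 + q^k • O_q`. -/
theorem SL.exists_forall_unitsIncl_div_sub_one_mem_ball (T : Finset Nat.Primes)
    (x : ∀ q : Nat.Primes, (SL (q : ℕ) K)ˣ) (k : ℕ) :
    ∃ a : Kˣ, ∀ q ∈ T,
      ((SL.unitsIncl (q : ℕ) K a / x q : (SL (q : ℕ) K)ˣ) : SL (q : ℕ) K) - 1 ∈
        SL.ball (q : ℕ) K k := by
  classical
  have h1 : ∀ q : Nat.Primes, ∃ m : ℕ, ((q : ℕ) : ℚ_[(q : ℕ)]) ^ m •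
      (((x q)⁻¹ : (SL (q : ℕ) K)ˣ) : SL (q : ℕ) K) ∈ SL.integers (q : ℕ) K :=
    fun q => SL.exists_pow_smul_mem_integers (q : ℕ) _
  choose m hm using h1
  set m₀ : ℕ := ∑ q ∈ T, m q with hm₀
  have hle : ∀ q ∈ T, m q ≤ m₀ := fun q hq =>
    Finset.single_le_sum (f := m) (fun _ _ => Nat.zero_le _) hq
  obtain ⟨y, hy⟩ := SL.exists_forall_sub_incl_mem_ball T
    (fun q => ((x q : (SL (q : ℕ) K)ˣ) : SL (q : ℕ) K)) (m₀ + k)
  -- make sure that the approximation is nonzero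
  set P : ℕ := (∏ q ∈ T, (q : ℕ)) ^ (m₀ + k) with hP
  have hP0 : (P : K) ≠ 0 := by
    rw [hP]
    exact_mod_cast pow_ne_zero _
      (Finset.prod_ne_zero_iff.2 fun (q : Nat.Primes) _ => q.2.ne_zero)
  obtain ⟨a₀, ha₀, ha⟩ : ∃ a₀ : K, a₀ ≠ 0 ∧ ∀ q ∈ T,
      ((x q : (SL (q : ℕ) K)ˣ) : SL (q : ℕ) K) - SL.incl (q : ℕ) K a₀ ∈
        SL.ball (q : ℕ) K (m₀ + k) := by
    by_cases hy0 : y = 0
    · refine ⟨(P : K), hP0, fun q hq => ?_⟩
      have h2 := hy q hq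
      rw [hy0, map_zero, sub_zero] at h2
      refine sub_mem h2 ?_
      rw [map_natCast]
      have h3 : (((q : ℕ) : ℤ)) ^ (m₀ + k) ∣ (P : ℤ) := by
        rw [hP]
        push_cast
        exact pow_dvd_pow_of_dvd (Finset.dvd_prod_of_mem (fun q : Nat.Primes => ((q : ℕ) : ℤ)) hq) _
      have h4 := SL.intCast_mem_ball (q := (q : ℕ)) (K := K) h3
      simpa using h4
    · exact ⟨y, hy0, hy⟩
  refine ⟨Units.mk0 a₀ ha₀, fun q hq => ?_⟩
  have h5 : ((SL.unitsIncl (q : ℕ) K (Units.mk0 a₀ ha₀) / x q : (SL (q : ℕ) K)ˣ) :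
      SL (q : ℕ) K) - 1 =
      -(((x q : (SL (q : ℕ) K)ˣ) : SL (q : ℕ) K) - SL.incl (q : ℕ) K a₀) *
        (((x q)⁻¹ : (SL (q : ℕ) K)ˣ) : SL (q : ℕ) K) := by
    rw [div_eq_mul_inv, Units.val_mul, neg_sub, sub_mul, Units.mul_inv]
    rfl
  rw [h5]
  apply SL.mul_mem_ball_of_pow_smul_mem (neg_mem (ha q hq)) (hm q)
  rw [add_comm]
  exact Nat.add_le_add_right (hle q hq) k

/-- the components of an element of `1 + q^k • O_q` -/
lemma SL.exists_proj_eq_one_add_of_sub_one_mem_ball {q : ℕ} [Fact q.Prime] {t : SL q K} {k : ℕ}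
    (ht : t - 1 ∈ SL.ball q K k) (w : Place q K) :
    ∃ z ∈ Ow w, Kv.proj w t = 1 + (q : ℚ_[q]) ^ k • z := by
  obtain ⟨z, hz, h⟩ := ht
  refine ⟨Kv.proj w z, SL.mem_integers_iff_forall.1 hz w, ?_⟩
  rw [← map_smul, ← h, map_sub, map_one]
  ring

/-- `1 + q^k • O_q` consists of local units for `k ≥ 1` -/
lemma SL.mem_unitGroup_of_sub_one_mem_ball {q : ℕ} [Fact q.Prime] {u : (SL q K)ˣ} {k : ℕ}
    (hk : 1 ≤ k) (hu : (u : SL q K) - 1 ∈ SL.ball q K k) : u ∈ SL.unitGroup q K := by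
  rw [SL.mem_unitGroup_iff_forall_ordAt]
  intro w
  obtain ⟨z, hz, h⟩ := SL.exists_proj_eq_one_add_of_sub_one_mem_ball hu w
  -- the component of `u` at `w`, as an element of `O_w`
  set e : Ow w := 1 + ((q : ℕ) : Ow w) ^ k * ⟨z, hz⟩ with he
  have hcoe : ((e : Ow w) : Kv w) = Kv.proj w (u : SL q K) := by
    rw [h, he, Algebra.smul_def]
    simp
  have hunit : IsUnit e := by
    apply IsLocalRing.isUnit_of_mem_nonunits_one_sub_self
    rw [← IsLocalRing.mem_maximalIdeal, he, sub_add_cancel_left]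
    apply neg_mem
    apply Ideal.mul_mem_right
    obtain ⟨k', rfl⟩ : ∃ k', k = k' + 1 := ⟨k - 1, by omega⟩
    rw [pow_succ]
    exact Ideal.mul_mem_left _ _ (Place.natCast_mem_maximalIdeal w)
  obtain ⟨v, hv⟩ := hunit
  change ordW w (Units.map (Kv.proj w : SL q K →* Kv w) u) = 1
  rw [ordW_eq_one_iff]
  constructor
  · change Kv.proj w (u : SL q K) ∈ Ow w
    rw [← hcoe]
    exact e.2
  · have h1 : ((Units.map (Kv.proj w : SL q K →* Kv w) u)⁻¹ : (Kv w)ˣ) =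
        Units.map ((Ow w).val : Ow w →* Kv w) v⁻¹ := by
      rw [map_inv, inv_inj]
      ext
      change Kv.proj w (u : SL q K) = ((v : Ow w) : Kv w)
      rw [hv, hcoe]
    rw [h1]
    exact ((v⁻¹ : (Ow w)ˣ) : Ow w).2

/-- weak approximation with values in the local units: for `k ≥ 1` the quotients `a / x_q` are
local units -/
theorem SL.exists_forall_unitsIncl_div_mem_unitGroup (T : Finset Nat.Primes)
    (x : ∀ q : Nat.Primes, (SL (q : ℕ) K)ˣ) (k : ℕ) (hk : 1 ≤ k) :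
    ∃ a : Kˣ, ∀ q ∈ T, SL.unitsIncl (q : ℕ) K a / x q ∈ SL.unitGroup (q : ℕ) K ∧
      ((SL.unitsIncl (q : ℕ) K a / x q : (SL (q : ℕ) K)ˣ) : SL (q : ℕ) K) - 1 ∈
        SL.ball (q : ℕ) K k := by
  obtain ⟨a, ha⟩ := SL.exists_forall_unitsIncl_div_sub_one_mem_ball T x k
  exact ⟨a, fun q hq => ⟨SL.mem_unitGroup_of_sub_one_mem_ball hk (ha q hq), ha q hq⟩⟩

end Multiplicative

end

end Fermat.Agent.CFT.Global
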